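import Fermat.Agent.ECRep.VarChange
import Fermat.Agent.Schoof.Relation
import Fermat.Prelude.Def_FLTPrelim_Modularity

set_option autoImplicit false
set_option linter.unusedSectionVars false

/-!
# The Frobenius relation for general Weierstrass equations, odd characteristic
-/

namespace Fermat.Agent.ECRep

open WeierstrassCurve WeierstrassCurve.Affine WeierstrassCurve.Affine.Point
open Fermat.Agent.Schoof

section

variable {F : Type*} [Field F] [Fintype F]

/-- the Frobenius endomorphism on points. -/
noncomputable def frobW (W : WeierstrassCurve F) (L : Type*) [Field L] [Algebra F L]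
    [DecidableEq L] : (W⁄L).Point →+ (W⁄L).Point :=
  Point.map (FiniteField.frobeniusAlgHom F L)

/-- short model after completing the square -/
lemma exists_short (h2 : (2 : F) ≠ 0) (W : WeierstrassCurve F) [W.IsElliptic] :
    ∃ (s t a₂ a₄ a₆ : F), IsVC 1 0 s t W (cur a₂ a₄ a₆) ∧ (cur a₂ a₄ a₆).IsElliptic := by
  let C : VariableChange F := ⟨1, 0, -(W.a₁ / 2), -(W.a₃ / 2)⟩
  have e1 : 2 * (W.a₁ / 2) = W.a₁ := mul_div_cancel₀ _ h2
  have e3 : 2 * (W.a₃ / 2) = W.a₃ := mul_div_cancel₀ _ h2
  have hC : C • W = cur (C • W).a₂ (C • W).a₄ (C • W).a₆ := by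
    ext
    · simp only [variableChange_a₁, C, cur]
      simp only [inv_one, Units.val_one, one_mul]
      linear_combination -e1
    · rfl
    · simp only [variableChange_a₃, C, cur]
      simp only [inv_one, Units.val_one, one_pow, one_mul, zero_mul, add_zero]
      linear_combination -e3
    · rfl
    · rfl
  refine ⟨-(W.a₁ / 2), -(W.a₃ / 2), (C • W).a₂, (C • W).a₄, (C • W).a₆, ?_, ?_⟩
  · rw [← hC]
    have := isVC_smul C W
    simpa [C] using this
  · rw [← hC]; infer_instance

/-- The Frobenius relation on all points of an elliptic curve over a finite field of odd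
characteristic, for arbitrary Weierstrass equations. -/
theorem frob_rel (hF : ringChar F ≠ 2) (W : WeierstrassCurve F) [W.IsElliptic]
    (L : Type*) [Field L] [Algebra F L] [DecidableEq L] (P : (W⁄L).Point) :
    (2 : ℤ) • (frobW W L (frobW W L P) - W.traceOfFrobenius • frobW W L P +
      ((Nat.card F : ℕ) : ℤ) • P) = 0 := by
  classical
  obtain ⟨s, t, a₂, a₄, a₆, hV, hE⟩ := exists_short (Ring.two_ne_zero hF) W
  have hL : IsVC (algebraMap F L 1) (algebraMap F L 0) (algebraMap F L s) (algebraMap F L t)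
    (W⁄L) ((cur a₂ a₄ a₆)⁄L) := hV.map (algebraMap F L)
  have hu : algebraMap F L 1 ≠ 0 := by rw [_root_.map_one]; exact one_ne_zero
  have hcard : Nat.card (cur a₂ a₄ a₆).toAffine.Point = Nat.card W.toAffine.Point :=
    Nat.card_congr (vcEquiv hV one_ne_zero).toEquiv
  have htr : tr a₂ a₄ a₆ = W.traceOfFrobenius := by
    rw [tr, traceOfFrobenius, card, hcard, ← Nat.card_eq_fintype_card]
  obtain ⟨Q, rfl⟩ := (vcEquiv hL hu).surjective P
  have hmap : ∀ R : ((cur a₂ a₄ a₆)⁄L).Point,
      frobW W L (vcEquiv hL hu R) = vcEquiv hL hu (frob a₂ a₄ a₆ L R) := fun R =>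
    vcEquiv_map hL hL hu hu (FiniteField.frobeniusAlgHom F L) R
  have h := CH_eq_zero hF L Q
  rw [CH_apply, htr] at h
  have h' := congrArg (vcEquiv hL hu) h
  rw [map_zsmul, map_add, map_sub, map_zsmul, map_zsmul, ← hmap, ← hmap] at h'
  rw [Nat.card_eq_fintype_card]
  exact h'

end

end Fermat.Agent.ECRep
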