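import Fermat.Agent.ECRep.CHGen
import Fermat.Agent.DivPoly.XCoord

set_option autoImplicit false
set_option linter.unusedSectionVars false

/-!
# The Frobenius relation over `𝔽₂`
-/

namespace Fermat.Agent.ECRep

open WeierstrassCurve WeierstrassCurve.Affine WeierstrassCurve.Affine.Point

section

variable {L : Type*} [Field L] [Algebra (ZMod 2) L] [DecidableEq L]

/-- normal forms -/
lemma exists_normal (W : WeierstrassCurve (ZMod 2)) (hΔ : W.Δ ≠ 0) :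
    ∃ (r t : ZMod 2) (W' : WeierstrassCurve (ZMod 2)), IsVC 1 r 0 t W W' ∧
      ((∃ a₂ : ZMod 2, W' = ⟨1, a₂, 0, 0, 1⟩) ∨ (∃ a₄ a₆ : ZMod 2, W' = ⟨0, 0, 1, a₄, a₆⟩)) := by
  obtain ⟨a₁, a₂, a₃, a₄, a₆⟩ := W
  simp only [WeierstrassCurve.Δ, b₂, b₄, b₆, b₈] at hΔ
  have key : ∀ a₁ a₂ a₃ a₄ a₆ : ZMod 2,
      (-(a₁ ^ 2 + 4 * a₂) ^ 2 *
        (a₁ ^ 2 * a₆ + 4 * a₂ * a₆ - a₁ * a₃ * a₄ + a₂ * a₃ ^ 2 - a₄ ^ 2) -
        8 * (2 * a₄ + a₁ * a₃) ^ 3 - 27 * (a₃ ^ 2 + 4 * a₆) ^ 2 +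
        9 * (a₁ ^ 2 + 4 * a₂) * (2 * a₄ + a₁ * a₃) * (a₃ ^ 2 + 4 * a₆) ≠ 0) →
      (∃ r t : ZMod 2,
        (a₁ + 2 * 0 = 1 ∧ a₃ + r * a₁ + 2 * t = 0 ∧
          a₄ - 0 * a₃ + 2 * r * a₂ - (t + r * 0) * a₁ + 3 * r ^ 2 - 2 * 0 * t = 0 ∧
          a₆ + r * a₄ + r ^ 2 * a₂ + r ^ 3 - t * a₃ - t ^ 2 - r * t * a₁ = 1) ∨
        (a₁ + 2 * 0 = 0 ∧ a₂ - 0 * a₁ + 3 * r - 0 ^ 2 = 0 ∧ a₃ + r * a₁ + 2 * t = 1)) := by
    decide
  obtain ⟨r, t, h⟩ := key a₁ a₂ a₃ a₄ a₆ hΔ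
  refine ⟨r, t, ⟨a₁ + 2 * 0, a₂ - 0 * a₁ + 3 * r - 0 ^ 2, a₃ + r * a₁ + 2 * t,
    a₄ - 0 * a₃ + 2 * r * a₂ - (t + r * 0) * a₁ + 3 * r ^ 2 - 2 * 0 * t,
    a₆ + r * a₄ + r ^ 2 * a₂ + r ^ 3 - t * a₃ - t ^ 2 - r * t * a₁⟩, ⟨?_, ?_, ?_, ?_, ?_⟩, ?_⟩
  · rw [one_mul]
  · rw [one_pow, one_mul]
  · rw [one_pow, one_mul]
  · rw [one_pow, one_mul]
  · rw [one_pow, one_mul]
  · rcases h with ⟨e1, e3, e4, e6⟩ | ⟨e1, e2, e3⟩
    · left; exact ⟨_, by rw [e1, e3, e4, e6]⟩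
    · right; exact ⟨_, _, by rw [e1, e2, e3]⟩

/-- points as an option type -/
noncomputable def pointEquiv {F : Type*} [Field F] (W : WeierstrassCurve.Affine F) :
    W.Point ≃ Option {p : F × F // W.Nonsingular p.1 p.2} where
  toFun P := match P with
    | 0 => Option.none
    | .some x y h => Option.some ⟨(x, y), h⟩
  invFun P := match P with
    | Option.none => 0
    | Option.some p => Point.some p.1.1 p.1.2 p.2
  left_inv P := by cases P <;> rfl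
  right_inv P := by cases P <;> rfl

lemma card_point_two (W : WeierstrassCurve (ZMod 2)) :
    Nat.card W.toAffine.Point = Fintype.card {p : ZMod 2 × ZMod 2 //
      (p.2 ^ 2 + W.a₁ * p.1 * p.2 + W.a₃ * p.2 =
        p.1 ^ 3 + W.a₂ * p.1 ^ 2 + W.a₄ * p.1 + W.a₆) ∧
      (W.a₁ * p.2 ≠ 3 * p.1 ^ 2 + 2 * W.a₂ * p.1 + W.a₄ ∨
        p.2 ≠ -p.2 - W.a₁ * p.1 - W.a₃)} + 1 := by
  classical
  rw [Nat.card_congr (pointEquiv W.toAffine), Nat.card_eq_fintype_card, Fintype.card_option]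
  congr 1
  refine Fintype.card_congr (Equiv.subtypeEquivRight fun p => ?_)
  rw [nonsingular_iff, equation_iff]

lemma tr_ord0 : WeierstrassCurve.traceOfFrobenius (⟨1, 0, 0, 0, 1⟩ : WeierstrassCurve (ZMod 2)) = -1 := by
  rw [traceOfFrobenius, card, card_point_two, Nat.card_zmod]
  have : Fintype.card {p : ZMod 2 × ZMod 2 //
      (p.2 ^ 2 + 1 * p.1 * p.2 + 0 * p.2 =
        p.1 ^ 3 + 0 * p.1 ^ 2 + 0 * p.1 + 1) ∧
      (1 * p.2 ≠ 3 * p.1 ^ 2 + 2 * 0 * p.1 + 0 ∨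
        p.2 ≠ -p.2 - 1 * p.1 - 0)} = 3 := by decide
  rw [this]; rfl

lemma tr_ord1 : WeierstrassCurve.traceOfFrobenius (⟨1, 1, 0, 0, 1⟩ : WeierstrassCurve (ZMod 2)) = 1 := by
  rw [traceOfFrobenius, card, card_point_two, Nat.card_zmod]
  have : Fintype.card {p : ZMod 2 × ZMod 2 //
      (p.2 ^ 2 + 1 * p.1 * p.2 + 0 * p.2 =
        p.1 ^ 3 + 1 * p.1 ^ 2 + 0 * p.1 + 1) ∧
      (1 * p.2 ≠ 3 * p.1 ^ 2 + 2 * 1 * p.1 + 0 ∨
        p.2 ≠ -p.2 - 1 * p.1 - 0)} = 1 := by decide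
  rw [this]; rfl

lemma tr_ss00 (a₆ : ZMod 2) :
    WeierstrassCurve.traceOfFrobenius (⟨0, 0, 1, 0, a₆⟩ : WeierstrassCurve (ZMod 2)) = 0 := by
  rw [traceOfFrobenius, card, card_point_two, Nat.card_zmod]
  have : ∀ a₆ : ZMod 2, Fintype.card {p : ZMod 2 × ZMod 2 //
      (p.2 ^ 2 + 0 * p.1 * p.2 + 1 * p.2 =
        p.1 ^ 3 + 0 * p.1 ^ 2 + 0 * p.1 + a₆) ∧
      (0 * p.2 ≠ 3 * p.1 ^ 2 + 2 * 0 * p.1 + 0 ∨
        p.2 ≠ -p.2 - 0 * p.1 - 1)} = 2 := by decide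
  rw [this]; rfl

lemma tr_ss10 :
    WeierstrassCurve.traceOfFrobenius (⟨0, 0, 1, 1, 0⟩ : WeierstrassCurve (ZMod 2)) = -2 := by
  rw [traceOfFrobenius, card, card_point_two, Nat.card_zmod]
  have : Fintype.card {p : ZMod 2 × ZMod 2 //
      (p.2 ^ 2 + 0 * p.1 * p.2 + 1 * p.2 =
        p.1 ^ 3 + 0 * p.1 ^ 2 + 1 * p.1 + 0) ∧
      (0 * p.2 ≠ 3 * p.1 ^ 2 + 2 * 0 * p.1 + 1 ∨
        p.2 ≠ -p.2 - 0 * p.1 - 1)} = 4 := by decide
  rw [this]; rfl

lemma tr_ss11 :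
    WeierstrassCurve.traceOfFrobenius (⟨0, 0, 1, 1, 1⟩ : WeierstrassCurve (ZMod 2)) = 2 := by
  rw [traceOfFrobenius, card, card_point_two, Nat.card_zmod]
  have : Fintype.card {p : ZMod 2 × ZMod 2 //
      (p.2 ^ 2 + 0 * p.1 * p.2 + 1 * p.2 =
        p.1 ^ 3 + 0 * p.1 ^ 2 + 1 * p.1 + 1) ∧
      (0 * p.2 ≠ 3 * p.1 ^ 2 + 2 * 0 * p.1 + 1 ∨
        p.2 ≠ -p.2 - 0 * p.1 - 1)} = 0 := by decide
  rw [this]; rfl


open Fermat.Agent.DivPoly

section polys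

variable {K : Type*} [Field K] [CharP K 2]

lemma ss_t0 (x y l X Y a : K) (ha : a^2 = a) (h1 : l = 3*x^2) (h3 : X = l^2 - x - x)
    (h4 : Y = -(l*(X-x)+y) - 1) (hE : y^2 + y = x^3 + a) : X = x^4 ∧ Y = -y^4 - 1 := by
  have h5 : y^4 = y + x^6 + x^3 := by grind
  have h6 : X = x^4 := by grind
  refine ⟨h6, ?_⟩
  grind

lemma ss_t1 (x l X : K) (h1 : l = 3*x^2+1) (h3 : X = l^2 - x - x) : X = x^4+1 := by grind

lemma ss_t2 (x y a : K) (ha : a^2 = a) (hE : y^2 + y = x^3 + x + a) :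
    y^4 = y + x^6 + x^3 + x^2 + x := by grind

lemma ss_t3 (x y l X Y a : K) (ha : a^2=a) (h1 : l = 3*x^2+1) (h4 : Y = -(l*(X-x)+y) - 1)
    (hX : X = x^4+1) (hE : y^2 + y = x^3 + x + a) : y^4 - Y = x^4 := by
  have := ss_t2 x y a ha hE
  grind

lemma ss_t4 (x y X Y S : K) (hX : X = x^4+1) (hY : y^4 - Y = x^4)
    (k1 : S * (x^4 - X)^2 = (y^4-Y)^2 - (x^4+X)*(x^4-X)^2) : S = X^2 := by
  have e : x^4 - X = 1 := by grind
  rw [e, hY] at k1
  grind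

lemma ss_t5 (x y X Y S T : K) (hX : X = x^4+1) (hY : y^4 - Y = x^4) (hS : S = X^2)
    (k2 : (T + 1 + y^4)*(x^4-X) = -(y^4-Y)*(S-x^4)) : T = y^4 + 1 + x^4*(x^8+x^4+1) := by
  have e : x^4 - X = 1 := by grind
  rw [e, hY, hS, hX] at k2
  grind

lemma ss_t6 (x y l X Y S T a : K) (ha : a^2=a) (h1 : l = 3*x^2+1) (h3 : X = l^2 - x - x)
    (h4 : Y = -(l*(X-x)+y) - 1) (hE : y^2 + y = x^3 + x + a)
    (k1 : S * (x^4 - X)^2 = (y^4-Y)^2 - (x^4+X)*(x^4-X)^2)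
    (k2 : (T + 1 + y^4)*(x^4-X) = -(y^4-Y)*(S-x^4)) : S = X^2 ∧ T = Y^2 + a + 1 := by
  have hX := ss_t1 x l X h1 h3
  have hY := ss_t3 x y l X Y a ha h1 h4 hX hE
  have hS := ss_t4 x y X Y S hX hY k1
  have hT := ss_t5 x y X Y S T hX hY hS k2
  refine ⟨hS, ?_⟩
  have hY' : Y = y^4 - x^4 := by rw [← hY]; ring
  have h2 := ss_t2 x y a ha hE
  rw [hT, hY', h2]
  grind

lemma ord_o1 (x y l X c : K) (hE : y^2 + x*y = x^3 + c*x^2+1)
    (h1 : l * x = 3*x^2+2*c*x - y) (h3 : X = l^2 + l - c - x - x) : X*x^2 = x^4+1 := by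
  have : X * x^2 = (l*x)^2 + (l*x)*x - c*x^2 - 2*x^3 := by rw [h3]; ring
  rw [this, h1]
  grind

lemma ord_o2id (x y : K) (hE : y^2 + x*y = x^3 + 1) :
    ((y^2-y)^2 + (y^2-y)*(x^2-x) - (x^2+x)*(x^2-x)^2) * x = (x^2+1)*(x^2-x)^2 := by
  have h4 : y^4 = x^2*y^2 + x^6+1 := by grind
  grind

lemma ord_o2id' (x y : K) (hE : y^2 + x*y = x^3 + x^2+ 1) :
    ((y^2-(-y-x))^2 + (y^2-(-y-x))*(x^2-x) - (1+x^2+x)*(x^2-x)^2) * x =
      (x^2+1)*(x^2-x)^2 := by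
  have h4 : y^4 = x^2*y^2 + x^6+x^4+1 := by grind
  grind

lemma ord_y4 (x y : K) (hE : y^2 + x*y = x^3 + 1) : y^4 = x^2*y^2 + x^6+1 := by grind

lemma ord_y4' (x y : K) (hE : y^2 + x*y = x^3 + x^2 + 1) : y^4 = x^2*y^2 + x^6+x^4+1 := by grind

lemma ord_o3id (x y : K) (hE : y^2 + x*y = x^3 + 1) :
    (-((3*x^2-y)*(x^4+1-x^3)+y*x^3) - (x^4+1)*x) * ((x^2-x)^2*x) =
    (-(y^2-y)*(x^2+1-x^3) - (x^2+1+y^2*x)*(x^2-x))^2*x^2 + (x^2+1)^2 * ((x^2-x)*x)^2 := by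
  have h5 : y^2 = x^3+1+x*y := by grind
  have h6 := ord_y4 x y hE
  grind

lemma ord_o3id' (x y : K) (hE : y^2 + x*y = x^3 + x^2 + 1) :
    (-((3*x^2+2*x-y)*(x^4+1-x^3)+y*x^3) - (x^4+1)*x) * ((x^2-x)^2*x) =
    (-(y^2-(-y-x))*(x^2+1-x^3) - (x^2+1+y^2*x)*(x^2-x))^2*x^2 +
      (x^2+1)^2 * ((x^2-x)*x)^2 := by
  have h5 : y^2 = x^3+x^2+1+x*y := by grind
  have h6 := ord_y4' x y hE
  grind

lemma ord_o3 (x y l X Y S T : K) (hx : x ≠ 0) (hx1 : x^2 - x ≠ 0) (hE : y^2 + x*y = x^3 + 1)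
    (h1 : l * x = 3*x^2 - y) (hX : X*x^2 = x^4+1) (h4 : Y = -(l*(X-x)+y) - X)
    (hS : S * x = x^2+1)
    (k2 : (T + S + y^2)*(x^2-x) = -(y^2-y)*(S-x^2)) : Y = T^2+S^2 := by
  have hT : T * ((x^2-x)*x) = -(y^2-y)*(x^2+1-x^3) - (x^2+1+y^2*x)*(x^2-x) := by
    have : T * ((x^2-x)*x) = ((T + S + y^2)*(x^2-x)) * x - (S*x+y^2*x)*(x^2-x) := by ring
    rw [this, k2]
    have : -(y^2-y)*(S-x^2)*x = -(y^2-y)*(S*x-x^3) := by ring
    rw [this, hS]
  have hY : Y * x^3 = -((3*x^2-y)*(x^4+1-x^3)+y*x^3) - (x^4+1)*x := by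
    have : Y * x^3 = -((l*x)*(X*x^2-x^3)+y*x^3) - (X*x^2)*x := by rw [h4]; ring
    rw [this, h1, hX]
  have hne : ((x^2-x)*x)^2 * x^2 ≠ 0 :=
    mul_ne_zero (pow_ne_zero 2 (mul_ne_zero hx1 hx)) (pow_ne_zero 2 hx)
  apply mul_right_cancel₀ hne
  have e1 : Y * (((x^2-x)*x)^2 * x^2) = (Y*x^3) * ((x^2-x)^2*x) := by ring
  have e2 : (T^2+S^2) * (((x^2-x)*x)^2 * x^2) =
    (T * ((x^2-x)*x))^2*x^2 + (S*x)^2 * ((x^2-x)*x)^2 := by ring
  rw [e1, e2, hT, hY, hS]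
  exact ord_o3id x y hE

lemma ord_o3' (x y l X Y S T : K) (hx : x ≠ 0) (hx1 : x^2 - x ≠ 0)
    (hE : y^2 + x*y = x^3 + x^2 + 1)
    (h1 : l * x = 3*x^2 + 2*x - y) (hX : X*x^2 = x^4+1) (h4 : Y = -(l*(X-x)+y) - X)
    (hS : S * x = x^2+1)
    (k2 : (T + S + y^2)*(x^2-x) = -(y^2-(-y-x))*(S-x^2)) : Y = T^2+S^2 := by
  have hT : T * ((x^2-x)*x) = -(y^2-(-y-x))*(x^2+1-x^3) - (x^2+1+y^2*x)*(x^2-x) := by
    have : T * ((x^2-x)*x) = ((T + S + y^2)*(x^2-x)) * x - (S*x+y^2*x)*(x^2-x) := by ring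
    rw [this, k2]
    have : -(y^2-(-y-x))*(S-x^2)*x = -(y^2-(-y-x))*(S*x-x^3) := by ring
    rw [this, hS]
  have hY : Y * x^3 = -((3*x^2+2*x-y)*(x^4+1-x^3)+y*x^3) - (x^4+1)*x := by
    have : Y * x^3 = -((l*x)*(X*x^2-x^3)+y*x^3) - (X*x^2)*x := by rw [h4]; ring
    rw [this, h1, hX]
  have hne : ((x^2-x)*x)^2 * x^2 ≠ 0 :=
    mul_ne_zero (pow_ne_zero 2 (mul_ne_zero hx1 hx)) (pow_ne_zero 2 hx)
  apply mul_right_cancel₀ hne
  have e1 : Y * (((x^2-x)*x)^2 * x^2) = (Y*x^3) * ((x^2-x)^2*x) := by ring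
  have e2 : (T^2+S^2) * (((x^2-x)*x)^2 * x^2) =
    (T * ((x^2-x)*x))^2*x^2 + (S*x)^2 * ((x^2-x)*x)^2 := by ring
  rw [e1, e2, hT, hY, hS]
  exact ord_o3id' x y hE

end polys

lemma ext_of_coords {K : Type*} [Field K] {V : WeierstrassCurve.Affine K} {P Q : V.Point}
    (hP : P ≠ 0) (hQ : Q ≠ 0) (h1 : xc P = xc Q) (h2 : yc P = yc Q) : P = Q := by
  obtain ⟨h, hP'⟩ := exists_some hP
  obtain ⟨h', hQ'⟩ := exists_some hQ
  rw [hP', hQ']
  simp only [Point.some.injEq]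
  exact ⟨h1, h2⟩

section frob

variable (W : WeierstrassCurve (ZMod 2)) (L)

lemma frobW_ne_zero {P : (W⁄L).Point} (hP : P ≠ 0) : frobW W L P ≠ 0 := fun h =>
  hP (Point.map_injective _ (h.trans (_root_.map_zero _).symm))

lemma xc_frobW (P : (W⁄L).Point) : xc (frobW W L P) = xc P ^ 2 := by
  match P with
  | 0 =>
    rw [_root_.map_zero]
    change (0 : L) = 0 ^ 2
    rw [zero_pow two_ne_zero]
  | .some x y h =>
    rw [frobW, Point.map_some, xc_some, xc_some, FiniteField.coe_frobeniusAlgHom,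
      ZMod.card]

lemma yc_frobW (P : (W⁄L).Point) : yc (frobW W L P) = yc P ^ 2 := by
  match P with
  | 0 =>
    rw [_root_.map_zero]
    change (0 : L) = 0 ^ 2
    rw [zero_pow two_ne_zero]
  | .some x y h =>
    rw [frobW, Point.map_some, yc_some, yc_some, FiniteField.coe_frobeniusAlgHom,
      ZMod.card]

end frob

/-- the supersingular normal forms with `a₄ = 0`. -/
lemma rel_ss0 [CharP L 2] (h2 : (2 : L) = 0) (W : WeierstrassCurve (ZMod 2))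
    (e1 : (W⁄L).a₁ = 0)
    (e2 : (W⁄L).a₂ = 0) (e3 : (W⁄L).a₃ = 1) (e4 : (W⁄L).a₄ = 0)
    (e6 : (W⁄L).a₆ ^ 2 = (W⁄L).a₆) (P : (W⁄L).Point) :
    frobW W L (frobW W L P) + (P + P) = 0 := by
  rcases eq_or_ne P 0 with rfl | hP
  · simp
  have hpsi : psi2 P = 1 := by rw [psi2, e1, e3]; linear_combination yc P * h2
  have hPP : P + P ≠ 0 := fun h => by
    rw [psi2_eq_zero hP h] at hpsi; exact zero_ne_one hpsi
  obtain ⟨l, h1, h3, h4⟩ := exists_slope_two hP hPP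
  have hE := DivPoly.equation hP
  rw [hpsi, e1, e2, e4] at h1
  rw [e1, e2] at h3
  rw [e1, e3] at h4
  rw [e1, e2, e3, e4] at hE
  have hF := frobW_ne_zero L W (frobW_ne_zero L W hP)
  obtain ⟨k1, k2⟩ := ss_t0 (xc P) (yc P) l (xc (P + P)) (yc (P + P)) _ e6
    (by linear_combination h1) (by linear_combination h3) (by linear_combination h4)
    (by linear_combination hE)
  rw [add_eq_zero_iff_eq_neg]
  apply ext_of_coords hF (neg_ne_zero.mpr hPP)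
  · rw [xc_neg, xc_frobW, xc_frobW, k1]; ring
  · rw [yc_neg hPP, yc_frobW, yc_frobW, e1, e3, k2]; ring

/-- the supersingular normal forms with `a₄ = 1`. -/
lemma rel_ss1 [CharP L 2] (h2 : (2 : L) = 0) (W : WeierstrassCurve (ZMod 2))
    (e1 : (W⁄L).a₁ = 0)
    (e2 : (W⁄L).a₂ = 0) (e3 : (W⁄L).a₃ = 1) (e4 : (W⁄L).a₄ = 1)
    (e6 : (W⁄L).a₆ ^ 2 = (W⁄L).a₆) (P : (W⁄L).Point) (hP : P ≠ 0) :
    P + P ≠ 0 ∧ frobW W L (frobW W L P) + (P + P) ≠ 0 ∧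
    xc (frobW W L (frobW W L P) + (P + P)) = xc (P + P) ^ 2 ∧
    yc (frobW W L (frobW W L P) + (P + P)) = yc (P + P) ^ 2 + (W⁄L).a₆ + 1 := by
  have hpsi : psi2 P = 1 := by rw [psi2, e1, e3]; linear_combination yc P * h2
  have hPP : P + P ≠ 0 := fun h => by
    rw [psi2_eq_zero hP h] at hpsi; exact zero_ne_one hpsi
  obtain ⟨l, h1, h3, h4⟩ := exists_slope_two hP hPP
  have hE := DivPoly.equation hP
  rw [hpsi, e1, e2, e4] at h1
  rw [e1, e2] at h3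
  rw [e1, e3] at h4
  rw [e1, e2, e3, e4] at hE
  have hF := frobW_ne_zero L W (frobW_ne_zero L W hP)
  have hFx : xc (frobW W L (frobW W L P)) = xc P ^ 4 := by rw [xc_frobW, xc_frobW]; ring
  have hFy : yc (frobW W L (frobW W L P)) = yc P ^ 4 := by rw [yc_frobW, yc_frobW]; ring
  have hX := ss_t1 (xc P) l (xc (P + P)) (by linear_combination h1) (by linear_combination h3)
  have hne : xc (frobW W L (frobW W L P)) ≠ xc (P + P) := by
    rw [hFx, hX]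
    intro h
    have : (1 : L) = 0 := by linear_combination -h
    exact one_ne_zero this
  have hsum : frobW W L (frobW W L P) + (P + P) ≠ 0 := by
    intro h
    apply hne
    rw [eq_neg_of_add_eq_zero_left h, xc_neg]
  have k1 := xc_add hF hPP hne
  have k2 := yc_add hF hPP hne
  rw [e1, e2, hFx, hFy] at k1
  rw [e1, e3, hFx, hFy] at k2
  obtain ⟨m1, m2⟩ := ss_t6 (xc P) (yc P) l (xc (P + P)) (yc (P + P))
    (xc (frobW W L (frobW W L P) + (P + P))) (yc (frobW W L (frobW W L P) + (P + P))) _ e6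
    (by linear_combination h1) (by linear_combination h3) (by linear_combination h4)
    (by linear_combination hE) (by linear_combination k1) (by linear_combination k2)
  exact ⟨hPP, hsum, m1, m2⟩

/-- the supersingular normal forms with `a₄ = 1`, `a₆ = 0`. -/
lemma rel_ss10 [CharP L 2] (h2 : (2 : L) = 0) (W : WeierstrassCurve (ZMod 2))
    (e1 : (W⁄L).a₁ = 0)
    (e2 : (W⁄L).a₂ = 0) (e3 : (W⁄L).a₃ = 1) (e4 : (W⁄L).a₄ = 1)
    (e6 : (W⁄L).a₆ = 0) (P : (W⁄L).Point) :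
    frobW W L (frobW W L P) + (P + P) = - frobW W L (P + P) := by
  rcases eq_or_ne P 0 with rfl | hP
  · simp
  obtain ⟨hPP, hsum, m1, m2⟩ := rel_ss1 h2 W e1 e2 e3 e4 (by rw [e6]; ring) P hP
  have hG := frobW_ne_zero L W hPP
  apply ext_of_coords hsum (neg_ne_zero.mpr hG)
  · rw [xc_neg, xc_frobW, m1]
  · rw [yc_neg hG, yc_frobW, e1, e3, m2, e6]
    linear_combination (yc (P + P) ^ 2 + 1) * h2

/-- the supersingular normal forms with `a₄ = 1`, `a₆ = 1`. -/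
lemma rel_ss11 [CharP L 2] (h2 : (2 : L) = 0) (W : WeierstrassCurve (ZMod 2))
    (e1 : (W⁄L).a₁ = 0)
    (e2 : (W⁄L).a₂ = 0) (e3 : (W⁄L).a₃ = 1) (e4 : (W⁄L).a₄ = 1)
    (e6 : (W⁄L).a₆ = 1) (P : (W⁄L).Point) :
    frobW W L (frobW W L P) + (P + P) = frobW W L (P + P) := by
  rcases eq_or_ne P 0 with rfl | hP
  · simp
  obtain ⟨hPP, hsum, m1, m2⟩ := rel_ss1 h2 W e1 e2 e3 e4 (by rw [e6]; ring) P hP
  have hG := frobW_ne_zero L W hPP
  apply ext_of_coords hsum hG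
  · rw [xc_frobW, m1]
  · rw [yc_frobW, m2, e6]
    linear_combination h2

/-- a point with `x = 0` on an ordinary normal form is rational of order two -/
lemma ord_zero (h2 : (2 : L) = 0) (W : WeierstrassCurve (ZMod 2)) (e1 : (W⁄L).a₁ = 1)
    (e3 : (W⁄L).a₃ = 0) (e4 : (W⁄L).a₄ = 0)
    (e6 : (W⁄L).a₆ = 1) {P : (W⁄L).Point} (hP : P ≠ 0) (hx : xc P = 0) :
    P + P = 0 ∧ frobW W L P = P := by
  have hpsi : psi2 P = 0 := by rw [psi2, e1, e3, hx]; linear_combination yc P * h2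
  rw [psi2_eq_zero_iff hP] at hpsi
  refine ⟨by nth_rw 2 [hpsi]; exact add_neg_cancel P, ?_⟩
  have hE := DivPoly.equation hP
  rw [e1, e3, e4, e6, hx] at hE
  apply ext_of_coords (frobW_ne_zero L W hP) hP
  · rw [xc_frobW, hx]; ring
  · rw [yc_frobW]
    have : (yc P - 1) ^ 2 = 0 := by linear_combination hE + (1 - yc P) * h2
    have h3 : yc P = 1 := sub_eq_zero.mp (pow_eq_zero_iff (two_ne_zero)|>.mp this)
    rw [h3]; ring

/-- doubling a point with `x = 1` -/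
lemma ord_one [CharP L 2] (h2 : (2 : L) = 0) (W : WeierstrassCurve (ZMod 2))
    (e1 : (W⁄L).a₁ = 1)
    (e3 : (W⁄L).a₃ = 0) (e4 : (W⁄L).a₄ = 0)
    (e6 : (W⁄L).a₆ = 1) {P : (W⁄L).Point} (hP : P ≠ 0) (hx : xc P = 1) :
    P + P + (P + P) = 0 := by
  have hpsi : psi2 P = 1 := by rw [psi2, e1, e3, hx]; linear_combination yc P * h2
  have hPP : P + P ≠ 0 := fun h => by
    rw [psi2_eq_zero hP h] at hpsi; exact zero_ne_one hpsi
  obtain ⟨l, h1, h3, h4⟩ := exists_slope_two hP hPP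
  have hE := DivPoly.equation hP
  rw [hpsi, e1, e4, hx] at h1
  rw [e1, hx] at h3
  rw [e1, e3, e4, e6, hx] at hE
  have hxx := ord_o1 1 (yc P) l (xc (P + P)) (W⁄L).a₂ (by linear_combination hE)
    (by linear_combination h1) (by linear_combination h3)
  have hxx' : xc (P + P) = 0 := by linear_combination hxx + h2
  exact (ord_zero h2 W e1 e3 e4 e6 hPP hxx').1

/-- the ordinary normal form with `a₂ = 0`. -/
lemma rel_ord0 [CharP L 2] (h2 : (2 : L) = 0) (W : WeierstrassCurve (ZMod 2))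
    (e1 : (W⁄L).a₁ = 1)
    (e2 : (W⁄L).a₂ = 0) (e3 : (W⁄L).a₃ = 0) (e4 : (W⁄L).a₄ = 0)
    (e6 : (W⁄L).a₆ = 1) (P : (W⁄L).Point) :
    frobW W L (frobW W L P) + frobW W L P + (P + P) = 0 := by
  rcases eq_or_ne P 0 with rfl | hP
  · simp
  have hE := DivPoly.equation hP
  rw [e1, e2, e3, e4, e6] at hE
  by_cases hx0 : xc P = 0
  · obtain ⟨k1, k2⟩ := ord_zero h2 W e1 e3 e4 e6 hP hx0
    rw [k2, k2, k1, add_zero]
  by_cases hx1 : xc P = 1
  · have k1 := ord_one h2 W e1 e3 e4 e6 hP hx1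
    have k2 : frobW W L P = P := by
      apply ext_of_coords (frobW_ne_zero L W hP) hP
      · rw [xc_frobW, hx1]; ring
      · rw [yc_frobW]
        rw [hx1] at hE
        linear_combination hE + (1 - yc P) * h2
    rw [k2, k2]; exact k1
  have hpsi : psi2 P = xc P := by rw [psi2, e1, e3]; linear_combination yc P * h2
  have hPP : P + P ≠ 0 := fun h => by
    rw [psi2_eq_zero hP h] at hpsi; exact hx0 hpsi.symm
  obtain ⟨l, h1, h3, h4⟩ := exists_slope_two hP hPP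
  rw [hpsi, e1, e2, e4] at h1
  rw [e1, e2] at h3
  rw [e1, e3] at h4
  have hF := frobW_ne_zero L W hP
  have hd : xc P ^ 2 - xc P ≠ 0 := by
    intro h
    have : xc P * (xc P - 1) = 0 := by linear_combination h
    rcases mul_eq_zero.mp this with h' | h'
    · exact hx0 h'
    · exact hx1 (sub_eq_zero.mp h')
  have hne : xc (frobW W L P) ≠ xc P := by
    rw [xc_frobW]
    exact sub_ne_zero.mp hd
  have hsum : frobW W L P + P ≠ 0 := by
    intro h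
    apply hne
    rw [eq_neg_of_add_eq_zero_left h, xc_neg]
  have k1 := xc_add hF hP hne
  have k2 := yc_add hF hP hne
  rw [e1, e2, xc_frobW, yc_frobW] at k1
  rw [e1, e3, xc_frobW, yc_frobW] at k2
  have hG := frobW_ne_zero L W hsum
  have t2 := ord_o1 (xc P) (yc P) l (xc (P + P)) 0 (by linear_combination hE)
    (by linear_combination h1) (by linear_combination h3)
  have t1 : xc (frobW W L P + P) * xc P = xc P ^ 2 + 1 := by
    apply mul_right_cancel₀ (pow_ne_zero 2 hd)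
    rw [← ord_o2id (xc P) (yc P) (by linear_combination hE)]
    linear_combination xc P * k1
  have t3 := ord_o3 (xc P) (yc P) l (xc (P + P)) (yc (P + P)) (xc (frobW W L P + P))
    (yc (frobW W L P + P)) hx0 hd (by linear_combination hE) (by linear_combination h1) t2
    (by linear_combination h4) t1 (by linear_combination k2)
  rw [← map_add, add_eq_zero_iff_eq_neg]
  apply ext_of_coords hG (neg_ne_zero.mpr hPP)
  · rw [xc_neg, xc_frobW]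
    apply mul_right_cancel₀ (pow_ne_zero 2 hx0)
    rw [t2, ← mul_pow, t1]
    linear_combination xc P ^ 2 * h2
  · rw [yc_neg hPP, yc_frobW, e1, e3, t3]
    have t4 : xc (frobW W L P + P) ^ 2 = xc (P + P) := by
      apply mul_right_cancel₀ (pow_ne_zero 2 hx0)
      rw [t2, ← mul_pow, t1]
      linear_combination xc P ^ 2 * h2
    rw [← t4]
    linear_combination (yc (frobW W L P + P) ^ 2 + xc (frobW W L P + P) ^ 2) * h2

/-- the ordinary normal form with `a₂ = 1`. -/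
lemma rel_ord1 [CharP L 2] (h2 : (2 : L) = 0) (W : WeierstrassCurve (ZMod 2))
    (e1 : (W⁄L).a₁ = 1)
    (e2 : (W⁄L).a₂ = 1) (e3 : (W⁄L).a₃ = 0) (e4 : (W⁄L).a₄ = 0)
    (e6 : (W⁄L).a₆ = 1) (P : (W⁄L).Point) :
    frobW W L (frobW W L P) - frobW W L P + (P + P) = 0 := by
  rcases eq_or_ne P 0 with rfl | hP
  · simp
  have hE := DivPoly.equation hP
  rw [e1, e2, e3, e4, e6] at hE
  by_cases hx0 : xc P = 0
  · obtain ⟨k1, k2⟩ := ord_zero h2 W e1 e3 e4 e6 hP hx0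
    rw [k2, k2, k1, sub_self, add_zero]
  by_cases hx1 : xc P = 1
  · have k1 := ord_one h2 W e1 e3 e4 e6 hP hx1
    have k2 : frobW W L P = -P := by
      apply ext_of_coords (frobW_ne_zero L W hP) (neg_ne_zero.mpr hP)
      · rw [xc_frobW, xc_neg, hx1]; ring
      · rw [yc_frobW, yc_neg hP, e1, e3, hx1]
        rw [hx1] at hE
        linear_combination hE + 2 * h2
    rw [k2, map_neg, k2, neg_neg, sub_neg_eq_add]; exact k1
  have hpsi : psi2 P = xc P := by rw [psi2, e1, e3]; linear_combination yc P * h2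
  have hPP : P + P ≠ 0 := fun h => by
    rw [psi2_eq_zero hP h] at hpsi; exact hx0 hpsi.symm
  obtain ⟨l, h1, h3, h4⟩ := exists_slope_two hP hPP
  rw [hpsi, e1, e2, e4] at h1
  rw [e1, e2] at h3
  rw [e1, e3] at h4
  have hF := frobW_ne_zero L W hP
  have hnP : -P ≠ 0 := neg_ne_zero.mpr hP
  have hd : xc P ^ 2 - xc P ≠ 0 := by
    intro h
    have : xc P * (xc P - 1) = 0 := by linear_combination h
    rcases mul_eq_zero.mp this with h' | h'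
    · exact hx0 h'
    · exact hx1 (sub_eq_zero.mp h')
  have hne : xc (frobW W L P) ≠ xc (-P) := by
    rw [xc_frobW, xc_neg]
    exact sub_ne_zero.mp hd
  have hsum : frobW W L P + -P ≠ 0 := by
    intro h
    apply hne
    rw [eq_neg_of_add_eq_zero_left h, xc_neg]
  have k1 := xc_add hF hnP hne
  have k2 := yc_add hF hnP hne
  rw [e1, e2, xc_frobW, yc_frobW, xc_neg, yc_neg hP, e1, e3] at k1
  rw [e1, e3, xc_frobW, yc_frobW, xc_neg, yc_neg hP, e1, e3] at k2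
  have hG := frobW_ne_zero L W hsum
  have t2 := ord_o1 (xc P) (yc P) l (xc (P + P)) 1 (by linear_combination hE)
    (by linear_combination h1) (by linear_combination h3)
  have t1 : xc (frobW W L P + -P) * xc P = xc P ^ 2 + 1 := by
    apply mul_right_cancel₀ (pow_ne_zero 2 hd)
    rw [← ord_o2id' (xc P) (yc P) (by linear_combination hE)]
    linear_combination xc P * k1
  have t3 := ord_o3' (xc P) (yc P) l (xc (P + P)) (yc (P + P)) (xc (frobW W L P + -P))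
    (yc (frobW W L P + -P)) hx0 hd (by linear_combination hE) (by linear_combination h1) t2
    (by linear_combination h4) t1 (by linear_combination k2)
  have hre : frobW W L (frobW W L P) - frobW W L P + (P + P) =
      frobW W L (frobW W L P + -P) + (P + P) := by
    rw [map_add, map_neg]; abel
  rw [hre, add_eq_zero_iff_eq_neg]
  have t4 : xc (frobW W L P + -P) ^ 2 = xc (P + P) := by
    apply mul_right_cancel₀ (pow_ne_zero 2 hx0)
    rw [t2, ← mul_pow, t1]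
    linear_combination xc P ^ 2 * h2
  apply ext_of_coords hG (neg_ne_zero.mpr hPP)
  · rw [xc_neg, xc_frobW, t4]
  · rw [yc_neg hPP, yc_frobW, e1, e3, t3, ← t4]
    linear_combination (yc (frobW W L P + -P) ^ 2 + xc (frobW W L P + -P) ^ 2) * h2

end

end Fermat.Agent.ECRep
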