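import Fermat.Agent.ECRep.Char2

set_option autoImplicit false
set_option linter.unusedSectionVars false

/-!
# The Frobenius relation over `𝔽₂`, general form
-/

namespace Fermat.Agent.ECRep

open WeierstrassCurve WeierstrassCurve.Affine WeierstrassCurve.Affine.Point

section

variable {L : Type*} [Field L] [Algebra (ZMod 2) L] [DecidableEq L]

/-- normal form relation -/
lemma rel_normal (W : WeierstrassCurve (ZMod 2))
    (hW : (∃ a₂ : ZMod 2, W = ⟨1, a₂, 0, 0, 1⟩) ∨ (∃ a₄ a₆ : ZMod 2, W = ⟨0, 0, 1, a₄, a₆⟩))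
    (P : (W⁄L).Point) :
    frobW W L (frobW W L P) - W.traceOfFrobenius • frobW W L P + (2 : ℤ) • P = 0 := by
  have : CharP L 2 := charP_of_injective_algebraMap (algebraMap (ZMod 2) L).injective 2
  have h2 : (2 : L) = 0 := by exact_mod_cast CharP.cast_eq_zero L 2
  have f0 : algebraMap (ZMod 2) L 0 = 0 := _root_.map_zero _
  have f1 : algebraMap (ZMod 2) L 1 = 1 := _root_.map_one _
  have hc : ∀ c : ZMod 2, c = 0 ∨ c = 1 := by decide
  rcases hW with ⟨a₂, rfl⟩ | ⟨a₄, a₆, rfl⟩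
  · rcases hc a₂ with rfl | rfl
    · rw [tr_ord0]
      have := rel_ord0 h2 ⟨1, 0, 0, 0, 1⟩ f1 f0 f0 f0 f1 P
      rw [← this, two_zsmul, neg_one_zsmul, sub_neg_eq_add]
    · rw [tr_ord1]
      have := rel_ord1 h2 ⟨1, 1, 0, 0, 1⟩ f1 f1 f0 f0 f1 P
      rw [← this, two_zsmul, one_zsmul]
  · rcases hc a₄ with rfl | rfl
    · rw [tr_ss00]
      have := rel_ss0 h2 ⟨0, 0, 1, 0, a₆⟩ f0 f0 f1 f0 (by
        rcases hc a₆ with rfl | rfl
        · change (algebraMap (ZMod 2) L 0) ^ 2 = algebraMap (ZMod 2) L 0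
          rw [f0]; ring
        · change (algebraMap (ZMod 2) L 1) ^ 2 = algebraMap (ZMod 2) L 1
          rw [f1]; ring) P
      rw [← this, two_zsmul, zero_zsmul, sub_zero]
    · rcases hc a₆ with rfl | rfl
      · rw [tr_ss10]
        have := rel_ss10 h2 ⟨0, 0, 1, 1, 0⟩ f0 f0 f1 f1 f0 P
        rw [neg_zsmul, sub_neg_eq_add, two_zsmul, two_zsmul, ← map_add,
          add_right_comm, this, neg_add_cancel]
      · rw [tr_ss11]
        have := rel_ss11 h2 ⟨0, 0, 1, 1, 1⟩ f0 f0 f1 f1 f1 P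
        rw [two_zsmul, two_zsmul, ← map_add, sub_add_eq_add_sub, this, sub_self]

/-- **The Frobenius relation over `𝔽₂`.** -/
theorem frob_rel_two (W : WeierstrassCurve (ZMod 2)) (hΔ : W.Δ ≠ 0) (P : (W⁄L).Point) :
    frobW W L (frobW W L P) - W.traceOfFrobenius • frobW W L P + (2 : ℤ) • P = 0 := by
  obtain ⟨r, t, W', hV, hW'⟩ := exists_normal W hΔ
  have hL : IsVC (algebraMap (ZMod 2) L 1) (algebraMap (ZMod 2) L r) (algebraMap (ZMod 2) L 0)
    (algebraMap (ZMod 2) L t) (W⁄L) (W'⁄L) := hV.map (algebraMap (ZMod 2) L)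
  have hu : algebraMap (ZMod 2) L 1 ≠ 0 := by rw [_root_.map_one]; exact one_ne_zero
  have hcard : Nat.card W'.toAffine.Point = Nat.card W.toAffine.Point :=
    Nat.card_congr (vcEquiv hV one_ne_zero).toEquiv
  have htr : W'.traceOfFrobenius = W.traceOfFrobenius := by
    rw [traceOfFrobenius, traceOfFrobenius, card, card, hcard]
  obtain ⟨Q, rfl⟩ := (vcEquiv hL hu).surjective P
  have hmap : ∀ R : (W'⁄L).Point,
      frobW W L (vcEquiv hL hu R) = vcEquiv hL hu (frobW W' L R) := fun R =>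
    vcEquiv_map hL hL hu hu (FiniteField.frobeniusAlgHom (ZMod 2) L) R
  have h := congrArg (vcEquiv hL hu) (rel_normal W' hW' Q)
  rw [map_add, map_sub, map_zsmul, map_zsmul, ← hmap, ← hmap, htr] at h
  exact h.trans (vcEquiv_zero hL hu)

end

end Fermat.Agent.ECRep
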