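import Fermat.Agent.ECRep.FlatEC

set_option autoImplicit false
set_option linter.unusedSectionVars false

/-!
# Good reduction at `l`: the `l`-adic representation is flat at `l`
-/

namespace Fermat.Agent.ECRep

open WeierstrassCurve WeierstrassCurve.Affine WeierstrassCurve.Affine.Point
open scoped WeierstrassCurve.Affine
open Fermat.Agent.EC Fermat.Agent.DivPoly Fermat.Agent.S13lib
open GaloisRep Fermat.Agent.Flat

local notation "Qbar" => AlgebraicClosure ℚ
local notation "Γℚ" => (AlgebraicClosure ℚ ≃ₐ[ℚ] AlgebraicClosure ℚ)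

section

variable {W : WeierstrassCurve ℤ} {l : ℕ} [Fact l.Prime]

/-- the `n`-th component of `T / l ^ n T` -/
noncomputable def levelMap (hΔ : W.Δ ≠ 0) (n : ℕ) :
    (TateW (toRat W) l ⧸ ((IsLocalRing.maximalIdeal ℤ_[l] ^ n) •
      (⊤ : Submodule ℤ_[l] (TateW (toRat W) l)))) →+ tN ((toRat W)⁄Qbar) (l ^ n) :=
  QuotientAddGroup.lift _
    { toFun := fun x : TateW (toRat W) l => (⟨x.1 n, x.torsion n⟩ : tN ((toRat W)⁄Qbar) (l ^ n))
      map_zero' := rfl
      map_add' := fun _ _ => rfl }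
    (fun x hx => Subtype.ext ((coe_eq_zero_iff (toRat_Δ_ne_zero hΔ) x n).mpr hx))

theorem levelMap_mk (hΔ : W.Δ ≠ 0) (n : ℕ) (x : TateW (toRat W) l) :
    ((levelMap hΔ n (Submodule.Quotient.mk x) : tN ((toRat W)⁄Qbar) (l ^ n)) :
      ((toRat W)⁄Qbar).Point) = x.1 n := rfl

theorem levelMap_injective (hΔ : W.Δ ≠ 0) (n : ℕ) :
    Function.Injective (levelMap (l := l) hΔ n) := by
  rw [injective_iff_map_eq_zero]
  intro x hx
  obtain ⟨y, rfl⟩ := Submodule.Quotient.mk_surjective _ x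
  have h1 := congrArg Subtype.val hx
  rw [levelMap_mk] at h1
  exact (Submodule.Quotient.mk_eq_zero _).mpr
    ((coe_eq_zero_iff (toRat_Δ_ne_zero hΔ) y n).mp h1)

/-- **Good reduction at `l ≠ 2`: the Tate module is flat at `l`.** -/
theorem isFlatAt (hl2 : l ≠ 2) (hΔ : W.Δ ≠ 0) (hg : W.IsGoodPrimeFor l) :
    (tateRep (toRat W) l (toRat_Δ_ne_zero hΔ)).IsFlatAt l := by
  have hl := (Fact.out : l.Prime)
  rw [isFlatAt_iff]
  refine ⟨?_, fun I hI => ?_⟩
  · exact Finite.of_equiv (ZMod l) (PadicInt.residueField (p := l)).symm.toEquiv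
  have hI0 : I ≠ ⊥ := by
    rintro rfl
    have : Finite ℤ_[l] := Finite.of_equiv _ (RingEquiv.quotientBot ℤ_[l]).toEquiv
    exact not_finite ℤ_[l]
  obtain ⟨n, hn⟩ := PadicInt.ideal_eq_span_pow_p hI0
  have hIn : I = IsLocalRing.maximalIdeal ℤ_[l] ^ n := by
    rw [PadicInt.maximalIdeal_eq_span_p, Ideal.span_singleton_pow, hn]
  subst hIn
  have hodd : Odd (l ^ n) := (hl.odd_of_ne_two hl2).pow
  refine IsFlat.of_injective (isFlat_torsion hl hl2 hΔ hg hodd) (levelMap (l := l) hΔ n)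
    (levelMap_injective hΔ n) ?_
  intro g m
  obtain ⟨y, rfl⟩ := Submodule.Quotient.mk_surjective _ m
  rfl

end

end Fermat.Agent.ECRep
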