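import Fermat.Agent.Flat.Global
import Fermat.Agent.TW.Closure

/-!
# The flat condition is stable under base change
-/

set_option autoImplicit false

namespace Fermat.Agent.ECRep

open IsLocalRing GaloisRep
open scoped TensorProduct

variable {A B : Type} [CommRing A] [IsLocalRing A] [CommRing B] [IsLocalRing B]

/-- **The flat condition is stable under arbitrary local base change** (to a ring with finite
residue field). -/
theorem isFlatAt_baseChangeAlong [Finite (ResidueField B)] (φ : A →+* B) (hφ : IsLocalHom φ)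
    {ρ : GaloisRepAdic A} {p : ℕ} (h : ρ.IsFlatAt p) :
    (ρ.baseChangeAlong φ hφ).IsFlatAt p := by
  rw [Flat.isFlatAt_iff] at h ⊢
  obtain ⟨-, h2⟩ := h
  refine ⟨inferInstance, fun I hI => ?_⟩
  have hJfin : Finite (A ⧸ I.comap φ) := by
    refine Finite.of_injective (Ideal.quotientMap I φ le_rfl) ?_
    exact Ideal.quotientMap_injective
  have hfl := h2 (I.comap φ) hJfin
  have := Flat.finite_level ρ (I.comap φ)
  let _ : Algebra A B := φ.toAlgebra
  obtain ⟨n, ⟨e⟩⟩ := Finite.exists_equiv_fin (B ⧸ I)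
  have hs : ∀ i : Fin n, ∃ s : B, Ideal.Quotient.mk I s = e.symm i := fun i =>
    Ideal.Quotient.mk_surjective _
  choose s hs using hs
  -- the maps `v ↦ s i ⊗ v`
  let L0 : ∀ _ : Fin n, ρ.V →ₗ[A] ((B ⊗[A] ρ.V) ⧸ (I • (⊤ : Submodule B (B ⊗[A] ρ.V)))) :=
    fun i => ((Submodule.mkQ (I • (⊤ : Submodule B (B ⊗[A] ρ.V)))).restrictScalars A).comp
      (TensorProduct.mk A B ρ.V (s i))
  have hL0 : ∀ i v, L0 i v = Submodule.mkQ _ (s i ⊗ₜ[A] v) := fun i v => rfl
  have hker : ∀ i, (I.comap φ) • (⊤ : Submodule A ρ.V) ≤ LinearMap.ker (L0 i) := by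
    intro i
    rw [Submodule.smul_le]
    intro a ha v _
    rw [LinearMap.mem_ker, hL0, Submodule.mkQ_apply, Submodule.Quotient.mk_eq_zero,
      ← TensorProduct.smul_tmul, Algebra.smul_def, ← smul_eq_mul, ← TensorProduct.smul_tmul']
    exact Submodule.smul_mem_smul ha trivial
  let q : (Fin n → (ρ.V ⧸ ((I.comap φ) • (⊤ : Submodule A ρ.V)))) →ₗ[A]
      ((B ⊗[A] ρ.V) ⧸ (I • (⊤ : Submodule B (B ⊗[A] ρ.V)))) :=
    ∑ i, (Submodule.liftQ _ _ (hker i)).comp (LinearMap.proj i)
  have hq1 : ∀ f : Fin n → ρ.V, q (fun i => Submodule.mkQ _ (f i)) =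
      ∑ i, Submodule.mkQ (I • (⊤ : Submodule B (B ⊗[A] ρ.V))) (s i ⊗ₜ[A] f i) := by
    intro f
    rw [LinearMap.sum_apply]
    rfl
  have hq : Function.Surjective q := by
    intro x
    obtain ⟨y, rfl⟩ := Submodule.mkQ_surjective _ x
    induction y using TensorProduct.induction_on with
    | zero => exact ⟨0, by rw [map_zero, map_zero]⟩
    | tmul b v =>
      classical
      set i := e (Ideal.Quotient.mk I b) with hi
      refine ⟨fun j => Submodule.mkQ _ (if j = i then v else 0), ?_⟩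
      rw [hq1, Finset.sum_eq_single i (fun j _ hj => by
        rw [if_neg hj, TensorProduct.tmul_zero, map_zero]) (fun h => absurd (Finset.mem_univ _) h),
        if_pos rfl, Submodule.mkQ_apply, Submodule.mkQ_apply, Submodule.Quotient.eq,
        ← TensorProduct.sub_tmul]
      have h1 : s i - b ∈ I := by
        rw [← Ideal.Quotient.eq, hs, hi, Equiv.symm_apply_apply]
      have h3 : (s i - b) ⊗ₜ[A] v = (s i - b) • ((1 : B) ⊗ₜ[A] v) := by
        rw [TensorProduct.smul_tmul', smul_eq_mul, mul_one]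
      rw [h3]
      exact Submodule.smul_mem_smul h1 trivial
    | add y z hy hz =>
      obtain ⟨y', hy'⟩ := hy
      obtain ⟨z', hz'⟩ := hz
      exact ⟨y' + z', by rw [map_add, hy', hz', map_add]⟩
  refine Flat.IsFlat.of_surjective (hfl.piRep_fin n) (q.toAddMonoidHom) hq ?_
  intro σ x
  have hx : ∀ i, ∃ v : ρ.V, Submodule.mkQ _ v = x i := fun i => Submodule.mkQ_surjective _ (x i)
  choose f hf using hx
  obtain rfl : (fun i => Submodule.mkQ _ (f i)) = x := funext hf
  change q (fun i => Submodule.mkQ _ (ρ.ρ σ (f i))) =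
    Flat.levelHom (ρ.baseChangeAlong φ hφ) I σ (q fun i => Submodule.mkQ _ (f i))
  rw [hq1, hq1]
  refine Eq.trans (Finset.sum_congr rfl fun i _ => ?_)
    (map_sum (Flat.levelHom (ρ.baseChangeAlong φ hφ) I σ) _ _).symm
  change Submodule.mkQ _ (s i ⊗ₜ[A] (ρ.ρ σ (f i))) =
    Submodule.mkQ _ ((ρ.ρ σ).baseChange B (s i ⊗ₜ[A] (f i)))
  rw [LinearMap.baseChange_tmul]

end Fermat.Agent.ECRep
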