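import Fermat.Agent.ECRep.MultPt

set_option autoImplicit false
set_option linter.unusedSectionVars false

/-!
# Multiplicative reduction: the component map is a homomorphism modulo `D`
-/

namespace Fermat.Agent.ECRep

open WeierstrassCurve WeierstrassCurve.Affine WeierstrassCurve.Affine.Point
open Fermat.Agent.EC Fermat.Agent.DivPoly Fermat.Agent.S13lib

section ns

variable {K : Type*} [Field K] [DecidableEq K] {A : ValuationSubring K}
  {W : WeierstrassCurve.Affine K}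

/-- the canonical reduction -/
noncomputable def redCurve (A : ValuationSubring K) (W : WeierstrassCurve K) :
    WeierstrassCurve (IsLocalRing.ResidueField A) :=
  ⟨rr (IsLocalRing.residue A) W.a₁, rr (IsLocalRing.residue A) W.a₂,
    rr (IsLocalRing.residue A) W.a₃, rr (IsLocalRing.residue A) W.a₄,
    rr (IsLocalRing.residue A) W.a₆⟩

lemma isRed_redCurve (hW : IntegralFor A.valuation W) :
    IsRed (IsLocalRing.residue A) W (redCurve A W) :=
  ⟨hW, rfl, rfl, rfl, rfl, rfl⟩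

lemma ns_add (hW : IntegralFor A.valuation W) {P Q : W.Point} (hP : NS A.valuation P)
    (hQ : NS A.valuation Q) : NS A.valuation (P + Q) := by
  classical
  exact (red_add (isRed_redCurve hW) hP hQ).1

lemma ns_neg (hW : IntegralFor A.valuation W) {P : W.Point} (hP : NS A.valuation P) :
    NS A.valuation (-P) := by
  classical
  exact (neg_red (isRed_redCurve hW) hP).1

lemma ns_sub (hW : IntegralFor A.valuation W) {P Q : W.Point} (hP : NS A.valuation P)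
    (hQ : NS A.valuation Q) : NS A.valuation (P - Q) := by
  rw [sub_eq_add_neg]; exact ns_add hW hP (ns_neg hW hQ)

end ns

section kap

variable {K : Type*} [Field K] {Γ₀ : Type*} [LinearOrderedCommGroupWithZero Γ₀]
  {W : WeierstrassCurve.Affine K}

/-- the component of a point -/
noncomputable def kap (v : Valuation K Γ₀) (x₀ y₀ α β D : K) (P : W.Point) : Γ₀ :=
  open scoped Classical in
  if NS v P then 1 else kap0 v D (uc x₀ y₀ α P) (uc x₀ y₀ β P)

variable {v : Valuation K Γ₀} {x₀ y₀ α β D : K}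

lemma kap_of_ns {P : W.Point} (h : NS v P) : kap v x₀ y₀ α β D P = 1 := if_pos h

lemma kap_of_not_ns {P : W.Point} (h : ¬ NS v P) :
    kap v x₀ y₀ α β D P = kap0 v D (uc x₀ y₀ α P) (uc x₀ y₀ β P) := if_neg h

theorem Mult.vD_pos (hM : Mult v W x₀ y₀ α β D) : 0 < v D :=
  zero_lt_iff.mpr ((map_ne_zero v).mpr hM.D0)

theorem Mult.kap_swap (hM : Mult v W x₀ y₀ α β D) {P : W.Point} (h : ¬ NS v P) :
    kap v x₀ y₀ α β D P * kap v x₀ y₀ β α D P = v D := by
  rw [kap_of_not_ns h, kap_of_not_ns h]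
  rcases hM.cases h with ⟨h1, -, -⟩ | ⟨h1, -, -⟩ | ⟨h1, h2, -, -⟩
  · rw [kap0_of_le h1.le, kap0_of_lt h1, mul_div_cancel₀]
    exact (lt_of_le_of_lt zero_le h1).ne'
  · rw [kap0_of_lt h1, kap0_of_le h1.le, div_mul_cancel₀]
    exact (lt_of_le_of_lt zero_le h1).ne'
  · rw [kap0_of_le h1.le, kap0_of_le h1.ge, h1, h2, sq]

theorem Mult.kap_bounds (hM : Mult v W x₀ y₀ α β D) {P : W.Point} (h : ¬ NS v P) :
    v D < kap v x₀ y₀ α β D P ∧ kap v x₀ y₀ α β D P < 1 := by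
  obtain ⟨hP, hx, hu, hw⟩ := hM.not_ns h
  have h0 := hM.vD_pos
  rw [kap_of_not_ns h]
  rcases hM.cases h with ⟨h1, -, h2⟩ | ⟨h1, -, h2⟩ | ⟨h1, h2, -, h3⟩
  · rw [kap0_of_le h1.le]
    exact ⟨h2.trans (pow_two_lt_self (lt_of_le_of_lt zero_le h1) hw), hw⟩
  · rw [kap0_of_lt h1]
    have hu0 := lt_of_le_of_lt zero_le h1
    constructor
    · rw [lt_div_iff₀ hu0]
      calc v D * v (uc x₀ y₀ α P) < v D * 1 := by gcongr
        _ = v D := by rw [mul_one]
    · rw [div_lt_one₀ hu0]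
      exact h2.trans (pow_two_lt_self hu0 hu)
  · rw [kap0_of_le h1.le]
    refine ⟨?_, hw⟩
    rw [h2]; exact pow_two_lt_self h3 hw

theorem Mult.kap_pos (hM : Mult v W x₀ y₀ α β D) (P : W.Point) :
    0 < kap v x₀ y₀ α β D P := by
  by_cases h : NS v P
  · rw [kap_of_ns h]; exact one_pos
  · exact hM.vD_pos.trans (hM.kap_bounds h).1

variable [DecidableEq K]

theorem Mult.kap_neg_eq (hM : Mult v W x₀ y₀ α β D) {P : W.Point} (h : ¬ NS v P) :
    kap v x₀ y₀ α β D (-P) = kap v x₀ y₀ β α D P := by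
  have hP := (hM.not_ns h).1
  rw [kap_of_not_ns h, kap_of_not_ns (hM.not_ns_neg h), hM.uc_neg hP, hM.symm.uc_neg hP, kap0,
    kap0, Valuation.map_neg, Valuation.map_neg]

theorem Mult.kap_mul_neg (hM : Mult v W x₀ y₀ α β D) {P : W.Point} (h : ¬ NS v P) :
    kap v x₀ y₀ α β D P * kap v x₀ y₀ α β D (-P) = v D := by
  rw [hM.kap_neg_eq h, hM.kap_swap h]

lemma v_C_le {X₁ X₂ : K} {M : Γ₀} (h1 : v X₁ ≤ M) (h2 : v X₂ ≤ M) :
    v (X₁ ^ 2 + X₁ * X₂ + X₂ ^ 2) ≤ M ^ 2 := by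
  refine v.map_add_le (v.map_add_le ?_ ?_) ?_
  · rw [map_pow]; exact pow_le_pow_left₀ zero_le h1 2
  · rw [map_mul, sq]; exact mul_le_mul' h1 h2
  · rw [map_pow]; exact pow_le_pow_left₀ zero_le h2 2

/-- when does the sum of two points near the node leave the node -/
theorem Mult.ns_add_iff_ab {X₁ X₂ X₃ a b : K} (hδ : v (α - β) = 1) (hab : b - a = α - β)
    (e1 : a * b = X₁ + X₂ + X₃) (h1 : v X₁ < 1) (h2 : v X₂ < 1) :
    1 ≤ v X₃ ↔ v a = v b ∧ 1 ≤ v a := by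
  have h12 : v (X₁ + X₂) < 1 := v_add_lt_one v h1 h2
  have hX : X₃ = a * b - (X₁ + X₂) := by rw [e1]; ring
  constructor
  · intro h
    rcases v_eq_or hδ hab with ⟨h3, h4⟩ | ⟨h3, h4⟩ | h3
    · exfalso
      have : v X₃ < 1 := by
        rw [hX]
        exact v_sub_lt_one v (v_mul_lt_one' v h3 h4.le) h12
      exact absurd h (not_le.mpr this)
    · exfalso
      have : v X₃ < 1 := by
        rw [hX]
        exact v_sub_lt_one v (v_mul_lt_one v h4.le h3) h12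
      exact absurd h (not_le.mpr this)
    · exact h3
  · rintro ⟨h3, h4⟩
    have h5 : 1 ≤ v (a * b) := by rw [map_mul, ← h3]; exact one_le_mul h4 h4
    rw [hX, Valuation.map_sub_eq_of_lt_left _ (lt_of_lt_of_le h12 h5)]
    exact h5

lemma eq_of_prod_sq {x y d : Γ₀} (hd : 0 < d) (hx : d ≤ x ^ 2) (hy : d ≤ y ^ 2)
    (h : x * y = d) : d = x ^ 2 ∧ d = y ^ 2 := by
  have h2 : x ^ 2 * y ^ 2 = d * d := by rw [← mul_pow, h, sq]
  have hy0 : 0 < y ^ 2 := lt_of_lt_of_le hd hy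
  have hx0 : 0 < x ^ 2 := lt_of_lt_of_le hd hx
  constructor
  · refine le_antisymm hx ?_
    by_contra hlt
    rw [not_le] at hlt
    have : d * d < x ^ 2 * y ^ 2 := by
      calc d * d < x ^ 2 * d := by gcongr
        _ ≤ x ^ 2 * y ^ 2 := by gcongr
    exact this.ne h2.symm
  · refine le_antisymm hy ?_
    by_contra hlt
    rw [not_le] at hlt
    have : d * d < x ^ 2 * y ^ 2 := by
      calc d * d < d * y ^ 2 := by gcongr
        _ ≤ x ^ 2 * y ^ 2 := by gcongr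
    exact this.ne h2.symm

/-- auxiliary: forward direction when `P` is the larger point -/
theorem Mult.ns_add_aux (hM : Mult v W x₀ y₀ α β D) {P Q : W.Point} (hP : ¬ NS v P)
    (hQ : ¬ NS v Q) {a b : K} (hab : v a = v b) (ha : 1 ≤ v a)
    (R1 : a * uc x₀ y₀ β P + b * uc x₀ y₀ α Q =
        (xc P - x₀) ^ 2 + (xc P - x₀) * (xc Q - x₀) + (xc Q - x₀) ^ 2)
    (R2 : a * uc x₀ y₀ β Q + b * uc x₀ y₀ α P =
        (xc P - x₀) ^ 2 + (xc P - x₀) * (xc Q - x₀) + (xc Q - x₀) ^ 2)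
    (hle : max (v (uc x₀ y₀ α Q)) (v (uc x₀ y₀ β Q)) ≤
      max (v (uc x₀ y₀ α P)) (v (uc x₀ y₀ β P))) :
    kap v x₀ y₀ α β D P * kap v x₀ y₀ α β D Q = v D := by
  obtain ⟨hP0, hxP, huP, hwP⟩ := hM.not_ns hP
  obtain ⟨hQ0, hxQ, huQ, hwQ⟩ := hM.not_ns hQ
  have hXQ : v (xc Q - x₀) ≤ max (v (uc x₀ y₀ α Q)) (v (uc x₀ y₀ β Q)) := by
    rcases hM.cases hQ with ⟨-, h, -⟩ | ⟨-, h, -⟩ | ⟨-, -, h, -⟩
    · rw [h]; exact le_max_right _ _
    · rw [h]; exact le_max_left _ _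
    · exact h.trans (le_max_right _ _)
  have keyw : v (uc x₀ y₀ α P) ≤ v (uc x₀ y₀ β P) → 0 < v (uc x₀ y₀ β P) →
      v (xc P - x₀) ≤ v (uc x₀ y₀ β P) → kap v x₀ y₀ α β D P * kap v x₀ y₀ α β D Q = v D := by
    intro h1 h0 hXP
    rw [max_eq_right h1] at hle
    have h2 : v (uc x₀ y₀ α Q) = v (uc x₀ y₀ β P) :=
      opp_of_eq hab ha h0 hwP rfl (v_C_le hXP (hXQ.trans hle)) R1
    rw [kap_of_not_ns hP, kap_of_not_ns hQ, kap0_of_le h1]
    rcases le_or_gt (v (uc x₀ y₀ α Q)) (v (uc x₀ y₀ β Q)) with h3 | h3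
    · rw [kap0_of_le h3]
      have h4 : v (uc x₀ y₀ β Q) = v (uc x₀ y₀ α Q) :=
        le_antisymm ((le_max_right _ _).trans (hle.trans h2.ge)) h3
      rcases hM.cases hQ with ⟨h5, -, -⟩ | ⟨h5, -, -⟩ | ⟨-, h5, -, -⟩
      · exact absurd h4 h5.ne'
      · exact absurd h3 (not_le.mpr h5)
      · rw [← h2, ← h4, ← sq, ← h5]
    · rw [kap0_of_lt h3, h2, mul_div_cancel₀]
      exact h0.ne'
  rcases hM.cases hP with ⟨h1, h2, -⟩ | ⟨h1, hXP, -⟩ | ⟨h1, -, h2, h3⟩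
  · exact keyw h1.le (lt_of_le_of_lt zero_le h1) h2.le
  · rw [max_eq_left h1.le] at hle
    have h0 := lt_of_le_of_lt zero_le h1
    have h2 : v (uc x₀ y₀ β Q) = v (uc x₀ y₀ α P) :=
      opp_of_eq hab.symm (hab ▸ ha) h0 huP rfl (v_C_le hXP.le (hXQ.trans hle))
        (by rw [add_comm]; exact R2)
    rw [kap_of_not_ns hP, kap_of_not_ns hQ, kap0_of_lt h1, kap0_of_le, h2, div_mul_cancel₀]
    · exact h0.ne'
    · rw [h2]; exact (le_max_left _ _).trans hle
  · exact keyw h1.le h3 h2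

/-- **When the sum of two points near the node has nonsingular reduction.** -/
theorem Mult.ns_add_iff (hM : Mult v W x₀ y₀ α β D) {P Q : W.Point} (hP : ¬ NS v P)
    (hQ : ¬ NS v Q) :
    NS v (P + Q) ↔ kap v x₀ y₀ α β D P * kap v x₀ y₀ α β D Q = v D := by
  obtain ⟨hP0, hxP, huP, hwP⟩ := hM.not_ns hP
  obtain ⟨hQ0, hxQ, huQ, hwQ⟩ := hM.not_ns hQ
  rcases eq_or_ne (P + Q) 0 with h0 | h0
  · rw [h0, ← hM.kap_mul_neg hP, eq_neg_of_add_eq_zero_right h0]
    exact ⟨fun _ => rfl, fun _ => Or.inl rfl⟩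
  obtain ⟨a, b, μ, hab, -, -, -, e1, -, -, R1, R2⟩ := hM.line hP0 hQ0 h0
  rw [hM.ns_iff h0, Mult.ns_add_iff_ab hM.vδ hab e1 hxP hxQ]
  constructor
  · rintro ⟨h1, h2⟩
    rcases le_total (max (v (uc x₀ y₀ α Q)) (v (uc x₀ y₀ β Q)))
      (max (v (uc x₀ y₀ α P)) (v (uc x₀ y₀ β P))) with hle | hle
    · exact hM.ns_add_aux hP hQ h1 h2 R1 R2 hle
    · rw [mul_comm]
      exact hM.ns_add_aux hQ hP h1 h2 (by rw [R2]; ring) (by rw [R1]; ring) hle
  · intro h
    have hD0 := hM.vD_pos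
    rw [kap_of_not_ns hP, kap_of_not_ns hQ] at h
    -- the two mixed cases
    have mix1 : v (uc x₀ y₀ β P) = v (uc x₀ y₀ α Q) → 0 < v (uc x₀ y₀ β P) →
        v (xc P - x₀) ≤ v (uc x₀ y₀ β P) → v (xc Q - x₀) ≤ v (uc x₀ y₀ α Q) →
        v a = v b ∧ 1 ≤ v a := by
      intro k1 k2 k3 k4
      exact opp_eq hM.vδ hab k2 hwP rfl k1.symm (v_C_le k3 (k1 ▸ k4)) R1
    have mix2 : v (uc x₀ y₀ β Q) = v (uc x₀ y₀ α P) → 0 < v (uc x₀ y₀ β Q) →
        v (xc P - x₀) ≤ v (uc x₀ y₀ α P) → v (xc Q - x₀) ≤ v (uc x₀ y₀ β Q) →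
        v a = v b ∧ 1 ≤ v a := by
      intro k1 k2 k3 k4
      exact opp_eq hM.vδ hab k2 hwQ rfl k1.symm (v_C_le (k1 ▸ k3) k4) R2
    rcases hM.cases hP with ⟨p1, p2, p3⟩ | ⟨p1, p2, p3⟩ | ⟨p1, p2, p3, p4⟩ <;>
      rcases hM.cases hQ with ⟨q1, q2, q3⟩ | ⟨q1, q2, q3⟩ | ⟨q1, q2, q3, q4⟩
    · rw [kap0_of_le p1.le, kap0_of_le q1.le] at h
      exact absurd (eq_of_prod_sq hD0 p3.le q3.le h).1 p3.ne
    · rw [kap0_of_le p1.le, kap0_of_lt q1, mul_div_assoc',
        div_eq_iff (lt_of_le_of_lt zero_le q1).ne', mul_comm] at h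
      exact mix1 (mul_left_cancel₀ hD0.ne' h) (lt_of_le_of_lt zero_le p1) p2.le q2.le
    · rw [kap0_of_le p1.le, kap0_of_le q1.le] at h
      exact absurd (eq_of_prod_sq hD0 p3.le q2.le h).1 p3.ne
    · rw [kap0_of_lt p1, kap0_of_le q1.le, div_mul_eq_mul_div,
        div_eq_iff (lt_of_le_of_lt zero_le p1).ne'] at h
      exact mix2 (mul_left_cancel₀ hD0.ne' h) (lt_of_le_of_lt zero_le q1) p2.le q2.le
    · exfalso
      have hp := (lt_of_le_of_lt zero_le p1)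
      have hq := (lt_of_le_of_lt zero_le q1)
      rw [kap0_of_lt p1, kap0_of_lt q1, div_mul_div_comm, div_eq_iff (mul_pos hp hq).ne'] at h
      have h' := mul_left_cancel₀ hD0.ne' h
      exact p3.ne (eq_of_prod_sq hD0 p3.le q3.le h'.symm).1
    · rw [kap0_of_lt p1, kap0_of_le q1.le, div_mul_eq_mul_div,
        div_eq_iff (lt_of_le_of_lt zero_le p1).ne'] at h
      exact mix2 (mul_left_cancel₀ hD0.ne' h) q4 p2.le q3
    · rw [kap0_of_le p1.le, kap0_of_le q1.le] at h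
      exact absurd (eq_of_prod_sq hD0 p2.le q3.le h).2 q3.ne
    · rw [kap0_of_le p1.le, kap0_of_lt q1, mul_div_assoc',
        div_eq_iff (lt_of_le_of_lt zero_le q1).ne', mul_comm] at h
      exact mix1 (mul_left_cancel₀ hD0.ne' h) p4 p3 q2.le
    · rw [kap0_of_le p1.le, kap0_of_le q1.le] at h
      have h2 : v (uc x₀ y₀ β P) = v (uc x₀ y₀ β Q) := by
        have h3 : v (uc x₀ y₀ β P) * v (uc x₀ y₀ β P) =
            v (uc x₀ y₀ β P) * v (uc x₀ y₀ β Q) := by rw [← sq, ← p2, h]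
        exact mul_left_cancel₀ p4.ne' h3
      exact mix1 (h2.trans q1.symm) p4 p3 (by rw [q1]; exact q3)

/-- three points near the node -/
theorem Mult.kap_three (hM : Mult v W x₀ y₀ α β D) {P Q : W.Point} (hP : ¬ NS v P)
    (hQ : ¬ NS v Q) (hPQ : ¬ NS v (P + Q)) :
    kap v x₀ y₀ α β D P * kap v x₀ y₀ α β D Q * kap v x₀ y₀ α β D (-(P + Q)) = v D ∨
    kap v x₀ y₀ α β D P * kap v x₀ y₀ α β D Q * kap v x₀ y₀ α β D (-(P + Q)) = v D ^ 2 := by
  obtain ⟨hP0, hxP, -, -⟩ := hM.not_ns hP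
  obtain ⟨hQ0, hxQ, -, -⟩ := hM.not_ns hQ
  obtain ⟨hPQ0, hxPQ, -, -⟩ := hM.not_ns hPQ
  obtain ⟨a, b, μ, hab, ⟨l1, l1'⟩, ⟨l2, l2'⟩, ⟨l3, l3'⟩, e1, e2, e3, -, -⟩ :=
    hM.line hP0 hQ0 hPQ0
  have hu : (a * (xc P - x₀) + μ) * (a * (xc Q - x₀) + μ) * (a * (xc (P + Q) - x₀) + μ) =
      μ ^ 3 - D * a ^ 3 := by
    linear_combination a ^ 3 * e3 + a ^ 2 * μ * e2 - a * μ ^ 2 * e1
  have hw : (b * (xc P - x₀) + μ) * (b * (xc Q - x₀) + μ) * (b * (xc (P + Q) - x₀) + μ) =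
      μ ^ 3 - D * b ^ 3 := by
    linear_combination b ^ 3 * e3 + b ^ 2 * μ * e2 - b * μ ^ 2 * e1
  have hnPQ := hM.not_ns_neg hPQ
  have h1 : v (a * b) < 1 := by
    rw [e1]; exact v_add_lt_one v (v_add_lt_one v hxP hxQ) hxPQ
  rcases v_eq_or hM.vδ hab with ⟨h3, h4⟩ | ⟨h3, h4⟩ | ⟨h3, h4⟩
  · left
    rw [kap_of_not_ns hP, kap_of_not_ns hQ, kap_of_not_ns hnPQ, l1, l1', l2, l2', l3, l3']
    exact three_pts hM.vδ hM.D0 hab h3 e2 e3 hu hw hxP hxQ hxPQ
  · right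
    have key : kap v x₀ y₀ β α D P * kap v x₀ y₀ β α D Q * kap v x₀ y₀ β α D (-(P + Q)) =
        v D := by
      rw [kap_of_not_ns hP, kap_of_not_ns hQ, kap_of_not_ns hnPQ, l1, l1', l2, l2', l3, l3']
      refine three_pts (δ := β - α) (by rw [Valuation.map_sub_swap]; exact hM.vδ) hM.D0 ?_ h3
        ?_ e3 hw hu hxP hxQ hxPQ
      · linear_combination -hab
      · rw [e2]; ring
    have h5 := hM.kap_swap hP
    have h6 := hM.kap_swap hQ
    have h7 := hM.kap_swap hnPQ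
    apply mul_right_cancel₀ hM.vD_pos.ne'
    nth_rw 1 [← key]
    calc _ = (kap v x₀ y₀ α β D P * kap v x₀ y₀ β α D P) *
          (kap v x₀ y₀ α β D Q * kap v x₀ y₀ β α D Q) *
          (kap v x₀ y₀ α β D (-(P + Q)) * kap v x₀ y₀ β α D (-(P + Q))) := by
            simp only [mul_assoc, mul_left_comm, mul_comm]
      _ = _ := by rw [h5, h6, h7, sq]
  · exfalso
    rw [map_mul, ← h3] at h1
    exact absurd h1 (not_lt.mpr (one_le_mul h4 h4))

end kap

section hom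

variable {K : Type*} [Field K] [DecidableEq K] {A : ValuationSubring K}
  {W : WeierstrassCurve.Affine K} {x₀ y₀ α β D : K}

/-- **The component map is a homomorphism modulo powers of `D`.** -/
theorem Mult.kap_add (hM : Mult A.valuation W x₀ y₀ α β D) (P Q : W.Point) :
    ∃ j : ℤ, kap A.valuation x₀ y₀ α β D (P + Q) =
      kap A.valuation x₀ y₀ α β D P * kap A.valuation x₀ y₀ α β D Q * A.valuation D ^ j := by
  set v := A.valuation with hv
  have hD0 := hM.vD_pos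
  have mixed : ∀ P Q : W.Point, ¬ NS v P → NS v Q →
      kap v x₀ y₀ α β D (P + Q) = kap v x₀ y₀ α β D P := by
    intro P Q hP hQ
    have hPQ : ¬ NS v (P + Q) := by
      intro h
      apply hP
      have : P = (P + Q) - Q := by abel
      rw [this]; exact ns_sub hM.int h hQ
    have h1 : NS v ((P + Q) + -P) := by
      have : (P + Q) + -P = Q := by abel
      rwa [this]
    rw [hM.ns_add_iff hPQ (hM.not_ns_neg hP), ← hM.kap_mul_neg hP] at h1
    exact mul_right_cancel₀ (hM.kap_pos (-P)).ne' h1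
  by_cases hP : NS v P
  · by_cases hQ : NS v Q
    · refine ⟨0, ?_⟩
      rw [kap_of_ns hP, kap_of_ns hQ, kap_of_ns (ns_add hM.int hP hQ), zpow_zero, one_mul, one_mul]
    · refine ⟨0, ?_⟩
      rw [add_comm, mixed Q P hQ hP, kap_of_ns hP, zpow_zero, one_mul, mul_one]
  · by_cases hQ : NS v Q
    · refine ⟨0, ?_⟩
      rw [mixed P Q hP hQ, kap_of_ns hQ, zpow_zero, mul_one, mul_one]
    · by_cases hPQ : NS v (P + Q)
      · refine ⟨-1, ?_⟩
        rw [kap_of_ns hPQ, (hM.ns_add_iff hP hQ).mp hPQ, zpow_neg_one, mul_inv_cancel₀ hD0.ne']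
      · have h2 := hM.kap_mul_neg hPQ
        have h3 := (hM.kap_pos (-(P + Q))).ne'
        rcases hM.kap_three hP hQ hPQ with h | h
        · refine ⟨0, ?_⟩
          rw [zpow_zero, mul_one]
          apply mul_right_cancel₀ h3
          rw [h, h2]
        · refine ⟨-1, ?_⟩
          rw [zpow_neg_one]
          apply mul_right_cancel₀ h3
          rw [h2, mul_right_comm, h, sq, mul_assoc, mul_inv_cancel₀ hD0.ne', mul_one]

theorem Mult.kap_nsmul (hM : Mult A.valuation W x₀ y₀ α β D) (n : ℕ) (P : W.Point) :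
    ∃ j : ℤ, kap A.valuation x₀ y₀ α β D (n • P) =
      kap A.valuation x₀ y₀ α β D P ^ n * A.valuation D ^ j := by
  have hD0 := hM.vD_pos.ne'
  induction n with
  | zero =>
    refine ⟨0, ?_⟩
    rw [zero_smul, kap_of_ns (Or.inl rfl), pow_zero, zpow_zero, one_mul]
  | succ n ih =>
    obtain ⟨j, hj⟩ := ih
    obtain ⟨k, hk⟩ := hM.kap_add (n • P) P
    refine ⟨j + k, ?_⟩
    rw [succ_nsmul, hk, hj, pow_succ, zpow_add₀ hD0]
    simp only [mul_assoc, mul_left_comm, mul_comm]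

/-- points whose component is a power of `D` have nonsingular reduction -/
theorem Mult.ns_of_kap_eq_zpow (hM : Mult A.valuation W x₀ y₀ α β D) {P : W.Point} {j : ℤ}
    (h : kap A.valuation x₀ y₀ α β D P = A.valuation D ^ j) : NS A.valuation P := by
  by_contra hP
  obtain ⟨h1, h2⟩ := hM.kap_bounds hP
  rw [h] at h1 h2
  have hanti := zpow_right_strictAnti₀ hM.vD_pos hM.vD
  have h3 : j < 1 := by
    have : A.valuation D ^ (1 : ℤ) < A.valuation D ^ j := by rwa [zpow_one]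
    exact hanti.lt_iff_gt.mp this
  have h4 : 0 < j := by
    have : A.valuation D ^ j < A.valuation D ^ (0 : ℤ) := by rwa [zpow_zero]
    exact hanti.lt_iff_gt.mp this
  omega

/-- equal components: the difference has nonsingular reduction -/
theorem Mult.ns_sub_of_kap_eq (hM : Mult A.valuation W x₀ y₀ α β D) {P Q : W.Point}
    (h : kap A.valuation x₀ y₀ α β D P = kap A.valuation x₀ y₀ α β D Q) :
    NS A.valuation (P - Q) := by
  obtain ⟨j, hj⟩ := hM.kap_add (P - Q) Q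
  rw [sub_add_cancel, h, mul_comm (kap A.valuation x₀ y₀ α β D (P - Q)), mul_assoc] at hj
  have h1 := (mul_right_eq_self₀.mp hj.symm).resolve_right (hM.kap_pos Q).ne'
  apply hM.ns_of_kap_eq_zpow (j := -j)
  rw [zpow_neg]
  exact eq_inv_of_mul_eq_one_left h1

/-- torsion points have torsion components -/
theorem Mult.exists_idx (hM : Mult A.valuation W x₀ y₀ α β D) {n : ℕ} {P : W.Point}
    (h : n • P = 0) : ∃ j : ℤ, kap A.valuation x₀ y₀ α β D P ^ n = A.valuation D ^ j := by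
  obtain ⟨j, hj⟩ := hM.kap_nsmul n P
  rw [h, kap_of_ns (Or.inl rfl)] at hj
  refine ⟨-j, ?_⟩
  rw [zpow_neg]
  exact eq_inv_of_mul_eq_one_left hj.symm

end hom

end Fermat.Agent.ECRep
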