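import Fermat.Agent.ECRep.MultTors
import Fermat.Agent.ECRep.MultKap

set_option autoImplicit false
set_option linter.unusedSectionVars false

/-!
# `l`-torsion points at a place of multiplicative reduction of residue characteristic `l`
-/

namespace Fermat.Agent.ECRep

open WeierstrassCurve WeierstrassCurve.Affine WeierstrassCurve.Affine.Point
open scoped WeierstrassCurve.Affine
open Fermat.Agent.EC Fermat.Agent.DivPoly Fermat.Agent.S13lib

section model

variable {K : Type*} [Field K] {A : ValuationSubring K} {W : WeierstrassCurve.Affine K}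

/-- the model over the valuation ring -/
def modelA (hW : IntegralFor A.valuation W) : WeierstrassCurve A :=
  ⟨⟨W.a₁, (A.valuation_le_one_iff _).mp hW.a₁⟩, ⟨W.a₂, (A.valuation_le_one_iff _).mp hW.a₂⟩,
    ⟨W.a₃, (A.valuation_le_one_iff _).mp hW.a₃⟩, ⟨W.a₄, (A.valuation_le_one_iff _).mp hW.a₄⟩,
    ⟨W.a₆, (A.valuation_le_one_iff _).mp hW.a₆⟩⟩

lemma modelA_map (hW : IntegralFor A.valuation W) : (modelA hW).map A.subtype = W := rfl

lemma eval_Φ_modelA (hW : IntegralFor A.valuation W) (n : ℤ) (x : A) :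
    (W.Φ n).eval (x : K) = (((modelA hW).Φ n).eval x : A) := by
  have h : W.Φ n = ((modelA hW).Φ n).map A.subtype := by
    rw [← WeierstrassCurve.map_Φ, modelA_map]
  rw [h, Polynomial.eval_map]
  exact Polynomial.eval₂_at_apply A.subtype x

end model

section node

variable {K : Type*} [Field K] {A : ValuationSubring K} {W : WeierstrassCurve.Affine K}
  {x₀ y₀ α β D : K}

lemma MAlg.a₃_eq (hM : MAlg W x₀ y₀ α β D) : W.a₃ = -2 * y₀ - W.a₁ * x₀ := by
  linear_combination hM.two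

lemma MAlg.a₄_eq (hM : MAlg W x₀ y₀ α β D) : W.a₄ = W.a₁ * y₀ - 3 * x₀ ^ 2 - 2 * W.a₂ * x₀ := by
  linear_combination hM.crit

lemma MAlg.a₆_eq (hM : MAlg W x₀ y₀ α β D) : W.a₆ = y₀ ^ 2 + W.a₁ * x₀ * y₀ +
    (-2 * y₀ - W.a₁ * x₀) * y₀ + D - x₀ ^ 3 - W.a₂ * x₀ ^ 2 -
      (W.a₁ * y₀ - 3 * x₀ ^ 2 - 2 * W.a₂ * x₀) * x₀ := by
  rw [← hM.a₃_eq, ← hM.a₄_eq]
  linear_combination hM.eqn

lemma MAlg.Ψ₂Sq_eval (hM : MAlg W x₀ y₀ α β D) : W.Ψ₂Sq.eval x₀ = 4 * D := by
  simp only [Ψ₂Sq, b₂, b₄, b₆, Polynomial.eval_add, Polynomial.eval_mul, Polynomial.eval_C,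
    Polynomial.eval_pow, Polynomial.eval_X]
  rw [hM.a₆_eq, hM.a₄_eq, hM.a₃_eq]
  ring

lemma MAlg.Ψ₃_eval (hM : MAlg W x₀ y₀ α β D) :
    W.Ψ₃.eval x₀ = (W.a₁ ^ 2 + 4 * W.a₂ + 12 * x₀) * D := by
  simp only [Ψ₃, b₂, b₄, b₆, b₈, Polynomial.eval_add, Polynomial.eval_mul, Polynomial.eval_C,
    Polynomial.eval_pow, Polynomial.eval_X, Polynomial.eval_ofNat]
  rw [hM.a₆_eq, hM.a₄_eq, hM.a₃_eq]
  ring

lemma MAlg.preΨ₄_eval (hM : MAlg W x₀ y₀ α β D) :
    W.preΨ₄.eval x₀ = -16 * D ^ 2 := by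
  simp only [preΨ₄, b₂, b₄, b₆, b₈, Polynomial.eval_add, Polynomial.eval_mul, Polynomial.eval_C,
    Polynomial.eval_pow, Polynomial.eval_X, Polynomial.eval_ofNat]
  rw [hM.a₆_eq, hM.a₄_eq, hM.a₃_eq]
  ring

lemma preΨ'_vals (hM : Mult A.valuation W x₀ y₀ α β D) (n : ℕ) :
    A.valuation ((W.preΨ' n).eval x₀) ≤ 1 ∧ (3 ≤ n → A.valuation ((W.preΨ' n).eval x₀) < 1) := by
  have hD := hM.vD
  have n4 := v_ofNat_le_one A.valuation 4
  have h2 : A.valuation (W.Ψ₂Sq.eval x₀) ≤ 1 := by
    rw [hM.Ψ₂Sq_eval]; exact (v_mul_lt_one _ n4 hD).le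
  have hif : ∀ p : Prop, ∀ _ : Decidable p,
      A.valuation (Polynomial.eval x₀ (if p then W.Ψ₂Sq ^ 2 else 1)) ≤ 1 := by
    intro p _
    split_ifs
    · rw [Polynomial.eval_pow]; exact v_pow_le_one _ h2 2
    · rw [Polynomial.eval_one, _root_.map_one]
  have hif' : ∀ p : Prop, ∀ _ : Decidable p,
      A.valuation (Polynomial.eval x₀ (if p then 1 else W.Ψ₂Sq ^ 2)) ≤ 1 := by
    intro p _
    split_ifs
    · rw [Polynomial.eval_one, _root_.map_one]
    · rw [Polynomial.eval_pow]; exact v_pow_le_one _ h2 2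
  have of_lt : ∀ {n : ℕ}, A.valuation ((W.preΨ' n).eval x₀) < 1 →
      A.valuation ((W.preΨ' n).eval x₀) ≤ 1 ∧ (3 ≤ n → A.valuation ((W.preΨ' n).eval x₀) < 1) :=
    fun h => ⟨h.le, fun _ => h⟩
  induction n using Nat.strong_induction_on with
  | _ n ih =>
    match n, ih with
    | 0, _ => exact ⟨by simp, fun h => by omega⟩
    | 1, _ => exact ⟨by simp, fun h => by omega⟩
    | 2, _ => exact ⟨by simp, fun h => by omega⟩
    | 3, _ =>
      apply of_lt
      rw [preΨ'_three, hM.Ψ₃_eval]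
      refine v_mul_lt_one _ (v_add_le_one _ (v_add_le_one _ (v_pow_le_one _ hM.int.a₁ 2)
        (v_mul_le_one _ n4 hM.int.a₂)) (v_mul_le_one _ (v_ofNat_le_one _ 12) hM.vx)) hD
    | 4, _ =>
      apply of_lt
      rw [preΨ'_four, hM.preΨ₄_eval]
      refine v_mul_lt_one _ ?_ (v_pow_lt_one _ hD two_ne_zero)
      rw [Valuation.map_neg]
      exact v_ofNat_le_one _ 16
    | (n + 5), ih =>
      rcases Nat.even_or_odd' (n + 5) with ⟨k, hk | hk⟩
      · obtain ⟨m, rfl⟩ : ∃ m, k = m + 3 := ⟨k - 3, by omega⟩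
        rw [hk] at ih ⊢
        apply of_lt
        rw [preΨ'_even]
        simp only [Polynomial.eval_sub, Polynomial.eval_mul, Polynomial.eval_pow]
        have i1 := (ih (m + 1) (by omega)).1
        have i2 := (ih (m + 2) (by omega)).1
        have i3 := (ih (m + 3) (by omega)).1
        have i4 := (ih (m + 4) (by omega)).2 (by omega)
        have i5 := (ih (m + 5) (by omega)).2 (by omega)
        refine v_sub_lt_one _ ?_ ?_
        · exact v_mul_lt_one _ (v_mul_le_one _ (v_pow_le_one _ i2 2) i3) i5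
        · exact v_mul_lt_one _ (v_mul_le_one _ i1 i3) (v_pow_lt_one _ i4 two_ne_zero)
      · obtain ⟨m, rfl⟩ : ∃ m, k = m + 2 := ⟨k - 2, by omega⟩
        rw [hk] at ih ⊢
        apply of_lt
        rw [preΨ'_odd]
        simp only [Polynomial.eval_sub, Polynomial.eval_mul, Polynomial.eval_pow]
        have i1 := (ih (m + 1) (by omega)).1
        have i2 := (ih (m + 2) (by omega)).1
        have i3 := (ih (m + 3) (by omega)).2 (by omega)
        have i4 := (ih (m + 4) (by omega)).2 (by omega)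
        refine v_sub_lt_one _ ?_ ?_
        · rw [mul_comm, mul_comm (Polynomial.eval x₀ (W.preΨ' (m + 4))), ← mul_assoc]
          exact v_mul_lt_one _ (v_mul_le_one _ (hif _ _) (v_pow_le_one _ i2 3)) i4
        · rw [mul_comm, mul_comm (Polynomial.eval x₀ (W.preΨ' (m + 1))), ← mul_assoc, mul_right_comm]
          exact v_mul_lt_one _ (v_mul_le_one _ (hif' _ _) i1) (v_pow_lt_one _ i3 three_ne_zero)

/-- the division polynomials vanish at the node -/
theorem Mult.v_ΨSq_lt (hM : Mult A.valuation W x₀ y₀ α β D) {n : ℕ} (hn : 2 ≤ n) :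
    A.valuation ((W.ΨSq n).eval x₀) < 1 := by
  have n4 := v_ofNat_le_one A.valuation 4
  have h2 : A.valuation (W.Ψ₂Sq.eval x₀) < 1 := by
    rw [hM.Ψ₂Sq_eval]; exact v_mul_lt_one _ n4 hM.vD
  rw [ΨSq_ofNat, Polynomial.eval_mul, Polynomial.eval_pow]
  rcases hn.eq_or_lt with rfl | hn
  · rw [preΨ'_two, if_pos even_two, Polynomial.eval_one, one_pow, one_mul]; exact h2
  · rw [mul_comm]
    refine v_mul_lt_one _ ?_ (v_pow_lt_one _ ((preΨ'_vals hM n).2 hn) two_ne_zero)
    split_ifs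
    · exact h2.le
    · rw [Polynomial.eval_one, _root_.map_one]

end node

section main

variable {K : Type*} [Field K] [CharZero K] [IsAlgClosed K] [DecidableEq K]
  {A : ValuationSubring K} {W : WeierstrassCurve.Affine K} {x₀ y₀ α β D : K}

/-- in residue characteristic `l`, a point of `E₀` whose `l`-th multiple is in `E₁` is in `E₁` -/
theorem Mult.E1_of_nsmul (hM : Mult A.valuation W x₀ y₀ α β D) {l : ℕ} (hl : l.Prime)
    (hv : A.valuation (l : K) < 1) {P : W.Point} (hP : NS A.valuation P)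
    (h : E1 A.valuation (l • P)) : E1 A.valuation P := by
  classical
  set r := IsLocalRing.residue A with hr
  have hR := isRed_redCurve hM.int
  have hnode := hM.node hR
  have : CharP (IsLocalRing.ResidueField A) l := by
    have h0 : ((l : ℕ) : IsLocalRing.ResidueField A) = 0 := by
      have := (rr_eq_zero_iff r (v_natCast_le_one A.valuation l)).mpr hv
      rwa [rr_natCast] at this
    exact (CharP.charP_iff_prime_eq_zero hl).mpr h0
  have := Fact.mk hl
  have h1 := (red_nsmul hR hP l).2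
  rw [red_of_E1 h] at h1
  have h2 := nodeT_nsmul hnode l (red r W (redCurve A W) P)
  rw [← h1, nodeT_zero] at h2
  have h3 : (nodeT (rr r x₀) (rr r y₀) (rr r α) (rr r β) (red r W (redCurve A W) P) - 1) ^ l =
      0 := by
    rw [sub_pow_char, ← h2, one_pow, sub_self]
  have h4 := sub_eq_zero.mp (pow_eq_zero_iff hl.ne_zero |>.mp h3)
  refine E1_of_red_eq_zero hR hP ?_
  by_contra hne
  exact nodeT_ne_one hnode hM.node_ne hne h4

open Polynomial in
/-- there is an integral `x` away from the node with `Φ_n(x)` a unit -/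
theorem Mult.exists_x (hM : Mult A.valuation W x₀ y₀ α β D) (n : ℕ) :
    ∃ x : K, A.valuation x ≤ 1 ∧ A.valuation ((W.Φ n).eval x) = 1 ∧
      A.valuation (x - x₀) = 1 := by
  set f : A[X] := (modelA hM.int).Φ n *
    (X - C (⟨x₀, (A.valuation_le_one_iff _).mp hM.vx⟩ : A)) with hf
  have hΦ : ((modelA hM.int).Φ n).Monic := by
    rw [Monic, Polynomial.leadingCoeff, natDegree_Φ]
    exact coeff_Φ _ _
  have hfm : f.Monic := hΦ.mul (monic_X_sub_C _)
  have hd : 0 < f.natDegree := by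
    rw [hf, hΦ.natDegree_mul (monic_X_sub_C _), natDegree_X_sub_C]; omega
  have hgm : (f - C 1).Monic := by
    refine hfm.sub_of_left ?_
    rw [degree_eq_natDegree hfm.ne_zero]
    refine degree_C_le.trans_lt ?_
    exact_mod_cast hd
  have hgd : 0 < (f - C 1).natDegree := by rw [natDegree_sub_C]; exact hd
  obtain ⟨x, hx⟩ := IsAlgClosed.exists_aeval_eq_zero K (f - C 1) (by
    rw [degree_eq_natDegree hgm.ne_zero]
    exact_mod_cast hgd.ne')
  have hint : IsIntegral A x := ⟨f - C 1, hgm, by rwa [← aeval_def]⟩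
  obtain ⟨x', rfl⟩ := IsIntegrallyClosed.isIntegral_iff.mp hint
  have h1 : (f - C 1).eval x' = 0 := by
    rw [aeval_algebraMap_apply] at hx
    exact (FaithfulSMul.algebraMap_injective A K) (by rw [_root_.map_zero]; exact hx)
  rw [eval_sub, eval_C, hf, eval_mul, eval_sub, eval_X, eval_C, sub_eq_zero] at h1
  have h2 : A.valuation ((W.Φ n).eval (x' : K)) * A.valuation ((x' : K) - x₀) = 1 := by
    rw [← _root_.map_mul, eval_Φ_modelA hM.int, ← _root_.map_one A.valuation]
    congr 1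
    exact congrArg (Subtype.val) h1
  have h3 : A.valuation (x' : K) ≤ 1 := (A.valuation_le_one_iff _).mpr x'.2
  have h4 : A.valuation ((W.Φ n).eval (x' : K)) ≤ 1 := by
    rw [eval_Φ_modelA hM.int]; exact (A.valuation_le_one_iff _).mpr (SetLike.coe_mem _)
  have h5 : A.valuation ((x' : K) - x₀) ≤ 1 := v_sub_le_one _ h3 hM.vx
  refine ⟨x', h3, ?_, ?_⟩
  · refine le_antisymm h4 ?_
    by_contra hcon
    rw [not_le] at hcon
    have := mul_lt_one_of_lt_of_le hcon h5
    rw [h2] at this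
    exact lt_irrefl _ this
  · refine le_antisymm h5 ?_
    by_contra hcon
    rw [not_le] at hcon
    have := mul_lt_one_of_lt_of_le hcon h4
    rw [mul_comm, h2] at this
    exact lt_irrefl _ this

open Polynomial in
/-- **There is an `l`-torsion point outside `E₀`** (residue characteristic `l`). -/
theorem Mult.exists_not_ns (hM : Mult A.valuation W x₀ y₀ α β D) {l : ℕ} (hl : l.Prime)
    (hv : A.valuation (l : K) < 1) : ∃ P : W.Point, l • P = 0 ∧ ¬ NS A.valuation P := by
  by_contra hcon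
  push Not at hcon
  have hΔ : W.Δ ≠ 0 := by
    have h1 := hM.v_Δ
    have h2 := hM.vD_pos
    intro h0
    rw [h0, _root_.map_zero] at h1
    rw [h1] at h2
    exact lt_irrefl _ h2
  have hroots : ∀ r ∈ (W.ΨSq l).roots, 1 < A.valuation r := by
    intro r hr
    obtain ⟨P, hP, rfl⟩ := exists_point hΔ r
    have h1 : l • P = 0 := (eval_ΨSq_eq_zero_iff hΔ hP l).mp (mem_roots'.mp hr).2
    have h2 := hM.E1_of_nsmul hl hv (hcon P h1) (by rw [h1]; exact E1_zero _)
    exact (E1_iff_xc hP).mp h2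
  have hconst : ∀ x : K, A.valuation x ≤ 1 → A.valuation ((W.ΨSq l).eval x) =
      A.valuation (W.ΨSq l).leadingCoeff * ((W.ΨSq l).roots.map A.valuation).prod := by
    intro x hx
    have hs := (IsAlgClosed.splits (W.ΨSq l)).eval_eq_prod_roots x
    rw [hs, _root_.map_mul, map_multiset_prod, Multiset.map_map]
    congr 2
    refine Multiset.map_congr rfl fun r hr => ?_
    rw [Function.comp_apply]
    have := hroots r hr
    exact Valuation.map_sub_eq_of_lt_right _ (lt_of_le_of_lt hx this)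
  have h1 := hM.v_ΨSq_lt hl.two_le
  rw [hconst x₀ hM.vx] at h1
  obtain ⟨x, hx, hΦ, hx0⟩ := hM.exists_x l
  rw [← hconst x hx] at h1
  obtain ⟨P, hP, rfl⟩ := exists_point hΔ x
  have hns : NS A.valuation P := (hM.ns_iff hP).mpr hx0.ge
  have hE : ¬ E1 A.valuation P := fun h => absurd ((E1_iff_xc hP).mp h) (not_lt.mpr hx)
  apply hE
  refine hM.E1_of_nsmul hl hv hns ?_
  by_cases h0 : l • P = 0
  · rw [h0]; exact E1_zero _
  · rw [E1_iff_xc h0]
    have h2 := congrArg A.valuation (xc_nsmul hΔ l h0)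
    rw [_root_.map_mul, hΦ] at h2
    by_contra hcon2
    rw [not_lt] at hcon2
    have := mul_lt_one_of_lt_of_le h1 hcon2
    rw [mul_comm, h2] at this
    exact lt_irrefl _ this

end main

end Fermat.Agent.ECRep
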