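import Fermat.Agent.ECRep.MultRep
import Fermat.Agent.ECRep.MultL
import Fermat.Prelude.Def_GaloisRep_StrictOrdinary

set_option autoImplicit false
set_option linter.unusedSectionVars false

/-!
# The toric line in the Tate module at a place of multiplicative reduction
(the residue characteristic may be `l`)
-/

namespace Fermat.Agent.ECRep

open WeierstrassCurve WeierstrassCurve.Affine WeierstrassCurve.Affine.Point
open scoped WeierstrassCurve.Affine
open Fermat.Agent.EC Fermat.Agent.DivPoly Fermat.Agent.S13lib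

local notation "Qbar" => AlgebraicClosure ℚ
local notation "Γℚ" => (AlgebraicClosure ℚ ≃ₐ[ℚ] AlgebraicClosure ℚ)



section linalg

variable {R : Type*} [CommRing R] [IsDomain R] {V : Type*} [AddCommGroup V] [Module R V]

lemma exists_ker_basis_aux (b : Module.Basis (Fin 2) R V) (φ : V →ₗ[R] R) {c : R}
    (h : φ (b 1) = φ (b 0) * c) (hne : φ ≠ 0) :
    ∃ b' : Module.Basis (Fin 2) R V, φ (b' 0) = 0 ∧ φ (b' 1) ≠ 0 := by
  have h0 : φ (b 0) ≠ 0 := by
    intro h0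
    apply hne
    refine b.ext fun i => ?_
    fin_cases i
    · exact h0
    · change φ (b 1) = 0
      rw [h, h0, zero_mul]
  have hli : LinearIndependent R ![b 1 - c • b 0, b 0] := by
    rw [LinearIndependent.pair_iff]
    intro s t hst
    have h1 := congrArg b.repr hst
    have e1 := congrArg (fun f => f 1) h1
    have e0 := congrArg (fun f => f 0) h1
    simp at e0 e1
    rw [e1] at e0
    simp at e0
    exact ⟨e1, e0⟩
  have hsp : ⊤ ≤ Submodule.span R (Set.range ![b 1 - c • b 0, b 0]) := by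
    rw [← b.span_eq, Submodule.span_le]
    rintro _ ⟨i, rfl⟩
    have m0 : b 0 ∈ Submodule.span R (Set.range ![b 1 - c • b 0, b 0]) :=
      Submodule.subset_span ⟨1, rfl⟩
    have m1 : b 1 - c • b 0 ∈ Submodule.span R (Set.range ![b 1 - c • b 0, b 0]) :=
      Submodule.subset_span ⟨0, rfl⟩
    fin_cases i
    · exact m0
    · have := Submodule.add_mem _ m1 (Submodule.smul_mem _ c m0)
      rw [sub_add_cancel] at this
      exact this
  refine ⟨Module.Basis.mk hli hsp, ?_, ?_⟩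
  · rw [Module.Basis.mk_apply]
    change φ (b 1 - c • b 0) = 0
    rw [map_sub, map_smul, h, smul_eq_mul]; ring
  · rw [Module.Basis.mk_apply]
    exact h0

theorem exists_ker_basis [ValuationRing R] (b : Module.Basis (Fin 2) R V) (φ : V →ₗ[R] R)
    (hne : φ ≠ 0) : ∃ b' : Module.Basis (Fin 2) R V, φ (b' 0) = 0 ∧ φ (b' 1) ≠ 0 := by
  rcases ValuationRing.dvd_total (φ (b 0)) (φ (b 1)) with ⟨c, hc⟩ | ⟨c, hc⟩
  · exact exists_ker_basis_aux b φ hc hne
  · refine exists_ker_basis_aux (b.reindex (Equiv.swap 0 1)) φ (c := c) ?_ hne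
    rw [Module.Basis.reindex_apply, Module.Basis.reindex_apply]
    exact hc

lemma ker_basis_spec (b : Module.Basis (Fin 2) R V) (φ : V →ₗ[R] R) (h0 : φ (b 0) = 0)
    (h1 : φ (b 1) ≠ 0) {x : V} (hx : φ x = 0) : x = b.repr x 0 • b 0 := by
  have h := b.sum_repr x
  rw [Fin.sum_univ_two] at h
  have h2 := congrArg φ h
  rw [map_add, map_smul, map_smul, h0, smul_zero, zero_add, hx, smul_eq_mul] at h2
  have h3 := (mul_eq_zero.mp h2).resolve_right h1
  rw [h3, zero_smul, add_zero] at h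
  exact h.symm

end linalg


section phi

variable {W : WeierstrassCurve ℚ} {A : ValuationSubring (AlgebraicClosure ℚ)}
  {x₀ y₀ α β D : Qbar} {l : ℕ} [Fact l.Prime]

/-- the `n`-th component as a torsion point -/
def tnPt (x : TateW W l) (n : ℕ) : tN (W⁄Qbar) (l ^ n) := ⟨x.1 n, x.torsion n⟩

theorem Mult.ex_step (hM : Mult A.valuation (W⁄Qbar) x₀ y₀ α β D) (x : TateW W l) (n : ℕ) :
    ((l ^ n : ℕ) : ℤ) ∣ hM.ex (l ^ (n + 1)) (tnPt x (n + 1)) - hM.ex (l ^ n) (tnPt x n) := by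
  obtain ⟨k, hk⟩ := hM.kap_nsmul l (x.1 (n + 1))
  have h1 : kap A.valuation x₀ y₀ α β D (x.1 n) =
      kap A.valuation x₀ y₀ α β D (x.1 (n + 1)) ^ l * A.valuation D ^ k := by
    rw [← hk, x.smul_succ]
  have h2 : hM.ex (l ^ n) (tnPt x n) = hM.ex (l ^ (n + 1)) (tnPt x (n + 1)) + k * (l ^ n : ℕ) := by
    apply hM.ex_eq
    have h3 := hM.ex_spec (l ^ (n + 1)) (tnPt x (n + 1))
    change kap A.valuation x₀ y₀ α β D (x.1 (n + 1)) ^ l ^ (n + 1) = _ at h3
    change kap A.valuation x₀ y₀ α β D (x.1 n) ^ l ^ n = _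
    rw [h1, mul_pow, ← pow_mul, ← pow_succ', h3, ← zpow_natCast, ← zpow_mul,
      ← zpow_add₀ hM.vD_pos.ne']
  rw [h2]
  exact ⟨-k, by ring⟩

/-- the component map on the Tate module -/
noncomputable def Mult.phi0 (hM : Mult A.valuation (W⁄Qbar) x₀ y₀ α β D) (x : TateW W l) :
    ℤ_[l] :=
  PadicInt.ofIntSeq _ (PadicInt.isCauSeq_padicNorm_of_pow_dvd_sub
    (fun n => hM.ex (l ^ n) (tnPt x n)) l fun n => by
      have := hM.ex_step x n
      push_cast at this
      exact this)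

theorem Mult.phi0_spec (hM : Mult A.valuation (W⁄Qbar) x₀ y₀ α β D) (x : TateW W l) (n : ℕ) :
    PadicInt.toZModPow n (hM.phi0 x) = hM.idx (l ^ n) (tnPt x n) :=
  PadicInt.toZModPow_ofIntSeq_of_pow_dvd_sub
    (fun n => hM.ex (l ^ n) (tnPt x n)) l (fun n => by
      have := hM.ex_step x n
      push_cast at this
      exact this) n

/-- the component map on the Tate module -/
noncomputable def Mult.phi (hM : Mult A.valuation (W⁄Qbar) x₀ y₀ α β D) :
    TateW W l →ₗ[ℤ_[l]] ℤ_[l] where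
  toFun := hM.phi0
  map_add' x y := PadicInt.ext_of_toZModPow.mp fun n => by
    rw [_root_.map_add, hM.phi0_spec, hM.phi0_spec, hM.phi0_spec, ← map_add]
    rfl
  map_smul' c x := PadicInt.ext_of_toZModPow.mp fun n => by
    rw [smul_eq_mul, _root_.map_mul, hM.phi0_spec, RingHom.id_apply, hM.phi0_spec, ← appr_cast,
      ← nsmul_eq_mul, ← map_nsmul]
    rfl

theorem Mult.phi_spec (hM : Mult A.valuation (W⁄Qbar) x₀ y₀ α β D) (x : TateW W l) (n : ℕ) :
    PadicInt.toZModPow n (hM.phi x) = hM.idx (l ^ n) (tnPt x n) := hM.phi0_spec x n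

theorem Mult.phi_eq_zero_iff (hM : Mult A.valuation (W⁄Qbar) x₀ y₀ α β D) (x : TateW W l) :
    hM.phi x = 0 ↔ ∀ n, NS A.valuation (x.1 n) := by
  have hl := (Fact.out : l.Prime)
  rw [← PadicInt.ext_of_toZModPow]
  refine forall_congr' fun n => ?_
  rw [hM.phi_spec, _root_.map_zero, hM.idx_eq_zero_iff (pow_ne_zero n hl.ne_zero)]
  rfl

/-- elements of the decomposition group fixing the branches -/
theorem Mult.phi_gal (hM : Mult A.valuation (W⁄Qbar) x₀ y₀ α β D) {σ : Γℚ}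
    (hσ : σ ∈ A.decompositionSubgroup ℚ) (hα : σ α = α) (x : TateW W l) :
    hM.phi (tateGal W l σ x) = hM.phi x := by
  have hβ : σ β = β := by
    rcases (hM.gal hσ).2.2.2 with h | h
    · exact h.2
    · rw [h.2, ← h.1, hα]
  refine PadicInt.ext_of_toZModPow.mp fun n => ?_
  rw [hM.phi_spec, hM.phi_spec]
  have h := hM.ex_spec (l ^ n) (tnPt x n)
  change hM.idx (l ^ n) _ = ((hM.ex (l ^ n) (tnPt x n) : ℤ) : ZMod (l ^ n))
  apply hM.idx_eq
  rw [← h]
  change kap A.valuation x₀ y₀ α β D (σ • x.1 n) ^ l ^ n = _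
  rw [hM.kap_smul hσ hα hβ]
  rfl

/-- elements of the decomposition group exchanging the branches -/
theorem Mult.phi_gal_swap (hM : Mult A.valuation (W⁄Qbar) x₀ y₀ α β D) {σ : Γℚ}
    (hσ : σ ∈ A.decompositionSubgroup ℚ) (hα : σ α = β) (x : TateW W l) :
    hM.phi (tateGal W l σ x) = - hM.phi x := by
  have hβ : σ β = α := by
    rcases (hM.gal hσ).2.2.2 with h | h
    · rw [h.2, ← hα, h.1]
    · exact h.2
  refine PadicInt.ext_of_toZModPow.mp fun n => ?_
  rw [_root_.map_neg, hM.phi_spec, hM.phi_spec, ← map_neg]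
  obtain ⟨j, hj⟩ := hM.exists_idx (n := l ^ n) (P := -(x.1 n)) (by
    rw [smul_neg, x.torsion, _root_.neg_zero])
  rw [hM.idx_eq (-(tnPt x n)) hj]
  apply hM.idx_eq
  rw [← hj]
  change kap A.valuation x₀ y₀ α β D (σ • x.1 n) ^ l ^ n = _
  rw [hM.kap_smul_swap hσ hα hβ]
  by_cases h : NS A.valuation (x.1 n)
  · rw [kap_of_ns h, kap_of_ns (ns_neg hM.int h)]
  · rw [hM.kap_neg_eq h]

end phi

section det

variable {R : Type*} [CommRing R] {V : Type*} [AddCommGroup V] [Module R V]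

lemma det_of_tri (b : Module.Basis (Fin 2) R V) (f : V →ₗ[R] V) {χ τ ε : R}
    (h0 : f (b 0) = χ • b 0) (h1 : f (b 1) = τ • b 0 + ε • b 1) : LinearMap.det f = χ * ε := by
  rw [← LinearMap.det_toMatrix b, Matrix.det_fin_two]
  simp only [LinearMap.toMatrix_apply, h0, h1]
  simp

end det

section rat

variable {W : WeierstrassCurve ℤ} {A : ValuationSubring (AlgebraicClosure ℚ)} {q : ℕ}
  {x₀ y₀ α β D : Qbar} {l : ℕ} [Fact l.Prime]

theorem mult_exists_not_ns (hΔ : W.Δ ≠ 0) (hq : q.Prime) (hA : A.LiesOverPrime q)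
    (hM : Mult A.valuation ((toRat W)⁄Qbar) x₀ y₀ α β D) (l : ℕ) [Fact l.Prime] :
    ∃ P : ((toRat W)⁄Qbar).Point, l • P = 0 ∧ ¬ NS A.valuation P := by
  have hl := (Fact.out : l.Prime)
  rcases eq_or_ne q l with rfl | hne
  · exact hM.exists_not_ns hq (v_prime_lt_one hA)
  · have hql : ¬ q ∣ l := fun h => hne ((Nat.prime_dvd_prime_iff_eq hq hl).mp h)
    obtain ⟨P, hP⟩ := (mult_card hΔ hq hA hM hql).2 1
    refine ⟨P, P.2, fun h => ?_⟩
    rw [(hM.idx_eq_zero_iff hl.ne_zero P).mpr h] at hP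
    exact zero_ne_one hP

theorem Mult.phi_ne_zero (hΔ : W.Δ ≠ 0) (hq : q.Prime) (hA : A.LiesOverPrime q)
    (hM : Mult A.valuation ((toRat W)⁄Qbar) x₀ y₀ α β D) : hM.phi (l := l) ≠ 0 := by
  obtain ⟨P, hP, hns⟩ := mult_exists_not_ns hΔ hq hA hM l
  obtain ⟨x, hx⟩ := exists_lift (hcard_of_Δ (l := l) (toRat_Δ_ne_zero hΔ)) (n := 1) (x := P)
    (by rw [pow_one]; exact hP)
  intro h
  have h1 := (hM.phi_eq_zero_iff x).mp (by rw [h]; rfl) 1
  rw [hx] at h1
  exact hns h1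

/-- the sign by which an element of the decomposition group acts on the components -/
noncomputable def brSign (α : Qbar) (σ : Γℚ) : ℤ := open scoped Classical in
  if σ α = α then 1 else -1

lemma brSign_mul_self (α : Qbar) (σ : Γℚ) : brSign α σ * brSign α σ = 1 := by
  unfold brSign; split_ifs <;> norm_num

theorem Mult.phi_smul (hM : Mult A.valuation ((toRat W)⁄Qbar) x₀ y₀ α β D) {σ : Γℚ}
    (hσ : σ ∈ A.decompositionSubgroup ℚ) (x : TateW (toRat W) l) :
    hM.phi (tateGal (toRat W) l σ x) = (brSign α σ : ℤ_[l]) * hM.phi x := by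
  unfold brSign
  split_ifs with h
  · rw [hM.phi_gal hσ h]; simp
  · rw [hM.phi_gal_swap hσ (((hM.gal hσ).2.2.2.resolve_left fun h' => h h'.1).1)]; simp

/-- **An adapted basis of the Tate module at a multiplicative place.** -/
theorem Mult.exists_basis (hΔ : W.Δ ≠ 0) (hq : q.Prime) (hA : A.LiesOverPrime q)
    (hM : Mult A.valuation ((toRat W)⁄Qbar) x₀ y₀ α β D) (l : ℕ) [Fact l.Prime] :
    ∃ b : Module.Basis (Fin 2) ℤ_[l] (TateW (toRat W) l), hM.phi (b 0) = 0 ∧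
      (∀ x : TateW (toRat W) l, hM.phi x = 0 → ∃ c : ℤ_[l], x = c • b 0) ∧
      ∀ σ ∈ A.decompositionSubgroup ℚ, ∃ χ τ : ℤ_[l],
        tateGal (toRat W) l σ (b 0) = χ • b 0 ∧
        tateGal (toRat W) l σ (b 1) = τ • b 0 + (brSign α σ : ℤ_[l]) • b 1 ∧
        LinearMap.det (tateGal (toRat W) l σ) = χ * (brSign α σ : ℤ_[l]) := by
  obtain ⟨b, h0, h1⟩ := exists_ker_basis (tate_exists_basis (l := l) (toRat_Δ_ne_zero hΔ)).some
    (hM.phi (l := l)) (hM.phi_ne_zero hΔ hq hA)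
  have hker : ∀ x : TateW (toRat W) l, hM.phi x = 0 → ∃ c : ℤ_[l], x = c • b 0 := fun x hx =>
    ⟨_, ker_basis_spec b hM.phi h0 h1 hx⟩
  refine ⟨b, h0, hker, fun σ hσ => ?_⟩
  obtain ⟨χ, hχ⟩ := hker (tateGal (toRat W) l σ (b 0)) (by rw [hM.phi_smul hσ, h0, mul_zero])
  obtain ⟨τ, hτ⟩ := hker (tateGal (toRat W) l σ (b 1) - (brSign α σ : ℤ_[l]) • b 1) (by
    rw [map_sub, map_smul, hM.phi_smul hσ, smul_eq_mul, sub_self])
  have hτ' := sub_eq_iff_eq_add.mp hτ
  exact ⟨χ, τ, hχ, hτ', det_of_tri b _ hχ hτ'⟩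

/-- **The Steinberg relation.** -/
theorem Mult.steinberg (hΔ : W.Δ ≠ 0) (hq : q.Prime) (hA : A.LiesOverPrime q)
    (hM : Mult A.valuation ((toRat W)⁄Qbar) x₀ y₀ α β D) {σ τ : Γℚ}
    (hσ : σ ∈ A.decompositionSubgroup ℚ) (hτ : τ ∈ A.decompositionSubgroup ℚ)
    (x : TateW (toRat W) l) :
    tateGal (toRat W) l σ (tateGal (toRat W) l τ x - (brSign α τ : ℤ_[l]) • x) =
      (LinearMap.det (tateGal (toRat W) l σ) * (brSign α σ : ℤ_[l])) •
        (tateGal (toRat W) l τ x - (brSign α τ : ℤ_[l]) • x) := by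
  obtain ⟨b, h0, hker, h⟩ := hM.exists_basis hΔ hq hA l
  obtain ⟨χ, t, e0, e1, e2⟩ := h σ hσ
  obtain ⟨c, hc⟩ := hker (tateGal (toRat W) l τ x - (brSign α τ : ℤ_[l]) • x) (by
    rw [map_sub, map_smul, hM.phi_smul hτ, smul_eq_mul, sub_self])
  have h3 : (brSign α σ : ℤ_[l]) * (brSign α σ : ℤ_[l]) = 1 := by
    rw [← Int.cast_mul, brSign_mul_self, Int.cast_one]
  rw [hc, map_smul, e0, e2, mul_assoc, h3, mul_one, smul_smul, smul_smul, mul_comm]

theorem mult_strict_aux (hΔ : W.Δ ≠ 0) (hlΔ : (l : ℤ) ∣ W.Δ) (hc : ¬ (l : ℤ) ∣ W.c₄)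
    (hA : A.LiesOverPrime l) :
    ∃ L : Submodule ℤ_[l] (TateW (toRat W) l),
      (∃ b : Module.Basis (Fin 2) ℤ_[l] (TateW (toRat W) l), L = Submodule.span ℤ_[l] {b 0}) ∧
      (∀ σ ∈ A.decompositionSubgroup ℚ, ∀ v ∈ L, tateGal (toRat W) l σ v ∈ L) ∧
      (∀ σ ∈ A.inertiaSubgroupIn ℚ, ∀ v, tateGal (toRat W) l σ v - v ∈ L) ∧
      (∀ σ ∈ A.decompositionSubgroup ℚ, ∃ x z : ℤ_[l],
        (∀ w ∈ L, tateGal (toRat W) l σ w = x • w) ∧
        (∀ v, tateGal (toRat W) l σ v - z • v ∈ L) ∧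
        ∀ (n a : ℕ), (∀ μ : AlgebraicClosure ℚ, μ ^ l ^ n = 1 → σ μ = μ ^ a) →
          x - (a : ℤ_[l]) * z ∈ Ideal.span {((l ^ n : ℕ) : ℤ_[l])}) := by
  have hl := (Fact.out : l.Prime)
  obtain ⟨x₀, y₀, α, β, D, hM⟩ := exists_multData W hΔ hl hA hlΔ hc
  obtain ⟨b, h0, hker, h⟩ := hM.exists_basis hΔ hl hA l
  have hmem : ∀ x : TateW (toRat W) l, hM.phi x = 0 → x ∈ Submodule.span ℤ_[l] {b 0} :=
    fun x hx => by
      obtain ⟨c, hc⟩ := hker x hx
      rw [hc]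
      exact Submodule.smul_mem _ _ (Submodule.mem_span_singleton_self _)
  refine ⟨Submodule.span ℤ_[l] {b 0}, ⟨b, rfl⟩, ?_, ?_, ?_⟩
  · intro σ hσ v hv
    obtain ⟨c, rfl⟩ := Submodule.mem_span_singleton.mp hv
    obtain ⟨χ, -, e0, -⟩ := h σ hσ
    rw [map_smul, e0]
    exact Submodule.smul_mem _ _ (Submodule.smul_mem _ _ (Submodule.mem_span_singleton_self _))
  · intro σ hσ v
    apply hmem
    rw [map_sub, hM.phi_gal (decomp_of_inertia hσ) (hM.gal_inertia hσ).1, sub_self]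
  · intro σ hσ
    obtain ⟨χ, t, e0, e1, e2⟩ := h σ hσ
    refine ⟨χ, (brSign α σ : ℤ_[l]), ?_, ?_, ?_⟩
    · intro w hw
      obtain ⟨c, rfl⟩ := Submodule.mem_span_singleton.mp hw
      rw [map_smul, e0, smul_comm]
    · intro v
      apply hmem
      rw [map_sub, map_smul, hM.phi_smul hσ, smul_eq_mul, sub_self]
    · intro n a ha
      have h1 : LinearMap.det (tateGal (toRat W) l σ) - (a : ℤ_[l]) ∈ _ :=
        (detIsCyclotomic (l := l) W hΔ).2 n σ a ha
      have h3 : (brSign α σ : ℤ_[l]) * (brSign α σ : ℤ_[l]) = 1 := by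
        rw [← Int.cast_mul, brSign_mul_self, Int.cast_one]
      have h4 : χ - (a : ℤ_[l]) * (brSign α σ : ℤ_[l]) =
          (LinearMap.det (tateGal (toRat W) l σ) - (a : ℤ_[l])) * (brSign α σ : ℤ_[l]) := by
        rw [e2]; linear_combination (-χ) * h3
      rw [h4]
      exact Ideal.mul_mem_right _ _ h1

/-- **Multiplicative reduction at `l`: the Tate module is strictly ordinary at `l`.** -/
theorem isStrictOrdinaryAt (hΔ : W.Δ ≠ 0) (hlΔ : (l : ℤ) ∣ W.Δ) (hc : ¬ (l : ℤ) ∣ W.c₄) :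
    (tateRep (toRat W) l (toRat_Δ_ne_zero hΔ)).IsStrictOrdinaryAt l :=
  ⟨by rw [PadicInt.maximalIdeal_eq_span_p]; exact Ideal.mem_span_singleton_self _,
    fun _ hA => mult_strict_aux hΔ hlΔ hc hA⟩

end rat

end Fermat.Agent.ECRep
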