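import Fermat.Agent.ECRep.MultTors

set_option autoImplicit false
set_option linter.unusedSectionVars false

/-!
# The Tate module at a place of multiplicative reduction
-/

namespace Fermat.Agent.ECRep

open WeierstrassCurve WeierstrassCurve.Affine WeierstrassCurve.Affine.Point
open scoped WeierstrassCurve.Affine
open Fermat.Agent.EC Fermat.Agent.DivPoly Fermat.Agent.S13lib

local notation "Qbar" => AlgebraicClosure ℚ
local notation "Γℚ" => (AlgebraicClosure ℚ ≃ₐ[ℚ] AlgebraicClosure ℚ)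

section linalg

open Polynomial

variable {B : Type*} [CommRing B] [IsDomain B] {V : Type*} [AddCommGroup V] [Module B V]
  [Module.Free B V] [Module.Finite B V]

/-- A unipotent endomorphism in rank two. -/
theorem charpoly_of_unip (hV : Module.finrank B V = 2) (f : Module.End B V)
    (h : ∀ x, f (f x - x) = f x - x) : LinearMap.charpoly f = (X - 1) ^ 2 := by
  have key : (X - 1 : B[X]) ^ 2 = X ^ 2 - C 2 * X + C 1 := by
    rw [map_one, map_ofNat]; ring
  by_cases hs : ∃ c : B, ∀ x, f x = c • x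
  · obtain ⟨c, hc⟩ := hs
    let b := Cheb.basis2 hV
    have h0 := h (b 0)
    rw [hc (b 0), hc (c • b 0 - b 0)] at h0
    have h1 := congrArg (fun v => b.repr v 0) h0
    simp only [map_sub, map_smul, Finsupp.sub_apply, Finsupp.smul_apply, Module.Basis.repr_self,
      Finsupp.single_eq_same, smul_eq_mul, mul_one] at h1
    have h2 : (c - 1) ^ 2 = 0 := by linear_combination h1
    have h3 : c = 1 := sub_eq_zero.mp (pow_eq_zero_iff two_ne_zero |>.mp h2)
    have hf : f = 1 := LinearMap.ext fun x => by rw [hc, h3, one_smul]; rfl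
    rw [Cheb.charpoly_eq hV, hf, LinearMap.trace_one, hV, map_one, key]
    norm_num
  · rw [key]
    refine charpoly_of_rel hV f (fun x => ?_) hs
    have h1 := h x
    rw [map_sub] at h1
    linear_combination (norm := module) h1

end linalg

section rat

variable (W : WeierstrassCurve ℤ) {A : ValuationSubring (AlgebraicClosure ℚ)} {q : ℕ}
  {l : ℕ} [Fact l.Prime]

lemma not_dvd_pow (hq : q.Prime) (hql : q ≠ l) (n : ℕ) : ¬ q ∣ l ^ n := fun h =>
  hql ((Nat.prime_dvd_prime_iff_eq hq Fact.out).mp (hq.dvd_of_dvd_pow h))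

/-- **Multiplicative reduction: inertia is unipotent on the Tate module.** -/
theorem isUnipotentOnInertiaAt (hΔ : W.Δ ≠ 0) (hq : q.Prime) (hql : q ≠ l)
    (hqΔ : (q : ℤ) ∣ W.Δ) (hc : ¬ (q : ℤ) ∣ W.c₄) :
    (tateRep (toRat W) l (toRat_Δ_ne_zero hΔ)).IsUnipotentOnInertiaAt q := by
  intro A hA σ hσ
  obtain ⟨x₀, y₀, α, β, D, hM⟩ := exists_multData W hΔ hq hA hqΔ hc
  refine charpoly_of_unip (tateRep (toRat W) l (toRat_Δ_ne_zero hΔ)).finrank_eq _ ?_
  intro x
  have key : ∀ y : TateW (toRat W) l,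
      tateGal (toRat W) l σ (tateGal (toRat W) l σ y - y) = tateGal (toRat W) l σ y - y := by
    intro y
    refine Tate.ext fun n => ?_
    rw [tateGal_coe, Tate.coe_sub, tateGal_coe]
    exact mult_inertia_sq hq hA hM hσ (not_dvd_pow hq hql n) (y.torsion n)
  exact key x

variable {W}

/-- a toric torsion point of exact order `l ^ (n + 1)` -/
theorem mult_exists_ns (hΔ : W.Δ ≠ 0) (hq : q.Prime) (hql : q ≠ l) (hA : A.LiesOverPrime q)
    {x₀ y₀ α β D : Qbar} (hM : Mult A.valuation ((toRat W)⁄Qbar) x₀ y₀ α β D) (n : ℕ) :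
    ∃ P : ((toRat W)⁄Qbar).Point, NS A.valuation P ∧ l ^ (n + 1) • P = 0 ∧ l ^ n • P ≠ 0 := by
  by_contra hcon
  push Not at hcon
  have h1 := (mult_card hΔ hq hA hM (not_dvd_pow hq hql (l := l) (n + 1))).1
  have h2 := (mult_card hΔ hq hA hM (not_dvd_pow hq hql (l := l) n)).1
  have hl := (Fact.out : l.Prime)
  have hpos : 0 < l ^ n := pow_pos hl.pos n
  have hfin : Finite {P : tN ((toRat W)⁄Qbar) (l ^ n) //
      NS A.valuation (P : ((toRat W)⁄Qbar).Point)} :=
    Nat.finite_of_card_ne_zero (by rw [h2]; exact hpos.ne')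
  let f : {P : tN ((toRat W)⁄Qbar) (l ^ (n + 1)) //
      NS A.valuation (P : ((toRat W)⁄Qbar).Point)} → {P : tN ((toRat W)⁄Qbar) (l ^ n) //
      NS A.valuation (P : ((toRat W)⁄Qbar).Point)} := fun P =>
    ⟨⟨P.1.1, hcon P.1.1 P.2 P.1.2⟩, P.2⟩
  have hf : Function.Injective f := fun P Q h => by
    apply Subtype.ext
    apply Subtype.ext
    have := congrArg (fun z => z.1.1) h
    exact this
  have h3 := Nat.card_le_card_of_injective f hf
  rw [h1, h2, pow_succ] at h3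
  have h4 := hl.two_le
  nlinarith

/-- the relation satisfied by an element of the decomposition group acting on the toric part by a
known scalar -/
theorem trace_of_ns_scalar (hΔ : W.Δ ≠ 0) (hq : q.Prime) (hql : q ≠ l)
    (hA : A.LiesOverPrime q) {x₀ y₀ α β D : Qbar}
    (hM : Mult A.valuation ((toRat W)⁄Qbar) x₀ y₀ α β D) {σ : Γℚ} {e : ℤ}
    (he : ∀ n : ℕ, ∀ P : ((toRat W)⁄Qbar).Point, NS A.valuation P → l ^ n • P = 0 →
      σ • P = e • P) :
    (e : ℤ_[l]) ^ 2 - LinearMap.trace ℤ_[l] _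
      ((tateRep (toRat W) l (toRat_Δ_ne_zero hΔ)).ρ σ) * e +
      LinearMap.det ((tateRep (toRat W) l (toRat_Δ_ne_zero hΔ)).ρ σ) = 0 := by
  set ρ := tateRep (toRat W) l (toRat_Δ_ne_zero hΔ) with hρ
  set t := LinearMap.trace ℤ_[l] ρ.V (ρ.ρ σ) with ht
  set d := LinearMap.det (ρ.ρ σ) with hd
  have hl := (Fact.out : l.Prime)
  have hmax : ((l : ℕ) : ℤ_[l]) ∈ IsLocalRing.maximalIdeal ℤ_[l] := by
    rw [PadicInt.maximalIdeal_eq_span_p]; exact Ideal.mem_span_singleton_self _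
  refine eq_of_forall_sub_mem hmax fun n => ?_
  rw [sub_zero]
  rcases Nat.eq_zero_or_pos n with rfl | hn
  · rw [pow_zero, Nat.cast_one, Ideal.span_singleton_one]; trivial
  obtain ⟨m, rfl⟩ := Nat.exists_eq_succ_of_ne_zero hn.ne'
  obtain ⟨P, hns, hP1, hP2⟩ := mult_exists_ns hΔ hq hql hA hM m
  obtain ⟨x, hx⟩ := exists_lift (hcard_of_Δ (l := l) (toRat_Δ_ne_zero hΔ)) hP1
  have hCH : tateGal (toRat W) l σ (tateGal (toRat W) l σ x) - t • tateGal (toRat W) l σ x +
      d • x = 0 := cayley_two ρ.finrank_eq (ρ.ρ σ) x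
  have h0 := congrArg (fun y : TateW (toRat W) l => y.1 (m + 1)) hCH
  simp only [Tate.coe_add, Tate.coe_sub, Tate.smul_coe, tateGal_coe, Tate.coe_zero, hx] at h0
  rw [he (m + 1) P hns hP1, smul_zsmul', he (m + 1) P hns hP1] at h0
  have hz : (e * e - (t.appr (m + 1) : ℤ) * e + (d.appr (m + 1) : ℤ)) • P = 0 := by
    rw [add_zsmul, sub_zsmul, mul_zsmul, mul_zsmul, natCast_zsmul, natCast_zsmul]
    exact h0
  rw [← addOrderOf_dvd_iff_zsmul_eq_zero, addOrderOf_eq_prime_pow hP2 hP1] at hz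
  have h3 : (e : ℤ_[l]) ^ 2 - t * e + d =
      ((e * e - (t.appr (m + 1) : ℤ) * e + (d.appr (m + 1) : ℤ) : ℤ) : ℤ_[l]) -
        (t - t.appr (m + 1)) * e + (d - d.appr (m + 1)) := by
    push_cast; ring
  rw [h3]
  have h4 : ∀ c : ℤ_[l], c - c.appr (m + 1) ∈ Ideal.span {((l ^ (m + 1) : ℕ) : ℤ_[l])} := by
    intro c
    rw [Nat.cast_pow]
    exact PadicInt.appr_spec (m + 1) c
  refine Ideal.add_mem _ (Ideal.sub_mem _ ?_ (Ideal.mul_mem_right _ _ (h4 t))) (h4 d)
  rw [Ideal.mem_span_singleton]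
  have := (Int.castRingHom ℤ_[l]).map_dvd hz
  simpa using this

/-- **The characteristic polynomial of Frobenius at a multiplicative prime.** -/
theorem charpoly_frob_mult' (hΔ : W.Δ ≠ 0) (hq : q.Prime) (hql : q ≠ l)
    (hA : A.LiesOverPrime q) {x₀ y₀ α β D : Qbar}
    (hM : Mult A.valuation ((toRat W)⁄Qbar) x₀ y₀ α β D) {σ : Γℚ}
    (hσ : A.IsFrobeniusAt σ q) :
    (σ α = α → LinearMap.charpoly ((tateRep (toRat W) l (toRat_Δ_ne_zero hΔ)).ρ σ) =
      Polynomial.X ^ 2 - Polynomial.C ((q : ℤ_[l]) + 1) * Polynomial.X +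
        Polynomial.C (q : ℤ_[l])) ∧
    (σ α = β → LinearMap.charpoly ((tateRep (toRat W) l (toRat_Δ_ne_zero hΔ)).ρ σ) =
      Polynomial.X ^ 2 + Polynomial.C ((q : ℤ_[l]) + 1) * Polynomial.X +
        Polynomial.C (q : ℤ_[l])) := by
  have hdet := det_frob_of_detIsCyclotomic Fact.out _ (detIsCyclotomic (l := l) W hΔ) hq hql hA hσ
  have hq0 : (q : ℤ_[l]) ≠ 0 := Nat.cast_ne_zero.mpr hq.ne_zero
  rw [Cheb.charpoly_eq (tateRep (toRat W) l (toRat_Δ_ne_zero hΔ)).finrank_eq]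
  constructor
  · intro hα
    have h := trace_of_ns_scalar (l := l) (e := (q : ℤ)) hΔ hq hql hA hM (σ := σ)
      (fun n P hns hP => by
        rw [natCast_zsmul]
        exact (mult_frob_ns hq hA hM hσ (not_dvd_pow hq hql n) hns hP).1 hα)
    rw [hdet] at h ⊢
    have ht : LinearMap.trace ℤ_[l] _
        ((tateRep (toRat W) l (toRat_Δ_ne_zero hΔ)).ρ σ) = (q : ℤ_[l]) + 1 := by
      apply mul_right_cancel₀ hq0
      rw [Int.cast_natCast] at h
      linear_combination -h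
    rw [ht]
  · intro hα
    have h := trace_of_ns_scalar (l := l) (e := -(q : ℤ)) hΔ hq hql hA hM (σ := σ)
      (fun n P hns hP => by
        rw [neg_zsmul, natCast_zsmul]
        exact (mult_frob_ns hq hA hM hσ (not_dvd_pow hq hql n) hns hP).2 hα)
    rw [hdet] at h ⊢
    have ht : LinearMap.trace ℤ_[l] _
        ((tateRep (toRat W) l (toRat_Δ_ne_zero hΔ)).ρ σ) = -((q : ℤ_[l]) + 1) := by
      apply mul_right_cancel₀ hq0
      rw [Int.cast_neg, Int.cast_natCast] at h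
      linear_combination h
    rw [ht, map_neg]
    ring

/-- **The characteristic polynomial of Frobenius at a multiplicative prime.** -/
theorem charpoly_frob_mult (hΔ : W.Δ ≠ 0) (hq : q.Prime) (hql : q ≠ l)
    (hqΔ : (q : ℤ) ∣ W.Δ) (hc : ¬ (q : ℤ) ∣ W.c₄) (hA : A.LiesOverPrime q) {σ : Γℚ}
    (hσ : A.IsFrobeniusAt σ q) :
    LinearMap.charpoly ((tateRep (toRat W) l (toRat_Δ_ne_zero hΔ)).ρ σ) =
      Polynomial.X ^ 2 - Polynomial.C ((q : ℤ_[l]) + 1) * Polynomial.X +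
        Polynomial.C (q : ℤ_[l]) ∨
    LinearMap.charpoly ((tateRep (toRat W) l (toRat_Δ_ne_zero hΔ)).ρ σ) =
      Polynomial.X ^ 2 + Polynomial.C ((q : ℤ_[l]) + 1) * Polynomial.X +
        Polynomial.C (q : ℤ_[l]) := by
  obtain ⟨x₀, y₀, α, β, D, hM⟩ := exists_multData W hΔ hq hA hqΔ hc
  have h := charpoly_frob_mult' (l := l) hΔ hq hql hA hM hσ
  rcases (hM.gal hσ.mem_decompositionSubgroup).2.2.2 with h1 | h1
  · exact Or.inl (h.1 h1.1)
  · exact Or.inr (h.2 h1.1)

end rat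

end Fermat.Agent.ECRep
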