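import Fermat.Agent.ECRep.InertiaField
import Fermat.Agent.ECRep.MultRep

set_option autoImplicit false
set_option linter.unusedSectionVars false

/-!
# Ramification at a place of multiplicative reduction
-/

namespace Fermat.Agent.ECRep

open WeierstrassCurve WeierstrassCurve.Affine WeierstrassCurve.Affine.Point
open scoped WeierstrassCurve.Affine
open Fermat.Agent.EC Fermat.Agent.DivPoly Fermat.Agent.S13lib

local notation "Qbar" => AlgebraicClosure ℚ
local notation "Γℚ" => (AlgebraicClosure ℚ ≃ₐ[ℚ] AlgebraicClosure ℚ)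

section general

variable {k L : Type*} [Field k] [Field L] [CharZero L] [Algebra k L] [Algebra.IsAlgebraic k L]
  [DecidableEq L] {A : ValuationSubring L} {W : WeierstrassCurve k} {x₀ y₀ α β D : L}

/-- inertia moves a point very little if its coordinate has the valuation of a rational element -/
theorem Mult.inertia_E1 (hM : Mult A.valuation (W⁄L) x₀ y₀ α β D) {σ : L ≃ₐ[k] L}
    (hσ : σ ∈ A.inertiaSubgroupIn k) {P : (W⁄L).Point} (hns : ¬ NS A.valuation P)
    (hle : A.valuation (uc x₀ y₀ α P) ≤ A.valuation (uc x₀ y₀ β P)) {c : L}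
    (hc : A.valuation (uc x₀ y₀ β P) = A.valuation c) (hσc : σ c = c) :
    E1 A.valuation (σ • P - P) := by
  rcases eq_or_ne (σ • P) P with he | hne
  · rw [he, sub_self]; exact E1_zero _
  obtain ⟨hP0, hx, hu, hw⟩ := hM.not_ns hns
  obtain ⟨hα, hβ⟩ := hM.gal_inertia hσ
  have hdec := decomp_of_inertia hσ
  obtain ⟨hx₀, hy₀, -, -⟩ := hM.gal hdec
  have hσP0 : σ • P ≠ 0 := smul_ne_zero' hP0
  have hnP0 : -P ≠ 0 := neg_ne_zero.mpr hP0
  have hsum : σ • P + -P ≠ 0 := by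
    rw [← sub_eq_add_neg]; exact sub_ne_zero.mpr hne
  have hXP : A.valuation (xc P - x₀) ≤ A.valuation (uc x₀ y₀ β P) ∧
      0 < A.valuation (uc x₀ y₀ β P) := by
    rcases hM.cases hns with ⟨h1, h2, -⟩ | ⟨h1, -, -⟩ | ⟨-, -, h2, h3⟩
    · exact ⟨h2.le, lt_of_le_of_lt zero_le h1⟩
    · exact absurd hle (not_le.mpr h1)
    · exact ⟨h2, h3⟩
  obtain ⟨hXP, hw0⟩ := hXP
  have hXσ : xc (σ • P) - x₀ = σ (xc P - x₀) := by rw [xc_smul, map_sub, hx₀]
  obtain ⟨a, b, μ, hab, -, -, -, e1, -, -, R1, -⟩ := hM.line hσP0 hnP0 hsum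
  rw [hM.uc_neg hP0, uc_smul hx₀ hy₀ hβ, hXσ, xc_neg] at R1
  rw [hXσ, xc_neg] at e1
  have vσX : A.valuation (σ (xc P - x₀)) = A.valuation (xc P - x₀) := v_smul hdec _
  have hC := v_C_le (v := A.valuation) (vσX.trans_le hXP) hXP
  have hC' := lt_of_le_of_lt hC (pow_two_lt_self hw0 hw)
  set w := uc x₀ y₀ β P with hwdef
  set C := σ (xc P - x₀) ^ 2 + σ (xc P - x₀) * (xc P - x₀) + (xc P - x₀) ^ 2 with hCdef
  have hc0 : c ≠ 0 := by
    rintro rfl
    rw [hc, _root_.map_zero] at hw0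
    exact lt_irrefl _ hw0
  have hvc : 0 < A.valuation c := zero_lt_iff.mpr ((map_ne_zero _).mpr hc0)
  have hdw : A.valuation (σ w - w) < A.valuation w := by
    have h1 : A.valuation (w / c) = 1 := by rw [map_div₀, hc, div_self hvc.ne']
    have h2 := inertia_sub_lt_one hσ ((A.valuation_le_one_iff _).mp h1.le)
    rw [map_div₀, hσc, ← sub_div, map_div₀, div_lt_one₀ hvc] at h2
    rwa [hc]
  have key : a * (σ w - w) = (α - β) * w + C := by
    rw [← R1, ← hab]; ring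
  have hv : A.valuation a * A.valuation (σ w - w) = A.valuation w := by
    rw [← _root_.map_mul, key, Valuation.map_add_eq_of_lt_left, _root_.map_mul, hM.vδ, one_mul]
    rw [_root_.map_mul, hM.vδ, one_mul]; exact hC'
  have ha : 1 < A.valuation a := by
    by_contra hcon
    rw [not_lt] at hcon
    have : A.valuation a * A.valuation (σ w - w) < A.valuation w := by
      calc A.valuation a * A.valuation (σ w - w) ≤ 1 * A.valuation (σ w - w) := by gcongr
        _ < A.valuation w := by rwa [one_mul]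
    exact this.ne hv
  have hb : A.valuation b = A.valuation a := by
    have : b = a + (α - β) := by rw [← hab]; ring
    rw [this, Valuation.map_add_eq_of_lt_left]
    rw [hM.vδ]; exact ha
  have h3 : 1 < A.valuation (xc (σ • P + -P) - x₀) := by
    have h4 : xc (σ • P + -P) - x₀ = a * b - (σ (xc P - x₀) + (xc P - x₀)) := by
      rw [e1]; ring
    have h5 : 1 < A.valuation (a * b) := by
      rw [_root_.map_mul, hb]; exact one_lt_mul'' ha ha
    have h6 : A.valuation (σ (xc P - x₀) + (xc P - x₀)) < 1 :=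
      v_add_lt_one _ (vσX.trans_lt hx) hx
    rw [h4, Valuation.map_sub_eq_of_lt_left _ (h6.trans h5)]
    exact h5
  rw [sub_eq_add_neg, E1_iff_xc hsum]
  have h7 : xc (σ • P + -P) = (xc (σ • P + -P) - x₀) + x₀ := by ring
  rw [h7, Valuation.map_add_eq_of_lt_left]
  · exact h3
  · exact lt_of_le_of_lt hM.vx h3

end general

section rat

variable (W : WeierstrassCurve ℤ) {A : ValuationSubring (AlgebraicClosure ℚ)} {q : ℕ}

theorem v_Δ_eq (hΔ : W.Δ ≠ 0) (hq : q.Prime) (hA : A.LiesOverPrime q) :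
    A.valuation (W.Δ : Qbar) = A.valuation (q : Qbar) ^ padicValInt q W.Δ := by
  obtain ⟨k, m, h1, h2, h3⟩ := exists_v_int (L := Qbar) hq hA hΔ
  have := Fact.mk hq
  have hm0 : m ≠ 0 := by rintro rfl; exact h2 (dvd_zero _)
  have : padicValInt q W.Δ = k := by
    rw [h1, padicValInt.mul (pow_ne_zero k (by exact_mod_cast hq.ne_zero)) hm0,
      padicValInt.eq_zero_of_not_dvd h2, add_zero]
    have : ((q : ℤ) ^ k) = ((q ^ k : ℕ) : ℤ) := by push_cast; rfl
    rw [this, padicValInt.of_nat, padicValNat.prime_pow]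
  rw [this]; exact h3

variable {W}

/-- **Inertia acts trivially on `W[m]` if `m` divides `v_q(Δ)`.** -/
theorem mult_unr_of_dvd (hΔ : W.Δ ≠ 0) (hq : q.Prime) (hqΔ : (q : ℤ) ∣ W.Δ)
    (hc : ¬ (q : ℤ) ∣ W.c₄) (hA : A.LiesOverPrime q) {m : ℕ} (hm : ¬ q ∣ m)
    (hdvd : m ∣ padicValInt q W.Δ) {σ : Γℚ} (hσ : σ ∈ A.inertiaSubgroupIn ℚ)
    {P : ((toRat W)⁄Qbar).Point} (hP : m • P = 0) : σ • P = P := by
  obtain ⟨x₀, y₀, α, β, D, hM⟩ := exists_multData W hΔ hq hA hqΔ hc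
  by_cases hns : NS A.valuation P
  · exact mult_inertia_ns hq hA hM hσ hm hns hP
  have hm0 : m ≠ 0 := by rintro rfl; exact hm (dvd_zero q)
  have hq0 : 0 < A.valuation (q : Qbar) := v_prime_pos hq
  obtain ⟨N', hN'⟩ := hdvd
  obtain ⟨j, hj⟩ := hM.exists_idx hP
  have hvD : A.valuation D = (A.valuation (q : Qbar) ^ N') ^ m := by
    rw [v_D_eq W hM, v_Δ_eq W hΔ hq hA, hN', mul_comm, pow_mul]
  have hkap : kap A.valuation x₀ y₀ α β D P = A.valuation (q : Qbar) ^ ((N' : ℤ) * j) := by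
    have h1 : kap A.valuation x₀ y₀ α β D P ^ m =
        (A.valuation (q : Qbar) ^ ((N' : ℤ) * j)) ^ m := by
      have e1 : A.valuation (q : Qbar) ^ N' = A.valuation (q : Qbar) ^ (N' : ℤ) :=
        (zpow_natCast _ _).symm
      have e2 : ∀ z : A.ValueGroup, z ^ m = z ^ (m : ℤ) := fun z => (zpow_natCast _ _).symm
      rw [hj, hvD, e1, e2 (A.valuation (q : Qbar) ^ (N' : ℤ)),
        e2 (A.valuation (q : Qbar) ^ ((N' : ℤ) * j)), ← zpow_mul, ← zpow_mul, ← zpow_mul]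
      congr 1; ring
    exact (pow_left_inj₀ zero_le zero_le hm0).mp h1
  have hE1 : E1 A.valuation (σ • P - P) := by
    rw [kap_of_not_ns hns] at hkap
    have hfix : ∀ i : ℤ, σ ((q : Qbar) ^ i) = (q : Qbar) ^ i := fun i => by
      rw [map_zpow₀, map_natCast]
    rcases le_or_gt (A.valuation (uc x₀ y₀ α P)) (A.valuation (uc x₀ y₀ β P)) with hle | hlt
    · rw [kap0_of_le hle] at hkap
      exact hM.inertia_E1 hσ hns hle (c := (q : Qbar) ^ ((N' : ℤ) * j))
        (by rw [hkap, map_zpow₀]) (hfix _)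
    · rw [kap0_of_lt hlt] at hkap
      have hu0 := lt_of_le_of_lt zero_le hlt
      refine hM.symm.inertia_E1 hσ hns hlt.le
        (c := (q : Qbar) ^ (((N' * m : ℕ) : ℤ) - (N' : ℤ) * j)) ?_ (hfix _)
      rw [map_zpow₀, zpow_sub₀ hq0.ne', zpow_natCast, pow_mul, ← hvD, ← hkap,
        div_div_cancel₀ (hM.vD_pos.ne')]
  have h3 : m • (σ • P - P) = 0 := by
    rw [nsmul_sub, ← smul_nsmul', hP, smul_zero'', sub_zero]
  exact sub_eq_zero.mp (hE1.eq_zero_of_nsmul_eq_zero hM.int (v_natCast_eq_one hq hA hm) h3)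

/-- **If inertia acts trivially on `W[m]` then `m` divides `v_q(Δ)`.** -/
theorem mult_dvd_of_unr (hΔ : W.Δ ≠ 0) (hq : q.Prime) (hqΔ : (q : ℤ) ∣ W.Δ)
    (hc : ¬ (q : ℤ) ∣ W.c₄) (hA : A.LiesOverPrime q) {m : ℕ} (hm : ¬ q ∣ m)
    (h : ∀ σ ∈ A.inertiaSubgroupIn ℚ, ∀ P : ((toRat W)⁄Qbar).Point, m • P = 0 → σ • P = P) :
    m ∣ padicValInt q W.Δ := by
  obtain ⟨x₀, y₀, α, β, D, hM⟩ := exists_multData W hΔ hq hA hqΔ hc
  have hm0 : m ≠ 0 := by rintro rfl; exact hm (dvd_zero q)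
  rcases eq_or_ne m 1 with rfl | hm1
  · exact one_dvd _
  have := Fact.mk hq
  have hq0 : 0 < A.valuation (q : Qbar) := v_prime_pos hq
  have hq1 : A.valuation (q : Qbar) < 1 := v_prime_lt_one hA
  obtain ⟨P, hP⟩ := (mult_card hΔ hq hA hM hm).2 1
  have hns : ¬ NS A.valuation (P : ((toRat W)⁄Qbar).Point) := by
    intro hns
    rw [← hM.idx_eq_zero_iff hm0, hP] at hns
    have : (1 : ZMod m) ≠ 0 := by
      have : Fact (1 < m) := ⟨by omega⟩
      exact one_ne_zero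
    exact this hns
  have hj := hM.ex_spec m P
  have hjm : ((hM.ex m P : ℤ) : ZMod m) = ((1 : ℤ) : ZMod m) := by
    rw [Int.cast_one]; exact hP
  generalize hM.ex m P = j at hj hjm
  have hfixu : ∀ γ : Qbar, (∀ σ ∈ A.inertiaSubgroupIn ℚ, σ γ = γ) →
      ∀ σ ∈ A.inertiaSubgroupIn ℚ, σ (uc x₀ y₀ γ (P : ((toRat W)⁄Qbar).Point)) =
        uc x₀ y₀ γ (P : ((toRat W)⁄Qbar).Point) := by
    intro γ hγ σ hσ
    obtain ⟨hx, hy, -, -⟩ := hM.gal (decomp_of_inertia hσ)
    rw [← uc_smul hx hy (hγ σ hσ), h σ hσ _ P.2]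
  have hfu := hfixu α fun σ hσ => (hM.gal_inertia hσ).1
  have hfw := hfixu β fun σ hσ => (hM.gal_inertia hσ).2
  have hvD : A.valuation D = A.valuation (q : Qbar) ^ padicValInt q W.Δ := by
    rw [v_D_eq W hM, v_Δ_eq W hΔ hq hA]
  have hkap : ∃ i : ℤ, kap A.valuation x₀ y₀ α β D (P : ((toRat W)⁄Qbar).Point) =
      A.valuation (q : Qbar) ^ i := by
    rw [kap_of_not_ns hns]
    rcases le_or_gt (A.valuation (uc x₀ y₀ α (P : ((toRat W)⁄Qbar).Point)))
      (A.valuation (uc x₀ y₀ β (P : ((toRat W)⁄Qbar).Point))) with hle | hlt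
    · rw [kap0_of_le hle]
      refine exists_zpow_of_fixed hq hA ?_ hfw
      intro h0
      have := (hM.kap_pos (P : ((toRat W)⁄Qbar).Point))
      rw [kap_of_not_ns hns, kap0_of_le hle, h0, _root_.map_zero] at this
      exact lt_irrefl _ this
    · rw [kap0_of_lt hlt]
      have hu0 := lt_of_le_of_lt zero_le hlt
      obtain ⟨i, hi⟩ := exists_zpow_of_fixed hq hA
        (by intro h0; rw [h0, _root_.map_zero] at hu0; exact lt_irrefl _ hu0) hfu
      refine ⟨(padicValInt q W.Δ : ℤ) - i, ?_⟩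
      rw [hi, hvD, zpow_sub₀ hq0.ne', zpow_natCast]
  obtain ⟨i, hi⟩ := hkap
  rw [hi, hvD, ← zpow_natCast, ← zpow_natCast, ← zpow_mul, ← zpow_mul] at hj
  have hij : i * m = padicValInt q W.Δ * j := (zpow_right_strictAnti₀ hq0 hq1).injective hj
  rw [ZMod.intCast_eq_intCast_iff_dvd_sub] at hjm
  obtain ⟨t, ht⟩ := hjm
  have hdvd : (m : ℤ) ∣ (padicValInt q W.Δ : ℤ) := by
    refine ⟨i + padicValInt q W.Δ * t, ?_⟩
    have hj' : j = 1 - m * t := by linarith
    rw [hj'] at hij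
    linear_combination -hij
  exact_mod_cast hdvd

variable {l : ℕ} [Fact l.Prime]

/-- **Unramifiedness of `W[l]` at a multiplicative prime `q ≠ l`.** -/
theorem resRep_isUnramifiedAt_iff (hΔ : W.Δ ≠ 0) (hq : q.Prime) (hql : q ≠ l)
    (hqΔ : (q : ℤ) ∣ W.Δ) (hc : ¬ (q : ℤ) ∣ W.c₄) :
    (resRep (toRat W) l (toRat_Δ_ne_zero hΔ)).IsUnramifiedAt q ↔ l ∣ padicValInt q W.Δ := by
  have hn : ¬ q ∣ l := fun h => hql ((Nat.prime_dvd_prime_iff_eq hq Fact.out).mp h)
  constructor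
  · intro h
    obtain ⟨A, hA⟩ := Frob.exists_liesOverPrime Qbar hq
    refine mult_dvd_of_unr hΔ hq hqΔ hc hA hn fun σ hσ P hP => ?_
    have hmem : P ∈ Submodule.torsionBy ℤ ((toRat W)⁄Qbar).Point (l : ℤ) := by
      rw [Submodule.mem_torsionBy_iff, natCast_zsmul]; exact hP
    have h1 := LinearMap.congr_fun (h A hA σ hσ) ⟨P, hmem⟩
    exact congrArg Subtype.val h1
  · intro hdvd A hA σ hσ
    refine LinearMap.ext fun x => ?_
    have hx : l • (x.1 : ((toRat W)⁄Qbar).Point) = 0 := by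
      have := x.2
      rw [Submodule.mem_torsionBy_iff, natCast_zsmul] at this
      exact this
    exact Subtype.ext (mult_unr_of_dvd hΔ hq hqΔ hc hA hn hdvd hσ hx)

/-- **The Tate module is ramified at a multiplicative prime `q ≠ l`.** -/
theorem tateRep_not_isUnramifiedAt (hΔ : W.Δ ≠ 0) (hq : q.Prime) (hql : q ≠ l)
    (hqΔ : (q : ℤ) ∣ W.Δ) (hc : ¬ (q : ℤ) ∣ W.c₄) :
    ¬ (tateRep (toRat W) l (toRat_Δ_ne_zero hΔ)).IsUnramifiedAt q := by
  intro h
  obtain ⟨A, hA⟩ := Frob.exists_liesOverPrime Qbar hq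
  have := Fact.mk hq
  have hl := (Fact.out : l.Prime)
  have key : ∀ n : ℕ, l ^ n ∣ padicValInt q W.Δ := by
    intro n
    refine mult_dvd_of_unr hΔ hq hqΔ hc hA (not_dvd_pow hq hql n) fun σ hσ P hP => ?_
    obtain ⟨x, hx⟩ := exists_lift (hcard_of_Δ (l := l) (toRat_Δ_ne_zero hΔ)) hP
    have h1 : tateGal (toRat W) l σ x = x := LinearMap.congr_fun (h A hA σ hσ) x
    have h2 := congrArg (fun y : TateW (toRat W) l => y.1 n) h1
    simp only [tateGal_coe, hx] at h2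
    exact h2
  have hN : padicValInt q W.Δ ≠ 0 := by
    intro h0
    rw [padicValInt.eq_zero_iff] at h0
    rcases h0 with h0 | h0 | h0
    · exact hq.one_lt.ne' h0
    · exact hΔ h0
    · exact h0 hqΔ
  have h1 := Nat.le_of_dvd (Nat.pos_of_ne_zero hN) (key (padicValInt q W.Δ))
  exact absurd h1 (not_le.mpr (Nat.lt_pow_self hl.one_lt))

end rat

end Fermat.Agent.ECRep
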