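import Mathlib

set_option autoImplicit false

/-!
# The structure map of a complete local ring with residue characteristic `p`
-/

open IsLocalRing

namespace Fermat.Agent.ECRep

variable {p : ℕ} [Fact p.Prime]

theorem hom_appr {R : Type*} [CommRing R] (g : ℤ_[p] →+* R) {n : ℕ} (h : (p : R) ^ n = 0)
    (x : ℤ_[p]) : g x = (x.appr n : R) := by
  have h0 := PadicInt.appr_spec n x
  rw [Ideal.mem_span_singleton] at h0
  obtain ⟨d, hd⟩ := h0
  have h1 := congrArg g hd
  rw [map_sub, map_natCast, map_mul, map_pow, map_natCast, h, zero_mul] at h1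
  exact sub_eq_zero.mp h1

theorem exists_hom {R : Type*} [CommRing R] {n : ℕ} (h : (p : R) ^ n = 0) :
    Nonempty (ℤ_[p] →+* R) := by
  have := ringChar.charP R
  have hd : ringChar R ∣ p ^ n := (ringChar.spec R (p ^ n)).mp (by push_cast; exact h)
  exact ⟨(ZMod.castHom hd R).comp (PadicInt.toZModPow n)⟩

/-- **The structure map.** -/
theorem exists_padic_hom (O : Type*) [CommRing O] [IsLocalRing O]
    [IsAdicComplete (maximalIdeal O) O] (hp : (p : O) ∈ maximalIdeal O) :
    ∃ φ : ℤ_[p] →+* O, IsLocalHom φ := by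
  have hn : ∀ n : ℕ, (p : O ⧸ maximalIdeal O ^ n) ^ n = 0 := fun n => by
    rw [← map_natCast (Ideal.Quotient.mk (maximalIdeal O ^ n)), ← map_pow,
      Ideal.Quotient.eq_zero_iff_mem]
    exact Ideal.pow_mem_pow hp n
  let f : ∀ n : ℕ, ℤ_[p] →+* O ⧸ maximalIdeal O ^ n := fun n => (exists_hom (hn n)).some
  let φ : ℤ_[p] →+* O := IsAdicComplete.liftRingHom (maximalIdeal O) f (by
    intro m n hle
    ext x
    rw [hom_appr _ (hn m) x, hom_appr _ (hn m) x])
  refine ⟨φ, ⟨fun x hx => ?_⟩⟩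
  by_contra hnu
  have h1 : x ∈ maximalIdeal ℤ_[p] := (mem_maximalIdeal _).mpr hnu
  rw [PadicInt.maximalIdeal_eq_span_p, Ideal.mem_span_singleton] at h1
  obtain ⟨y, rfl⟩ := h1
  rw [map_mul, map_natCast] at hx
  exact (mem_maximalIdeal _).mp (Ideal.mul_mem_right (φ y) _ hp) hx

theorem padic_hom_injective {O : Type*} [CommRing O] [IsDomain O] [CharZero O]
    (φ : ℤ_[p] →+* O) : Function.Injective φ := by
  rw [injective_iff_map_eq_zero]
  intro x hx
  by_contra h0
  rw [PadicInt.unitCoeff_spec h0, map_mul, map_pow, map_natCast] at hx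
  rcases mul_eq_zero.mp hx with h | h
  · exact ((PadicInt.unitCoeff h0).isUnit.map φ).ne_zero h
  · exact pow_ne_zero _ (Nat.cast_ne_zero.mpr (Fact.out : p.Prime).ne_zero) h

end Fermat.Agent.ECRep
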