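import Fermat.Agent.ECRep.ResEquiv
import Fermat.Agent.ECRep.FlatBase
import Fermat.Agent.ECRep.FlatAt
import Fermat.Agent.ECRep.MultLine
import Fermat.Agent.ECRep.MultUnr
import Fermat.Agent.ECRep.PadicHom
import Fermat.Agent.TW.Main
import Fermat.Agent.LL.Blocks

set_option autoImplicit false

/-!
# The point of an elliptic curve in a deformation space (block CURVEPOINT)
-/

open Polynomial IsLocalRing Fermat.Agent.DefRing
open scoped WeierstrassCurve.Affine TensorProduct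

namespace Fermat.Agent.ECRep

local notation "Γℚ" => (AlgebraicClosure ℚ ≃ₐ[ℚ] AlgebraicClosure ℚ)
local notation "Qb" => AlgebraicClosure ℚ

/-- The properties of the representation `T_p W ⊗ 𝒪`. -/
structure CurvePt (p : ℕ) [Fact p.Prime] (W : WeierstrassCurve ℤ) (hΔ : W.Δ ≠ 0) {𝒪 : Type}
    [CommRing 𝒪] [IsLocalRing 𝒪] [Algebra (ZMod p) (ResidueField 𝒪)] (ρW : GaloisRepAdic 𝒪) :
    Prop where
  det : ρW.DetIsCyclotomic p
  res : ρW.residual.IsEquiv ((resRep (toRat W) p (toRat_Δ_ne_zero hΔ)).baseChange (ResidueField 𝒪))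
  res' : ρW.residual.IsEquiv (((resRep (toRat W) p (toRat_Δ_ne_zero hΔ)).baseChange
    (ResidueField 𝒪)).baseChangeAlong (ResidueField.map (algebraMap 𝒪 𝒪)))
  frob : ∀ ℓ : ℕ, ℓ.Prime → ℓ ≠ p → W.IsGoodPrimeFor ℓ → ∀ A : ValuationSubring Qb,
    A.LiesOverPrime ℓ → ∀ σ : Γℚ, A.IsFrobeniusAt σ ℓ →
      LinearMap.charpoly (ρW.ρ σ) = X ^ 2 - C ((W.apOfModel ℓ : ℤ) : 𝒪) * X + C (ℓ : 𝒪)
  unr : ∀ q : ℕ, q.Prime → q ≠ p → W.IsGoodPrimeFor q → ρW.IsUnramifiedAt q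
  unip : ∀ q : ℕ, q.Prime → q ≠ p → (q : ℤ) ∣ W.Δ → ¬ (q : ℤ) ∣ W.c₄ →
    ρW.IsUnipotentOnInertiaAt q
  frobSt : ∀ q : ℕ, q.Prime → q ≠ p → (q : ℤ) ∣ W.Δ → ¬ (q : ℤ) ∣ W.c₄ →
    ∀ A : ValuationSubring Qb, A.LiesOverPrime q → ∀ σ : Γℚ, A.IsFrobeniusAt σ q →
      LinearMap.charpoly (ρW.ρ σ) = X ^ 2 - C ((q : 𝒪) + 1) * X + C (q : 𝒪) ∨
      LinearMap.charpoly (ρW.ρ σ) = X ^ 2 + C ((q : 𝒪) + 1) * X + C (q : 𝒪)
  ram : ∀ q : ℕ, q.Prime → q ≠ p → (q : ℤ) ∣ W.Δ → ¬ (q : ℤ) ∣ W.c₄ → ¬ ρW.IsUnramifiedAt q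
  flat : p ≠ 2 → W.IsGoodPrimeFor p → ρW.IsFlatAt p
  strict : (p : ℤ) ∣ W.Δ → ¬ (p : ℤ) ∣ W.c₄ → ρW.IsStrictOrdinaryAt p

section

variable {𝒪 : Type} [CommRing 𝒪] [IsLocalRing 𝒪]

theorem isEquiv_baseChangeAlong_id {ρ ρ' : ResidualGaloisRep (ResidueField 𝒪)}
    (h : ρ.IsEquiv ρ') : ρ.IsEquiv (ρ'.baseChangeAlong (ResidueField.map (algebraMap 𝒪 𝒪))) := by
  obtain ⟨r, hr⟩ := exists_realizesRes ρ
  have h1 := (hr.of_isEquiv h).baseChangeAlong (ResidueField.map (algebraMap 𝒪 𝒪))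
  refine hr.isEquiv ?_
  convert h1 using 2 with σ
  ext i j
  rw [Matrix.map_apply]
  obtain ⟨x, hx⟩ := residue_surjective (r σ i j)
  rw [← hx, ResidueField.map_residue]
  rfl

theorem not_isUnramifiedAt_baseChange {A : Type} [CommRing A] [IsLocalRing A] (φ : A →+* 𝒪)
    (hφ : IsLocalHom φ) (hinj : Function.Injective φ) {ρ : GaloisRepAdic A} {q : ℕ}
    (h : ¬ ρ.IsUnramifiedAt q) : ¬ (ρ.baseChangeAlong φ hφ).IsUnramifiedAt q := by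
  obtain ⟨r, hr⟩ := exists_realizes ρ
  rw [TW.realizes_isUnramifiedAt_iff (hr.baseChange φ hφ)]
  rw [TW.realizes_isUnramifiedAt_iff hr] at h
  intro h'
  apply h
  intro P hP σ hσ
  have h1 : (r σ).map φ = 1 := h' P hP σ hσ
  ext i j
  apply hinj
  have h2 := congrFun (congrFun h1 i) j
  rw [Matrix.map_apply] at h2
  rw [h2]
  by_cases hij : i = j
  · subst hij
    rw [Matrix.one_apply_eq, Matrix.one_apply_eq, map_one]
  · rw [Matrix.one_apply_ne hij, Matrix.one_apply_ne hij, map_zero]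

end

/-- **Block CURVEPOINT**: the representation of the curve over `𝒪`. -/
theorem curvePt (p : ℕ) [Fact p.Prime] (W : WeierstrassCurve ℤ) (hΔ : W.Δ ≠ 0) {𝒪 : Type}
    [CommRing 𝒪] [IsDomain 𝒪] [CharZero 𝒪] [IsLocalRing 𝒪] [Finite (ResidueField 𝒪)]
    [Algebra (ZMod p) (ResidueField 𝒪)] (φ : ℤ_[p] →+* 𝒪) (hφ : IsLocalHom φ) :
    CurvePt p W hΔ ((tateRep (toRat W) p (toRat_Δ_ne_zero hΔ)).baseChangeAlong φ hφ) := by
  have hinj := padic_hom_injective φ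
  have hcp : ∀ σ : Γℚ, LinearMap.charpoly
      (((tateRep (toRat W) p (toRat_Δ_ne_zero hΔ)).baseChangeAlong φ hφ).ρ σ) =
      (LinearMap.charpoly ((tateRep (toRat W) p (toRat_Δ_ne_zero hΔ)).ρ σ)).map φ := by
    intro σ
    obtain ⟨r, hr⟩ := exists_realizes (tateRep (toRat W) p (toRat_Δ_ne_zero hΔ))
    rw [TW.realizes_charpoly hr, TW.realizes_charpoly (hr.baseChange φ hφ), Matrix.charpoly_map]
  have hres := residual_isEquiv (l := p) (toRat_Δ_ne_zero hΔ) φ hφ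
  exact {
    det := TW.detIsCyclotomic_baseChange φ hφ (detIsCyclotomic W hΔ)
    res := hres
    res' := isEquiv_baseChangeAlong_id hres
    frob := fun ℓ hℓ hℓp hg A hA σ hσ => by
      rw [hcp, charpoly_frob W hΔ hℓ hℓp hA hg hσ]
      simp
    unr := fun q hq hqp hg => TW.isUnramifiedAt_baseChange φ hφ
      (tateRep_isUnramifiedAt W hΔ hq hqp hg)
    unip := fun q hq hqp hqΔ hc => TW.isUnipotent_baseChange φ hφ
      (isUnipotentOnInertiaAt W hΔ hq hqp hqΔ hc)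
    frobSt := fun q hq hqp hqΔ hc A hA σ hσ => by
      rw [hcp]
      rcases charpoly_frob_mult (l := p) hΔ hq hqp hqΔ hc hA hσ with h | h
      · left
        rw [h]; simp
      · right
        rw [h]; simp
    ram := fun q hq hqp hqΔ hc => not_isUnramifiedAt_baseChange φ hφ hinj
      (tateRep_not_isUnramifiedAt hΔ hq hqp hqΔ hc)
    flat := fun hp2 hg => isFlatAt_baseChangeAlong φ hφ (isFlatAt hp2 hΔ hg)
    strict := fun hpΔ hc => TW.isStrictOrdinaryAt_baseChange φ hφ (isStrictOrdinaryAt hΔ hpΔ hc) }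

/-- **Block CURVEPOINT** over a complete coefficient ring. -/
theorem exists_curvePt (p : ℕ) [Fact p.Prime] (W : WeierstrassCurve ℤ) (hΔ : W.Δ ≠ 0)
    (𝒪 : Type) [CommRing 𝒪] [IsDomain 𝒪] [CharZero 𝒪] [IsLocalRing 𝒪]
    [IsAdicComplete (maximalIdeal 𝒪) 𝒪] [Finite (ResidueField 𝒪)]
    [Algebra (ZMod p) (ResidueField 𝒪)] (hp : (p : 𝒪) ∈ maximalIdeal 𝒪) :
    ∃ ρW : GaloisRepAdic 𝒪, CurvePt p W hΔ ρW := by
  obtain ⟨φ, hφ⟩ := exists_padic_hom 𝒪 hp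
  exact ⟨_, curvePt p W hΔ φ hφ⟩

section Cond

variable {p : ℕ} [Fact p.Prime] {W : WeierstrassCurve ℤ} {hΔ : W.Δ ≠ 0} {𝒪 : Type}
  [CommRing 𝒪] [IsLocalRing 𝒪] [Algebra (ZMod p) (ResidueField 𝒪)] {ρW : GaloisRepAdic 𝒪}

theorem CurvePt.frobChar (h : CurvePt p W hΔ ρW) {S : Finset ℕ} (hp : p ∈ S)
    (hS : ∀ q : ℕ, q.Prime → (q : ℤ) ∣ W.Δ → q ∈ S) :
    LL.FrobChar ρW S (fun ℓ => ((W.apOfModel ℓ : ℤ) : 𝒪)) := by
  intro ℓ hℓ hℓS A hA σ hσ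
  exact h.frob ℓ hℓ (fun h => hℓS (h ▸ hp)) (fun h => hℓS (hS ℓ hℓ h)) A hA σ hσ

/-- the deformation condition, for any local condition at `p` satisfied by `W` -/
theorem CurvePt.condType (h : CurvePt p W hΔ ρW) (hss : W.IsSemistableModel) {P : TW.LCond}
    (hP : P ρW) {Smin Q : Finset ℕ}
    (hbad : ∀ q : ℕ, q.Prime → (q : ℤ) ∣ W.Δ → q ∈ Smin ∪ Q) (hp : p ∈ Smin ∪ Q) :
    TW.CondType 𝒪 p Smin P Q ρW := by
  refine ⟨⟨h.det, hP, fun q hq hqS => h.unr q hq (fun e => hqS (e ▸ hp))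
    (fun e => hqS (hbad q hq e))⟩, fun q hq hqp hqne => ?_⟩
  by_cases hqΔ : (q : ℤ) ∣ W.Δ
  · exact h.unip q hqp hqne hqΔ (hss q hqp hqΔ)
  · intro A hA σ hσ
    have h1 := h.unr q hqp hqne hqΔ A hA σ hσ
    rw [h1]
    have h2 := Cheb.charpoly_eq ρW.finrank_eq (1 : Module.End 𝒪 ρW.V)
    rw [h2, LinearMap.trace_one, ρW.finrank_eq, map_one]
    simp only [Nat.cast_ofNat, map_ofNat, map_one]
    ring

theorem CurvePt.condType_flat (h : CurvePt p W hΔ ρW) (hss : W.IsSemistableModel) (hp2 : p ≠ 2)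
    (hg : W.IsGoodPrimeFor p) {Smin Q : Finset ℕ}
    (hbad : ∀ q : ℕ, q.Prime → (q : ℤ) ∣ W.Δ → q ∈ Smin ∪ Q) (hp : p ∈ Smin ∪ Q) :
    TW.CondType 𝒪 p Smin (fun _ _ _ ρ => ρ.IsFlatAt p) Q ρW :=
  h.condType hss (h.flat hp2 hg) hbad hp

theorem CurvePt.condType_strict (h : CurvePt p W hΔ ρW) (hss : W.IsSemistableModel)
    (hpΔ : (p : ℤ) ∣ W.Δ) {Smin Q : Finset ℕ}
    (hbad : ∀ q : ℕ, q.Prime → (q : ℤ) ∣ W.Δ → q ∈ Smin ∪ Q) (hp : p ∈ Smin ∪ Q) :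
    TW.CondType 𝒪 p Smin (fun _ _ _ ρ => ρ.IsStrictOrdinaryAt p) Q ρW :=
  h.condType hss (h.strict hpΔ (hss p Fact.out hpΔ)) hbad hp

end Cond

end Fermat.Agent.ECRep
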