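import Fermat.Agent.ECRep.ResEquiv
import Fermat.Agent.ECRep.MultRep
import Fermat.Agent.S58Lib.Basic

set_option autoImplicit false

/-!
# The elliptic curve input of S58
-/

open Polynomial IsLocalRing
open scoped WeierstrassCurve.Affine

namespace Fermat.Agent.ECRep

local notation "Γℚ" => (AlgebraicClosure ℚ ≃ₐ[ℚ] AlgebraicClosure ℚ)
local notation "Qb" => AlgebraicClosure ℚ

/-- **The `l`-adic representation of an elliptic curve.** -/
theorem ecStmt : S58Lib.ECStmt := by
  intro W hΔ l _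
  have hl := (Fact.out : l.Prime)
  refine ⟨tateRep (toRat W) l (toRat_Δ_ne_zero hΔ), ?_, ?_, ?_⟩
  · intro q hq hg hql A hA σ hσ
    exact charpoly_frob W hΔ hq hql hA hg hσ
  · intro q hq hql hss
    by_cases hqΔ : (q : ℤ) ∣ W.Δ
    · exact isUnipotentOnInertiaAt W hΔ hq hql hqΔ (hss hqΔ)
    · intro A hA σ hσ
      have h1 := tateRep_isUnramifiedAt W hΔ hq hql hqΔ A hA σ hσ
      rw [h1]
      have h2 := Cheb.charpoly_eq (tateRep (toRat W) l (toRat_Δ_ne_zero hΔ)).finrank_eq
        (1 : Module.End ℤ_[l] (tateRep (toRat W) l (toRat_Δ_ne_zero hΔ)).V)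
      rw [h2, LinearMap.trace_one, (tateRep (toRat W) l (toRat_Δ_ne_zero hΔ)).finrank_eq,
        map_one]
      simp only [Nat.cast_ofNat, map_ofNat, map_one]
      ring
  · intro hl2 hirr
    refine tate_residual_absIrr (toRat_Δ_ne_zero hΔ) hl2 ?_ (resRep_isOdd W l hΔ)
    intro V hV
    exact hirr.2 V (fun σ x hx => hV σ x hx)

end Fermat.Agent.ECRep
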