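import Fermat.Agent.ECRep.LineEq

set_option autoImplicit false
set_option linter.unusedSectionVars false

/-!
# The chart `t = x / ψ₂`, `w = 1 / ψ₂` of a Weierstrass curve
-/

namespace Fermat.Agent.ECRep

open WeierstrassCurve WeierstrassCurve.Affine WeierstrassCurve.Affine.Point
open Fermat.Agent.DivPoly Fermat.Agent.S13lib

/-! ### Polynomials -/

section poly

variable {R : Type*} [CommRing R]

/-- the cubic form -/
def cL (b₂ b₄ b₆ p q : R) : R := 4 * p ^ 3 + b₂ * p ^ 2 * q + 2 * b₄ * p * q ^ 2 + b₆ * q ^ 3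

/-- the equation of the curve in the chart -/
def cF (b₂ b₄ b₆ t w : R) : R := cL b₂ b₄ b₆ t w - w

/-- polarisation -/
def cG2 (b₂ b₄ b₆ t w p q : R) : R :=
  12 * t * p ^ 2 + b₂ * (2 * t * p * q + p ^ 2 * w) + 2 * b₄ * (t * q ^ 2 + 2 * p * q * w) +
    3 * b₆ * w * q ^ 2

/-- first order term -/
def cG1 (b₂ b₄ b₆ t w p q : R) : R :=
  12 * t ^ 2 * p + b₂ * (2 * t * p * w + t ^ 2 * q) + 2 * b₄ * (p * w ^ 2 + 2 * t * w * q) +
    3 * b₆ * w ^ 2 * q - q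

lemma cF_expand (b₂ b₄ b₆ t w p q s : R) : cF b₂ b₄ b₆ (t + s * p) (w + s * q) =
    cF b₂ b₄ b₆ t w + s * cG1 b₂ b₄ b₆ t w p q + s ^ 2 * cG2 b₂ b₄ b₆ t w p q +
      s ^ 3 * cL b₂ b₄ b₆ p q := by
  simp only [cF, cL, cG1, cG2]; ring

/-- divided differences -/
def cA (b₂ b₄ t₁ w₁ t₂ : R) : R :=
  4 * (t₁ ^ 2 + t₁ * t₂ + t₂ ^ 2) + b₂ * w₁ * (t₁ + t₂) + 2 * b₄ * w₁ ^ 2

/-- divided differences -/
def cB (b₂ b₄ b₆ w₁ t₂ w₂ : R) : R :=
  b₂ * t₂ ^ 2 + 2 * b₄ * t₂ * (w₁ + w₂) + b₆ * (w₁ ^ 2 + w₁ * w₂ + w₂ ^ 2) - 1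

/-- the relations between three collinear points, for a direction `(p, q)` -/
structure CRel (b₂ b₄ b₆ t₁ w₁ t₂ w₂ t₃ w₃ p q : R) : Prop where
  jt : cL b₂ b₄ b₆ p q * (t₃ + t₂ - 2 * t₁) = -cG2 b₂ b₄ b₆ t₁ w₁ p q * p
  jw : cL b₂ b₄ b₆ p q * (w₃ + w₂ - 2 * w₁) = -cG2 b₂ b₄ b₆ t₁ w₁ p q * q
  kt : cG1 b₂ b₄ b₆ t₁ w₁ p q * p ^ 2 = cL b₂ b₄ b₆ p q * (t₂ - t₁) * (t₃ - t₁)
  kw : cG1 b₂ b₄ b₆ t₁ w₁ p q * q ^ 2 = cL b₂ b₄ b₆ p q * (w₂ - w₁) * (w₃ - w₁)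

lemma CRel.map {S : Type*} [CommRing S] (f : R →+* S) {b₂ b₄ b₆ t₁ w₁ t₂ w₂ t₃ w₃ p q : R}
    (h : CRel b₂ b₄ b₆ t₁ w₁ t₂ w₂ t₃ w₃ p q) :
    CRel (f b₂) (f b₄) (f b₆) (f t₁) (f w₁) (f t₂) (f w₂) (f t₃) (f w₃) (f p) (f q) := by
  have h1 := congrArg f h.jt
  have h2 := congrArg f h.jw
  have h3 := congrArg f h.kt
  have h4 := congrArg f h.kw
  simp only [cL, cG1, cG2, map_mul, map_add, map_sub, map_neg, map_pow, map_ofNat] at h1 h2 h3 h4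
  exact ⟨h1, h2, h3, h4⟩

end poly

section field

variable {k : Type*} [Field k] {b₂ b₄ b₆ t₁ w₁ t₂ w₂ t₃ w₃ p q : k}

/-- the leading form does not vanish on a direction -/
theorem CRel.dir (h2 : (2 : k) ≠ 0) (hF : cF b₂ b₄ b₆ t₁ w₁ = 0)
    (h : CRel b₂ b₄ b₆ t₁ w₁ t₂ w₂ t₃ w₃ p q) (hL : cL b₂ b₄ b₆ p q = 0) : p = 0 ∧ q = 0 := by
  have h4 : (4 : k) ≠ 0 := by
    have : (4 : k) = 2 * 2 := by norm_num
    rw [this]; exact mul_ne_zero h2 h2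
  have hq : q = 0 := by
    by_contra hq
    have g2 : cG2 b₂ b₄ b₆ t₁ w₁ p q = 0 := by
      have := h.jw
      rw [hL, zero_mul] at this
      have h3 := (mul_eq_zero.mp this.symm).resolve_right hq
      exact neg_eq_zero.mp h3
    have g1 : cG1 b₂ b₄ b₆ t₁ w₁ p q = 0 := by
      have := h.kw
      rw [hL, zero_mul, zero_mul] at this
      exact (mul_eq_zero.mp this).resolve_right (pow_ne_zero 2 hq)
    have hall : ∀ s : k, cF b₂ b₄ b₆ (t₁ + s * p) (w₁ + s * q) = 0 := fun s => by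
      rw [cF_expand, hF, g1, g2, hL]; ring
    have e0 := hall (-w₁ / q)
    have e1 := hall ((1 - w₁) / q)
    have r0 : w₁ + -w₁ / q * q = 0 := by rw [div_mul_cancel₀ _ hq]; ring
    have r1 : w₁ + (1 - w₁) / q * q = 1 := by rw [div_mul_cancel₀ _ hq]; ring
    rw [r0] at e0
    rw [r1] at e1
    have hτ : t₁ + -w₁ / q * p = 0 := by
      have : 4 * (t₁ + -w₁ / q * p) ^ 3 = 0 := by
        rw [cF, cL] at e0
        linear_combination e0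
      exact pow_eq_zero_iff three_ne_zero |>.mp ((mul_eq_zero.mp this).resolve_left h4)
    have hE : t₁ + (1 - w₁) / q * p = p / q := by
      have : t₁ + (1 - w₁) / q * p = (t₁ + -w₁ / q * p) + p / q := by field_simp; ring
      rw [this, hτ, zero_add]
    rw [hE] at e1
    have hL' : cL b₂ b₄ b₆ (p / q) 1 = 0 := by
      have : cL b₂ b₄ b₆ (p / q) 1 = cL b₂ b₄ b₆ p q / q ^ 3 := by
        rw [cL, cL]; field_simp
      rw [this, hL, zero_div]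
    rw [cF, hL', zero_sub, neg_eq_zero] at e1
    exact one_ne_zero e1
  refine ⟨?_, hq⟩
  rw [cL, hq] at hL
  have : 4 * p ^ 3 = 0 := by linear_combination hL
  exact pow_eq_zero_iff three_ne_zero |>.mp ((mul_eq_zero.mp this).resolve_left h4)

/-- the two directions do not both vanish -/
theorem dir_ne (h2 : (2 : k) ≠ 0) (hF : cF b₂ b₄ b₆ t₁ w₁ = 0) (ht : t₂ - t₁ = 0)
    (hw : w₂ - w₁ = 0) (hA : cA b₂ b₄ t₁ w₁ t₂ = 0) (hB : cB b₂ b₄ b₆ w₁ t₂ w₂ = 0) : False := by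
  have h4 : (4 : k) ≠ 0 := by
    have : (4 : k) = 2 * 2 := by norm_num
    rw [this]; exact mul_ne_zero h2 h2
  have e1 := sub_eq_zero.mp ht
  have e2 := sub_eq_zero.mp hw
  subst e1 e2
  simp only [cF, cL, cA, cB] at hF hA hB
  have hw0 : w₂ = 0 := by
    have : 2 * w₂ = 0 := by linear_combination t₂ * hA + w₂ * hB - 3 * hF
    exact (mul_eq_zero.mp this).resolve_left h2
  subst hw0
  have ht0 : t₂ = 0 := by
    have : 4 * t₂ ^ 3 = 0 := by linear_combination hF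
    exact pow_eq_zero_iff three_ne_zero |>.mp ((mul_eq_zero.mp this).resolve_left h4)
  subst ht0
  have : (-1 : k) = 0 := by linear_combination hB
  exact one_ne_zero (neg_eq_zero.mp this)

end field

end Fermat.Agent.ECRep
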