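import Fermat.Agent.ECRep.FlatChart

set_option autoImplicit false
set_option linter.unusedSectionVars false

/-!
# The sum of two points is regular in the chart
-/

namespace Fermat.Agent.ECRep

section mem

variable {Fn : Type*} [CommRing Fn] {T : Subring Fn} {b₂ b₄ b₆ t₁ w₁ t₂ w₂ t₃ w₃ : Fn}

lemma CRel.of_injective {R S : Type*} [CommRing R] [CommRing S] (f : R →+* S)
    (hf : Function.Injective f) {b₂ b₄ b₆ t₁ w₁ t₂ w₂ t₃ w₃ p q : R}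
    (h : CRel (f b₂) (f b₄) (f b₆) (f t₁) (f w₁) (f t₂) (f w₂) (f t₃) (f w₃) (f p) (f q)) :
    CRel b₂ b₄ b₆ t₁ w₁ t₂ w₂ t₃ w₃ p q := by
  have h1 := h.jt
  have h2 := h.jw
  have h3 := h.kt
  have h4 := h.kw
  refine ⟨?_, ?_, ?_, ?_⟩ <;> apply hf <;>
    simp only [cL, cG1, cG2, map_mul, map_add, map_sub, map_neg, map_pow, map_ofNat] at *
  · exact h1
  · exact h2
  · exact h3
  · exact h4

/-- If `(t₁, w₁)`, `(t₂, w₂)` are points with coordinates in `T` and `(t₃, w₃)` is the third point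
of intersection with the line through them, with integral coordinates, then its coordinates are
in `T`. -/
theorem mem_of_rels (h2 : IsUnit (2 : T)) (m₂ : b₂ ∈ T) (m₄ : b₄ ∈ T) (m₆ : b₆ ∈ T)
    (mt₁ : t₁ ∈ T) (mw₁ : w₁ ∈ T) (mt₂ : t₂ ∈ T) (mw₂ : w₂ ∈ T)
    (it₃ : IsIntegral T t₃) (iw₃ : IsIntegral T w₃) (hF : cF b₂ b₄ b₆ t₁ w₁ = 0)
    (r1 : CRel b₂ b₄ b₆ t₁ w₁ t₂ w₂ t₃ w₃ (t₂ - t₁) (w₂ - w₁))
    (r2 : CRel b₂ b₄ b₆ t₁ w₁ t₂ w₂ t₃ w₃ (-cB b₂ b₄ b₆ w₁ t₂ w₂) (cA b₂ b₄ t₁ w₁ t₂)) :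
    t₃ ∈ T ∧ w₃ ∈ T := by
  -- elements of `T`
  let B₂ : T := ⟨b₂, m₂⟩
  let B₄ : T := ⟨b₄, m₄⟩
  let B₆ : T := ⟨b₆, m₆⟩
  let T₁ : T := ⟨t₁, mt₁⟩
  let V₁ : T := ⟨w₁, mw₁⟩
  let T₂ : T := ⟨t₂, mt₂⟩
  let V₂ : T := ⟨w₂, mw₂⟩
  let L₁ : T := cL B₂ B₄ B₆ (T₂ - T₁) (V₂ - V₁)
  let L₂ : T := cL B₂ B₄ B₆ (-cB B₂ B₄ B₆ V₁ T₂ V₂) (cA B₂ B₄ T₁ V₁ T₂)
  have hL₁ : (L₁ : Fn) = cL b₂ b₄ b₆ (t₂ - t₁) (w₂ - w₁) := by
    simp only [L₁, cL]; push_cast; rfl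
  have hL₂ : (L₂ : Fn) = cL b₂ b₄ b₆ (-cB b₂ b₄ b₆ w₁ t₂ w₂) (cA b₂ b₄ t₁ w₁ t₂) := by
    simp only [L₂, cL, cA, cB]; push_cast; rfl
  -- the integral closure
  let T' := integralClosure T Fn
  let φ : T →+* T' := algebraMap T T'
  let T₃ : T' := ⟨t₃, it₃⟩
  let V₃ : T' := ⟨w₃, iw₃⟩
  have hinj : Function.Injective (algebraMap T' Fn) := Subtype.val_injective
  have r1' : CRel (φ B₂) (φ B₄) (φ B₆) (φ T₁) (φ V₁) (φ T₂) (φ V₂) T₃ V₃ (φ (T₂ - T₁))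
      (φ (V₂ - V₁)) := by
    apply CRel.of_injective (algebraMap T' Fn) hinj
    exact r1
  have r2' : CRel (φ B₂) (φ B₄) (φ B₆) (φ T₁) (φ V₁) (φ T₂) (φ V₂) T₃ V₃
      (φ (-cB B₂ B₄ B₆ V₁ T₂ V₂)) (φ (cA B₂ B₄ T₁ V₁ T₂)) := by
    apply CRel.of_injective (algebraMap T' Fn) hinj
    have e1 : algebraMap T' Fn (φ (-cB B₂ B₄ B₆ V₁ T₂ V₂)) = -cB b₂ b₄ b₆ w₁ t₂ w₂ := by
      change ((-cB B₂ B₄ B₆ V₁ T₂ V₂ : T) : Fn) = _
      simp only [cB]; push_cast; rfl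
    have e2 : algebraMap T' Fn (φ (cA B₂ B₄ T₁ V₁ T₂)) = cA b₂ b₄ t₁ w₁ t₂ := by
      change ((cA B₂ B₄ T₁ V₁ T₂ : T) : Fn) = _
      simp only [cA]; push_cast; rfl
    rw [e1, e2]
    exact r2
  have hF' : cF B₂ B₄ B₆ T₁ V₁ = 0 := by
    apply Subtype.val_injective
    simp only [cF, cL] at hF ⊢
    push_cast
    exact hF
  -- the unit ideal
  have htop : Ideal.span {L₁, L₂} = ⊤ := by
    by_contra hne
    obtain ⟨𝔪, hmax, hle⟩ := Ideal.exists_le_maximal _ hne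
    obtain ⟨Q, hQ, hQc⟩ := Ideal.exists_ideal_over_maximal_of_isIntegral (S := T') 𝔪 (by
      intro x hx
      rw [RingHom.mem_ker] at hx
      have : x = 0 := Subtype.val_injective (congrArg (algebraMap T' Fn) hx)
      rw [this]; exact 𝔪.zero_mem)
    let _ := Ideal.Quotient.field Q
    let f : T' →+* T' ⧸ Q := Ideal.Quotient.mk Q
    have hz : ∀ x ∈ 𝔪, f (φ x) = 0 := fun x hx => by
      rw [← hQc] at hx
      exact Ideal.Quotient.eq_zero_iff_mem.mpr hx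
    have z1 := hz L₁ (hle (Ideal.subset_span (by simp)))
    have z2 := hz L₂ (hle (Ideal.subset_span (by simp)))
    have h2' : (2 : T' ⧸ Q) ≠ 0 := by
      have := (h2.map (f.comp φ)).ne_zero
      rwa [map_ofNat] at this
    have s1 := r1'.map f
    have s2 := r2'.map f
    have hF'' : cF (f (φ B₂)) (f (φ B₄)) (f (φ B₆)) (f (φ T₁)) (f (φ V₁)) = 0 := by
      have := congrArg (f.comp φ) hF'
      simpa only [cF, cL, map_mul, map_add, map_sub, map_pow, map_ofNat, map_zero,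
        RingHom.comp_apply] using this
    have z1' : cL (f (φ B₂)) (f (φ B₄)) (f (φ B₆)) (f (φ (T₂ - T₁))) (f (φ (V₂ - V₁))) = 0 := by
      simpa only [L₁, cL, map_mul, map_add, map_sub, map_pow, map_ofNat] using z1
    have z2' : cL (f (φ B₂)) (f (φ B₄)) (f (φ B₆)) (f (φ (-cB B₂ B₄ B₆ V₁ T₂ V₂)))
        (f (φ (cA B₂ B₄ T₁ V₁ T₂))) = 0 := by
      simpa only [L₂, cL, map_mul, map_add, map_sub, map_pow, map_ofNat, map_neg] using z2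
    obtain ⟨d1, d2⟩ := s1.dir h2' hF'' z1'
    obtain ⟨d3, d4⟩ := s2.dir h2' hF'' z2'
    refine dir_ne h2' hF'' (t₂ := f (φ T₂)) (w₂ := f (φ V₂)) ?_ ?_ ?_ ?_
    · rw [← map_sub, ← map_sub]; exact d1
    · rw [← map_sub, ← map_sub]; exact d2
    · simpa only [cA, map_mul, map_add, map_sub, map_pow, map_ofNat] using d4
    · have := neg_eq_zero.mpr d3
      rw [map_neg, map_neg, neg_neg] at this
      simpa only [cB, map_mul, map_add, map_sub, map_pow, map_ofNat, map_one] using this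
  have hone : (1 : T) ∈ Ideal.span {L₁, L₂} := by rw [htop]; trivial
  obtain ⟨a, b, hab⟩ := Ideal.mem_span_pair.mp hone
  have hab' : (a : Fn) * L₁ + (b : Fn) * L₂ = 1 := by
    have := congrArg (Subtype.val) hab
    simpa using this
  have mA : cA b₂ b₄ t₁ w₁ t₂ ∈ T := (by
    have e2 : ((cA B₂ B₄ T₁ V₁ T₂ : T) : Fn) = cA b₂ b₄ t₁ w₁ t₂ := by
      simp only [cA]; push_cast; rfl
    rw [← e2]; exact SetLike.coe_mem _)
  have mB : -cB b₂ b₄ b₆ w₁ t₂ w₂ ∈ T := (by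
    have e2 : ((-cB B₂ B₄ B₆ V₁ T₂ V₂ : T) : Fn) = -cB b₂ b₄ b₆ w₁ t₂ w₂ := by
      simp only [cB]; push_cast; rfl
    rw [← e2]; exact SetLike.coe_mem _)
  have mG : ∀ p q : Fn, p ∈ T → q ∈ T → cG2 b₂ b₄ b₆ t₁ w₁ p q ∈ T := by
    intro p q hp hq
    have e2 : ((cG2 B₂ B₄ B₆ T₁ V₁ ⟨p, hp⟩ ⟨q, hq⟩ : T) : Fn) = cG2 b₂ b₄ b₆ t₁ w₁ p q := by
      simp only [cG2]; push_cast; rfl
    rw [← e2]; exact SetLike.coe_mem _
  have m2 : (2 : Fn) ∈ T := by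
    have : ((2 : T) : Fn) = 2 := rfl
    rw [← this]; exact SetLike.coe_mem _
  constructor
  · have k1 : (L₁ : Fn) * t₃ ∈ T := by
      have : (L₁ : Fn) * t₃ = -(cG2 b₂ b₄ b₆ t₁ w₁ (t₂ - t₁) (w₂ - w₁) * (t₂ - t₁)) -
          L₁ * (t₂ - 2 * t₁) := by
        have := r1.jt
        rw [← hL₁] at this
        linear_combination this
      rw [this]
      exact T.sub_mem (T.neg_mem (T.mul_mem (mG _ _ (T.sub_mem mt₂ mt₁) (T.sub_mem mw₂ mw₁))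
        (T.sub_mem mt₂ mt₁))) (T.mul_mem L₁.2 (T.sub_mem mt₂ (T.mul_mem m2 mt₁)))
    have k2 : (L₂ : Fn) * t₃ ∈ T := by
      have : (L₂ : Fn) * t₃ = -(cG2 b₂ b₄ b₆ t₁ w₁ (-cB b₂ b₄ b₆ w₁ t₂ w₂)
          (cA b₂ b₄ t₁ w₁ t₂) * (-cB b₂ b₄ b₆ w₁ t₂ w₂)) - L₂ * (t₂ - 2 * t₁) := by
        have := r2.jt
        rw [← hL₂] at this
        linear_combination this
      rw [this]
      exact T.sub_mem (T.neg_mem (T.mul_mem (mG _ _ mB mA) mB))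
        (T.mul_mem L₂.2 (T.sub_mem mt₂ (T.mul_mem m2 mt₁)))
    have : t₃ = a * (L₁ * t₃) + b * (L₂ * t₃) := by linear_combination -t₃ * hab'
    rw [this]
    exact T.add_mem (T.mul_mem a.2 k1) (T.mul_mem b.2 k2)
  · have k1 : (L₁ : Fn) * w₃ ∈ T := by
      have : (L₁ : Fn) * w₃ = -(cG2 b₂ b₄ b₆ t₁ w₁ (t₂ - t₁) (w₂ - w₁) * (w₂ - w₁)) -
          L₁ * (w₂ - 2 * w₁) := by
        have := r1.jw
        rw [← hL₁] at this
        linear_combination this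
      rw [this]
      exact T.sub_mem (T.neg_mem (T.mul_mem (mG _ _ (T.sub_mem mt₂ mt₁) (T.sub_mem mw₂ mw₁))
        (T.sub_mem mw₂ mw₁))) (T.mul_mem L₁.2 (T.sub_mem mw₂ (T.mul_mem m2 mw₁)))
    have k2 : (L₂ : Fn) * w₃ ∈ T := by
      have : (L₂ : Fn) * w₃ = -(cG2 b₂ b₄ b₆ t₁ w₁ (-cB b₂ b₄ b₆ w₁ t₂ w₂)
          (cA b₂ b₄ t₁ w₁ t₂) * (cA b₂ b₄ t₁ w₁ t₂)) - L₂ * (w₂ - 2 * w₁) := by
        have := r2.jw
        rw [← hL₂] at this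
        linear_combination this
      rw [this]
      exact T.sub_mem (T.neg_mem (T.mul_mem (mG _ _ mB mA) mA))
        (T.mul_mem L₂.2 (T.sub_mem mw₂ (T.mul_mem m2 mw₁)))
    have : w₃ = a * (L₁ * w₃) + b * (L₂ * w₃) := by linear_combination -w₃ * hab'
    rw [this]
    exact T.add_mem (T.mul_mem a.2 k1) (T.mul_mem b.2 k2)

end mem

end Fermat.Agent.ECRep
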