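import Fermat.Agent.ECRep.FlatInt
import Fermat.Agent.ECRep.FlatMem

set_option autoImplicit false
set_option linter.unusedSectionVars false

/-!
# Torsion of odd order at a place of good reduction is finite flat
-/

namespace Fermat.Agent.ECRep

open WeierstrassCurve WeierstrassCurve.Affine WeierstrassCurve.Affine.Point
open scoped WeierstrassCurve.Affine
open Fermat.Agent.EC Fermat.Agent.DivPoly Fermat.Agent.S13lib
open GaloisRep Fermat.Agent.Flat

local notation "Qbar" => AlgebraicClosure ℚ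
local notation "Γℚ" => (AlgebraicClosure ℚ ≃ₐ[ℚ] AlgebraicClosure ℚ)

section tens

variable {R : Type*} [CommRing R] {Ω : Type*} [Field Ω] [Algebra R Ω] {X Y : Type*}

lemma tens_mul {O : Subalgebra R (X → Ω)} {P : Subalgebra R (Y → Ω)} {f g : X × Y → Ω}
    (hf : f ∈ tens (Subalgebra.toSubmodule O) (Subalgebra.toSubmodule P))
    (hg : g ∈ tens (Subalgebra.toSubmodule O) (Subalgebra.toSubmodule P)) :
    f * g ∈ tens (Subalgebra.toSubmodule O) (Subalgebra.toSubmodule P) := by
  obtain ⟨n, a, b, ha, hb, h⟩ := mem_tens_iff.mp hf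
  obtain ⟨m, a', b', ha', hb', h'⟩ := mem_tens_iff.mp hg
  have : f * g = ∑ i, ∑ j, fun z : X × Y => (a i z.1 * a' j z.1) * (b i z.2 * b' j z.2) := by
    funext z
    obtain ⟨x, y⟩ := z
    rw [Pi.mul_apply, h, h', Finset.sum_mul_sum]
    simp only [Finset.sum_apply]
    exact Finset.sum_congr rfl fun i _ => Finset.sum_congr rfl fun j _ => by ring
  rw [this]
  refine Submodule.sum_mem _ fun i _ => Submodule.sum_mem _ fun j _ => ?_
  exact mem_tens_iff.mpr ⟨1, fun _ => a i * a' j, fun _ => b i * b' j,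
    fun _ => O.mul_mem (ha i) (ha' j), fun _ => P.mul_mem (hb i) (hb' j), fun x y => by simp⟩

lemma tens_left {O : Subalgebra R (X → Ω)} {P : Subalgebra R (Y → Ω)} {f : X → Ω} (hf : f ∈ O) :
    (fun z : X × Y => f z.1) ∈ tens (Subalgebra.toSubmodule O) (Subalgebra.toSubmodule P) :=
  mem_tens_iff.mpr ⟨1, fun _ => f, fun _ => 1, fun _ => hf, fun _ => P.one_mem,
    fun x y => by simp⟩

lemma tens_right {O : Subalgebra R (X → Ω)} {P : Subalgebra R (Y → Ω)} {f : Y → Ω} (hf : f ∈ P) :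
    (fun z : X × Y => f z.2) ∈ tens (Subalgebra.toSubmodule O) (Subalgebra.toSubmodule P) :=
  mem_tens_iff.mpr ⟨1, fun _ => 1, fun _ => f, fun _ => O.one_mem, fun _ => hf,
    fun x y => by simp⟩

/-- `tens` as a subring -/
noncomputable def tensRing (O : Subalgebra R (X → Ω)) (P : Subalgebra R (Y → Ω)) :
    Subring (X × Y → Ω) where
  carrier := tens (Subalgebra.toSubmodule O) (Subalgebra.toSubmodule P)
  mul_mem' := tens_mul
  one_mem' := tens_left (f := 1) O.one_mem
  add_mem' := Submodule.add_mem _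
  zero_mem' := Submodule.zero_mem _
  neg_mem' := Submodule.neg_mem _

lemma mem_tensRing {O : Subalgebra R (X → Ω)} {P : Subalgebra R (Y → Ω)} {f : X × Y → Ω} :
    f ∈ tensRing O P ↔ f ∈ tens (Subalgebra.toSubmodule O) (Subalgebra.toSubmodule P) := Iff.rfl

lemma algebraMap_mem_tensRing {O : Subalgebra R (X → Ω)} {P : Subalgebra R (Y → Ω)} (r : R) :
    algebraMap R (X × Y → Ω) r ∈ tensRing O P :=
  tens_left (f := algebraMap R (X → Ω) r) (O.algebraMap_mem r)

/-- integrality over `R` gives integrality over `tensRing` -/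
lemma isIntegral_tensRing {O : Subalgebra R (X → Ω)} {P : Subalgebra R (Y → Ω)}
    {f : X × Y → Ω} (hf : IsIntegral R f) : IsIntegral (tensRing O P) f := by
  obtain ⟨p, hp, hpf⟩ := hf
  let φ : R →+* tensRing O P := (algebraMap R (X × Y → Ω)).codRestrict _
    algebraMap_mem_tensRing
  refine ⟨p.map φ, hp.map φ, ?_⟩
  rw [Polynomial.eval₂_map]
  exact hpf

end tens

section integral

variable {R : Type*} [CommRing R] {Ω : Type*} [Field Ω] [Algebra R Ω] {X : Type*} [Finite X]

/-- a function on a finite set with integral values is integral -/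
lemma isIntegral_fun {f : X → Ω} (hf : ∀ x, IsIntegral R (f x)) : IsIntegral R f := by
  classical
  have := Fintype.ofFinite X
  choose p hp hpf using hf
  refine ⟨∏ x, p x, Polynomial.monic_prod_of_monic _ _ fun x _ => hp x, ?_⟩
  funext x
  change Polynomial.aeval f (∏ x, p x) x = 0
  have h1 : Polynomial.aeval f (∏ x, p x) x = Polynomial.aeval (f x) (∏ x, p x) := by
    have := Polynomial.aeval_algHom_apply (Pi.evalAlgHom R (fun _ : X => Ω) x) f (∏ x, p x)
    exact this.symm
  rw [h1, map_prod]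
  exact Finset.prod_eq_zero (Finset.mem_univ x) (hpf x)

end integral

section torsion

variable (W : WeierstrassCurve ℤ) (N : ℕ)

/-- Galois action on the `N`-torsion -/
noncomputable def tnRho : Γℚ →* AddMonoid.End (tN ((toRat W)⁄Qbar) N) where
  toFun σ :=
    { toFun := fun P => ⟨σ • P.1, by
        have := P.2
        rw [mem_tN] at this ⊢
        rw [← smul_nsmul', this, smul_zero'']⟩
      map_zero' := Subtype.ext (smul_zero _)
      map_add' := fun P Q => Subtype.ext (smul_add _ _ _) }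
  map_one' := by
    apply AddMonoidHom.ext
    intro P
    exact Subtype.ext (one_smul _ _)
  map_mul' σ τ := by
    apply AddMonoidHom.ext
    intro P
    exact Subtype.ext (mul_smul _ _ _)

@[simp] lemma tnRho_coe (σ : Γℚ) (P : tN ((toRat W)⁄Qbar) N) :
    ((tnRho W N σ P : tN ((toRat W)⁄Qbar) N) : ((toRat W)⁄Qbar).Point) = σ • P.1 := rfl

/-- the coordinate ring of the `N`-torsion -/
noncomputable def chartAlg (l : ℕ) :
    Subalgebra (ratLocalizedAt l) (tN ((toRat W)⁄Qbar) N → Qbar) :=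
  Algebra.adjoin _ {(fun P => tt P.1), (fun P => ww P.1)}

variable {W N}

lemma tt_mem (l : ℕ) : (fun P : tN ((toRat W)⁄Qbar) N => tt P.1) ∈ chartAlg W N l :=
  Algebra.subset_adjoin (by simp)

lemma ww_mem (l : ℕ) : (fun P : tN ((toRat W)⁄Qbar) N => ww P.1) ∈ chartAlg W N l :=
  Algebra.subset_adjoin (by simp)

lemma psi2_smul'' (σ : Γℚ) (P : ((toRat W)⁄Qbar).Point) : psi2 (σ • P) = σ (psi2 P) := by
  have h1 : σ ((toRat W)⁄Qbar).a₁ = ((toRat W)⁄Qbar).a₁ := σ.commutes _
  have h3 : σ ((toRat W)⁄Qbar).a₃ = ((toRat W)⁄Qbar).a₃ := σ.commutes _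
  rw [psi2, psi2, xc_smul, yc_smul, _root_.map_add, _root_.map_add, _root_.map_mul,
    _root_.map_mul, h1, h3, map_ofNat]

lemma tt_smul (σ : Γℚ) (P : ((toRat W)⁄Qbar).Point) : tt (σ • P) = σ (tt P) := by
  rcases eq_or_ne P 0 with rfl | h
  · rw [smul_zero'', tt_zero, _root_.map_zero]
  · rw [tt_of_ne h, tt_of_ne (smul_ne_zero' h), psi2_smul'', xc_smul, map_div₀]

lemma ww_smul (σ : Γℚ) (P : ((toRat W)⁄Qbar).Point) : ww (σ • P) = σ (ww P) := by
  rcases eq_or_ne P 0 with rfl | h
  · rw [smul_zero'', ww_zero, _root_.map_zero]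
  · rw [ww_of_ne h, ww_of_ne (smul_ne_zero' h), psi2_smul'', map_div₀, _root_.map_one]

lemma chart_ext (hN : Odd N) {P Q : ((toRat W)⁄Qbar).Point} (hP : N • P = 0) (hQ : N • Q = 0)
    (ht : tt P = tt Q) (hw : ww P = ww Q) : P = Q := by
  have key : ∀ {P : ((toRat W)⁄Qbar).Point}, N • P = 0 → P ≠ 0 → ww P ≠ 0 := fun {P} hP h0 => by
    rw [ww_of_ne h0]; exact one_div_ne_zero (psi2_ne hN hP h0)
  rcases eq_or_ne P 0 with rfl | hP0
  · by_contra hne
    rw [ww_zero] at hw
    exact key hQ (Ne.symm hne) hw.symm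
  rcases eq_or_ne Q 0 with rfl | hQ0
  · rw [ww_zero] at hw
    exact absurd hw (key hP hP0)
  have h1 := psi2_ne hN hP hP0
  have h2 := psi2_ne hN hQ hQ0
  rw [ww_of_ne hP0, ww_of_ne hQ0, one_div, one_div] at hw
  have h3 : psi2 P = psi2 Q := inv_injective hw
  rw [tt_of_ne hP0, tt_of_ne hQ0, h3] at ht
  have h4 : xc P = xc Q := by
    field_simp at ht
    exact ht
  rcases eq_or_eq_neg hP0 hQ0 h4 with h | h
  · exact h
  · exfalso
    rw [h, psi2_neg' hQ0] at h3
    have : 2 * psi2 Q = 0 := by linear_combination -h3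
    exact h2 ((mul_eq_zero.mp this).resolve_left two_ne_zero)

lemma b_eq (l : ℕ) : ((toRat W)⁄Qbar).b₂ = algebraMap (ratLocalizedAt l) Qbar (W.b₂ : ℤ) ∧
    ((toRat W)⁄Qbar).b₄ = algebraMap (ratLocalizedAt l) Qbar (W.b₄ : ℤ) ∧
    ((toRat W)⁄Qbar).b₆ = algebraMap (ratLocalizedAt l) Qbar (W.b₆ : ℤ) := by
  refine ⟨?_, ?_, ?_⟩
  · change ((W.map (Int.castRingHom ℚ)).map (algebraMap ℚ Qbar)).b₂ = _
    rw [map_b₂, map_b₂]; simp
  · change ((W.map (Int.castRingHom ℚ)).map (algebraMap ℚ Qbar)).b₄ = _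
    rw [map_b₄, map_b₄]; simp
  · change ((W.map (Int.castRingHom ℚ)).map (algebraMap ℚ Qbar)).b₆ = _
    rw [map_b₆, map_b₆]; simp

lemma isUnit_two {l : ℕ} (hl : l.Prime) (hl2 : l ≠ 2) : IsUnit (2 : ratLocalizedAt l) := by
  have hm : ((1 : ℚ) / 2) ∈ ratLocalizedAt l := by
    change ((1 : ℚ) / 2).den.Coprime l
    have : ((1 : ℚ) / 2).den = 2 := by norm_num
    rw [this]
    exact ((Nat.coprime_primes Nat.prime_two hl).mpr (Ne.symm hl2))
  refine IsUnit.of_mul_eq_one ⟨(1 : ℚ) / 2, hm⟩ ?_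
  apply Subtype.ext
  change (2 : ℚ) * ((1 : ℚ) / 2) = 1
  norm_num

lemma finite_tN (hΔ : W.Δ ≠ 0) (hN : N ≠ 0) : Finite (tN ((toRat W)⁄Qbar) N) := by
  refine Nat.finite_of_card_ne_zero ?_
  rw [show Nat.card (tN ((toRat W)⁄Qbar) N) = N ^ 2 from
    card_tors (toRat W) (toRat_Δ_ne_zero hΔ) N hN]
  positivity

/-- **The order of functions on the `N`-torsion.** -/
theorem isOrder_chart {l : ℕ} (hl : l.Prime) (hl2 : l ≠ 2) (hΔ : W.Δ ≠ 0)
    (hg : W.IsGoodPrimeFor l) (hN : Odd N) :
    IsOrder (R := ratLocalizedAt l) (Ω := Qbar) (tnRho W N) (chartAlg W N l) := by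
  have hN0 : N ≠ 0 := by rintro rfl; exact absurd hN (by decide)
  have := finite_tN hΔ hN0
  have hint : ∀ P : ((toRat W)⁄Qbar).Point, N • P = 0 →
      IsIntegral (ratLocalizedAt l) (tt P) ∧ IsIntegral (ratLocalizedAt l) (ww P) := fun P hP =>
    ⟨isIntegral_of_val hl fun A hA => (v_chart_le hl hl2 hA hg hN hP).1,
      isIntegral_of_val hl fun A hA => (v_chart_le hl hl2 hA hg hN hP).2⟩
  have hgood : ∀ P : ((toRat W)⁄Qbar).Point, N • P = 0 → P ≠ 0 → psi2 P ≠ 0 := fun P hP h0 =>
    psi2_ne hN hP h0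
  refine ⟨?_, ?_, ?_, ?_⟩
  · refine fg_adjoin_of_finite (by simp) fun f hf => ?_
    simp only [Set.mem_insert_iff, Set.mem_singleton_iff] at hf
    rcases hf with rfl | rfl
    · exact isIntegral_fun fun P => (hint P.1 P.2).1
    · exact isIntegral_fun fun P => (hint P.1 P.2).2
  · intro φ hφ g m
    induction hφ using Algebra.adjoin_induction with
    | mem f hf =>
      simp only [Set.mem_insert_iff, Set.mem_singleton_iff] at hf
      rcases hf with rfl | rfl
      · exact tt_smul g m.1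
      · exact ww_smul g m.1
    | algebraMap r =>
      rw [Pi.algebraMap_apply, Pi.algebraMap_apply, Setup.smul_algebraMap]
    | add f f' _ _ h h' => rw [Pi.add_apply, Pi.add_apply, h, h', smul_add]
    | mul f f' _ _ h h' => rw [Pi.mul_apply, Pi.mul_apply, h, h', smul_mul']
  · intro m n h
    exact Subtype.ext (chart_ext hN m.2 n.2 (h _ (tt_mem l)) (h _ (ww_mem l)))
  · set T := tensRing (chartAlg W N l) (chartAlg W N l) with hT
    obtain ⟨c₂, c₄, c₆⟩ := b_eq (W := W) l
    have key : (fun z : tN ((toRat W)⁄Qbar) N × tN ((toRat W)⁄Qbar) N =>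
          -tt ((z.1 : ((toRat W)⁄Qbar).Point) + (z.2 : ((toRat W)⁄Qbar).Point))) ∈ T ∧
        (fun z : tN ((toRat W)⁄Qbar) N × tN ((toRat W)⁄Qbar) N =>
          -ww ((z.1 : ((toRat W)⁄Qbar).Point) + (z.2 : ((toRat W)⁄Qbar).Point))) ∈ T := by
      refine mem_of_rels (T := T)
        (b₂ := algebraMap (ratLocalizedAt l) _ (W.b₂ : ℤ))
        (b₄ := algebraMap (ratLocalizedAt l) _ (W.b₄ : ℤ))
        (b₆ := algebraMap (ratLocalizedAt l) _ (W.b₆ : ℤ))
        (t₁ := fun z => tt (z.1 : ((toRat W)⁄Qbar).Point))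
        (w₁ := fun z => ww (z.1 : ((toRat W)⁄Qbar).Point))
        (t₂ := fun z => tt (z.2 : ((toRat W)⁄Qbar).Point))
        (w₂ := fun z => ww (z.2 : ((toRat W)⁄Qbar).Point))
        ?_ (algebraMap_mem_tensRing _) (algebraMap_mem_tensRing _) (algebraMap_mem_tensRing _)
        (tens_left (tt_mem l)) (tens_left (ww_mem l)) (tens_right (tt_mem l))
        (tens_right (ww_mem l)) ?_ ?_ ?_ ?_ ?_
      · let φ : ratLocalizedAt l →+* T :=
          (algebraMap (ratLocalizedAt l) _).codRestrict _ algebraMap_mem_tensRing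
        have := (isUnit_two hl hl2).map φ
        rwa [map_ofNat] at this
      · apply isIntegral_tensRing
        refine isIntegral_fun fun z => (hint _ ?_).1.neg
        exact (tN ((toRat W)⁄Qbar) N).add_mem z.1.2 z.2.2
      · apply isIntegral_tensRing
        refine isIntegral_fun fun z => (hint _ ?_).2.neg
        exact (tN ((toRat W)⁄Qbar) N).add_mem z.1.2 z.2.2
      · funext z
        have := cF_point (hgood z.1.1 z.1.2)
        rw [c₂, c₄, c₆] at this
        exact this
      · have hz : ∀ z : tN ((toRat W)⁄Qbar) N × tN ((toRat W)⁄Qbar) N, _ := fun z =>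
          (chart_rel (hgood z.1.1 z.1.2) (hgood z.2.1 z.2.2) (hgood _
            ((tN ((toRat W)⁄Qbar) N).add_mem z.1.2 z.2.2))).1
        rw [c₂, c₄, c₆] at hz
        exact ⟨funext fun z => (hz z).jt, funext fun z => (hz z).jw, funext fun z => (hz z).kt,
          funext fun z => (hz z).kw⟩
      · have hz : ∀ z : tN ((toRat W)⁄Qbar) N × tN ((toRat W)⁄Qbar) N, _ := fun z =>
          (chart_rel (hgood z.1.1 z.1.2) (hgood z.2.1 z.2.2) (hgood _
            ((tN ((toRat W)⁄Qbar) N).add_mem z.1.2 z.2.2))).2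
        rw [c₂, c₄, c₆] at hz
        exact ⟨funext fun z => (hz z).jt, funext fun z => (hz z).jw, funext fun z => (hz z).kt,
          funext fun z => (hz z).kw⟩
    have kt : (fun z : tN ((toRat W)⁄Qbar) N × tN ((toRat W)⁄Qbar) N =>
        tt ((z.1 + z.2 : tN ((toRat W)⁄Qbar) N) : ((toRat W)⁄Qbar).Point)) ∈ T := by
      have := T.neg_mem key.1
      convert this using 1
      funext z
      exact (neg_neg _).symm
    have kw : (fun z : tN ((toRat W)⁄Qbar) N × tN ((toRat W)⁄Qbar) N =>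
        ww ((z.1 + z.2 : tN ((toRat W)⁄Qbar) N) : ((toRat W)⁄Qbar).Point)) ∈ T := by
      have := T.neg_mem key.2
      convert this using 1
      funext z
      exact (neg_neg _).symm
    intro φ hφ
    induction hφ using Algebra.adjoin_induction with
    | mem f hf =>
      simp only [Set.mem_insert_iff, Set.mem_singleton_iff] at hf
      rcases hf with rfl | rfl
      · exact kt
      · exact kw
    | algebraMap r => exact algebraMap_mem_tensRing (O := chartAlg W N l) (P := chartAlg W N l) r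
    | add f f' _ _ h h' => exact Submodule.add_mem _ h h'
    | mul f f' _ _ h h' => exact tens_mul h h'

/-- **`W[N]` is finite flat at an odd prime of good reduction** (`N` odd). -/
theorem isFlat_torsion {l : ℕ} (hl : l.Prime) (hl2 : l ≠ 2) (hΔ : W.Δ ≠ 0)
    (hg : W.IsGoodPrimeFor l) (hN : Odd N) :
    IsFlat (ratLocalizedAt l) (Ω := Qbar) (tnRho W N) :=
  ⟨_, isOrder_chart hl hl2 hΔ hg hN⟩

end torsion

end Fermat.Agent.ECRep
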