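import Fermat.Agent.ECRep.KerBound

set_option autoImplicit false
set_option linter.unusedSectionVars false

/-!
# Hasse bound and the kernel bound for general Weierstrass equations in odd characteristic
-/

namespace Fermat.Agent.ECRep

open Polynomial WeierstrassCurve WeierstrassCurve.Affine WeierstrassCurve.Affine.Point
open Fermat.Agent.Schoof Fermat.Agent.DivPoly

section

variable {F : Type*} [Field F] [Fintype F] {a₂ a₄ a₆ : F} [(cur a₂ a₄ a₆).IsElliptic]

local notation "GG" => G a₂ a₄ a₆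
local notation "π" => frob a₂ a₄ a₆ (FF a₂ a₄ a₆)

theorem hasse_cur (hF : ringChar F ≠ 2) : tr a₂ a₄ a₆ ^ 2 ≤ 4 * Fintype.card F := by
  have h2 : (2 : F) ≠ 0 := Ring.two_ne_zero hF
  have hG := G_mem a₂ a₄ a₆
  have hG1 := frob_mem_Odd hG
  let h : Odd a₂ a₄ a₆ → ℤ := fun P => (ht (P : ((cur a₂ a₄ a₆)⁄(FF a₂ a₄ a₆)).Point) : ℤ)
  have hp : ∀ x y, h (x + y) + h (x - y) = 2 * h x + 2 * h y := by
    intro x y
    have := ht_add_ht_sub h2 x.2 y.2
    have h' : ht ((x + y : Odd a₂ a₄ a₆) : ((cur a₂ a₄ a₆)⁄(FF a₂ a₄ a₆)).Point) +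
        ht ((x - y : Odd a₂ a₄ a₆) : ((cur a₂ a₄ a₆)⁄(FF a₂ a₄ a₆)).Point) =
        2 * (ht (x : ((cur a₂ a₄ a₆)⁄(FF a₂ a₄ a₆)).Point) +
          ht (y : ((cur a₂ a₄ a₆)⁄(FF a₂ a₄ a₆)).Point)) := this
    simp only [h]
    omega
  let g0 : Odd a₂ a₄ a₆ := ⟨GG, hG⟩
  let g1 : Odd a₂ a₄ a₆ := ⟨π GG, hG1⟩
  have h0 : h g0 = 1 := by simp [h, g0, ht_G]
  have h1 : h g1 = Fintype.card F := by simp [h, g1, ht_frob h2 hG, ht_G]
  have h01 : h (g1 - g0) = Nat.card (cur a₂ a₄ a₆).toAffine.Point := by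
    change ((ht (π GG - GG) : ℕ) : ℤ) = _
    rw [ht_frob_sub hF]
  have hpol : pol h hp g1 g0 = tr a₂ a₄ a₆ := by
    rw [q_sub h hp, h0, h1] at h01
    rw [tr]; linarith
  set a := tr a₂ a₄ a₆
  set q : ℤ := ((Fintype.card F : ℕ) : ℤ) with hq
  have key : h (a • g1 - (2 * q) • g0) = a ^ 2 * q - 2 * q * a ^ 2 + 4 * q ^ 2 := by
    rw [q_sub h hp, pol_zsmul_right, pol_zsmul_left, q_zsmul h hp, q_zsmul h hp, h0, h1, hpol]
    ring
  have hnn : 0 ≤ h (a • g1 - (2 * q) • g0) := Int.natCast_nonneg _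
  rw [key] at hnn
  have hq0 : 0 < q := by rw [hq]; exact_mod_cast Fintype.card_pos
  by_contra hcon
  push Not at hcon
  have : q * (4 * q - a ^ 2) < 0 := mul_neg_of_pos_of_neg hq0 (by linarith)
  nlinarith

end

section general

variable {F : Type*} [Field F] [Fintype F]

/-- Hasse's bound. -/
theorem hasse (hF : ringChar F ≠ 2) (W : WeierstrassCurve F) [W.IsElliptic] :
    W.traceOfFrobenius ^ 2 ≤ 4 * Nat.card F := by
  classical
  obtain ⟨s, t, a₂, a₄, a₆, hV, hE⟩ := exists_short (Ring.two_ne_zero hF) W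
  have hcard : Nat.card (cur a₂ a₄ a₆).toAffine.Point = Nat.card W.toAffine.Point :=
    Nat.card_congr (vcEquiv hV one_ne_zero).toEquiv
  have htr : tr a₂ a₄ a₆ = W.traceOfFrobenius := by
    rw [tr, traceOfFrobenius, card, hcard, ← Nat.card_eq_fintype_card]
  rw [← htr, Nat.card_eq_fintype_card]
  exact hasse_cur hF

/-- The kernel of `π - m` has at most `m² - m a + q` elements. -/
theorem card_ker_le' (hF : ringChar F ≠ 2) (W : WeierstrassCurve F) [W.IsElliptic]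
    (L : Type*) [Field L] [Algebra F L] [DecidableEq L] (m : ℤ)
    (hm : 0 < m ^ 2 - m * W.traceOfFrobenius + Nat.card F)
    (S : Finset (W⁄L).Point) (hS : ∀ P ∈ S, frobW W L P = m • P) :
    ((S.card : ℕ) : ℤ) ≤ m ^ 2 - m * W.traceOfFrobenius + Nat.card F := by
  classical
  obtain ⟨s, t, a₂, a₄, a₆, hV, hE⟩ := exists_short (Ring.two_ne_zero hF) W
  have hL : IsVC (algebraMap F L 1) (algebraMap F L 0) (algebraMap F L s) (algebraMap F L t)
    (W⁄L) ((cur a₂ a₄ a₆)⁄L) := hV.map (algebraMap F L)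
  have hu : algebraMap F L 1 ≠ 0 := by rw [_root_.map_one]; exact one_ne_zero
  have hcard : Nat.card (cur a₂ a₄ a₆).toAffine.Point = Nat.card W.toAffine.Point :=
    Nat.card_congr (vcEquiv hV one_ne_zero).toEquiv
  have htr : tr a₂ a₄ a₆ = W.traceOfFrobenius := by
    rw [tr, traceOfFrobenius, card, hcard, ← Nat.card_eq_fintype_card]
  have hmap : ∀ R : ((cur a₂ a₄ a₆)⁄L).Point,
      frobW W L (vcEquiv hL hu R) = vcEquiv hL hu (frob a₂ a₄ a₆ L R) := fun R =>
    vcEquiv_map hL hL hu hu (FiniteField.frobeniusAlgHom F L) R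
  rw [Nat.card_eq_fintype_card, ← htr] at hm ⊢
  have h1 := card_ker_le hF L m hm (S.image (vcEquiv hL hu).symm) (by
    intro P hP
    rw [Finset.mem_image] at hP
    obtain ⟨Q, hQ, rfl⟩ := hP
    apply (vcEquiv hL hu).injective
    rw [← hmap, AddEquiv.apply_symm_apply, hS Q hQ, map_zsmul, AddEquiv.apply_symm_apply])
  rwa [Finset.card_image_of_injective _ (vcEquiv hL hu).symm.injective] at h1

end general

end Fermat.Agent.ECRep
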