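import Fermat.Agent.Cheb.Charpoly

set_option autoImplicit false
set_option linter.unusedSectionVars false

/-!
# Linear algebra in rank two
-/

namespace Fermat.Agent.ECRep

open Polynomial

section

variable {A : Type*} [CommRing A] [IsDomain A] {V : Type*} [AddCommGroup V] [Module A V]
  [Module.Free A V] [Module.Finite A V]

/-- Cayley-Hamilton in rank two. -/
lemma cayley_two (hV : Module.finrank A V = 2) (f : Module.End A V) (x : V) :
    f (f x) - LinearMap.trace A V f • f x + LinearMap.det f • x = 0 := by
  have h := LinearMap.aeval_self_charpoly f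
  rw [Cheb.charpoly_eq hV f] at h
  have h1 := LinearMap.congr_fun h x
  simpa [pow_two, sub_eq_add_neg] using h1

/-- If `a • f = d • 1` with `a ≠ 0`, then `f` is a scalar. -/
lemma scalar_of_smul (hV : Module.finrank A V = 2) (f : Module.End A V) {a d : A} (ha : a ≠ 0)
    (h : ∀ x, a • f x = d • x) : ∃ c : A, ∀ x, f x = c • x := by
  let b := Cheb.basis2 hV
  have e : ∀ i j, a * b.repr (f (b j)) i = d * b.repr (b j) i := by
    intro i j
    have := congrArg (fun v => b.repr v i) (h (b j))
    simpa only [map_smul, Finsupp.smul_apply, smul_eq_mul] using this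
  have e00 := e 0 0
  have e10 := e 1 0
  have e01 := e 0 1
  have e11 := e 1 1
  simp only [Module.Basis.repr_self] at e00 e10 e01 e11
  rw [Finsupp.single_eq_same, mul_one] at e00 e11
  rw [Finsupp.single_eq_of_ne (by decide), mul_zero] at e10 e01
  have f10 := (mul_eq_zero.mp e10).resolve_left ha
  have f01 := (mul_eq_zero.mp e01).resolve_left ha
  have f11 : b.repr (f (b 1)) 1 = b.repr (f (b 0)) 0 :=
    mul_left_cancel₀ ha (e11.trans e00.symm)
  refine ⟨b.repr (f (b 0)) 0, fun x => ?_⟩
  have hb : ∀ j, f (b j) = b.repr (f (b 0)) 0 • b j := by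
    intro j
    apply b.repr.injective
    ext i
    rw [map_smul, Finsupp.smul_apply, Module.Basis.repr_self]
    fin_cases j <;> fin_cases i
    · simp
    · simpa using f10
    · simpa using f01
    · simpa using f11
  have hlin : f = (b.repr (f (b 0)) 0) • (1 : Module.End A V) := b.ext fun j => by
    rw [hb j]; rfl
  rw [hlin]
  simp

/-- A non-scalar endomorphism satisfying `f² - a f + d = 0` has characteristic polynomial
`X² - a X + d`. -/
theorem charpoly_of_rel (hV : Module.finrank A V = 2) (f : Module.End A V) {a d : A}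
    (h : ∀ x, f (f x) - a • f x + d • x = 0) (hns : ¬ ∃ c : A, ∀ x, f x = c • x) :
    LinearMap.charpoly f = X ^ 2 - C a * X + C d := by
  have key : ∀ x, (LinearMap.trace A V f - a) • f x = (LinearMap.det f - d) • x := by
    intro x
    have h1 := cayley_two hV f x
    have h2 := h x
    have : (LinearMap.trace A V f - a) • f x - (LinearMap.det f - d) • x =
      (f (f x) - a • f x + d • x) -
      (f (f x) - LinearMap.trace A V f • f x + LinearMap.det f • x) := by module
    rw [h1, h2, sub_zero] at this
    exact sub_eq_zero.mp this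
  have ht : LinearMap.trace A V f = a := by
    by_contra hne
    exact hns (scalar_of_smul hV f (sub_ne_zero.mpr hne) key)
  have hd : LinearMap.det f = d := by
    have h0 : ∀ x : V, (LinearMap.det f - d) • x = 0 := by
      intro x
      rw [← key x, ht, sub_self, zero_smul]
    let b := Cheb.basis2 hV
    have := congrArg (fun v => b.repr v 0) (h0 (b 0))
    simp only [map_smul, Finsupp.smul_apply, Module.Basis.repr_self, Finsupp.single_eq_same,
      smul_eq_mul, mul_one, map_zero, Finsupp.coe_zero, Pi.zero_apply] at this
    exact sub_eq_zero.mp this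
  rw [Cheb.charpoly_eq hV, ht, hd]

/-- If the determinant is known, only `4 d ≠ a²` is needed. -/
theorem charpoly_of_rel_of_det (hV : Module.finrank A V = 2) (f : Module.End A V) {a d : A}
    (h : ∀ x, f (f x) - a • f x + d • x = 0) (hdet : LinearMap.det f = d) (hd : d ≠ 0)
    (hd0 : a * a ≠ 4 * d) :
    LinearMap.charpoly f = X ^ 2 - C a * X + C d := by
  refine charpoly_of_rel hV f h ?_
  rintro ⟨c, hc⟩
  let b := Cheb.basis2 hV
  have h1 := h (b 0)
  rw [hc (f (b 0)), hc (b 0)] at h1
  have h2 := congrArg (fun v => b.repr v 0) h1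
  simp only [map_add, map_sub, map_smul, Finsupp.add_apply, Finsupp.sub_apply,
    Finsupp.smul_apply, Module.Basis.repr_self, Finsupp.single_eq_same,
    smul_eq_mul, mul_one, map_zero, Finsupp.coe_zero, Pi.zero_apply] at h2
  have hf : f = c • (1 : Module.End A V) := LinearMap.ext fun x => by rw [hc]; simp
  have hdet' : LinearMap.det f = c ^ 2 := by
    rw [hf, LinearMap.det_smul, hV, map_one, mul_one]
  rw [hdet] at hdet'
  apply hd0
  -- `2 d = a c`, `d = c²`
  have h3 : a * c = 2 * d := by linear_combination -hdet' - h2
  have hc0 : c ^ 2 * (a * a - 4 * d) = 0 := by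
    rw [hdet'] at h3 ⊢
    linear_combination (a * c + 2 * c ^ 2) * h3
  rcases mul_eq_zero.mp hc0 with h4 | h4
  · exact absurd (hdet'.trans h4) hd
  · exact sub_eq_zero.mp h4

end

end Fermat.Agent.ECRep
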