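import Fermat.Agent.ECRep.RedGal
import Fermat.Agent.ECRep.Hasse
import Fermat.Agent.ECRep.RankTwo
import Fermat.Agent.Cheb.DetCyc

set_option autoImplicit false
set_option linter.unusedSectionVars false

/-!
# The characteristic polynomial of Frobenius on the Tate module (odd good primes)
and the determinant of the representation
-/

namespace Fermat.Agent.ECRep

open WeierstrassCurve WeierstrassCurve.Affine WeierstrassCurve.Affine.Point
open scoped WeierstrassCurve.Affine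
open Fermat.Agent.EC Fermat.Agent.DivPoly Fermat.Agent.S13lib

local notation "Qbar" => AlgebraicClosure ℚ
local notation "Γℚ" => (AlgebraicClosure ℚ ≃ₐ[ℚ] AlgebraicClosure ℚ)

lemma aux_comb {E : Type*} [AddCommGroup E] {n : ℕ} (a p : ℤ) {x y z : E} (hx : n • x = 0)
    (hy : n • y = 0) (hz : n • z = 0) : n • ((2 : ℤ) • (x - a • y + p • z)) = 0 := by
  have key : n • ((2 : ℤ) • (x - a • y + p • z)) =
      (2 : ℤ) • (n • x) - (2 * a) • (n • y) + (2 * p) • (n • z) := by module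
  rw [key, hx, hy, hz]
  simp

lemma zsmul_congr {E : Type*} [AddCommGroup E] {N : ℕ} {x : E} (hx : N • x = 0) {a b : ℤ}
    (h : (a : ZMod N) = (b : ZMod N)) : a • x = b • x := by
  obtain ⟨d, hd⟩ := (ZMod.intCast_eq_intCast_iff_dvd_sub _ _ _).mp h
  have h3 : b • x - a • x = 0 := by
    rw [← sub_smul, hd, mul_comm, mul_smul, natCast_zsmul, hx, smul_zero]
  exact (sub_eq_zero.mp h3).symm

section

variable (W : WeierstrassCurve ℤ) {A : ValuationSubring (AlgebraicClosure ℚ)} {p : ℕ}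

/-- The Frobenius relation on torsion points. -/
theorem frob_rel_torsion (hp : p.Prime) (hp2 : p ≠ 2) (hA : A.LiesOverPrime p)
    (hg : W.IsGoodPrimeFor p) {σ : Γℚ} (hσ : A.IsFrobeniusAt σ p) {n : ℕ} (hn : ¬ p ∣ n)
    {P : ((toRat W)⁄Qbar).Point} (hP : n • P = 0) :
    (2 : ℤ) • (σ • (σ • P) - W.apOfModel p • (σ • P) + (p : ℤ) • P) = 0 := by
  classical
  have := Fact.mk hp
  have := isElliptic_reduction W hg
  let _ := algRes hA
  set k := IsLocalRing.ResidueField A
  set r := IsLocalRing.residue A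
  have hR : IsRed r ((toRat W)⁄Qbar) ((W.reductionMod p)⁄k) := isRed_int W
  have hNS : ∀ Q : ((toRat W)⁄Qbar).Point, NS A.valuation Q := ns_of_good W hp hA hg
  let red' : ((toRat W)⁄Qbar).Point →+ ((W.reductionMod p)⁄k).Point :=
    { toFun := red r ((toRat W)⁄Qbar) ((W.reductionMod p)⁄k)
      map_zero' := red_zero
      map_add' := fun Q R => (red_add hR (hNS Q) (hNS R)).2 }
  have hfrob : ∀ Q, red' (σ • Q) = frobW (W.reductionMod p) k (red' Q) := fun Q =>
    (red_frob W hσ (hNS Q)).2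
  have hF : ringChar (ZMod p) ≠ 2 := by rwa [ZMod.ringChar_zmod_n]
  have hrel := frob_rel hF (W.reductionMod p) k (red' P)
  rw [← hfrob, ← hfrob, Nat.card_zmod] at hrel
  have hred : red' ((2 : ℤ) • (σ • (σ • P) - W.apOfModel p • (σ • P) + (p : ℤ) • P)) = 0 := by
    rw [map_zsmul, map_add, map_sub, map_zsmul, map_zsmul]
    exact hrel
  have hE1 := E1_of_red_eq_zero hR (hNS _) hred
  refine hE1.eq_zero_of_nsmul_eq_zero hR.int (v_natCast_eq_one hp hA hn) ?_
  have h1 : n • (σ • P) = 0 := by rw [← smul_nsmul', hP, smul_zero'']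
  have h2 : n • (σ • (σ • P)) = 0 := by rw [← smul_nsmul', h1, smul_zero'']
  exact aux_comb _ _ h2 h1 hP

/-- If a Frobenius acts on `N`-torsion as the integer `m` then `N² ≤ m² - m a + p`. -/
theorem card_le_of_scalar (hp : p.Prime) (hp2 : p ≠ 2) (hA : A.LiesOverPrime p)
    (hΔ : W.Δ ≠ 0) (hg : W.IsGoodPrimeFor p) {σ : Γℚ} (hσ : A.IsFrobeniusAt σ p) {n : ℕ}
    (hn : ¬ p ∣ n) (m : ℤ) (hm : 0 < m ^ 2 - m * W.apOfModel p + p)
    (h : ∀ P : ((toRat W)⁄Qbar).Point, n • P = 0 → σ • P = m • P) :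
    ((n ^ 2 : ℕ) : ℤ) ≤ m ^ 2 - m * W.apOfModel p + p := by
  classical
  have := Fact.mk hp
  have := isElliptic_reduction W hg
  let _ := algRes hA
  set k := IsLocalRing.ResidueField A
  set r := IsLocalRing.residue A
  have hR : IsRed r ((toRat W)⁄Qbar) ((W.reductionMod p)⁄k) := isRed_int W
  have hNS : ∀ Q : ((toRat W)⁄Qbar).Point, NS A.valuation Q := ns_of_good W hp hA hg
  let red' : ((toRat W)⁄Qbar).Point →+ ((W.reductionMod p)⁄k).Point :=
    { toFun := red r ((toRat W)⁄Qbar) ((W.reductionMod p)⁄k)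
      map_zero' := red_zero
      map_add' := fun Q R => (red_add hR (hNS Q) (hNS R)).2 }
  have hfrob : ∀ Q, red' (σ • Q) = frobW (W.reductionMod p) k (red' Q) := fun Q =>
    (red_frob W hσ (hNS Q)).2
  have hF : ringChar (ZMod p) ≠ 2 := by rwa [ZMod.ringChar_zmod_n]
  have hn0 : n ≠ 0 := by rintro rfl; exact hn (dvd_zero p)
  have hcard := card_tors (toRat W) (toRat_Δ_ne_zero hΔ) n hn0
  have hfin : Finite {x : ((toRat W)⁄Qbar).Point // n • x = 0} :=
    Nat.finite_of_card_ne_zero (by rw [hcard]; positivity)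
  have : Fintype {x : ((toRat W)⁄Qbar).Point // n • x = 0} := Fintype.ofFinite _
  let S : Finset ((W.reductionMod p)⁄k).Point :=
    Finset.univ.image fun x : {x : ((toRat W)⁄Qbar).Point // n • x = 0} => red' x.1
  have hinj : Function.Injective
      fun x : {x : ((toRat W)⁄Qbar).Point // n • x = 0} => red' x.1 := by
    rintro ⟨x, hx⟩ ⟨y, hy⟩ hxy
    have hxy' : red' x = red' y := hxy
    have h1 := E1_sub_of_red_eq hR (hNS x) (hNS y) hxy'
    have h2 : n • (x - y) = 0 := by rw [nsmul_sub, hx, hy, sub_zero]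
    have h3 := h1.eq_zero_of_nsmul_eq_zero hR.int (v_natCast_eq_one hp hA hn) h2
    exact Subtype.ext (sub_eq_zero.mp h3)
  have hS : S.card = n ^ 2 := by
    rw [Finset.card_image_of_injective _ hinj, Finset.card_univ, ← Nat.card_eq_fintype_card, hcard]
  have key := card_ker_le' hF (W.reductionMod p) k m (by rw [Nat.card_zmod]; exact hm) S (by
    intro P hP
    rw [Finset.mem_image] at hP
    obtain ⟨x, -, rfl⟩ := hP
    rw [← hfrob, h x.1 x.2, map_zsmul])
  rw [hS, Nat.card_zmod] at key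
  exact key

theorem hasse_ap (hp : p.Prime) (hp2 : p ≠ 2) (hg : W.IsGoodPrimeFor p) :
    W.apOfModel p ^ 2 < 4 * p := by
  have := Fact.mk hp
  have := isElliptic_reduction W hg
  have hF : ringChar (ZMod p) ≠ 2 := by rwa [ZMod.ringChar_zmod_n]
  have h1 := hasse hF (W.reductionMod p)
  rw [Nat.card_zmod] at h1
  refine lt_of_le_of_ne h1 ?_
  intro h2
  -- `a² = 4 p` is impossible
  change W.apOfModel p ^ 2 = _ at h2
  generalize W.apOfModel p = a at h2
  have h3 : (2 : ℤ) ∣ a := by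
    have : (2 : ℤ) ∣ a ^ 2 := by
      rw [h2]; exact ⟨2 * p, by ring⟩
    exact Int.prime_two.dvd_of_dvd_pow this
  obtain ⟨b, rfl⟩ := h3
  have h4 : b * b = p := by linarith
  have h5 : Prime (p : ℤ) := Nat.prime_iff_prime_int.mp hp
  exact h5.irreducible.not_isSquare ⟨b, h4.symm⟩

variable {l : ℕ} [Fact l.Prime]

/-- A Frobenius at an odd good prime does not act as a scalar on the Tate module. -/
theorem frob_not_scalar (hΔ : W.Δ ≠ 0) (hp : p.Prime) (hp2 : p ≠ 2) (hpl : p ≠ l)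
    (hA : A.LiesOverPrime p) (hg : W.IsGoodPrimeFor p) {σ : Γℚ} (hσ : A.IsFrobeniusAt σ p) :
    ¬ ∃ c : ℤ_[l], ∀ x : TateW (toRat W) l, tateGal (toRat W) l σ x = c • x := by
  rintro ⟨c, hc⟩
  have hl := (Fact.out : l.Prime)
  obtain ⟨n, hn⟩ : ∃ n : ℕ, 4 * p ≤ l ^ n := by
    obtain ⟨n, hn⟩ := pow_unbounded_of_one_lt (4 * p) hl.one_lt
    exact ⟨n, hn.le⟩
  set L := l ^ n with hL
  have hLpos : 0 < L := pow_pos hl.pos n
  have : NeZero L := ⟨hLpos.ne'⟩
  set m : ℤ := (PadicInt.toZModPow n c).valMinAbs with hm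
  have hmabs : m.natAbs ≤ L / 2 := ZMod.natAbs_valMinAbs_le _
  have hmc : (m : ZMod (l ^ n)) = PadicInt.toZModPow n c := ZMod.coe_valMinAbs _
  have hpn : ¬ p ∣ L := fun h =>
    hpl ((Nat.prime_dvd_prime_iff_eq hp hl).mp (hp.dvd_of_dvd_pow h))
  have hact : ∀ P : ((toRat W)⁄Qbar).Point, L • P = 0 → σ • P = m • P := by
    intro P hP
    obtain ⟨t, rfl⟩ := exists_lift (hcard_of_Δ (l := l) (toRat_Δ_ne_zero hΔ)) hP
    have h1 : (tateGal (toRat W) l σ t).1 n = (c • t).1 n := by rw [hc]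
    rw [tateGal_coe, Tate.smul_coe] at h1
    rw [h1]
    rw [← natCast_zsmul]
    exact zsmul_congr hP (by rw [hmc, ← appr_cast]; simp)
  have hH := hasse_ap W hp hp2 hg
  set a := W.apOfModel p
  have hmpos : 0 < m ^ 2 - m * a + p := by nlinarith [sq_nonneg (2 * m - a)]
  have key := card_le_of_scalar W hp hp2 hA hΔ hg hσ hpn m hmpos hact
  push_cast at key
  -- contradiction
  have hp1 : (2 : ℤ) ≤ p := by exact_mod_cast hp.two_le
  have hLp : (4 : ℤ) * p ≤ L := by exact_mod_cast hn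
  have hm2 : 2 * |m| ≤ L := by
    have : 2 * m.natAbs ≤ L := by omega
    rw [← Int.natCast_natAbs]
    exact_mod_cast this
  have ha : |a| ≤ p + 1 := by
    apply abs_le_of_sq_le_sq _ (by linarith)
    nlinarith [sq_nonneg ((p : ℤ) - 1)]
  have h1 : -(m * a) ≤ |m| * |a| := by rw [← abs_mul]; exact neg_le_abs _
  have h2 : m ^ 2 = |m| ^ 2 := (sq_abs m).symm
  have h3 : |m| * |a| ≤ |m| * (p + 1) := mul_le_mul_of_nonneg_left ha (abs_nonneg _)
  have h4 : (0 : ℤ) ≤ |m| := abs_nonneg _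
  have h5 : ((L : ℤ)) ^ 2 ≤ |m| ^ 2 + |m| * (p + 1) + p := by
    rw [← h2]; linarith
  nlinarith

/-- The characteristic polynomial of Frobenius, odd good primes. -/
theorem charpoly_frob_odd (hΔ : W.Δ ≠ 0) (hp : p.Prime) (hp2 : p ≠ 2) (hpl : p ≠ l)
    (hA : A.LiesOverPrime p) (hg : W.IsGoodPrimeFor p) {σ : Γℚ} (hσ : A.IsFrobeniusAt σ p) :
    LinearMap.charpoly ((tateRep (toRat W) l (toRat_Δ_ne_zero hΔ)).ρ σ) =
      Polynomial.X ^ 2 - Polynomial.C ((W.apOfModel p : ℤ) : ℤ_[l]) * Polynomial.X +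
        Polynomial.C ((p : ℕ) : ℤ_[l]) := by
  have hl := (Fact.out : l.Prime)
  suffices hrel : ∀ x : TateW (toRat W) l, tateGal (toRat W) l σ (tateGal (toRat W) l σ x) -
      ((W.apOfModel p : ℤ) : ℤ_[l]) • tateGal (toRat W) l σ x + ((p : ℕ) : ℤ_[l]) • x = 0 from
    charpoly_of_rel (tateRep (toRat W) l (toRat_Δ_ne_zero hΔ)).finrank_eq _ hrel
      (frob_not_scalar W hΔ hp hp2 hpl hA hg hσ)
  intro x
  have h2 : ∀ y : TateW (toRat W) l, (2 : ℤ) • y = 0 → y = 0 := by
    intro y hy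
    have := tate_free (l := l) (toRat_Δ_ne_zero hΔ)
    have h3 : (2 : ℤ_[l]) • y = 0 := by
      refine Tate.ext fun n => ?_
      have := Tate.intCast_smul (2 : ℤ) y n
      rw [← Tate.zsmul_coe, hy] at this
      simpa using this
    exact (smul_eq_zero.mp h3).resolve_left two_ne_zero
  apply h2
  refine Tate.ext fun n => ?_
  have hn : ¬ p ∣ l ^ n := fun h =>
    hpl ((Nat.prime_dvd_prime_iff_eq hp hl).mp (hp.dvd_of_dvd_pow h))
  have h4 := frob_rel_torsion W hp hp2 hA hg hσ hn (x.torsion n)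
  rw [Tate.zsmul_coe, Tate.coe_add, Tate.coe_sub, Tate.intCast_smul, Tate.natCast_smul,
    ← natCast_zsmul]
  exact h4

/-- **The determinant of the `l`-adic representation of an elliptic curve is the cyclotomic
character.** -/
theorem detIsCyclotomic (hΔ : W.Δ ≠ 0) :
    (tateRep (toRat W) l (toRat_Δ_ne_zero hΔ)).DetIsCyclotomic l := by
  classical
  refine Cheb.detIsCyclotomic_of_frobenius _ Fact.out ?_
    (insert 2 (insert l W.Δ.natAbs.primeFactors)) ?_
  · rw [PadicInt.maximalIdeal_eq_span_p]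
    exact Ideal.mem_span_singleton_self _
  · intro q hq hqS P hP φ hφ
    rw [Finset.mem_insert, Finset.mem_insert, not_or, not_or] at hqS
    obtain ⟨h2, hl, h3⟩ := hqS
    have hg : W.IsGoodPrimeFor q := by
      intro hdvd
      apply h3
      rw [Nat.mem_primeFactors]
      exact ⟨hq, Int.natCast_dvd.mp hdvd, Int.natAbs_ne_zero.mpr hΔ⟩
    exact (Cheb.trace_det_of_charpoly_eq
      (tateRep (toRat W) l (toRat_Δ_ne_zero hΔ)).finrank_eq _
      (charpoly_frob_odd W hΔ hq h2 hl hP hg hφ)).2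

end

end Fermat.Agent.ECRep
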