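import Fermat.Agent.ECRep.MultIdx
import Fermat.Agent.S13lib.Rational

set_option autoImplicit false
set_option linter.unusedSectionVars false

/-!
# Torsion points at a place of multiplicative reduction
-/

namespace Fermat.Agent.ECRep

open WeierstrassCurve WeierstrassCurve.Affine WeierstrassCurve.Affine.Point
open scoped WeierstrassCurve.Affine
open Fermat.Agent.EC Fermat.Agent.DivPoly Fermat.Agent.S13lib

local notation "Qbar" => AlgebraicClosure ℚ
local notation "Γℚ" => (AlgebraicClosure ℚ ≃ₐ[ℚ] AlgebraicClosure ℚ)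

section red

variable {K k : Type*} [Field K] [Field k] {A : ValuationSubring K} {r : A →+* k} [IsLocalHom r]
  {W : WeierstrassCurve.Affine K} {W' : WeierstrassCurve.Affine k} {x₀ y₀ α β D : K}

/-- the reduction is nodal -/
theorem Mult.node (hM : Mult A.valuation W x₀ y₀ α β D) (hW : IsRed r W W') :
    MAlg W' (rr r x₀) (rr r y₀) (rr r α) (rr r β) 0 := by
  have vx := hM.vx
  have vy := hM.vy
  have vα := hM.vα
  have vβ := hM.symm.vα
  have vD := hM.vD.le
  have v1 := hM.int.a₁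
  have v2 := hM.int.a₂
  have v3 := hM.int.a₃
  have v4 := hM.int.a₄
  have v6 := hM.int.a₆
  have n2 := v_ofNat_le_one A.valuation 2
  have n3 := v_ofNat_le_one A.valuation 3
  have rD : rr r D = 0 := (rr_eq_zero_iff r vD).mpr hM.vD
  refine ⟨?_, ?_, ?_, ?_, ?_⟩
  · have h := congrArg (rr r) hM.two
    rw [rr_add r (v_add_le_one _ (v_mul_le_one _ n2 vy) (v_mul_le_one _ v1 vx)) v3,
      rr_add r (v_mul_le_one _ n2 vy) (v_mul_le_one _ v1 vx), rr_mul r n2 vy, rr_mul r v1 vx,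
      rr_ofNat, hW.a₁, hW.a₃, rr_zero] at h
    exact h
  · have h := congrArg (rr r) hM.crit
    rw [rr_add r (v_add_le_one _ (v_mul_le_one _ n3 (v_pow_le_one _ vx 2))
        (v_mul_le_one _ (v_mul_le_one _ n2 v2) vx)) v4,
      rr_add r (v_mul_le_one _ n3 (v_pow_le_one _ vx 2))
        (v_mul_le_one _ (v_mul_le_one _ n2 v2) vx),
      rr_mul r n3 (v_pow_le_one _ vx 2), rr_mul r (v_mul_le_one _ n2 v2) vx, rr_mul r n2 v2,
      rr_pow r vx, rr_mul r v1 vy, rr_ofNat, rr_ofNat, hW.a₁, hW.a₂, hW.a₄] at h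
    exact h
  · have h := congrArg (rr r) hM.eqn
    have w1 := v_pow_le_one A.valuation vx 3
    have w2 := v_mul_le_one A.valuation v2 (v_pow_le_one _ vx 2)
    have w3 := v_mul_le_one A.valuation v4 vx
    have w4 := v_pow_le_one A.valuation vy 2
    have w5 := v_mul_le_one A.valuation (v_mul_le_one _ v1 vx) vy
    have w6 := v_mul_le_one A.valuation v3 vy
    rw [rr_add r (v_add_le_one _ (v_add_le_one _ w1 w2) w3) v6,
      rr_add r (v_add_le_one _ w1 w2) w3, rr_add r w1 w2,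
      rr_add r (v_add_le_one _ (v_add_le_one _ w4 w5) w6) vD,
      rr_add r (v_add_le_one _ w4 w5) w6, rr_add r w4 w5, rr_mul r v2 (v_pow_le_one _ vx 2),
      rr_mul r v4 vx, rr_mul r (v_mul_le_one _ v1 vx) vy, rr_mul r v1 vx, rr_mul r v3 vy,
      rr_pow r vx, rr_pow r vx, rr_pow r vy, rD, hW.a₁, hW.a₂, hW.a₃, hW.a₄, hW.a₆] at h
    exact h
  · have h := congrArg (rr r) hM.add
    rw [rr_add r vα vβ, rr_neg r v1, hW.a₁] at h
    exact h
  · have h := congrArg (rr r) hM.mul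
    rw [rr_mul r vα vβ, rr_neg r (v_add_le_one _ v2 (v_mul_le_one _ n3 vx)),
      rr_add r v2 (v_mul_le_one _ n3 vx), rr_mul r n3 vx, rr_ofNat, hW.a₂] at h
    exact h

theorem Mult.node_ne (hM : Mult A.valuation W x₀ y₀ α β D) : rr r α ≠ rr r β := by
  intro h
  rw [rr_eq_iff r hM.vα hM.symm.vα, hM.vδ] at h
  exact lt_irrefl _ h

variable [DecidableEq K] [DecidableEq k]

lemma red_nsmul (hW : IsRed r W W') {P : W.Point} (hP : NS A.valuation P) (n : ℕ) :
    NS A.valuation (n • P) ∧ red r W W' (n • P) = n • red r W W' P := by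
  induction n with
  | zero => rw [zero_smul, zero_smul, red_zero]; exact ⟨Or.inl rfl, rfl⟩
  | succ n ih =>
    rw [succ_nsmul, succ_nsmul]
    have := red_add hW ih.1 hP
    rw [ih.2] at this
    exact this

/-- **The toric part of the torsion has at most `N` elements.** -/
theorem Mult.card_ns_le (hM : Mult A.valuation W x₀ y₀ α β D) (hW : IsRed r W W') {N : ℕ}
    (hN : A.valuation (N : K) = 1) (hN0 : N ≠ 0) :
    Nat.card {P : tN W N // NS A.valuation (P : W.Point)} ≤ N := by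
  have : NeZero N := ⟨hN0⟩
  have hnode := hM.node hW
  let f : {P : tN W N // NS A.valuation (P : W.Point)} → rootsOfUnity N k := fun P =>
    ⟨(nodeHom hnode (red r W W' P.1.1)).toMul, by
      rw [mem_rootsOfUnity]
      ext
      have h := nodeT_nsmul hnode N (red r W W' P.1.1)
      rw [← (red_nsmul hW P.2 N).2, mem_tN.mp P.1.2, red_zero, nodeT_zero] at h
      rw [Units.val_pow_eq_pow_val, nodeHom_apply, ← h, Units.val_one]⟩
  have hf : Function.Injective f := by
    intro P Q h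
    have h1 : nodeHom hnode (red r W W' P.1.1) = nodeHom hnode (red r W W' Q.1.1) :=
      congrArg (fun z => Additive.ofMul (Subtype.val z)) h
    have h2 := nodeHom_injective hnode hM.node_ne h1
    have h3 := E1_sub_of_red_eq hW P.2 Q.2 h2
    have h4 : N • (P.1.1 - Q.1.1) = 0 := by
      rw [nsmul_sub, mem_tN.mp P.1.2, mem_tN.mp Q.1.2, sub_zero]
    have h5 := h3.eq_zero_of_nsmul_eq_zero hW.int hN h4
    exact Subtype.ext (Subtype.ext (sub_eq_zero.mp h5))
  calc _ ≤ Nat.card (rootsOfUnity N k) := Nat.card_le_card_of_injective f hf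
    _ ≤ N := card_rootsOfUnity k N

end red

section rat

variable (W : WeierstrassCurve ℤ) {A : ValuationSubring (AlgebraicClosure ℚ)} {q : ℕ}

theorem exists_multData (hΔ : W.Δ ≠ 0) (hq : q.Prime) (hA : A.LiesOverPrime q)
    (hqΔ : (q : ℤ) ∣ W.Δ) (hc : ¬ (q : ℤ) ∣ W.c₄) :
    ∃ x₀ y₀ α β D : Qbar, Mult A.valuation ((toRat W)⁄Qbar) x₀ y₀ α β D := by
  have e1 : ((toRat W)⁄Qbar).Δ = (W.Δ : Qbar) := by
    change ((W.map (Int.castRingHom ℚ)).map (algebraMap ℚ Qbar)).Δ = _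
    rw [map_Δ, map_Δ]; simp
  have e2 : ((toRat W)⁄Qbar).c₄ = (W.c₄ : Qbar) := by
    change ((W.map (Int.castRingHom ℚ)).map (algebraMap ℚ Qbar)).c₄ = _
    rw [map_c₄, map_c₄]; simp
  refine exists_mult (integralFor_int W A) ?_ ?_ ?_
  · rw [e1]; exact v_intCast_lt_one hA hqΔ
  · rw [e1]; exact_mod_cast hΔ
  · rw [e2]; exact v_intCast_eq_one hq hA hc

/-- `Mult` data: `v D = v Δ`. -/
theorem v_D_eq {x₀ y₀ α β D : Qbar}
    (hM : Mult A.valuation ((toRat W)⁄Qbar) x₀ y₀ α β D) :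
    A.valuation D = A.valuation (W.Δ : Qbar) := by
  have e1 : ((toRat W)⁄Qbar).Δ = (W.Δ : Qbar) := by
    change ((W.map (Int.castRingHom ℚ)).map (algebraMap ℚ Qbar)).Δ = _
    rw [map_Δ, map_Δ]; simp
  rw [← e1, hM.v_Δ]

variable {W}

/-- the structure of the torsion prime to `q` -/
theorem mult_card (hΔ : W.Δ ≠ 0) (hq : q.Prime) (hA : A.LiesOverPrime q) {x₀ y₀ α β D : Qbar}
    (hM : Mult A.valuation ((toRat W)⁄Qbar) x₀ y₀ α β D) {N : ℕ} (hN : ¬ q ∣ N) :
    Nat.card {P : tN ((toRat W)⁄Qbar) N // NS A.valuation (P : ((toRat W)⁄Qbar).Point)} = N ∧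
      Function.Surjective (hM.idx N) := by
  classical
  have hN0 : N ≠ 0 := by rintro rfl; exact hN (dvd_zero q)
  have := Fact.mk hq
  let _ := algRes hA
  refine hM.card_idx hN0 (card_tors (toRat W) (toRat_Δ_ne_zero hΔ) N hN0) ?_
  exact hM.card_ns_le (isRed_int W (A := A) (p := q)) (v_natCast_eq_one hq hA hN) hN0

/-- Inertia at a multiplicative prime is unipotent on torsion prime to `q`. -/
theorem mult_inertia_sq (hq : q.Prime) (hA : A.LiesOverPrime q) {x₀ y₀ α β D : Qbar}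
    (hM : Mult A.valuation ((toRat W)⁄Qbar) x₀ y₀ α β D) {σ : Γℚ}
    (hσ : σ ∈ A.inertiaSubgroupIn ℚ) {N : ℕ} (hN : ¬ q ∣ N) {P : ((toRat W)⁄Qbar).Point}
    (hP : N • P = 0) : σ • (σ • P - P) = σ • P - P := by
  have h1 := hM.inertia_ns hσ P
  have h2 := E1_smul_sub_of_NS hM.int h1 hσ
  have h3 : N • (σ • P - P) = 0 := by
    rw [nsmul_sub, ← smul_nsmul', hP, smul_zero'', sub_zero]
  have h4 : N • (σ • (σ • P - P) - (σ • P - P)) = 0 := by
    rw [nsmul_sub, ← smul_nsmul', h3, smul_zero'', sub_zero]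
  exact sub_eq_zero.mp (h2.eq_zero_of_nsmul_eq_zero hM.int (v_natCast_eq_one hq hA hN) h4)

/-- Inertia acts trivially on the toric part of the torsion prime to `q`. -/
theorem mult_inertia_ns (hq : q.Prime) (hA : A.LiesOverPrime q) {x₀ y₀ α β D : Qbar}
    (hM : Mult A.valuation ((toRat W)⁄Qbar) x₀ y₀ α β D) {σ : Γℚ}
    (hσ : σ ∈ A.inertiaSubgroupIn ℚ) {N : ℕ} (hN : ¬ q ∣ N) {P : ((toRat W)⁄Qbar).Point}
    (hns : NS A.valuation P) (hP : N • P = 0) : σ • P = P := by
  have h2 := E1_smul_sub_of_NS hM.int hns hσ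
  have h3 : N • (σ • P - P) = 0 := by
    rw [nsmul_sub, ← smul_nsmul', hP, smul_zero'', sub_zero]
  exact sub_eq_zero.mp (h2.eq_zero_of_nsmul_eq_zero hM.int (v_natCast_eq_one hq hA hN) h3)

/-- **The Frobenius on the toric part.** -/
theorem mult_frob_ns (hq : q.Prime) (hA : A.LiesOverPrime q) {x₀ y₀ α β D : Qbar}
    (hM : Mult A.valuation ((toRat W)⁄Qbar) x₀ y₀ α β D) {σ : Γℚ}
    (hσ : A.IsFrobeniusAt σ q) {N : ℕ} (hN : ¬ q ∣ N) {P : ((toRat W)⁄Qbar).Point}
    (hns : NS A.valuation P) (hP : N • P = 0) :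
    (σ α = α → σ • P = q • P) ∧ (σ α = β → σ • P = -(q • P)) := by
  classical
  have := Fact.mk hq
  let _ := algRes hA
  set k := IsLocalRing.ResidueField A
  set r := IsLocalRing.residue A with hr
  have hR : IsRed r ((toRat W)⁄Qbar) ((W.reductionMod q)⁄k) := isRed_int W
  have hnode := hM.node hR
  have hdec : σ ∈ A.decompositionSubgroup ℚ := hσ.mem_decompositionSubgroup
  obtain ⟨hx, hy, -, hαβ⟩ := hM.gal hdec
  set θ : k →ₐ[ZMod q] k := FiniteField.frobeniusAlgHom (ZMod q) k with hθ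
  have hpow : ∀ z : k, θ z = z ^ q := fun z => by
    rw [hθ, FiniteField.coe_frobeniusAlgHom, Fintype.card_eq_nat_card, Nat.card_zmod]
  have hθσ : ∀ x : Qbar, A.valuation x ≤ 1 → θ (rr r x) = rr r (σ x) := by
    intro x hx
    have hσ' := (Frob.isFrobeniusAt_iff A σ q).mp hσ
    have hσx := v_decomp_le hσ'.1 hx
    have h1 := hσ'.2 x ((A.valuation_le_one_iff x).mp hx)
    rw [ValuationSubring.mem_nonunits_iff] at h1
    rw [(rr_eq_iff _ hσx (v_pow_le_one _ hx q)).mpr h1, rr_pow _ hx, hpow]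
  have tx : θ (rr r x₀) = rr r x₀ := by rw [hθσ _ hM.vx, hx]
  have ty : θ (rr r y₀) = rr r y₀ := by rw [hθσ _ hM.vy, hy]
  obtain ⟨hns', hred⟩ := red_frob W hσ hns
  have hq1 := red_nsmul hR hns q
  have hNσ : N • (σ • P) = 0 := by rw [← smul_nsmul', hP, smul_zero'']
  constructor
  · intro hα
    have hβ : σ β = β := by
      rcases hαβ with h | h
      · exact h.2
      · rw [h.2, ← h.1, hα]
    have tα : θ (rr r α) = rr r α := by rw [hθσ _ hM.vα, hα]
    have tβ : θ (rr r β) = rr r β := by rw [hθσ _ hM.symm.vα, hβ]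
    have h1 : red r ((toRat W)⁄Qbar) ((W.reductionMod q)⁄k) (σ • P) =
        red r ((toRat W)⁄Qbar) ((W.reductionMod q)⁄k) (q • P) := by
      apply nodeT_inj hnode hM.node_ne
      rw [hred, hq1.2, nodeT_nsmul hnode, frobW, nodeT_map θ tx ty tα tβ, hpow]
    have h2 := E1_sub_of_red_eq hR hns' hq1.1 h1
    have h3 : N • (σ • P - q • P) = 0 := by
      rw [nsmul_sub, hNσ, ← mul_nsmul', mul_comm, mul_nsmul', hP, nsmul_zero, sub_zero]
    exact sub_eq_zero.mp (h2.eq_zero_of_nsmul_eq_zero hM.int (v_natCast_eq_one hq hA hN) h3)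
  · intro hα
    have hβ : σ β = α := by
      rcases hαβ with h | h
      · rw [h.2, ← hα, h.1]
      · exact h.2
    have tα : θ (rr r α) = rr r β := by rw [hθσ _ hM.vα, hα]
    have tβ : θ (rr r β) = rr r α := by rw [hθσ _ hM.symm.vα, hβ]
    have hneg := neg_red hR hq1.1
    have h1 : red r ((toRat W)⁄Qbar) ((W.reductionMod q)⁄k) (σ • P) =
        red r ((toRat W)⁄Qbar) ((W.reductionMod q)⁄k) (-(q • P)) := by
      apply nodeT_inj hnode hM.node_ne
      have h5 := nodeT_neg hnode (red r ((toRat W)⁄Qbar) ((W.reductionMod q)⁄k) (q • P))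
      rw [hred, hneg.2, frobW, nodeT_map_swap θ tx ty tα tβ, hpow, ← nodeT_nsmul hnode, ← hq1.2]
      exact (eq_inv_of_mul_eq_one_left h5).symm
    have h2 := E1_sub_of_red_eq hR hns' hneg.1 h1
    have h3 : N • (σ • P - -(q • P)) = 0 := by
      rw [sub_neg_eq_add, nsmul_add, hNσ, ← mul_nsmul', mul_comm, mul_nsmul', hP, nsmul_zero,
        add_zero]
    exact sub_eq_zero.mp (h2.eq_zero_of_nsmul_eq_zero hM.int (v_natCast_eq_one hq hA hN) h3)

end rat

end Fermat.Agent.ECRep
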