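import Fermat.Agent.ECRep.FlatPt
import Fermat.Agent.ECRep.FrobChar
import Fermat.Agent.ECRep.MultTors
import Fermat.Agent.Flat.Global

set_option autoImplicit false
set_option linter.unusedSectionVars false

/-!
# Integrality of the chart on odd torsion at a place of good reduction
-/

namespace Fermat.Agent.ECRep

open WeierstrassCurve WeierstrassCurve.Affine WeierstrassCurve.Affine.Point
open scoped WeierstrassCurve.Affine
open Fermat.Agent.EC Fermat.Agent.DivPoly Fermat.Agent.S13lib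

local notation "Qbar" => AlgebraicClosure ℚ
local notation "Γℚ" => (AlgebraicClosure ℚ ≃ₐ[ℚ] AlgebraicClosure ℚ)

section val

variable {K : Type*} [Field K] {Γ₀ : Type*} [LinearOrderedCommGroupWithZero Γ₀]
  {v : Valuation K Γ₀} {b₂ b₄ b₆ t w : K}

/-- points close to the origin have `v t < 1` -/
lemma chart_v_lt (h4 : v 4 = 1) (h2 : v b₂ ≤ 1) (h4' : v b₄ ≤ 1) (h6 : v b₆ ≤ 1)
    (hF : cF b₂ b₄ b₆ t w = 0) (h : v w < v t) : v t < 1 := by
  by_contra hcon
  rw [not_lt] at hcon
  have ht0 : 0 < v t := lt_of_lt_of_le one_pos hcon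
  have n2 := v_ofNat_le_one v 2
  have e1 : 4 * t ^ 3 = w - (b₂ * t ^ 2 * w + 2 * b₄ * t * w ^ 2 + b₆ * w ^ 3) := by
    simp only [cF, cL] at hF
    linear_combination hF
  have hlt : v (4 * t ^ 3) < v t ^ 3 := by
    have hw2 : v w ^ 2 ≤ v t ^ 2 := pow_le_pow_left₀ zero_le h.le 2
    have a1 : v w < v t ^ 3 := by
      refine h.trans_le ?_
      calc v t = v t * 1 := by rw [mul_one]
        _ ≤ v t * (v t ^ 2) := mul_le_mul' le_rfl (one_le_pow₀ hcon)
        _ = v t ^ 3 := by rw [← pow_succ']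
    have a2 : v (b₂ * t ^ 2 * w) < v t ^ 3 := by
      rw [map_mul, map_mul, map_pow]
      calc v b₂ * v t ^ 2 * v w ≤ 1 * v t ^ 2 * v w := by
            exact mul_le_mul' (mul_le_mul' h2 le_rfl) le_rfl
        _ = v t ^ 2 * v w := by rw [one_mul]
        _ < v t ^ 2 * v t := by
            exact (mul_lt_mul_iff_right₀ (pow_pos ht0 2)).mpr h
        _ = v t ^ 3 := by rw [← pow_succ]
    have a3 : v (2 * b₄ * t * w ^ 2) < v t ^ 3 := by
      rw [map_mul, map_mul, map_mul, map_pow]
      calc v 2 * v b₄ * v t * v w ^ 2 ≤ 1 * 1 * v t * (v w * v t) := by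
            refine mul_le_mul' (mul_le_mul' (mul_le_mul' n2 h4') le_rfl) ?_
            rw [sq]; exact mul_le_mul' le_rfl h.le
        _ = v t * v t * v w := by rw [one_mul, one_mul, mul_comm (v w), mul_assoc]
        _ < v t * v t * v t := by
            exact (mul_lt_mul_iff_right₀ (mul_pos ht0 ht0)).mpr h
        _ = v t ^ 3 := by rw [pow_succ, sq]
    have a4 : v (b₆ * w ^ 3) < v t ^ 3 := by
      rw [map_mul, map_pow]
      calc v b₆ * v w ^ 3 ≤ 1 * v w ^ 3 := mul_le_mul' h6 le_rfl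
        _ = v w ^ 3 := by rw [one_mul]
        _ < v t ^ 3 := by
            exact pow_lt_pow_left₀ h zero_le three_ne_zero
    rw [e1]
    refine v.map_sub_lt a1 (v.map_add_lt (v.map_add_lt a2 a3) a4)
  rw [map_mul, map_pow, h4, one_mul] at hlt
  exact lt_irrefl _ hlt

end val

section rat

variable {W : WeierstrassCurve ℤ} {A : ValuationSubring (AlgebraicClosure ℚ)} {l N : ℕ}

lemma odd_aux {G : Type*} [AddCommGroup G] (hN : Odd N) {P : G} (hP : N • P = 0)
    (h2 : P = -P) : P = 0 := by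
  obtain ⟨k, rfl⟩ := hN
  have h : 2 • P = 0 := by
    rw [two_nsmul]
    nth_rw 1 [h2]
    exact neg_add_cancel P
  rw [add_nsmul, mul_comm, mul_nsmul, one_nsmul] at hP
  have h3 : k • (2 • P) = 0 := by rw [h, nsmul_zero]
  rw [← mul_nsmul, mul_comm, mul_nsmul] at h3
  rw [← mul_nsmul, mul_comm, mul_nsmul, h, nsmul_zero, zero_add] at hP
  exact hP

lemma psi2_ne (hN : Odd N) {P : ((toRat W)⁄Qbar).Point} (hP : N • P = 0) (h0 : P ≠ 0) :
    psi2 P ≠ 0 := by
  intro h
  exact h0 (odd_aux hN hP ((psi2_eq_zero_iff h0).mp h))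

theorem v_psi2_eq (hl : l.Prime) (hA : A.LiesOverPrime l) (hg : W.IsGoodPrimeFor l)
    (hN : Odd N) {P : ((toRat W)⁄Qbar).Point} (hP : N • P = 0) (h0 : P ≠ 0)
    (hx : A.valuation (xc P) ≤ 1) : A.valuation (psi2 P) = 1 := by
  classical
  have := Fact.mk hl
  have := isElliptic_reduction W hg
  let _ := algRes hA
  set k := IsLocalRing.ResidueField A
  set r := IsLocalRing.residue A
  have hR : IsRed r ((toRat W)⁄Qbar) ((W.reductionMod l)⁄k) := isRed_int W
  have hNS : ∀ Q : ((toRat W)⁄Qbar).Point, NS A.valuation Q := ns_of_good W hl hA hg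
  have hle : A.valuation (psi2 P) ≤ 1 := v_psi_le hR hx (yc_le_one _ hR.int h0 hx)
  refine le_antisymm hle ?_
  by_contra hcon
  rw [not_le] at hcon
  have h1 : psi2 (red r ((toRat W)⁄Qbar) ((W.reductionMod l)⁄k) P) = 0 := by
    rw [rr_psi2 hR h0 hx (hNS P)]
    exact (rr_eq_zero_iff r hle).mpr hcon
  have hne := red_ne_zero hR h0 hx (hNS P)
  have h2 := (psi2_eq_zero_iff hne).mp h1
  apply hne
  refine odd_aux hN ?_ h2
  rw [← (red_nsmul hR (hNS P) N).2, hP, red_zero]

theorem v_chart_le (hl : l.Prime) (hl2 : l ≠ 2) (hA : A.LiesOverPrime l)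
    (hg : W.IsGoodPrimeFor l) (hN : Odd N) {P : ((toRat W)⁄Qbar).Point} (hP : N • P = 0) :
    A.valuation (tt P) ≤ 1 ∧ A.valuation (ww P) ≤ 1 := by
  rcases eq_or_ne P 0 with rfl | h0
  · rw [tt_zero, ww_zero, _root_.map_zero]; exact ⟨zero_le, zero_le⟩
  have hψ := psi2_ne hN hP h0
  rcases lt_or_ge 1 (A.valuation (xc P)) with hx | hx
  · have hint := integralFor_int W A
    have hw0 : ww P ≠ 0 := by rw [ww_of_ne h0]; exact one_div_ne_zero hψ
    have htw : tt P = xc P * ww P := by rw [tt_of_ne h0, ww_of_ne h0]; ring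
    have hlt : A.valuation (ww P) < A.valuation (tt P) := by
      rw [htw, _root_.map_mul]
      have : 0 < A.valuation (ww P) := zero_lt_iff.mpr ((_root_.map_ne_zero _).mpr hw0)
      calc A.valuation (ww P) = 1 * A.valuation (ww P) := by rw [one_mul]
        _ < A.valuation (xc P) * A.valuation (ww P) := (mul_lt_mul_iff_left₀ this).mpr hx
    have h4 : A.valuation (4 : Qbar) = 1 := by
      have := v_natCast_eq_one hl hA (n := 4) (fun h => hl2 (by
        have h2 : l ∣ 2 ^ 2 := by norm_num; exact h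
        exact (Nat.prime_dvd_prime_iff_eq hl Nat.prime_two).mp (hl.dvd_of_dvd_pow h2)))
      exact_mod_cast this
    have hb2 : A.valuation ((toRat W)⁄Qbar).b₂ ≤ 1 := by
      rw [b₂]
      exact v_add_le_one _ (v_pow_le_one _ hint.a₁ 2) (v_mul_le_one _ (v_ofNat_le_one _ 4) hint.a₂)
    have hb4 : A.valuation ((toRat W)⁄Qbar).b₄ ≤ 1 := by
      rw [b₄]
      exact v_add_le_one _ (v_mul_le_one _ (v_ofNat_le_one _ 2) hint.a₄)
        (v_mul_le_one _ hint.a₁ hint.a₃)
    have hb6 : A.valuation ((toRat W)⁄Qbar).b₆ ≤ 1 := by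
      rw [b₆]
      exact v_add_le_one _ (v_pow_le_one _ hint.a₃ 2) (v_mul_le_one _ (v_ofNat_le_one _ 4) hint.a₆)
    have := chart_v_lt h4 hb2 hb4 hb6 (cF_point fun _ => hψ) hlt
    exact ⟨this.le, (hlt.trans this).le⟩
  · have h1 := v_psi2_eq hl hA hg hN hP h0 hx
    rw [tt_of_ne h0, ww_of_ne h0, map_div₀, map_div₀, h1, div_one, div_one, _root_.map_one]
    exact ⟨hx, le_rfl⟩

end rat

section integral

open GaloisRep

instance intClosedIn (l : ℕ) :
    IsIntegrallyClosedIn ((integralClosure (ratLocalizedAt l) Qbar).toSubring) Qbar :=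
  inferInstanceAs (IsIntegrallyClosedIn (integralClosure (ratLocalizedAt l) Qbar) Qbar)

theorem isIntegral_of_val {l : ℕ} (hl : l.Prime) {x : Qbar}
    (h : ∀ A : ValuationSubring Qbar, A.LiesOverPrime l → A.valuation x ≤ 1) :
    IsIntegral (ratLocalizedAt l) x := by
  by_contra hcon
  have hx : x ∉ (integralClosure (ratLocalizedAt l) Qbar).toSubring := hcon
  obtain ⟨V, hV, hxV⟩ := Subring.exists_le_valuationSubring_of_isIntegrallyClosedIn hx
  have hR : ∀ r : ratLocalizedAt l, algebraMap (ratLocalizedAt l) Qbar r ∈ V := fun r =>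
    hV (Subalgebra.algebraMap_mem (integralClosure (ratLocalizedAt l) Qbar) r)
  by_cases hA : V.LiesOverPrime l
  · exact hxV ((V.valuation_le_one_iff x).mp (h V hA))
  · -- `l` is a unit
    have hlu : ((l : Qbar))⁻¹ ∈ V := by
      by_contra hn
      apply hA
      have h1 : V.valuation (l : Qbar) < 1 := by
        have h2 : ¬ V.valuation ((l : Qbar)⁻¹) ≤ 1 := fun h' => hn ((V.valuation_le_one_iff _).mp h')
        rw [map_inv₀, not_le] at h2
        exact (one_lt_inv₀ (zero_lt_iff.mpr ((_root_.map_ne_zero _).mpr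
          (Nat.cast_ne_zero.mpr hl.ne_zero)))).mp h2
      exact (ValuationSubring.mem_nonunits_iff V).mpr h1
    have hQ : ∀ q : ℚ, algebraMap ℚ Qbar q ∈ V := by
      intro q
      obtain ⟨k, m, hm, hkm⟩ := Nat.exists_eq_pow_mul_and_not_dvd q.den_ne_zero l hl.ne_one
      have hmR : ((1 : ℚ) / m) ∈ ratLocalizedAt l := by
        change ((1 : ℚ) / m).den.Coprime l
        have hd : ((1 : ℚ) / m).den ∣ m := by
          have : ((1 : ℚ) / m) = Rat.divInt 1 (m : ℤ) := by
            rw [Rat.divInt_eq_div]; simp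
          rw [this]
          have := Rat.den_dvd 1 (m : ℤ)
          exact_mod_cast this
        exact Nat.Coprime.coprime_dvd_left hd ((Nat.Prime.coprime_iff_not_dvd hl).mpr hm).symm
      have h1 : algebraMap ℚ Qbar ((1 : ℚ) / m) ∈ V := hR ⟨_, hmR⟩
      have hm0 : (m : ℚ) ≠ 0 := by
        rintro h0
        rw [Nat.cast_eq_zero] at h0
        rw [h0, mul_zero] at hkm
        exact q.den_ne_zero hkm
      have hl0 : (l : ℚ) ≠ 0 := Nat.cast_ne_zero.mpr hl.ne_zero
      have h2 : algebraMap ℚ Qbar q = (q.num : Qbar) * ((l : Qbar)⁻¹) ^ k *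
          algebraMap ℚ Qbar ((1 : ℚ) / m) := by
        have h3 : q = (q.num : ℚ) * ((l : ℚ)⁻¹) ^ k * ((1 : ℚ) / m) := by
          nth_rw 1 [← Rat.num_div_den q]
          rw [hkm, inv_pow]
          push_cast
          field_simp
        nth_rw 1 [h3]
        push_cast
        simp
      rw [h2]
      exact V.mul_mem _ _ (V.mul_mem _ _ (intCast_mem V _) (pow_mem hlu k)) h1
    apply hxV
    have hint : IsIntegral V x := by
      have h1 : IsIntegral ℚ x := (AlgebraicClosure.isAlgebraic ℚ).isIntegral.1 x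
      obtain ⟨p, hp, hpx⟩ := h1
      let f : ℚ →+* V := (algebraMap ℚ Qbar).codRestrict V.toSubring hQ
      refine ⟨p.map f, hp.map f, ?_⟩
      rw [Polynomial.eval₂_map]
      exact hpx
    obtain ⟨y, hy⟩ := IsIntegrallyClosed.isIntegral_iff.mp hint
    rw [← hy]; exact y.2

end integral

end Fermat.Agent.ECRep
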