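import Fermat.Agent.ECRep.FlatChart

set_option autoImplicit false
set_option linter.unusedSectionVars false

/-!
# The addition law in the chart `t = x / ψ₂`, `w = 1 / ψ₂`
-/

namespace Fermat.Agent.ECRep

open WeierstrassCurve WeierstrassCurve.Affine WeierstrassCurve.Affine.Point
open Fermat.Agent.DivPoly Fermat.Agent.S13lib

section triple

variable {F : Type*} [Field F] {x₁ x₂ x₃ l m b₂ b₄ b₆ : F}

lemma triple_L (e2 : b₂ = l ^ 2 - 4 * (x₁ + x₂ + x₃))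
    (e4 : 2 * b₄ = 4 * (x₁ * x₂ + x₁ * x₃ + x₂ * x₃) + 2 * l * m)
    (e6 : b₆ = m ^ 2 - 4 * (x₁ * x₂ * x₃)) :
    cL b₂ b₄ b₆ m (-l) = 4 * ((l * x₁ + m) * (l * x₂ + m) * (l * x₃ + m)) := by
  simp only [cL]
  rw [e2, e4, e6]
  ring

lemma triple_G1 (h1 : l * x₁ + m ≠ 0)
    (e2 : b₂ = l ^ 2 - 4 * (x₁ + x₂ + x₃))
    (e4 : 2 * b₄ = 4 * (x₁ * x₂ + x₁ * x₃ + x₂ * x₃) + 2 * l * m)
    (e6 : b₆ = m ^ 2 - 4 * (x₁ * x₂ * x₃)) :
    cG1 b₂ b₄ b₆ (x₁ / (l * x₁ + m)) (1 / (l * x₁ + m)) m (-l) =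
      4 * (x₂ - x₁) * (x₃ - x₁) / (l * x₁ + m) := by
  simp only [cG1]
  rw [e2, e4, e6]
  generalize hη : l * x₁ + m = η at *
  have hm : m = η - l * x₁ := by rw [← hη]; ring
  subst hm
  field_simp
  ring

lemma triple_dt (h1 : l * x₁ + m ≠ 0) (h2 : l * x₂ + m ≠ 0) :
    x₂ / (l * x₂ + m) - x₁ / (l * x₁ + m) =
      m * (x₂ - x₁) / ((l * x₁ + m) * (l * x₂ + m)) := by
  rw [div_sub_div _ _ h2 h1, div_eq_div_iff (mul_ne_zero h2 h1) (mul_ne_zero h1 h2)]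
  ring

lemma triple_dw (h1 : l * x₁ + m ≠ 0) (h2 : l * x₂ + m ≠ 0) :
    1 / (l * x₂ + m) - 1 / (l * x₁ + m) =
      -l * (x₂ - x₁) / ((l * x₁ + m) * (l * x₂ + m)) := by
  rw [div_sub_div _ _ h2 h1, div_eq_div_iff (mul_ne_zero h2 h1) (mul_ne_zero h1 h2)]
  ring

/-- three collinear affine points -/
theorem triple_base (h1 : l * x₁ + m ≠ 0) (h2 : l * x₂ + m ≠ 0) (h3 : l * x₃ + m ≠ 0)
    (e2 : b₂ = l ^ 2 - 4 * (x₁ + x₂ + x₃))
    (e4 : 2 * b₄ = 4 * (x₁ * x₂ + x₁ * x₃ + x₂ * x₃) + 2 * l * m)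
    (e6 : b₆ = m ^ 2 - 4 * (x₁ * x₂ * x₃)) :
    CRel b₂ b₄ b₆ (x₁ / (l * x₁ + m)) (1 / (l * x₁ + m)) (x₂ / (l * x₂ + m)) (1 / (l * x₂ + m))
      (x₃ / (l * x₃ + m)) (1 / (l * x₃ + m)) m (-l) := by
  refine ⟨?_, ?_, ?_, ?_⟩
  · simp only [cL, cG2]
    rw [e2, e4, e6]
    field_simp
    ring
  · simp only [cL, cG2]
    rw [e2, e4, e6]
    field_simp
    ring
  · rw [triple_L e2 e4 e6, triple_G1 h1 e2 e4 e6, triple_dt h1 h2, triple_dt h1 h3]
    generalize l * x₁ + m = η₁ at *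
    generalize l * x₂ + m = η₂ at *
    generalize l * x₃ + m = η₃ at *
    field_simp
  · rw [triple_L e2 e4 e6, triple_G1 h1 e2 e4 e6, triple_dw h1 h2, triple_dw h1 h3]
    generalize l * x₁ + m = η₁ at *
    generalize l * x₂ + m = η₂ at *
    generalize l * x₃ + m = η₃ at *
    field_simp

lemma CRel.scale {R : Type*} [CommRing R] {b₂ b₄ b₆ t₁ w₁ t₂ w₂ t₃ w₃ p q : R}
    (h : CRel b₂ b₄ b₆ t₁ w₁ t₂ w₂ t₃ w₃ p q) (c : R) :
    CRel b₂ b₄ b₆ t₁ w₁ t₂ w₂ t₃ w₃ (c * p) (c * q) := by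
  have h1 := h.jt
  have h2 := h.jw
  have h3 := h.kt
  have h4 := h.kw
  simp only [cL, cG1, cG2] at h1 h2 h3 h4
  refine ⟨?_, ?_, ?_, ?_⟩ <;> simp only [cL, cG1, cG2]
  · linear_combination c ^ 3 * h1
  · linear_combination c ^ 3 * h2
  · linear_combination c ^ 3 * h3
  · linear_combination c ^ 3 * h4

theorem CRel.of_parallel {b₂ b₄ b₆ t₁ w₁ t₂ w₂ t₃ w₃ p q l m : F}
    (h : CRel b₂ b₄ b₆ t₁ w₁ t₂ w₂ t₃ w₃ m (-l)) (hne : m ≠ 0 ∨ l ≠ 0)
    (hpq : l * p + m * q = 0) : CRel b₂ b₄ b₆ t₁ w₁ t₂ w₂ t₃ w₃ p q := by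
  obtain ⟨c, hc, hc'⟩ : ∃ c : F, p = c * m ∧ q = c * -l := by
    rcases hne with hm | hl
    · refine ⟨p / m, (div_mul_cancel₀ _ hm).symm, ?_⟩
      apply mul_left_cancel₀ hm
      have : m * (p / m * -l) = -(l * p) := by field_simp
      rw [this]
      linear_combination hpq
    · refine ⟨-q / l, ?_, ?_⟩
      · apply mul_left_cancel₀ hl
        have : l * (-q / l * m) = -(m * q) := by field_simp
        rw [this]
        linear_combination hpq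
      · field_simp
  rw [hc, hc']
  exact h.scale c

theorem triple_parallel (h1 : l * x₁ + m ≠ 0) (h2 : l * x₂ + m ≠ 0)
    (e2 : b₂ = l ^ 2 - 4 * (x₁ + x₂ + x₃))
    (e4 : 2 * b₄ = 4 * (x₁ * x₂ + x₁ * x₃ + x₂ * x₃) + 2 * l * m)
    (e6 : b₆ = m ^ 2 - 4 * (x₁ * x₂ * x₃)) :
    l * -cB b₂ b₄ b₆ (1 / (l * x₁ + m)) (x₂ / (l * x₂ + m)) (1 / (l * x₂ + m)) +
      m * cA b₂ b₄ (x₁ / (l * x₁ + m)) (1 / (l * x₁ + m)) (x₂ / (l * x₂ + m)) = 0 := by
  simp only [cA, cB]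
  rw [e2, e4, e6]
  field_simp
  ring

end triple

section special

variable {F : Type*} [Field F] {b₂ b₄ b₆ t w : F}

lemma rel_zero_left (hF : cF b₂ b₄ b₆ t w = 0) :
    CRel b₂ b₄ b₆ 0 0 t w (-t) (-w) t w := by
  simp only [cF] at hF
  refine ⟨?_, ?_, ?_, ?_⟩ <;> simp only [cL, cG1, cG2] at *
  · ring
  · ring
  · linear_combination t ^ 2 * hF
  · linear_combination w ^ 2 * hF

lemma rel_zero_right (hF : cF b₂ b₄ b₆ t w = 0) :
    CRel b₂ b₄ b₆ t w 0 0 (-t) (-w) t w := by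
  simp only [cF] at hF
  refine ⟨?_, ?_, ?_, ?_⟩ <;> simp only [cL, cG1, cG2] at *
  · ring
  · ring
  · linear_combination t ^ 2 * hF
  · linear_combination w ^ 2 * hF

lemma rel_opp (hF : cF b₂ b₄ b₆ t w = 0) :
    CRel b₂ b₄ b₆ t w (-t) (-w) 0 0 t w := by
  simp only [cF] at hF
  refine ⟨?_, ?_, ?_, ?_⟩ <;> simp only [cL, cG1, cG2] at *
  · ring
  · ring
  · linear_combination t ^ 2 * hF
  · linear_combination w ^ 2 * hF

lemma exists_scale (hw : w ≠ 0) {A B : F} (h : A * t + B * w = 0) :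
    ∃ c : F, -B = c * t ∧ A = c * w := by
  refine ⟨A / w, ?_, (div_mul_cancel₀ _ hw).symm⟩
  rw [div_mul_eq_mul_div, eq_div_iff hw]
  linear_combination -h

end special

section points

variable {F : Type*} [Field F] {W : WeierstrassCurve.Affine F}

/-- the coordinate `x / ψ₂` -/
noncomputable def tt (P : W.Point) : F := open scoped Classical in if P = 0 then 0 else xc P / psi2 P

/-- the coordinate `1 / ψ₂` -/
noncomputable def ww (P : W.Point) : F := open scoped Classical in if P = 0 then 0 else 1 / psi2 P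

@[simp] lemma tt_zero : tt (0 : W.Point) = 0 := if_pos rfl

@[simp] lemma ww_zero : ww (0 : W.Point) = 0 := if_pos rfl

lemma tt_of_ne {P : W.Point} (h : P ≠ 0) : tt P = xc P / psi2 P := if_neg h

lemma ww_of_ne {P : W.Point} (h : P ≠ 0) : ww P = 1 / psi2 P := if_neg h

lemma psi2_neg' {P : W.Point} (h : P ≠ 0) : psi2 (-P) = - psi2 P := by
  simp only [psi2, xc_neg, yc_neg h]
  ring

lemma neg_ne_zero'' {P : W.Point} (h : P ≠ 0) : -P ≠ 0 := by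
  cases P with
  | zero => exact absurd rfl h
  | some x y h => exact fun h' => by cases h'

lemma tt_neg (P : W.Point) : tt (-P) = - tt P := by
  rcases eq_or_ne P 0 with rfl | h
  · rw [Point.neg_zero, tt_zero, _root_.neg_zero]
  · rw [tt_of_ne h, tt_of_ne (neg_ne_zero'' h), psi2_neg' h, xc_neg, div_neg]

lemma ww_neg (P : W.Point) : ww (-P) = - ww P := by
  rcases eq_or_ne P 0 with rfl | h
  · rw [Point.neg_zero, ww_zero, _root_.neg_zero]
  · rw [ww_of_ne h, ww_of_ne (neg_ne_zero'' h), psi2_neg' h, div_neg]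

lemma cF_point {P : W.Point} (h : P ≠ 0 → psi2 P ≠ 0) :
    cF W.b₂ W.b₄ W.b₆ (tt P) (ww P) = 0 := by
  rcases eq_or_ne P 0 with rfl | hP
  · rw [tt_zero, ww_zero, cF, cL]; ring
  · have h1 := h hP
    have h2 := psi2_sq hP
    rw [tt_of_ne hP, ww_of_ne hP, cF, cL]
    have : 4 * (xc P / psi2 P) ^ 3 + W.b₂ * (xc P / psi2 P) ^ 2 * (1 / psi2 P) +
        2 * W.b₄ * (xc P / psi2 P) * (1 / psi2 P) ^ 2 + W.b₆ * (1 / psi2 P) ^ 3 - 1 / psi2 P =
        (4 * xc P ^ 3 + W.b₂ * xc P ^ 2 + 2 * W.b₄ * xc P + W.b₆ - psi2 P ^ 2) /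
          psi2 P ^ 3 := by
      field_simp
    rw [this, h2, sub_self, zero_div]

variable [DecidableEq F]

/-- **The addition law in the chart.** -/
theorem chart_rel {P Q : W.Point} (hP : P ≠ 0 → psi2 P ≠ 0) (hQ : Q ≠ 0 → psi2 Q ≠ 0)
    (hPQ : P + Q ≠ 0 → psi2 (P + Q) ≠ 0) :
    CRel W.b₂ W.b₄ W.b₆ (tt P) (ww P) (tt Q) (ww Q) (-tt (P + Q)) (-ww (P + Q))
      (tt Q - tt P) (ww Q - ww P) ∧
    CRel W.b₂ W.b₄ W.b₆ (tt P) (ww P) (tt Q) (ww Q) (-tt (P + Q)) (-ww (P + Q))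
      (-cB W.b₂ W.b₄ W.b₆ (ww P) (tt Q) (ww Q)) (cA W.b₂ W.b₄ (tt P) (ww P) (tt Q)) := by
  have fP := cF_point hP
  have fQ := cF_point hQ
  rcases eq_or_ne P 0 with rfl | hP0
  · rw [zero_add, tt_zero, ww_zero, sub_zero, sub_zero]
    refine ⟨rel_zero_left fQ, ?_⟩
    rcases eq_or_ne Q 0 with rfl | hQ0
    · rw [tt_zero, ww_zero, _root_.neg_zero]
      refine ⟨?_, ?_, ?_, ?_⟩ <;> simp only [cL, cG1, cG2, cA, cB] <;> ring
    · have hw : ww Q ≠ 0 := by rw [ww_of_ne hQ0]; exact one_div_ne_zero (hQ hQ0)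
      obtain ⟨c, h1, h2⟩ := exists_scale (t := tt Q) hw (A := cA W.b₂ W.b₄ 0 0 (tt Q))
        (B := cB W.b₂ W.b₄ W.b₆ 0 (tt Q) (ww Q)) (by
          simp only [cF, cL] at fQ
          simp only [cA, cB]
          linear_combination fQ)
      rw [h1, h2]
      exact (rel_zero_left fQ).scale c
  have hwP : ww P ≠ 0 := by rw [ww_of_ne hP0]; exact one_div_ne_zero (hP hP0)
  rcases eq_or_ne Q 0 with rfl | hQ0
  · rw [add_zero, tt_zero, ww_zero]
    constructor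
    · have := (rel_zero_right fP).scale (-1)
      have e1 : -1 * tt P = 0 - tt P := by ring
      have e2 : -1 * ww P = 0 - ww P := by ring
      rwa [e1, e2] at this
    · obtain ⟨c, h1, h2⟩ := exists_scale (t := tt P) hwP (A := cA W.b₂ W.b₄ (tt P) (ww P) 0)
        (B := cB W.b₂ W.b₄ W.b₆ (ww P) 0 0) (by
          simp only [cF, cL] at fP
          simp only [cA, cB]
          linear_combination fP)
      rw [h1, h2]
      exact (rel_zero_right fP).scale c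
  rcases eq_or_ne (P + Q) 0 with h0 | h0
  · have hQP : Q = -P := (neg_eq_of_add_eq_zero_right h0).symm
    rw [h0, hQP, tt_neg, ww_neg, tt_zero, ww_zero, _root_.neg_zero]
    constructor
    · have := (rel_opp fP).scale (-2)
      have e1 : -2 * tt P = -tt P - tt P := by ring
      have e2 : -2 * ww P = -ww P - ww P := by ring
      rwa [e1, e2] at this
    · obtain ⟨c, h1, h2⟩ := exists_scale (t := tt P) hwP
        (A := cA W.b₂ W.b₄ (tt P) (ww P) (-tt P))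
        (B := cB W.b₂ W.b₄ W.b₆ (ww P) (-tt P) (-ww P)) (by
          simp only [cF, cL] at fP
          simp only [cA, cB]
          linear_combination fP)
      rw [h1, h2]
      exact (rel_opp fP).scale c
  obtain ⟨L, m, h1, h2, h3, h4, h5, h6, -⟩ := exists_line hP0 hQ0 h0
  have s1 : psi2 P = (2 * L + W.a₁) * xc P + (2 * m + W.a₃) := by
    rw [psi2, h1]; ring
  have s2 : psi2 Q = (2 * L + W.a₁) * xc Q + (2 * m + W.a₃) := by
    rw [psi2, h2]; ring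
  have s3 : - psi2 (P + Q) = (2 * L + W.a₁) * xc (P + Q) + (2 * m + W.a₃) := by
    rw [← psi2_neg' h0, psi2, h3, xc_neg]; ring
  have n1 : (2 * L + W.a₁) * xc P + (2 * m + W.a₃) ≠ 0 := by rw [← s1]; exact hP hP0
  have n2 : (2 * L + W.a₁) * xc Q + (2 * m + W.a₃) ≠ 0 := by rw [← s2]; exact hQ hQ0
  have n3 : (2 * L + W.a₁) * xc (P + Q) + (2 * m + W.a₃) ≠ 0 := by
    rw [← s3]; exact _root_.neg_ne_zero.mpr (hPQ h0)
  have e2 : W.b₂ = (2 * L + W.a₁) ^ 2 - 4 * (xc P + xc Q + xc (P + Q)) := by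
    rw [h4, b₂]; ring
  have e4 : 2 * W.b₄ = 4 * (xc P * xc Q + xc P * xc (P + Q) + xc Q * xc (P + Q)) +
      2 * (2 * L + W.a₁) * (2 * m + W.a₃) := by
    rw [h5, b₄]; ring
  have e6 : W.b₆ = (2 * m + W.a₃) ^ 2 - 4 * (xc P * xc Q * xc (P + Q)) := by
    rw [h6, b₆]; ring
  have hbase := triple_base n1 n2 n3 e2 e4 e6
  have hpar := triple_parallel n1 n2 e2 e4 e6
  have t1 : tt P = xc P / ((2 * L + W.a₁) * xc P + (2 * m + W.a₃)) := by
    rw [tt_of_ne hP0, s1]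
  have t2 : tt Q = xc Q / ((2 * L + W.a₁) * xc Q + (2 * m + W.a₃)) := by
    rw [tt_of_ne hQ0, s2]
  have t3 : -tt (P + Q) = xc (P + Q) / ((2 * L + W.a₁) * xc (P + Q) + (2 * m + W.a₃)) := by
    rw [tt_of_ne h0, ← s3, div_neg]
  have w1 : ww P = 1 / ((2 * L + W.a₁) * xc P + (2 * m + W.a₃)) := by
    rw [ww_of_ne hP0, s1]
  have w2 : ww Q = 1 / ((2 * L + W.a₁) * xc Q + (2 * m + W.a₃)) := by
    rw [ww_of_ne hQ0, s2]
  have w3 : -ww (P + Q) = 1 / ((2 * L + W.a₁) * xc (P + Q) + (2 * m + W.a₃)) := by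
    rw [ww_of_ne h0, ← s3, div_neg]
  rw [← t1, ← t2, ← t3, ← w1, ← w2, ← w3] at hbase
  rw [← t1, ← t2, ← w1, ← w2] at hpar
  have hne : 2 * m + W.a₃ ≠ 0 ∨ 2 * L + W.a₁ ≠ 0 := by
    by_contra hcon
    rw [not_or, not_not, not_not] at hcon
    apply n1
    rw [hcon.1, hcon.2, zero_mul, add_zero]
  refine ⟨hbase.of_parallel hne ?_, hbase.of_parallel hne hpar⟩
  have q1 : (2 * L + W.a₁) * tt P + (2 * m + W.a₃) * ww P = 1 := by
    rw [t1, w1]; field_simp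
  have q2 : (2 * L + W.a₁) * tt Q + (2 * m + W.a₃) * ww Q = 1 := by
    rw [t2, w2]; field_simp
  linear_combination q2 - q1

end points

end Fermat.Agent.ECRep
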