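import Fermat.Agent.ECRep.FrobChar

set_option autoImplicit false
set_option linter.unusedSectionVars false

/-!
# Finite level: `E[l^n]` as a quotient of the Tate module
-/

namespace Fermat.Agent.ECRep

open WeierstrassCurve WeierstrassCurve.Affine WeierstrassCurve.Affine.Point
open scoped WeierstrassCurve.Affine

local notation "Qbar" => AlgebraicClosure ℚ
local notation "Γℚ" => (AlgebraicClosure ℚ ≃ₐ[ℚ] AlgebraicClosure ℚ)

section

variable {W : WeierstrassCurve ℚ} {l : ℕ} [Fact l.Prime] {n m : ℕ} (hm : m = l ^ n)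

lemma φ_appr (hm : m = l ^ n) (φ : ℤ_[l] →+* ZMod m) (c : ℤ_[l]) : φ c = (c.appr n : ZMod m) := by
  have h := PadicInt.appr_spec n c
  rw [Ideal.mem_span_singleton] at h
  obtain ⟨d, hd⟩ := h
  have h1 := congrArg φ hd
  rw [map_sub, map_natCast, map_mul, map_pow, map_natCast] at h1
  have h2 : ((l : ℕ) : ZMod m) ^ n = 0 := by
    rw [← Nat.cast_pow, ← hm, ZMod.natCast_self]
  rw [h2, zero_mul] at h1
  exact sub_eq_zero.mp h1

/-- the component map to the torsion subgroup -/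
noncomputable def projN (W : WeierstrassCurve ℚ) (hm : m = l ^ n) :
    TateW W l →+ Submodule.torsionBy ℤ (W⁄Qbar).Point (m : ℤ) where
  toFun x := ⟨x.1 n, by
    rw [Submodule.mem_torsionBy_iff, natCast_zsmul, hm]; exact x.torsion n⟩
  map_zero' := rfl
  map_add' _ _ := rfl

@[simp] lemma projN_coe (hm : m = l ^ n) (x : TateW W l) : (projN W hm x : (W⁄Qbar).Point) = x.1 n := rfl

lemma projN_smul (hm : m = l ^ n) (φ : ℤ_[l] →+* ZMod m) (c : ℤ_[l]) (x : TateW W l) :
    projN W hm (c • x) = φ c • projN W hm x := by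
  rw [φ_appr hm φ c, Nat.cast_smul_eq_nsmul]
  rfl

lemma projN_gal (hm : m = l ^ n) (σ : Γℚ) (x : TateW W l) :
    projN W hm (tateGal W l σ x) = galoisRepModuleEnd (K := Qbar) ℚ W m σ (projN W hm x) := rfl

lemma projN_surjective (hΔ : W.Δ ≠ 0) (hm : m = l ^ n) : Function.Surjective (projN W hm) := by
  rintro ⟨x, hx⟩
  rw [Submodule.mem_torsionBy_iff, natCast_zsmul, hm] at hx
  obtain ⟨t, ht⟩ := exists_lift (hcard_of_Δ hΔ) hx
  exact ⟨t, Subtype.ext ht⟩

lemma projN_eq_zero_iff (hΔ : W.Δ ≠ 0) (hm : m = l ^ n) (x : TateW W l) :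
    projN W hm x = 0 ↔ ∃ y : TateW W l, ((l : ℤ_[l]) ^ n) • y = x := by
  constructor
  · intro h
    obtain ⟨y, hy⟩ := exists_smul_of_coe_eq_zero (hcard_of_Δ hΔ) (congrArg Subtype.val h)
    refine ⟨y, ?_⟩
    rw [← hy]
    refine Tate.ext fun k => ?_
    rw [← Nat.cast_pow, Tate.natCast_smul, Tate.nsmul_coe]
  · rintro ⟨y, rfl⟩
    apply Subtype.ext
    change (((l : ℤ_[l]) ^ n) • y).1 n = 0
    rw [← Nat.cast_pow, Tate.natCast_smul, y.torsion]

/-- the reduction of a basis of the Tate module is a basis of the torsion module. -/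
theorem exists_basis_mod (hΔ : W.Δ ≠ 0) (hm : m = l ^ n) (φ : ℤ_[l] →+* ZMod m)
    (b : Module.Basis (Fin 2) ℤ_[l] (TateW W l)) :
    ∃ b' : Module.Basis (Fin 2) (ZMod m) (Submodule.torsionBy ℤ (W⁄Qbar).Point (m : ℤ)),
      ∀ i, b' i = projN W hm (b i) := by
  have hl := (Fact.out : l.Prime)
  have hli : LinearIndependent (ZMod m) fun i => projN W hm (b i) := by
    rw [Fintype.linearIndependent_iff]
    intro g hg
    have hlift : ∀ z : ZMod m, ∃ c : ℤ_[l], φ c = z := fun z => by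
      have : NeZero m := ⟨by rw [hm]; exact pow_ne_zero n hl.ne_zero⟩
      exact ⟨((z.val : ℕ) : ℤ_[l]), by rw [map_natCast, ZMod.natCast_zmod_val]⟩
    choose c hc using fun i => hlift (g i)
    have h1 : projN W hm (∑ i, c i • b i) = 0 := by
      rw [map_sum, ← hg]
      exact Finset.sum_congr rfl fun i _ => by rw [projN_smul hm φ, hc]
    obtain ⟨y, hy⟩ := (projN_eq_zero_iff hΔ hm _).mp h1
    intro i
    have h2 := congrArg (fun v => b.repr v i) hy
    simp only [map_smul, Finsupp.smul_apply, smul_eq_mul, Module.Basis.repr_sum_self] at h2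
    rw [← hc i, ← h2, map_mul, map_pow, map_natCast, ← Nat.cast_pow, ← hm, ZMod.natCast_self,
      zero_mul]
  have hsp : ⊤ ≤ Submodule.span (ZMod m) (Set.range fun i => projN W hm (b i)) := by
    rintro x -
    obtain ⟨t, rfl⟩ := projN_surjective hΔ hm x
    rw [← b.sum_repr t, map_sum]
    refine Submodule.sum_mem _ fun i _ => ?_
    rw [projN_smul hm φ]
    exact Submodule.smul_mem _ _ (Submodule.subset_span ⟨i, rfl⟩)
  exact ⟨Module.Basis.mk hli hsp, fun i => by rw [Module.Basis.mk_apply]⟩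

theorem free_mod (hΔ : W.Δ ≠ 0) (hm : m = l ^ n) (φ : ℤ_[l] →+* ZMod m) :
    Module.Free (ZMod m) (Submodule.torsionBy ℤ (W⁄Qbar).Point (m : ℤ)) := by
  obtain ⟨b', -⟩ := exists_basis_mod hΔ hm φ (tate_exists_basis hΔ).some
  exact Module.Free.of_basis b'

theorem finite_mod (hΔ : W.Δ ≠ 0) (hm : m = l ^ n) (φ : ℤ_[l] →+* ZMod m) :
    Module.Finite (ZMod m) (Submodule.torsionBy ℤ (W⁄Qbar).Point (m : ℤ)) := by
  obtain ⟨b', -⟩ := exists_basis_mod hΔ hm φ (tate_exists_basis hΔ).some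
  exact Module.Finite.of_basis b'

/-- matrices are compatible with reduction -/
theorem toMatrix_mod (hm : m = l ^ n) (φ : ℤ_[l] →+* ZMod m)
    (b : Module.Basis (Fin 2) ℤ_[l] (TateW W l))
    (b' : Module.Basis (Fin 2) (ZMod m) (Submodule.torsionBy ℤ (W⁄Qbar).Point (m : ℤ)))
    (hb : ∀ i, b' i = projN W hm (b i)) (σ : Γℚ) :
    LinearMap.toMatrix b' b' (galoisRepModuleEnd (K := Qbar) ℚ W m σ) =
      (LinearMap.toMatrix b b (tateGal W l σ)).map φ := by
  ext i j
  rw [Matrix.map_apply, LinearMap.toMatrix_apply, LinearMap.toMatrix_apply, hb, ← projN_gal hm]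
  have h1 : projN W hm (tateGal W l σ (b j)) = ∑ k, φ (b.repr (tateGal W l σ (b j)) k) • b' k := by
    conv_lhs => rw [← b.sum_repr (tateGal W l σ (b j)), map_sum]
    exact Finset.sum_congr rfl fun k _ => by rw [projN_smul hm φ, hb]
  rw [h1, Module.Basis.repr_sum_self]

/-- The characteristic polynomial on `E[l^n]` is the reduction of the one on the Tate module. -/
theorem charpoly_mod (hΔ : W.Δ ≠ 0) (hm : m = l ^ n) (φ : ℤ_[l] →+* ZMod m)
    [Module.Free (ZMod m) (Submodule.torsionBy ℤ (W⁄Qbar).Point (m : ℤ))]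
    [Module.Finite (ZMod m) (Submodule.torsionBy ℤ (W⁄Qbar).Point (m : ℤ))] (σ : Γℚ) :
    LinearMap.charpoly (galoisRepModuleEnd (K := Qbar) ℚ W m σ) =
      (LinearMap.charpoly ((tateRep W l hΔ).ρ σ)).map φ := by
  have := tate_free (l := l) hΔ
  have := tate_finite (l := l) hΔ
  let b := (tate_exists_basis (l := l) hΔ).some
  obtain ⟨b', hb⟩ := exists_basis_mod hΔ hm φ b
  have h1 : LinearMap.charpoly ((tateRep W l hΔ).ρ σ) = (LinearMap.toMatrix b b (tateGal W l σ)).charpoly :=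
    (LinearMap.charpoly_toMatrix (tateGal W l σ) b).symm
  rw [h1, ← LinearMap.charpoly_toMatrix _ b', toMatrix_mod hm φ b b' hb, Matrix.charpoly_map]

theorem det_mod (hΔ : W.Δ ≠ 0) (hm : m = l ^ n) (φ : ℤ_[l] →+* ZMod m) (σ : Γℚ) :
    LinearMap.det (galoisRepModuleEnd (K := Qbar) ℚ W m σ) =
      φ (LinearMap.det ((tateRep W l hΔ).ρ σ)) := by
  let b := (tate_exists_basis (l := l) hΔ).some
  obtain ⟨b', hb⟩ := exists_basis_mod hΔ hm φ b
  have h1 : LinearMap.det ((tateRep W l hΔ).ρ σ) = (LinearMap.toMatrix b b (tateGal W l σ)).det :=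
    (LinearMap.det_toMatrix b (tateGal W l σ)).symm
  rw [h1, ← LinearMap.det_toMatrix b', toMatrix_mod hm φ b b' hb, RingHom.map_det]
  rfl

variable (W l) in
theorem charpoly_resRep (hΔ : W.Δ ≠ 0) (σ : Γℚ) :
    LinearMap.charpoly ((resRep W l hΔ).ρ σ) =
      (LinearMap.charpoly ((tateRep W l hΔ).ρ σ)).map PadicInt.toZMod := by
  have := free_mod hΔ (pow_one l).symm PadicInt.toZMod
  have := finite_mod hΔ (pow_one l).symm PadicInt.toZMod
  exact charpoly_mod hΔ (pow_one l).symm PadicInt.toZMod σ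

end

section

variable (W : WeierstrassCurve ℤ) {l : ℕ} [Fact l.Prime]

/-- Good primes are unramified. -/
theorem tateRep_isUnramifiedAt (hΔ : W.Δ ≠ 0) {q : ℕ} (hq : q.Prime) (hql : q ≠ l)
    (hg : W.IsGoodPrimeFor q) :
    (tateRep (toRat W) l (toRat_Δ_ne_zero hΔ)).IsUnramifiedAt q := by
  intro A hA σ hσ
  refine LinearMap.ext fun (x : TateW (toRat W) l) => Tate.ext fun n => ?_
  have hn : ¬ q ∣ l ^ n := fun h =>
    hql ((Nat.prime_dvd_prime_iff_eq hq Fact.out).mp (hq.dvd_of_dvd_pow h))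
  exact inertia_smul_eq W hq hA hg hσ hn (x.torsion n)

theorem resRep_isUnramifiedAt (hΔ : W.Δ ≠ 0) {q : ℕ} (hq : q.Prime) (hql : q ≠ l)
    (hg : W.IsGoodPrimeFor q) :
    (resRep (toRat W) l (toRat_Δ_ne_zero hΔ)).IsUnramifiedAt q := by
  intro A hA σ hσ
  refine LinearMap.ext fun x => ?_
  have hn : ¬ q ∣ l := fun h =>
    hql ((Nat.prime_dvd_prime_iff_eq hq Fact.out).mp h)
  have hx : l • (x.1 : ((toRat W)⁄Qbar).Point) = 0 := by
    have := x.2
    rw [Submodule.mem_torsionBy_iff, natCast_zsmul] at this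
    exact this
  exact Subtype.ext (inertia_smul_eq W hq hA hg hσ hn hx)

end

end Fermat.Agent.ECRep
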