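import Fermat.Agent.ECRep.FrobChar
import Fermat.Agent.ECRep.ModN
import Fermat.Agent.ECRep.Char2Rel

set_option autoImplicit false
set_option linter.unusedSectionVars false

/-!
# The characteristic polynomial of Frobenius at every good prime `p ≠ l`
-/

namespace Fermat.Agent.ECRep

open WeierstrassCurve WeierstrassCurve.Affine WeierstrassCurve.Affine.Point
open scoped WeierstrassCurve.Affine
open Fermat.Agent.EC Fermat.Agent.DivPoly Fermat.Agent.S13lib

local notation "Qbar" => AlgebraicClosure ℚ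
local notation "Γℚ" => (AlgebraicClosure ℚ ≃ₐ[ℚ] AlgebraicClosure ℚ)

section det

variable {B : Type} [CommRing B] [IsLocalRing B] [IsNoetherianRing B]

/-- elements congruent modulo all powers of `l` are equal -/
lemma eq_of_forall_sub_mem {l : ℕ} (hl : (l : B) ∈ IsLocalRing.maximalIdeal B) {a b : B}
    (h : ∀ n : ℕ, a - b ∈ Ideal.span {((l ^ n : ℕ) : B)}) : a = b := by
  have h1 : a - b ∈ (⊥ : Ideal B) := Cheb.mem_of_forall_mem_sup ⊥ fun n => by
    rw [bot_sup_eq]
    refine (Ideal.span_le.mpr ?_) (h n)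
    rw [Set.singleton_subset_iff, Nat.cast_pow]
    exact Ideal.pow_mem_pow hl n
  rw [Ideal.mem_bot] at h1
  exact sub_eq_zero.mp h1

/-- the determinant of a Frobenius, from `DetIsCyclotomic` -/
theorem det_frob_of_detIsCyclotomic {l : ℕ} (hl : l.Prime) (ρ : GaloisRepAdic B)
    (h : ρ.DetIsCyclotomic l) {p : ℕ} (hp : p.Prime) (hpl : p ≠ l)
    {A : ValuationSubring Qbar} (hA : A.LiesOverPrime p) {σ : Γℚ} (hσ : A.IsFrobeniusAt σ p) :
    LinearMap.det (ρ.ρ σ) = (p : B) := by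
  refine eq_of_forall_sub_mem h.1 fun n => h.2 n σ p fun μ hμ => ?_
  exact Cheb.frob_rootOfUnity hp hA hσ (fun hd =>
    hpl ((Nat.prime_dvd_prime_iff_eq hp hl).mp (hp.dvd_of_dvd_pow hd))) hμ

end det

section

variable (W : WeierstrassCurve ℤ) {A : ValuationSubring (AlgebraicClosure ℚ)} {p : ℕ}

/-- The Frobenius relation on torsion points, at `2`. -/
theorem frob_rel_torsion_two (hA : A.LiesOverPrime 2)
    (hg : W.IsGoodPrimeFor 2) {σ : Γℚ} (hσ : A.IsFrobeniusAt σ 2) {n : ℕ} (hn : ¬ 2 ∣ n)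
    {P : ((toRat W)⁄Qbar).Point} (hP : n • P = 0) :
    (2 : ℤ) • (σ • (σ • P) - W.apOfModel 2 • (σ • P) + ((2 : ℕ) : ℤ) • P) = 0 := by
  classical
  have hp := Nat.prime_two
  have := Fact.mk hp
  have := isElliptic_reduction W hg
  let _ := algRes hA
  set k := IsLocalRing.ResidueField A
  set r := IsLocalRing.residue A
  have hR : IsRed r ((toRat W)⁄Qbar) ((W.reductionMod 2)⁄k) := isRed_int W
  have hNS : ∀ Q : ((toRat W)⁄Qbar).Point, NS A.valuation Q := ns_of_good W hp hA hg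
  let red' : ((toRat W)⁄Qbar).Point →+ ((W.reductionMod 2)⁄k).Point :=
    { toFun := red r ((toRat W)⁄Qbar) ((W.reductionMod 2)⁄k)
      map_zero' := red_zero
      map_add' := fun Q R => (red_add hR (hNS Q) (hNS R)).2 }
  have hfrob : ∀ Q, red' (σ • Q) = frobW (W.reductionMod 2) k (red' Q) := fun Q =>
    (red_frob W hσ (hNS Q)).2
  have hrel := frob_rel_two (L := k) (W.reductionMod 2)
    (W.reductionMod 2).isUnit_Δ.ne_zero (red' P)
  rw [← hfrob, ← hfrob] at hrel
  have hred : red' ((2 : ℤ) • (σ • (σ • P) - W.apOfModel 2 • (σ • P) +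
      ((2 : ℕ) : ℤ) • P)) = 0 := by
    rw [map_zsmul, map_add, map_sub, map_zsmul, map_zsmul]
    have : red' (σ • σ • P) - W.apOfModel 2 • red' (σ • P) + ((2 : ℕ) : ℤ) • red' P = 0 := hrel
    rw [this]; exact zsmul_zero _
  have hE1 := E1_of_red_eq_zero hR (hNS _) hred
  refine hE1.eq_zero_of_nsmul_eq_zero hR.int (v_natCast_eq_one hp hA hn) ?_
  have h1 : n • (σ • P) = 0 := by rw [← smul_nsmul', hP, smul_zero'']
  have h2 : n • (σ • (σ • P)) = 0 := by rw [← smul_nsmul', h1, smul_zero'']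
  exact aux_comb _ _ h2 h1 hP

/-- The Frobenius relation on torsion points, all good primes. -/
theorem frob_rel_torsion' (hp : p.Prime) (hA : A.LiesOverPrime p)
    (hg : W.IsGoodPrimeFor p) {σ : Γℚ} (hσ : A.IsFrobeniusAt σ p) {n : ℕ} (hn : ¬ p ∣ n)
    {P : ((toRat W)⁄Qbar).Point} (hP : n • P = 0) :
    (2 : ℤ) • (σ • (σ • P) - W.apOfModel p • (σ • P) + (p : ℤ) • P) = 0 := by
  rcases eq_or_ne p 2 with rfl | h2
  · exact frob_rel_torsion_two W hA hg hσ hn hP
  · exact frob_rel_torsion W hp h2 hA hg hσ hn hP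

variable {l : ℕ} [Fact l.Prime]

/-- The Frobenius relation on the Tate module. -/
theorem frob_rel_tate (hΔ : W.Δ ≠ 0) (hp : p.Prime) (hpl : p ≠ l)
    (hA : A.LiesOverPrime p) (hg : W.IsGoodPrimeFor p) {σ : Γℚ} (hσ : A.IsFrobeniusAt σ p)
    (x : TateW (toRat W) l) : tateGal (toRat W) l σ (tateGal (toRat W) l σ x) -
      ((W.apOfModel p : ℤ) : ℤ_[l]) • tateGal (toRat W) l σ x + ((p : ℕ) : ℤ_[l]) • x = 0 := by
  have hl := (Fact.out : l.Prime)
  have h2 : ∀ y : TateW (toRat W) l, (2 : ℤ) • y = 0 → y = 0 := by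
    intro y hy
    have := tate_free (l := l) (toRat_Δ_ne_zero hΔ)
    have h3 : (2 : ℤ_[l]) • y = 0 := by
      refine Tate.ext fun n => ?_
      have := Tate.intCast_smul (2 : ℤ) y n
      rw [← Tate.zsmul_coe, hy] at this
      simpa using this
    exact (smul_eq_zero.mp h3).resolve_left two_ne_zero
  apply h2
  refine Tate.ext fun n => ?_
  have hn : ¬ p ∣ l ^ n := fun h =>
    hpl ((Nat.prime_dvd_prime_iff_eq hp hl).mp (hp.dvd_of_dvd_pow h))
  have h4 := frob_rel_torsion' W hp hA hg hσ hn (x.torsion n)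
  rw [Tate.zsmul_coe, Tate.coe_add, Tate.coe_sub, Tate.intCast_smul, Tate.natCast_smul,
    ← natCast_zsmul]
  exact h4

lemma sq_ne_eight (a : ℤ) : a * a ≠ 8 := by
  intro h
  have h1 : a ≤ 3 := by nlinarith
  have h2 : -3 ≤ a := by nlinarith
  interval_cases a <;> omega

/-- **The characteristic polynomial of Frobenius on the Tate module**: for every prime `p ≠ l` of
good reduction it is `X² - a_p X + p`. -/
theorem charpoly_frob (hΔ : W.Δ ≠ 0) (hp : p.Prime) (hpl : p ≠ l)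
    (hA : A.LiesOverPrime p) (hg : W.IsGoodPrimeFor p) {σ : Γℚ} (hσ : A.IsFrobeniusAt σ p) :
    LinearMap.charpoly ((tateRep (toRat W) l (toRat_Δ_ne_zero hΔ)).ρ σ) =
      Polynomial.X ^ 2 - Polynomial.C ((W.apOfModel p : ℤ) : ℤ_[l]) * Polynomial.X +
        Polynomial.C ((p : ℕ) : ℤ_[l]) := by
  rcases eq_or_ne p 2 with rfl | h2
  · have hdet := det_frob_of_detIsCyclotomic Fact.out _ (detIsCyclotomic (l := l) W hΔ) hp hpl
      hA hσ
    refine charpoly_of_rel_of_det (tateRep (toRat W) l (toRat_Δ_ne_zero hΔ)).finrank_eq _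
      (frob_rel_tate W hΔ hp hpl hA hg hσ) hdet ?_ ?_
    · exact Nat.cast_ne_zero.mpr two_ne_zero
    · intro h
      apply sq_ne_eight (W.apOfModel 2)
      have : ((W.apOfModel 2 * W.apOfModel 2 : ℤ) : ℤ_[l]) = ((8 : ℤ) : ℤ_[l]) := by
        push_cast
        rw [h]; norm_num
      exact_mod_cast this
  · exact charpoly_frob_odd W hΔ hp h2 hpl hA hg hσ

/-- **The characteristic polynomial of Frobenius on `W[l]`.** -/
theorem charpoly_frob_res (hΔ : W.Δ ≠ 0) (hp : p.Prime) (hpl : p ≠ l)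
    (hA : A.LiesOverPrime p) (hg : W.IsGoodPrimeFor p) {σ : Γℚ} (hσ : A.IsFrobeniusAt σ p) :
    LinearMap.charpoly ((resRep (toRat W) l (toRat_Δ_ne_zero hΔ)).ρ σ) =
      Polynomial.X ^ 2 - Polynomial.C ((W.apOfModel p : ℤ) : ZMod l) * Polynomial.X +
        Polynomial.C ((p : ℕ) : ZMod l) := by
  rw [charpoly_resRep, charpoly_frob W hΔ hp hpl hA hg hσ]
  simp

end

end Fermat.Agent.ECRep
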