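import Fermat.Agent.Frob.Places
import Fermat.Agent.Frob.Minkowski
import Fermat.Agent.S13lib.Rational

set_option autoImplicit false
set_option linter.unusedSectionVars false

/-!
# The value group of the inertia field
-/

open scoped NumberField Pointwise

namespace Fermat.Agent.ECRep

open Fermat.Agent.Frob

/-- the inertia field is unramified -/
theorem ram_inertia (F : Type*) [Field F] [NumberField F] [IsGalois ℚ F] (P : Ideal (𝓞 F))
    [P.IsPrime] {ℓ : ℕ} (hℓ : ℓ.Prime) (hP : P.under ℤ = Ideal.span {(ℓ : ℤ)})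
    (E : Type*) [Field E] [NumberField E] [Algebra E F]
    [IsGaloisGroup (P.inertia (F ≃ₐ[ℚ] F)) E F] (pE : Ideal (𝓞 E)) [pE.IsPrime]
    [P.LiesOver pE] : pE.ramificationIdx ℤ = 1 := by
  have : IsGaloisGroup (F ≃ₐ[ℚ] F) ℤ (𝓞 F) := IsGaloisGroup.of_isFractionRing _ ℤ (𝓞 F) ℚ F
  have : IsGaloisGroup (P.inertia (F ≃ₐ[ℚ] F)) (𝓞 E) (𝓞 F) :=
    IsGaloisGroup.of_isFractionRing _ (𝓞 E) (𝓞 F) E F
  have hmax : (P.under ℤ).IsMaximal := by
    have : Fact ℓ.Prime := ⟨hℓ⟩
    rw [hP]; exact Int.ideal_span_isMaximal_of_prime ℓ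
  have hPm : P.IsMaximal := Ideal.isMaximal_of_isIntegral_of_isMaximal_comap (R := ℤ) P hmax
  have hpm : pE.IsMaximal := by
    have h1 : pE = P.under (𝓞 E) := Ideal.LiesOver.over
    rw [h1]
    exact Ideal.isMaximal_comap_of_isIntegral_of_isMaximal P
  have h1 := Ideal.card_inertia_eq_ramificationIdxIn (G := F ≃ₐ[ℚ] F) (P.under ℤ) P
  have h2 := Ideal.card_inertia_eq_ramificationIdxIn (G := P.inertia (F ≃ₐ[ℚ] F)) pE P
  rw [Ideal.ramificationIdxIn_eq_ramificationIdx (P.under ℤ) P (F ≃ₐ[ℚ] F)] at h1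
  rw [Ideal.ramificationIdxIn_eq_ramificationIdx pE P (P.inertia (F ≃ₐ[ℚ] F))] at h2
  have h3 := Ideal.ramificationIdx_tower (R := ℤ) pE P
  have htop : P.inertia (P.inertia (F ≃ₐ[ℚ] F)) = ⊤ := by
    rw [eq_top_iff]
    intro σ _
    exact σ.2
  rw [htop] at h2
  have h4 : Nat.card (⊤ : Subgroup (P.inertia (F ≃ₐ[ℚ] F))) =
      Nat.card (P.inertia (F ≃ₐ[ℚ] F)) := Nat.card_congr (Equiv.Set.univ _)
  rw [h4] at h2
  rw [← h1, ← h2] at h3
  have hpos : 0 < Nat.card (P.inertia (F ≃ₐ[ℚ] F)) := Nat.card_pos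
  exact (Nat.eq_of_mul_eq_mul_right hpos (by rw [one_mul]; exact h3)).symm

/-- a prime of ramification index one -/
theorem exists_mul_of_ramificationIdx {R : Type*} [CommRing R] (p : Ideal R) [p.IsPrime]
    {ℓ : ℕ} (hp : p.under ℤ = Ideal.span {(ℓ : ℤ)}) (h : p.ramificationIdx ℤ = 1) {s : R}
    (hs : s ∈ p) : ∃ c r : R, c ∉ p ∧ c * s = ℓ * r := by
  rw [Ideal.ramificationIdx_def, ENat.toNat_eq_iff_eq_natCast, Nat.cast_one,
    Module.length_eq_one_iff, isSimpleModule_iff_isCoatom, ← Ideal.isMaximal_def] at h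
  · have h1 := IsLocalRing.eq_maximalIdeal h
    have h2 : algebraMap R (Localization.AtPrime p) s ∈
        IsLocalRing.maximalIdeal (Localization.AtPrime p) := by
      rw [← Localization.AtPrime.map_eq_maximalIdeal]
      exact Ideal.mem_map_of_mem _ hs
    rw [← h1, hp, Ideal.map_span, Set.image_singleton, Ideal.mem_span_singleton] at h2
    obtain ⟨d, hd⟩ := h2
    obtain ⟨r, c, rfl⟩ := IsLocalization.exists_mk'_eq p.primeCompl d
    have h3 : algebraMap R (Localization.AtPrime p) (c * s) =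
        algebraMap R (Localization.AtPrime p) (ℓ * r) := by
      rw [map_mul, hd, map_mul, mul_left_comm, IsLocalization.mk'_spec']
      simp
    rw [IsLocalization.eq_iff_exists p.primeCompl] at h3
    obtain ⟨e, he⟩ := h3
    refine ⟨e * c, e * r, ?_, ?_⟩
    · exact (e * c).2
    · rw [mul_assoc, he]; ring

local notation "Qbar" => AlgebraicClosure ℚ
local notation "Γℚ" => (AlgebraicClosure ℚ ≃ₐ[ℚ] AlgebraicClosure ℚ)

/-- **The maximal ideal of the inertia field is generated by the prime number.** -/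
theorem v_fixed_inertia_le {q : ℕ} (hq : q.Prime) {A : ValuationSubring Qbar}
    (hA : A.LiesOverPrime q) {x : Qbar} (hx : ∀ σ ∈ A.inertiaSubgroupIn ℚ, σ x = x)
    (hv : A.valuation x < 1) : A.valuation x ≤ A.valuation (q : Qbar) := by
  have : FiniteDimensional ℚ (IntermediateField.adjoin ℚ {x}) :=
    IntermediateField.adjoin.finiteDimensional (Algebra.IsIntegral.isIntegral x)
  let F : IntermediateField ℚ Qbar :=
    IntermediateField.normalClosure ℚ (IntermediateField.adjoin ℚ {x}) Qbar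
  have hxF : x ∈ F := IntermediateField.le_normalClosure _
    (IntermediateField.mem_adjoin_simple_self ℚ x)
  have : FiniteDimensional ℚ F := inferInstance
  have : NumberField F := ⟨⟩
  have : Normal ℚ Qbar := IsAlgClosure.normal ℚ Qbar
  have : Normal ℚ F := normalClosure.normal ℚ (IntermediateField.adjoin ℚ {x}) Qbar
  have : IsGalois ℚ F := ⟨⟩
  let P : Ideal (𝓞 F) := below (𝓞 F) A
  let E : IntermediateField ℚ F := FixedPoints.intermediateField (P.inertia (F ≃ₐ[ℚ] F))
  have : NumberField E := ⟨⟩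
  have hgal : IsGaloisGroup (P.inertia (F ≃ₐ[ℚ] F)) E F :=
    IsGaloisGroup.subgroup (F ≃ₐ[ℚ] F) ℚ F (P.inertia (F ≃ₐ[ℚ] F))
  have : IsScalarTower E F Qbar := inferInstance
  have : IsScalarTower (𝓞 E) (𝓞 F) Qbar := IsScalarTower.of_algebraMap_eq fun z => rfl
  let pE : Ideal (𝓞 E) := below (𝓞 E) A
  have : P.LiesOver pE := below_liesOver A
  have hPℤ : P.under ℤ = Ideal.span {(q : ℤ)} := below_under_int (𝓞 F) hq hA
  have hpℤ : pE.under ℤ = Ideal.span {(q : ℤ)} := below_under_int (𝓞 E) hq hA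
  have hram := ram_inertia F P hq hPℤ E pE
  -- `x` comes from `E`
  have hxE : (⟨x, hxF⟩ : F) ∈ E := by
    rintro ⟨τ, hτ⟩
    obtain ⟨σ, hσ, rfl⟩ := exists_mem_inertia_restrict F A hq hA τ hτ
    apply (algebraMap F Qbar).injective
    change algebraMap F Qbar (σ.restrictNormal F ⟨x, hxF⟩) = _
    rw [AlgEquiv.restrictNormal_commutes]
    exact hx σ hσ
  let y : E := ⟨⟨x, hxF⟩, hxE⟩
  let AE : ValuationSubring E := A.comap (algebraMap E Qbar)
  have hmem : ∀ z : E, z ∈ AE.nonunits ↔ algebraMap E Qbar z ∈ A.nonunits := by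
    intro z
    rw [ValuationSubring.mem_nonunits_iff_or, ValuationSubring.mem_nonunits_iff_or,
      map_eq_zero, ← map_inv₀]
    rfl
  have hAE : AE.LiesOverPrime q := by
    change ((q : ℕ) : E) ∈ AE.nonunits
    rw [hmem, map_natCast]
    exact hA
  have hy : y ∈ AE := by
    change algebraMap E Qbar y ∈ A
    exact (A.valuation_le_one_iff x).mp hv.le
  obtain ⟨s, b, hs, hb, hsu, hsb⟩ := exists_mul_eq AE hq hAE hy
  have hvs : A.valuation (algebraMap E Qbar s) = 1 := by
    rw [hmem, ValuationSubring.mem_nonunits_iff, not_lt] at hsu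
    refine le_antisymm ((A.valuation_le_one_iff _).mpr ?_) hsu
    exact mem_of_isIntegral A (hs.map (algebraMap E Qbar).toIntAlgHom)
  have hbval : A.valuation (algebraMap E Qbar b) = A.valuation x := by
    rw [← hsb, map_mul, map_mul, hvs, one_mul]; rfl
  obtain ⟨b', hb'⟩ : ∃ b' : 𝓞 E, algebraMap (𝓞 E) E b' = b := ⟨⟨b, hb⟩, rfl⟩
  have hbval' : A.valuation (algebraMap (𝓞 E) Qbar b') = A.valuation x := by
    rw [← hbval, ← hb', ← IsScalarTower.algebraMap_apply]
  have hbp : b' ∈ pE := by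
    apply mem_below.mpr
    rw [ValuationSubring.mem_nonunits_iff, hbval']
    exact hv
  obtain ⟨c, r, hc, hcr⟩ := exists_mul_of_ramificationIdx pE hpℤ hram hbp
  have hint : ∀ z : 𝓞 E, A.valuation (algebraMap (𝓞 E) Qbar z) ≤ 1 := fun z =>
    (A.valuation_le_one_iff _).mpr
      (mem_of_isIntegral A ((Algebra.IsIntegral.isIntegral (R := ℤ) z).map
        ((algebraMap (𝓞 E) Qbar).toIntAlgHom)))
  have hvc : A.valuation (algebraMap (𝓞 E) Qbar c) = 1 := by
    refine le_antisymm (hint c) ?_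
    by_contra hcon
    rw [not_le] at hcon
    exact hc (mem_below.mpr ((ValuationSubring.mem_nonunits_iff A).mpr hcon))
  have h1 := congrArg (fun z => A.valuation (algebraMap (𝓞 E) Qbar z)) hcr
  simp only [map_mul, map_natCast, hvc, one_mul] at h1
  rw [hbval'] at h1
  rw [h1]
  calc A.valuation (q : Qbar) * A.valuation (algebraMap (𝓞 E) Qbar r) ≤
      A.valuation (q : Qbar) * 1 := by gcongr; exact hint r
    _ = A.valuation (q : Qbar) := by rw [mul_one]

/-- the value group of `Qbar` is archimedean over `v q` -/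
lemma exists_zpow_le {q : ℕ} (hq : q.Prime) {A : ValuationSubring Qbar}
    (hA : A.LiesOverPrime q) (x : Qbar) :
    ∃ k : ℤ, A.valuation x ≤ A.valuation (q : Qbar) ^ k := by
  obtain ⟨m, hm0, hm⟩ : ∃ m : ℤ, m ≠ 0 ∧ IsIntegral ℤ (m • x) := by
    have halg : IsAlgebraic ℤ x :=
      (IsFractionRing.isAlgebraic_iff ℤ ℚ Qbar).2 (Algebra.IsAlgebraic.isAlgebraic x)
    obtain ⟨m, hm0, hm⟩ := halg.exists_integral_multiple
    exact ⟨m, hm0, hm⟩
  obtain ⟨a, -, -, -, ha⟩ := S13lib.exists_v_int (L := Qbar) hq hA hm0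
  have h1 : A.valuation (m • x) ≤ 1 :=
    (A.valuation_le_one_iff _).mpr (mem_of_isIntegral A hm)
  have hq0 : A.valuation (q : Qbar) ≠ 0 := (S13lib.v_prime_pos hq).ne'
  rw [zsmul_eq_mul, map_mul] at h1
  refine ⟨-(a : ℤ), ?_⟩
  rw [zpow_neg, zpow_natCast, ← ha]
  have h2 : A.valuation (m : Qbar) ≠ 0 := by
    rw [ha]; exact pow_ne_zero _ hq0
  rw [← mul_le_mul_iff_right₀ (zero_lt_iff.mpr h2), mul_inv_cancel₀ h2]
  exact h1

/-- **The value group of the inertia field is generated by `v q`.** -/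
theorem exists_zpow_of_fixed {q : ℕ} (hq : q.Prime) {A : ValuationSubring Qbar}
    (hA : A.LiesOverPrime q) {x : Qbar} (hx0 : x ≠ 0)
    (hx : ∀ σ ∈ A.inertiaSubgroupIn ℚ, σ x = x) :
    ∃ k : ℤ, A.valuation x = A.valuation (q : Qbar) ^ k := by
  have hqpos : 0 < A.valuation (q : Qbar) := S13lib.v_prime_pos hq
  have hqlt : A.valuation (q : Qbar) < 1 := S13lib.v_prime_lt_one hA
  have hanti := zpow_right_strictAnti₀ hqpos hqlt
  obtain ⟨k, hk⟩ := exists_zpow_le hq hA x
  obtain ⟨k', hk'⟩ := exists_zpow_le hq hA x⁻¹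
  have hvx : 0 < A.valuation x := zero_lt_iff.mpr ((map_ne_zero _).mpr hx0)
  have hbd : ∀ z : ℤ, A.valuation x ≤ A.valuation (q : Qbar) ^ z → z ≤ -k' := by
    intro z hz
    have h1 : A.valuation (q : Qbar) ^ (-k') ≤ A.valuation x := by
      rw [map_inv₀] at hk'
      rw [zpow_neg]
      exact inv_le_of_inv_le₀ hvx hk'
    exact hanti.le_iff_ge.mp (h1.trans hz)
  obtain ⟨i, hi, hmax⟩ := Int.exists_greatest_of_bdd ⟨-k', hbd⟩ ⟨k, hk⟩
  refine ⟨i, ?_⟩
  have hq0 : (q : Qbar) ≠ 0 := Nat.cast_ne_zero.mpr hq.ne_zero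
  have hfix : ∀ σ ∈ A.inertiaSubgroupIn ℚ, σ (x * (q : Qbar) ^ (-i)) = x * (q : Qbar) ^ (-i) := by
    intro σ hσ
    rw [map_mul, hx σ hσ, map_zpow₀, map_natCast]
  have hval : A.valuation (x * (q : Qbar) ^ (-i)) =
      A.valuation x * A.valuation (q : Qbar) ^ (-i) := by rw [map_mul, map_zpow₀]
  have hle : A.valuation (x * (q : Qbar) ^ (-i)) ≤ 1 := by
    rw [hval]
    calc A.valuation x * A.valuation (q : Qbar) ^ (-i) ≤
        A.valuation (q : Qbar) ^ i * A.valuation (q : Qbar) ^ (-i) := by gcongr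
      _ = 1 := by rw [← zpow_add₀ hqpos.ne', add_neg_cancel, zpow_zero]
  have hgt : A.valuation (q : Qbar) < A.valuation (x * (q : Qbar) ^ (-i)) := by
    by_contra hcon
    rw [not_lt, hval] at hcon
    have h1 : A.valuation x ≤ A.valuation (q : Qbar) ^ (i + 1) := by
      calc A.valuation x = A.valuation x * A.valuation (q : Qbar) ^ (-i) *
            A.valuation (q : Qbar) ^ i := by
              rw [mul_assoc, ← zpow_add₀ hqpos.ne', neg_add_cancel, zpow_zero, mul_one]
        _ ≤ A.valuation (q : Qbar) * A.valuation (q : Qbar) ^ i := by gcongr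
        _ = A.valuation (q : Qbar) ^ (i + 1) := by rw [zpow_add_one₀ hqpos.ne', mul_comm]
    have := hmax _ h1
    omega
  have hone : A.valuation (x * (q : Qbar) ^ (-i)) = 1 := by
    refine le_antisymm hle ?_
    by_contra hcon
    rw [not_le] at hcon
    exact absurd (v_fixed_inertia_le hq hA hfix hcon) (not_le.mpr hgt)
  rw [hval] at hone
  have h2 := eq_inv_of_mul_eq_one_left hone
  rw [h2, zpow_neg, inv_inv]

end Fermat.Agent.ECRep
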