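import Fermat.Agent.ECRep.CHGen
import Fermat.Agent.DivPoly.XCoord

set_option autoImplicit false
set_option linter.unusedSectionVars false

/-!
# The kernel of `π - m` has at most `deg (π - m) = m² - m a + q` elements
-/

namespace Fermat.Agent.ECRep

open Polynomial WeierstrassCurve WeierstrassCurve.Affine WeierstrassCurve.Affine.Point
open Fermat.Agent.Schoof Fermat.Agent.DivPoly

section

variable {F : Type*} [Field F] [Fintype F] {a₂ a₄ a₆ : F} [(cur a₂ a₄ a₆).IsElliptic]

local notation "GG" => G a₂ a₄ a₆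
local notation "π" => frob a₂ a₄ a₆ (FF a₂ a₄ a₆)

/-- The degree of `π - m`. -/
theorem ht_frob_sub_zsmul (hF : ringChar F ≠ 2) (m : ℤ) :
    ((ht (π GG - m • GG) : ℕ) : ℤ) = m ^ 2 - m * tr a₂ a₄ a₆ + Fintype.card F := by
  have h2 : (2 : F) ≠ 0 := Ring.two_ne_zero hF
  have hG := G_mem a₂ a₄ a₆
  have hG1 := frob_mem_Odd hG
  let h : Odd a₂ a₄ a₆ → ℤ := fun P => (ht (P : ((cur a₂ a₄ a₆)⁄(FF a₂ a₄ a₆)).Point) : ℤ)
  have hp : ∀ x y, h (x + y) + h (x - y) = 2 * h x + 2 * h y := by
    intro x y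
    have := ht_add_ht_sub h2 x.2 y.2
    have h' : ht ((x + y : Odd a₂ a₄ a₆) : ((cur a₂ a₄ a₆)⁄(FF a₂ a₄ a₆)).Point) +
        ht ((x - y : Odd a₂ a₄ a₆) : ((cur a₂ a₄ a₆)⁄(FF a₂ a₄ a₆)).Point) =
        2 * (ht (x : ((cur a₂ a₄ a₆)⁄(FF a₂ a₄ a₆)).Point) +
          ht (y : ((cur a₂ a₄ a₆)⁄(FF a₂ a₄ a₆)).Point)) := this
    simp only [h]
    omega
  let g0 : Odd a₂ a₄ a₆ := ⟨GG, hG⟩
  let g1 : Odd a₂ a₄ a₆ := ⟨π GG, hG1⟩
  have h0 : h g0 = 1 := by simp [h, g0, ht_G]
  have h1 : h g1 = Fintype.card F := by simp [h, g1, ht_frob h2 hG, ht_G]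
  have h01 : h (g1 - g0) = Nat.card (cur a₂ a₄ a₆).toAffine.Point := by
    change ((ht (π GG - GG) : ℕ) : ℤ) = _
    rw [ht_frob_sub hF]
  have hpol : pol h hp g1 g0 = tr a₂ a₄ a₆ := by
    rw [q_sub h hp, h0, h1] at h01
    rw [tr]; linarith
  have key : h (g1 - m • g0) = m ^ 2 - m * tr a₂ a₄ a₆ + Fintype.card F := by
    rw [q_sub h hp, pol_zsmul_right, q_zsmul h hp, h0, h1, hpol]; ring
  exact key

end

section trans

variable {F : Type*} [Field F] {a₂ a₄ a₆ : F} [(cur a₂ a₄ a₆).IsElliptic]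
  {L M : Type*} [Field L] [Algebra F L] [DecidableEq L] [Field M] [Algebra F M] [Algebra L M]
  [IsScalarTower F L M] [DecidableEq M]

/-- Adding an `L`-rational point to a point with transcendental `x`-coordinate. -/
lemma add_transcendental {x0 y0 : M} (hx0 : Transcendental L x0)
    (hns : ((cur a₂ a₄ a₆)⁄M).Nonsingular x0 y0) (P : ((cur a₂ a₄ a₆)⁄L).Point) :
    .some x0 y0 hns + Point.map (IsScalarTower.toAlgHom F L M) P ≠ 0 ∧
    Transcendental L (xc (.some x0 y0 hns + Point.map (IsScalarTower.toAlgHom F L M) P)) := by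
  classical
  let K := algebraicClosure L M
  have hst : IsScalarTower F K M := IsScalarTower.of_algebraMap_eq fun r => by
    rw [IsScalarTower.algebraMap_apply F L K, IsScalarTower.algebraMap_apply F L M]; rfl
  let κ : K →ₐ[F] M := IsScalarTower.toAlgHom F K M
  let κ' : L →ₐ[F] K := IsScalarTower.toAlgHom F L K
  have hκ : κ.comp κ' = IsScalarTower.toAlgHom F L M := by
    ext z
    rfl
  have hιP : Point.map (IsScalarTower.toAlgHom F L M) P = Point.map κ (Point.map κ' P) := by
    rw [Point.map_map, hκ]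
  have hP0 : ∀ Q : ((cur a₂ a₄ a₆)⁄K).Point, Point.map κ Q ≠ .some x0 y0 hns := by
    intro Q hQ
    match Q with
    | 0 => simp at hQ
    | .some x y h =>
      rw [Point.map_some, some.injEq] at hQ
      apply hx0
      rw [← hQ.1]
      exact mem_algebraicClosure_iff.mp x.2
  generalize hR : (.some x0 y0 hns + Point.map (IsScalarTower.toAlgHom F L M) P :
    ((cur a₂ a₄ a₆)⁄M).Point) = R
  match R, hR with
  | 0, hR =>
    exfalso
    apply hP0 (- Point.map κ' P)
    rw [map_neg, ← hιP]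
    exact (eq_neg_of_add_eq_zero_left hR).symm
  | .some x y h, hR =>
    refine ⟨(fun h0 => by cases h0), ?_⟩
    intro hxL
    rw [xc_some] at hxL
    have hyL : IsAlgebraic L y := by
      have h1 : IsAlgebraic L (y ^ 2) := by
        rw [eq_of_nonsing a₂ a₄ a₆ h]
        have h2 : aeval x (cub a₂ a₄ a₆) =
            κ (aeval (⟨x, mem_algebraicClosure_iff.mpr hxL⟩ : K) (cub a₂ a₄ a₆)) := by
          rw [← aeval_algHom_apply]
          rfl
        rw [h2]
        exact mem_algebraicClosure_iff.mp (aeval (⟨x, mem_algebraicClosure_iff.mpr hxL⟩ : K)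
          (cub a₂ a₄ a₆)).2
      exact IsAlgebraic.of_pow two_pos h1
    have hns' : ((cur a₂ a₄ a₆)⁄K).Nonsingular (⟨x, mem_algebraicClosure_iff.mpr hxL⟩ : K)
        (⟨y, mem_algebraicClosure_iff.mpr hyL⟩ : K) := by
      rw [← baseChange_nonsingular (f := κ) (W := cur a₂ a₄ a₆) κ.toRingHom.injective]
      exact h
    apply hP0 (.some _ _ hns' - Point.map κ' P)
    rw [map_sub, ← hιP, Point.map_some, sub_eq_iff_eq_add, hR]
    rfl

/-- Twice a point with transcendental `x`-coordinate is not rational. -/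
lemma two_transcendental {x0 y0 : M} (hx0 : Transcendental L x0)
    (hns : ((cur a₂ a₄ a₆)⁄M).Nonsingular x0 y0) (h2 : (2 : F) ≠ 0)
    (P : ((cur a₂ a₄ a₆)⁄L).Point) :
    (.some x0 y0 hns + .some x0 y0 hns : ((cur a₂ a₄ a₆)⁄M).Point) ≠
      Point.map (IsScalarTower.toAlgHom F L M) P := by
  intro h
  have hne : (.some x0 y0 hns : ((cur a₂ a₄ a₆)⁄M).Point) ≠ 0 := fun h0 => by cases h0
  have hx : xc (.some x0 y0 hns : ((cur a₂ a₄ a₆)⁄M).Point) = x0 := rfl
  obtain ⟨W, hW⟩ : ∃ W : WeierstrassCurve L, W = ((cur a₂ a₄ a₆)⁄L) := ⟨_, rfl⟩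
  have hWM : ((cur a₂ a₄ a₆)⁄M) = W.map (algebraMap L M) := by
    rw [hW]
    ext <;> simp [← IsScalarTower.algebraMap_apply]
  have hb2 : ((cur a₂ a₄ a₆)⁄M).b₂ = algebraMap L M W.b₂ := by
    rw [hWM, map_b₂]
  have hb4 : ((cur a₂ a₄ a₆)⁄M).b₄ = algebraMap L M W.b₄ := by
    rw [hWM, map_b₄]
  have hb6 : ((cur a₂ a₄ a₆)⁄M).b₆ = algebraMap L M W.b₆ := by
    rw [hWM, map_b₆]
  have hb8 : ((cur a₂ a₄ a₆)⁄M).b₈ = algebraMap L M W.b₈ := by
    rw [hWM, map_b₈]
  have h2L : (2 : L) ≠ 0 := by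
    intro h0
    apply h2
    apply (algebraMap F L).injective
    rw [map_ofNat, h0, _root_.map_zero]
  have h4L : (4 : L) ≠ 0 := by
    have : (4 : L) = 2 * 2 := by norm_num
    rw [this]; exact mul_ne_zero h2L h2L
  rcases eq_or_ne P 0 with rfl | hP
  · rw [_root_.map_zero] at h
    have hpsi := psi2_eq_zero hne h
    have hsq := psi2_sq hne
    rw [hpsi, hx, hb2, hb4, hb6] at hsq
    apply hx0
    refine ⟨C 4 * X ^ 3 + C W.b₂ * X ^ 2 + C (2 * W.b₄) * X + C W.b₆, ?_, ?_⟩
    · intro h0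
      have := congrArg (fun p => coeff p 3) h0
      simp only [coeff_add, coeff_C_mul, coeff_X_pow, coeff_X, coeff_C, coeff_zero] at this
      norm_num at this
      exact h4L this
    · simp only [map_add, _root_.map_mul, map_pow, aeval_X, aeval_C, map_ofNat]
      rw [← sq_eq_zero_iff.mpr (rfl : (0:M) = 0), hsq]
  · have h20 : (.some x0 y0 hns + .some x0 y0 hns : ((cur a₂ a₄ a₆)⁄M).Point) ≠ 0 := by
      rw [h]
      intro h0
      exact hP ((Point.map_injective _) (h0.trans (_root_.map_zero _).symm))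
    have hxt := xc_two hne h20
    have hsq := psi2_sq hne
    have hxP : xc (.some x0 y0 hns + .some x0 y0 hns : ((cur a₂ a₄ a₆)⁄M).Point) =
        algebraMap L M (xc P) := by
      rw [h]
      match P, hP with
      | .some x y h, _ => rfl
    rw [hsq, hxP, hx, hb2, hb4, hb6, hb8] at hxt
    apply hx0
    refine ⟨X ^ 4 - C W.b₄ * X ^ 2 - C (2 * W.b₆) * X - C W.b₈ -
      C (xc P) * (C 4 * X ^ 3 + C W.b₂ * X ^ 2 + C (2 * W.b₄) * X + C W.b₆), ?_, ?_⟩
    · intro h0
      have := congrArg (fun p => coeff p 4) h0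
      simp only [coeff_add, coeff_sub, coeff_C_mul, coeff_X_pow, coeff_X, coeff_C, coeff_zero] at this
      norm_num at this
    · simp only [map_add, map_sub, _root_.map_mul, map_pow, aeval_X, aeval_C, map_ofNat]
      linear_combination -hxt

end trans

section bound

variable {F : Type*} [Field F] [Fintype F] {a₂ a₄ a₆ : F} [(cur a₂ a₄ a₆).IsElliptic]

theorem card_ker_le (hF : ringChar F ≠ 2) (L : Type*) [Field L] [Algebra F L]
    [DecidableEq L] (m : ℤ) (hm : 0 < m ^ 2 - m * tr a₂ a₄ a₆ + Fintype.card F)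
    (S : Finset ((cur a₂ a₄ a₆)⁄L).Point) (hS : ∀ P ∈ S, frob a₂ a₄ a₆ L P = m • P) :
    ((S.card : ℕ) : ℤ) ≤ m ^ 2 - m * tr a₂ a₄ a₆ + Fintype.card F := by
  classical
  have h2 : (2 : F) ≠ 0 := Ring.two_ne_zero hF
  let M := AlgebraicClosure (RatFunc L)
  let x0 : M := algebraMap (RatFunc L) M RatFunc.X
  obtain ⟨y0, hy0⟩ := IsAlgClosed.exists_pow_nat_eq (aeval x0 (cub a₂ a₄ a₆)) (n := 2) two_pos
  have hx0 : Transcendental L x0 := by
    have h1 : Transcendental L (RatFunc.X : RatFunc L) := RatFunc.transcendental_X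
    exact (transcendental_algebraMap_iff (algebraMap (RatFunc L) M).injective).mpr h1
  have hns : ((cur a₂ a₄ a₆)⁄M).Nonsingular x0 y0 := nonsing_of_eq a₂ a₄ a₆ hy0
  let ι : L →ₐ[F] M := IsScalarTower.toAlgHom F L M
  let P0 : ((cur a₂ a₄ a₆)⁄M).Point := .some x0 y0 hns
  have hht := ht_frob_sub_zsmul (a₂ := a₂) (a₄ := a₄) (a₆ := a₆) hF m
  rw [← hht] at hm ⊢
  have hG := G_mem a₂ a₄ a₆
  have hα : frob a₂ a₄ a₆ _ (G a₂ a₄ a₆) - m • G a₂ a₄ a₆ ∈ Odd a₂ a₄ a₆ :=
    (Odd a₂ a₄ a₆).sub_mem (frob_mem_Odd hG) ((Odd a₂ a₄ a₆).zsmul_mem hG m)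
  have hxα := xco_eq h2 hα
  -- the common value
  have hcommon : ∀ P ∈ S, frob a₂ a₄ a₆ M (P0 + Point.map ι P) - m • (P0 + Point.map ι P) =
      frob a₂ a₄ a₆ M P0 - m • P0 := by
    intro P hP
    rw [map_add, frob_map, hS P hP, map_zsmul, zsmul_add]
    abel
  have htrans : ∀ P : ((cur a₂ a₄ a₆)⁄L).Point, P0 + Point.map ι P ≠ 0 ∧
      Transcendental L (xc (P0 + Point.map ι P)) := fun P => add_transcendental hx0 hns P
  -- specialisations of the generic point
  have hspec : ∀ P : ((cur a₂ a₄ a₆)⁄L).Point, ∃ (hx : Transcendental F (xc (P0 + Point.map ι P)))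
      (θ : FF a₂ a₄ a₆ →ₐ[F] M), Point.map θ (G a₂ a₄ a₆) = P0 + Point.map ι P ∧
      ∀ r : RatFunc F, θ (algebraMap (RatFunc F) (FF a₂ a₄ a₆) r) =
        subst (xc (P0 + Point.map ι P)) hx r := by
    intro P
    obtain ⟨hne, htr⟩ := htrans P
    obtain ⟨hns', he⟩ := exists_some hne
    have htr' : Transcendental F (xc (P0 + Point.map ι P)) :=
      htr.restrictScalars (algebraMap F L).injective
    obtain ⟨θ, h1, h2⟩ := exists_hom_point _ _ htr' hns'
    exact ⟨htr', θ, h1.trans he.symm, h2⟩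
  have hmapα : ∀ (θ : FF a₂ a₄ a₆ →ₐ[F] M), Point.map θ (frob a₂ a₄ a₆ _ (G a₂ a₄ a₆) -
      m • G a₂ a₄ a₆) = frob a₂ a₄ a₆ M (Point.map θ (G a₂ a₄ a₆)) -
        m • Point.map θ (G a₂ a₄ a₆) := by
    intro θ
    rw [map_sub, map_zsmul, frob_map]
  revert hm hα hxα hmapα
  generalize frob a₂ a₄ a₆ _ (G a₂ a₄ a₆) - m • G a₂ a₄ a₆ = α
  intro hm hα hxα hmapα
  match α, hm, hα, hxα, hmapα with
  | 0, hm, hα, hxα, hmapα => exact absurd hm (by simp [ht])
  | .some x y hxy, hm, hα, hxα, hmapα =>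
    have ex : x = algebraMap (RatFunc F) (FF a₂ a₄ a₆) x.re := (congrFun hxα 0).symm
    rw [ht] at hm ⊢
    generalize hu : x.re = u at hm ex ⊢
    -- the common x-coordinate
    set c : M := xc (frob a₂ a₄ a₆ M P0 - m • P0) with hc
    have hval : ∀ P ∈ S, ∀ (hx : Transcendental F (xc (P0 + Point.map ι P))),
        subst (xc (P0 + Point.map ι P)) hx u = c := by
      intro P hP hx
      obtain ⟨hx', θ, h1, h3⟩ := hspec P
      rw [← h3, ← ex, hc, ← hcommon P hP, ← h1, ← hmapα θ, Point.map_some, xc_some]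
    have hsubst : ∀ (z : M) (hz : Transcendental F z), subst z hz u * aeval z u.denom =
        aeval z u.num := by
      intro z hz
      rw [← subst_algebraMap z hz, ← subst_algebraMap z hz, ← _root_.map_mul]
      congr 1
      nth_rw 1 [← RatFunc.num_div_denom u]
      rw [div_mul_cancel₀]
      simpa using RatFunc.denom_ne_zero u
    let Q : M[X] := u.num.map (algebraMap F M) - C c * u.denom.map (algebraMap F M)
    have hroot : ∀ P ∈ S, Q.eval (xc (P0 + Point.map ι P)) = 0 := by
      intro P hP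
      obtain ⟨hx', -⟩ := hspec P
      simp only [Q, eval_sub, eval_mul, eval_C, eval_map_algebraMap]
      rw [← hsubst _ hx', hval P hP hx', sub_self]
    have hQ0 : Q ≠ 0 := by
      intro h0
      have h0' : u.num.map (algebraMap F M) = C c * u.denom.map (algebraMap F M) :=
        sub_eq_zero.mp h0
      obtain ⟨a, b, hab⟩ := RatFunc.isCoprime_num_denom u
      have hab' := congrArg (Polynomial.map (algebraMap F M)) hab
      rw [Polynomial.map_add, Polynomial.map_mul, Polynomial.map_mul, h0',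
        Polynomial.map_one] at hab'
      have hunit : IsUnit (u.denom.map (algebraMap F M)) := by
        refine IsUnit.of_mul_eq_one (a.map (algebraMap F M) * C c + b.map (algebraMap F M)) ?_
        rw [← hab']; ring
      have hd := Polynomial.natDegree_eq_zero_of_isUnit hunit
      rw [natDegree_map] at hd
      have hn : u.num.natDegree = 0 := by
        have := congrArg natDegree h0'
        rw [natDegree_map] at this
        have h3 : (C c * u.denom.map (algebraMap F M)).natDegree ≤ 0 := by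
          refine (natDegree_C_mul_le _ _).trans ?_
          rw [natDegree_map, hd]
        omega
      rw [hd, hn] at hm
      simp at hm
    have hdeg : Q.natDegree ≤ max u.num.natDegree u.denom.natDegree := by
      refine (natDegree_sub_le _ _).trans (max_le_max ?_ ?_)
      · rw [natDegree_map]
      · exact (natDegree_C_mul_le _ _).trans (by rw [natDegree_map])
    have hinj : Set.InjOn (fun P => xc (P0 + Point.map ι P)) (S : Set ((cur a₂ a₄ a₆)⁄L).Point) := by
      intro P hP P' hP' hPP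
      rcases eq_or_eq_neg (htrans P).1 (htrans P').1 hPP with h | h
      · exact Point.map_injective ι (add_left_cancel h)
      · exfalso
        apply two_transcendental hx0 hns h2 (-(P + P'))
        have : P0 + P0 = (P0 + Point.map ι P) + (P0 + Point.map ι P') - Point.map ι P -
          Point.map ι P' := by abel
        change P0 + P0 = _
        rw [this, h, map_neg, map_add]
        change _ = -(Point.map ι P + Point.map ι P')
        abel
    have hle : S.card ≤ Q.natDegree := by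
      have h1 : (S.image fun P => xc (P0 + Point.map ι P)).card = S.card :=
        Finset.card_image_of_injOn hinj
      rw [← h1]
      have h3 : (S.image fun P => xc (P0 + Point.map ι P)) ⊆ Q.roots.toFinset := by
        intro z hz
        rw [Finset.mem_image] at hz
        obtain ⟨P, hP, rfl⟩ := hz
        rw [Multiset.mem_toFinset, mem_roots hQ0]
        exact hroot P hP
      exact (Finset.card_le_card h3).trans ((Multiset.toFinset_card_le _).trans (card_roots' Q))
    exact_mod_cast hle.trans hdeg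

end bound

end Fermat.Agent.ECRep
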