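import Fermat.Agent.S13lib.Slope

set_option autoImplicit false
set_option linter.unusedSectionVars false

/-!
# The reduction homomorphism on points with nonsingular reduction

`A` is a valuation subring of `K`, `r : A →+* k` a local homomorphism to a field `k`, `W` a
Weierstrass curve over `K` with coefficients in `A` and reduction `W'`. We construct the
reduction homomorphism from the points with nonsingular reduction.
-/

namespace Fermat.Agent.ECRep

open WeierstrassCurve WeierstrassCurve.Affine WeierstrassCurve.Affine.Point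
open Fermat.Agent.EC Fermat.Agent.DivPoly Fermat.Agent.S13lib

section rr

variable {K k : Type*} [Field K] [Field k] {A : ValuationSubring K} (r : A →+* k) [IsLocalHom r]

open Classical in
/-- the residue map extended by zero -/
noncomputable def rr (x : K) : k := if h : x ∈ A then r ⟨x, h⟩ else 0

omit [IsLocalHom r] in
lemma rr_of_mem {x : K} (h : x ∈ A) : rr r x = r ⟨x, h⟩ := dif_pos h

omit [IsLocalHom r] in
lemma rr_of_le {x : K} (h : A.valuation x ≤ 1) : rr r x = r ⟨x, (A.valuation_le_one_iff x).mp h⟩ :=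
  dif_pos _

omit [IsLocalHom r] in
lemma rr_add {x y : K} (hx : A.valuation x ≤ 1) (hy : A.valuation y ≤ 1) :
    rr r (x + y) = rr r x + rr r y := by
  rw [rr_of_le r hx, rr_of_le r hy, rr_of_le r (v_add_le_one _ hx hy), ← map_add]
  rfl

omit [IsLocalHom r] in
lemma rr_sub {x y : K} (hx : A.valuation x ≤ 1) (hy : A.valuation y ≤ 1) :
    rr r (x - y) = rr r x - rr r y := by
  rw [rr_of_le r hx, rr_of_le r hy, rr_of_le r (v_sub_le_one _ hx hy), ← map_sub]
  rfl

omit [IsLocalHom r] in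
lemma rr_mul {x y : K} (hx : A.valuation x ≤ 1) (hy : A.valuation y ≤ 1) :
    rr r (x * y) = rr r x * rr r y := by
  rw [rr_of_le r hx, rr_of_le r hy, rr_of_le r (v_mul_le_one _ hx hy), ← _root_.map_mul]
  rfl

omit [IsLocalHom r] in
lemma rr_neg {x : K} (hx : A.valuation x ≤ 1) : rr r (-x) = - rr r x := by
  rw [rr_of_le r hx, rr_of_le r (by rwa [Valuation.map_neg]), ← map_neg]
  rfl

omit [IsLocalHom r] in
lemma rr_pow {x : K} (hx : A.valuation x ≤ 1) (n : ℕ) : rr r (x ^ n) = rr r x ^ n := by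
  rw [rr_of_le r hx, rr_of_le r (v_pow_le_one _ hx n), ← map_pow]
  rfl

omit [IsLocalHom r] in
lemma rr_natCast (n : ℕ) : rr r (n : K) = n := by
  rw [rr_of_le r (v_natCast_le_one _ n), ← map_natCast r n]
  rfl

omit [IsLocalHom r] in
lemma rr_intCast (n : ℤ) : rr r (n : K) = n := by
  rw [rr_of_le r (v_intCast_le_one _ n), ← map_intCast r n]
  rfl

omit [IsLocalHom r] in
lemma rr_ofNat (n : ℕ) [n.AtLeastTwo] : rr r (OfNat.ofNat n : K) = OfNat.ofNat n := by
  rw [← Nat.cast_ofNat, rr_natCast, Nat.cast_ofNat]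

omit [IsLocalHom r] in
lemma rr_zero : rr r (0 : K) = 0 := by
  have := rr_natCast r 0
  simpa using this

omit [IsLocalHom r] in
lemma rr_one : rr r (1 : K) = 1 := by
  have := rr_natCast r 1
  simpa using this

lemma rr_eq_zero_iff {x : K} (hx : A.valuation x ≤ 1) : rr r x = 0 ↔ A.valuation x < 1 := by
  rw [rr_of_le r hx]
  rw [← ValuationSubring.valuation_lt_one_iff A ⟨x, (A.valuation_le_one_iff x).mp hx⟩,
    IsLocalRing.mem_maximalIdeal, mem_nonunits_iff]
  constructor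
  · intro h hu
    have := hu.map r
    rw [h] at this
    exact not_isUnit_zero this
  · intro h
    by_contra h0
    exact h (IsLocalHom.map_nonunit _ (isUnit_iff_ne_zero.mpr h0))

lemma rr_ne_zero_iff {x : K} (hx : A.valuation x ≤ 1) : rr r x ≠ 0 ↔ A.valuation x = 1 := by
  rw [Ne, rr_eq_zero_iff r hx, not_lt]
  exact ⟨fun h => le_antisymm hx h, fun h => h.ge⟩

lemma rr_eq_iff {x y : K} (hx : A.valuation x ≤ 1) (hy : A.valuation y ≤ 1) :
    rr r x = rr r y ↔ A.valuation (x - y) < 1 := by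
  rw [← sub_eq_zero, ← rr_sub r hx hy, rr_eq_zero_iff r (v_sub_le_one _ hx hy)]

end rr

/-- `W'` is the reduction of `W`. -/
structure IsRed {K k : Type*} [Field K] [Field k] {A : ValuationSubring K} (r : A →+* k)
    (W : WeierstrassCurve K) (W' : WeierstrassCurve k) : Prop where
  int : IntegralFor A.valuation W
  a₁ : rr r W.a₁ = W'.a₁
  a₂ : rr r W.a₂ = W'.a₂
  a₃ : rr r W.a₃ = W'.a₃
  a₄ : rr r W.a₄ = W'.a₄
  a₆ : rr r W.a₆ = W'.a₆

section red

variable {K k : Type*} [Field K] [Field k] {A : ValuationSubring K} {r : A →+* k} [IsLocalHom r]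
  {W : WeierstrassCurve.Affine K} {W' : WeierstrassCurve.Affine k}

/-- integrality of simple expressions -/
lemma v_psi_le (hW : IsRed r W W') {x y : K} (hx : A.valuation x ≤ 1) (hy : A.valuation y ≤ 1) :
    A.valuation (2 * y + W.a₁ * x + W.a₃) ≤ 1 :=
  v_add_le_one _ (v_add_le_one _ (v_mul_le_one _ (v_ofNat_le_one _ 2) hy)
    (v_mul_le_one _ hW.int.a₁ hx)) hW.int.a₃

lemma v_der_le (hW : IsRed r W W') {x y : K} (hx : A.valuation x ≤ 1) (hy : A.valuation y ≤ 1) :
    A.valuation (3 * x ^ 2 + 2 * W.a₂ * x + W.a₄ - W.a₁ * y) ≤ 1 :=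
  v_sub_le_one _ (v_add_le_one _ (v_add_le_one _
    (v_mul_le_one _ (v_ofNat_le_one _ 3) (v_pow_le_one _ hx 2))
    (v_mul_le_one _ (v_mul_le_one _ (v_ofNat_le_one _ 2) hW.int.a₂) hx)) hW.int.a₄)
    (v_mul_le_one _ hW.int.a₁ hy)

lemma rr_psi (hW : IsRed r W W') {x y : K} (hx : A.valuation x ≤ 1) (hy : A.valuation y ≤ 1) :
    rr r (2 * y + W.a₁ * x + W.a₃) = 2 * rr r y + W'.a₁ * rr r x + W'.a₃ := by
  have h2 : A.valuation (2 : K) ≤ 1 := v_ofNat_le_one _ 2
  rw [rr_add r (v_add_le_one _ (v_mul_le_one _ h2 hy) (v_mul_le_one _ hW.int.a₁ hx)) hW.int.a₃,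
    rr_add r (v_mul_le_one _ h2 hy) (v_mul_le_one _ hW.int.a₁ hx), rr_mul r h2 hy,
    rr_mul r hW.int.a₁ hx, rr_ofNat, hW.a₁, hW.a₃]

lemma rr_der (hW : IsRed r W W') {x y : K} (hx : A.valuation x ≤ 1) (hy : A.valuation y ≤ 1) :
    rr r (3 * x ^ 2 + 2 * W.a₂ * x + W.a₄ - W.a₁ * y) =
      3 * rr r x ^ 2 + 2 * W'.a₂ * rr r x + W'.a₄ - W'.a₁ * rr r y := by
  have h2 : A.valuation (2 : K) ≤ 1 := v_ofNat_le_one _ 2
  have h3 : A.valuation (3 : K) ≤ 1 := v_ofNat_le_one _ 3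
  have e1 := v_mul_le_one _ h3 (v_pow_le_one _ hx 2)
  have e2 := v_mul_le_one _ (v_mul_le_one _ h2 hW.int.a₂) hx
  have e3 := v_mul_le_one _ hW.int.a₁ hy
  rw [rr_sub r (v_add_le_one _ (v_add_le_one _ e1 e2) hW.int.a₄) e3,
    rr_add r (v_add_le_one _ e1 e2) hW.int.a₄, rr_add r e1 e2, rr_mul r h3 (v_pow_le_one _ hx 2),
    rr_mul r (v_mul_le_one _ h2 hW.int.a₂) hx, rr_mul r h2 hW.int.a₂, rr_mul r hW.int.a₁ hy,
    rr_pow r hx, rr_ofNat, rr_ofNat, hW.a₁, hW.a₂, hW.a₄]

lemma equation_rr (hW : IsRed r W W') {x y : K} (hx : A.valuation x ≤ 1) (hy : A.valuation y ≤ 1)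
    (h : W.Equation x y) : W'.Equation (rr r x) (rr r y) := by
  rw [equation_iff] at h ⊢
  have h' := congrArg (rr r) h
  have a1 := hW.int.a₁
  have a2 := hW.int.a₂
  have a3 := hW.int.a₃
  have a4 := hW.int.a₄
  have a6 := hW.int.a₆
  have y2 := v_pow_le_one _ hy 2
  have x2 := v_pow_le_one _ hx 2
  have x3 := v_pow_le_one _ hx 3
  have m1 := v_mul_le_one _ (v_mul_le_one _ a1 hx) hy
  have m3 := v_mul_le_one _ a3 hy
  have m2 := v_mul_le_one _ a2 x2
  have m4 := v_mul_le_one _ a4 hx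
  rw [rr_add r (v_add_le_one _ y2 m1) m3, rr_add r y2 m1, rr_pow r hy,
    rr_mul r (v_mul_le_one _ a1 hx) hy, rr_mul r a1 hx, rr_mul r a3 hy,
    rr_add r (v_add_le_one _ (v_add_le_one _ x3 m2) m4) a6,
    rr_add r (v_add_le_one _ x3 m2) m4, rr_add r x3 m2, rr_pow r hx, rr_mul r a2 x2,
    rr_pow r hx, rr_mul r a4 hx, hW.a₁, hW.a₂, hW.a₃, hW.a₄, hW.a₆] at h'
  exact h'

/-- finite points have nonsingular reduction iff the reduced coordinates are nonsingular. -/
lemma ns_iff (hW : IsRed r W W') {P : W.Point} (hP : P ≠ 0) (hx : A.valuation (xc P) ≤ 1) :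
    NS A.valuation P ↔ W'.Nonsingular (rr r (xc P)) (rr r (yc P)) := by
  have hy := yc_le_one _ hW.int hP hx
  obtain ⟨h, -⟩ := exists_some hP
  have he := equation_rr hW hx hy h.1
  have e1 : 1 ≤ A.valuation (2 * yc P + W.a₁ * xc P + W.a₃) ↔
      2 * rr r (yc P) + W'.a₁ * rr r (xc P) + W'.a₃ ≠ 0 := by
    rw [← rr_psi hW hx hy, rr_ne_zero_iff r (v_psi_le hW hx hy)]
    exact ⟨fun h => le_antisymm (v_psi_le hW hx hy) h, fun h => h.ge⟩
  have e2 : 1 ≤ A.valuation (3 * xc P ^ 2 + 2 * W.a₂ * xc P + W.a₄ - W.a₁ * yc P) ↔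
      3 * rr r (xc P) ^ 2 + 2 * W'.a₂ * rr r (xc P) + W'.a₄ - W'.a₁ * rr r (yc P) ≠ 0 := by
    rw [← rr_der hW hx hy, rr_ne_zero_iff r (v_der_le hW hx hy)]
    exact ⟨fun h => le_antisymm (v_der_le hW hx hy) h, fun h => h.ge⟩
  rw [NS, nonsingular_iff, e1, e2]
  constructor
  · rintro (h | h | h | h)
    · exact absurd h hP
    · exact absurd hx (not_le.mpr h)
    · refine ⟨he, Or.inr ?_⟩
      intro h'
      apply h
      linear_combination h'
    · refine ⟨he, Or.inl ?_⟩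
      intro h'
      apply h
      linear_combination -h'
  · rintro ⟨-, h | h⟩
    · right; right; right
      intro h'
      apply h
      linear_combination -h'
    · right; right; left
      intro h'
      apply h
      linear_combination h'

open Classical in
/-- The reduction map (set to `0` on points with singular reduction). -/
noncomputable def red (r : A →+* k) (W : WeierstrassCurve.Affine K)
    (W' : WeierstrassCurve.Affine k) (P : W.Point) : W'.Point :=
  if h : (P ≠ 0 ∧ A.valuation (xc P) ≤ 1) ∧ W'.Nonsingular (rr r (xc P)) (rr r (yc P)) then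
    .some _ _ h.2 else 0

omit [IsLocalHom r] in
lemma red_zero : red r W W' 0 = 0 := dif_neg (by simp)

omit [IsLocalHom r] in
lemma red_of_gt {P : W.Point} (h : 1 < A.valuation (xc P)) : red r W W' P = 0 :=
  dif_neg (fun h' => absurd h'.1.2 (not_le.mpr h))

omit [IsLocalHom r] in
lemma red_of_E1 {P : W.Point} (h : E1 A.valuation P) : red r W W' P = 0 := by
  rcases eq_or_ne P 0 with rfl | hP
  · exact red_zero
  · exact red_of_gt ((E1_iff_xc hP).mp h)

lemma red_eq (hW : IsRed r W W') {P : W.Point} (hP : P ≠ 0) (hx : A.valuation (xc P) ≤ 1)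
    (hns : NS A.valuation P) :
    red r W W' P = .some _ _ ((ns_iff hW hP hx).mp hns) :=
  dif_pos ⟨⟨hP, hx⟩, (ns_iff hW hP hx).mp hns⟩

lemma red_ne_zero (hW : IsRed r W W') {P : W.Point} (hP : P ≠ 0) (hx : A.valuation (xc P) ≤ 1)
    (hns : NS A.valuation P) : red r W W' P ≠ 0 := by
  rw [red_eq hW hP hx hns]; exact fun h => by cases h

lemma xc_red (hW : IsRed r W W') {P : W.Point} (hP : P ≠ 0) (hx : A.valuation (xc P) ≤ 1)
    (hns : NS A.valuation P) : xc (red r W W' P) = rr r (xc P) := by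
  rw [red_eq hW hP hx hns]; rfl

lemma yc_red (hW : IsRed r W W') {P : W.Point} (hP : P ≠ 0) (hx : A.valuation (xc P) ≤ 1)
    (hns : NS A.valuation P) : yc (red r W W' P) = rr r (yc P) := by
  rw [red_eq hW hP hx hns]; rfl

/-- recognising the reduction by its coordinates -/
lemma red_eq_of_coords (hW : IsRed r W W') {P : W.Point} (hP : P ≠ 0)
    (hx : A.valuation (xc P) ≤ 1) {Q : W'.Point} (hQ : Q ≠ 0) (h1 : xc Q = rr r (xc P))
    (h2 : yc Q = rr r (yc P)) : NS A.valuation P ∧ red r W W' P = Q := by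
  obtain ⟨hQ', hQe⟩ := exists_some hQ
  have hns : NS A.valuation P := by
    rw [ns_iff hW hP hx, ← h1, ← h2]; exact hQ'
  refine ⟨hns, ?_⟩
  rw [red_eq hW hP hx hns, hQe]
  simp only [Point.some.injEq]
  exact ⟨h1.symm, h2.symm⟩

lemma E1_of_red_eq_zero (hW : IsRed r W W') {P : W.Point} (hns : NS A.valuation P)
    (h : red r W W' P = 0) : E1 A.valuation P := by
  rcases eq_or_ne P 0 with rfl | hP
  · exact E1_zero _
  rcases lt_or_ge 1 (A.valuation (xc P)) with hx | hx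
  · exact (E1_iff_xc hP).mpr hx
  · exact absurd h (red_ne_zero hW hP hx hns)

lemma red_eq_zero_iff (hW : IsRed r W W') {P : W.Point} (hns : NS A.valuation P) :
    red r W W' P = 0 ↔ E1 A.valuation P :=
  ⟨E1_of_red_eq_zero hW hns, red_of_E1⟩

lemma ns_of_E1 {v : Valuation K A.ValueGroup} {P : W.Point} (h : E1 v P) : NS v P := by
  rcases eq_or_ne P 0 with rfl | hP
  · exact Or.inl rfl
  · exact Or.inr (Or.inl ((E1_iff_xc hP).mp h))

/-- trichotomy -/
lemma finite_of_not_E1 {P : W.Point} (h : ¬ E1 A.valuation P) :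
    P ≠ 0 ∧ A.valuation (xc P) ≤ 1 := by
  have hP : P ≠ 0 := by rintro rfl; exact h (E1_zero _)
  exact ⟨hP, not_lt.mp fun h' => h ((E1_iff_xc hP).mpr h')⟩

variable [DecidableEq K] [DecidableEq k]

lemma neg_red (hW : IsRed r W W') {P : W.Point} (hns : NS A.valuation P) :
    NS A.valuation (-P) ∧ red r W W' (-P) = - red r W W' P := by
  by_cases h1 : E1 A.valuation P
  · have h2 : E1 A.valuation (-P) := (E1_neg _ P).mpr h1
    exact ⟨ns_of_E1 h2, by rw [red_of_E1 h1, red_of_E1 h2, _root_.neg_zero]⟩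
  obtain ⟨hP, hx⟩ := finite_of_not_E1 h1
  have hy := yc_le_one _ hW.int hP hx
  have hP' : -P ≠ 0 := neg_ne_zero.mpr hP
  have h0 := red_ne_zero hW hP hx hns
  refine red_eq_of_coords hW hP' (by rwa [xc_neg]) (neg_ne_zero.mpr h0) ?_ ?_
  · rw [xc_neg, xc_neg, xc_red hW hP hx hns]
  · have hy' : A.valuation (-yc P) ≤ 1 := by rwa [Valuation.map_neg]
    rw [yc_neg h0, yc_neg hP, xc_red hW hP hx hns, yc_red hW hP hx hns,
      rr_sub r (v_sub_le_one _ hy' (v_mul_le_one _ hW.int.a₁ hx)) hW.int.a₃,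
      rr_sub r hy' (v_mul_le_one _ hW.int.a₁ hx), rr_neg r hy, rr_mul r hW.int.a₁ hx, hW.a₁,
      hW.a₃]

lemma rr_psi2 (hW : IsRed r W W') {P : W.Point} (hP : P ≠ 0) (hx : A.valuation (xc P) ≤ 1)
    (hns : NS A.valuation P) : psi2 (red r W W' P) = rr r (psi2 P) := by
  rw [psi2, psi2, rr_psi hW hx (yc_le_one _ hW.int hP hx), xc_red hW hP hx hns,
    yc_red hW hP hx hns]

/-- If two points have the same nonsingular reduction, their difference is in `E₁`. -/
lemma E1_sub_of_red_eq (hW : IsRed r W W') {P Q : W.Point} (hP : NS A.valuation P)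
    (hQ : NS A.valuation Q) (h : red r W W' P = red r W W' Q) : E1 A.valuation (P - Q) := by
  by_cases h1 : E1 A.valuation P
  · have h2 : E1 A.valuation Q := by
      rw [← red_eq_zero_iff hW hQ, ← h]; exact red_of_E1 h1
    exact h1.sub hW.int h2
  have h2 : ¬ E1 A.valuation Q := by
    rw [← red_eq_zero_iff hW hQ, ← h, red_eq_zero_iff hW hP]; exact h1
  obtain ⟨hP0, hxP⟩ := finite_of_not_E1 h1
  obtain ⟨hQ0, hxQ⟩ := finite_of_not_E1 h2
  have hyP := yc_le_one _ hW.int hP0 hxP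
  have hyQ := yc_le_one _ hW.int hQ0 hxQ
  rcases eq_or_ne P Q with rfl | hne
  · rw [sub_self]; exact E1_zero _
  obtain ⟨L, e1, e2, e3⟩ := exists_slope_sub hP0 hQ0 hne
  have hx : rr r (xc P) = rr r (xc Q) := by
    rw [← xc_red hW hP0 hxP hP, h, xc_red hW hQ0 hxQ hQ]
  have hy : rr r (yc P) = rr r (yc Q) := by
    rw [← yc_red hW hP0 hxP hP, h, yc_red hW hQ0 hxQ hQ]
  have hdx := (rr_eq_iff r hxP hxQ).mp hx
  have hdy := (rr_eq_iff r hyP hyQ).mp hy
  have hL : 1 < A.valuation L := by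
    by_contra hL
    rw [not_lt] at hL
    have f1 : A.valuation (yc P + yc Q + W.a₁ * xc Q + W.a₃) < 1 := by
      rw [← e2]; exact v_mul_lt_one _ hL hdx
    have f2 : A.valuation (xc P ^ 2 + xc P * xc Q + xc Q ^ 2 + W.a₂ * (xc P + xc Q) + W.a₄
        - W.a₁ * yc P) < 1 := by
      rw [← e3]; exact v_mul_lt_one _ hL hdy
    rcases (hQ.resolve_left hQ0).resolve_left (not_lt.mpr hxQ) with h | h
    · refine absurd ?_ (not_lt.mpr h)
      have : 2 * yc Q + W.a₁ * xc Q + W.a₃ =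
        (yc P + yc Q + W.a₁ * xc Q + W.a₃) - (yc P - yc Q) := by ring
      rw [this]
      exact v_sub_lt_one _ f1 hdy
    · refine absurd ?_ (not_lt.mpr h)
      have : 3 * xc Q ^ 2 + 2 * W.a₂ * xc Q + W.a₄ - W.a₁ * yc Q =
        (xc P ^ 2 + xc P * xc Q + xc Q ^ 2 + W.a₂ * (xc P + xc Q) + W.a₄ - W.a₁ * yc P) -
        (xc P + 2 * xc Q + W.a₂) * (xc P - xc Q) + W.a₁ * (yc P - yc Q) := by ring
      rw [this]
      refine v_add_lt_one _ (v_sub_lt_one _ f2 (v_mul_lt_one _ ?_ hdx))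
        (v_mul_lt_one _ hW.int.a₁ hdy)
      exact v_add_le_one _ (v_add_le_one _ hxP (v_mul_le_one _ (v_ofNat_le_one _ _) hxQ))
        hW.int.a₂
  rw [E1_iff_xc (sub_ne_zero.mpr hne), e1]
  have : L ^ 2 + W.a₁ * L - W.a₂ - xc P - xc Q = L ^ 2 + W.a₁ * L - (W.a₂ + xc P + xc Q) := by ring
  rw [this]
  exact v_quad_gt_one _ hL hW.int.a₁ (v_add_le_one _ (v_add_le_one _ hW.int.a₂ hxP) hxQ)

/-- addition of points with different reduced `x`-coordinates. -/
lemma red_add_of_ne (hW : IsRed r W W') {P Q : W.Point} (hP0 : P ≠ 0)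
    (hxP : A.valuation (xc P) ≤ 1) (hP : NS A.valuation P) (hQ0 : Q ≠ 0)
    (hxQ : A.valuation (xc Q) ≤ 1) (hQ : NS A.valuation Q)
    (hne : rr r (xc P) ≠ rr r (xc Q)) :
    NS A.valuation (P + Q) ∧ red r W W' (P + Q) = red r W W' P + red r W W' Q := by
  have hyP := yc_le_one _ hW.int hP0 hxP
  have hyQ := yc_le_one _ hW.int hQ0 hxQ
  have hd : A.valuation (xc P - xc Q) = 1 := by
    rw [← rr_ne_zero_iff r (v_sub_le_one _ hxP hxQ), rr_sub r hxP hxQ]
    exact sub_ne_zero.mpr hne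
  have hd0 : xc P - xc Q ≠ 0 := by
    intro h; rw [h, _root_.map_zero] at hd; exact zero_ne_one hd
  have hne0 : xc P ≠ xc Q := sub_ne_zero.mp hd0
  have hPQ : P + Q ≠ 0 := by
    intro h
    apply hne0
    rw [eq_neg_of_add_eq_zero_left h, xc_neg]
  -- on the reduction
  have hP' := red_ne_zero hW hP0 hxP hP
  have hQ' := red_ne_zero hW hQ0 hxQ hQ
  have hne' : xc (red r W W' P) ≠ xc (red r W W' Q) := by
    rwa [xc_red hW hP0 hxP hP, xc_red hW hQ0 hxQ hQ]
  have hPQ' : red r W W' P + red r W W' Q ≠ 0 := by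
    intro h
    apply hne'
    rw [eq_neg_of_add_eq_zero_left h, xc_neg]
  have f1 := xc_add hP0 hQ0 hne0
  have f2 := yc_add hP0 hQ0 hne0
  have g1 := xc_add hP' hQ' hne'
  have g2 := yc_add hP' hQ' hne'
  rw [xc_red hW hP0 hxP hP, xc_red hW hQ0 hxQ hQ, yc_red hW hP0 hxP hP, yc_red hW hQ0 hxQ hQ]
    at g1 g2
  rw [xc_red hW hP0 hxP hP, xc_red hW hQ0 hxQ hQ] at hne'
  have hdy := v_sub_le_one _ hyP hyQ
  have hdx := v_sub_le_one _ hxP hxQ
  have a1 := hW.int.a₁
  have m1 := v_mul_le_one _ (v_mul_le_one _ a1 hdy) hdx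
  have m2 := v_add_le_one _ (v_add_le_one _ hW.int.a₂ hxP) hxQ
  have m3 := v_mul_le_one _ m2 (v_pow_le_one _ hdx 2)
  have m4 := v_pow_le_one _ hdy 2
  have hx3 : A.valuation (xc (P + Q)) ≤ 1 := by
    have : A.valuation (xc (P + Q)) = A.valuation (xc (P + Q) * (xc P - xc Q) ^ 2) := by
      rw [_root_.map_mul, map_pow, hd, one_pow, mul_one]
    rw [this, f1]
    exact v_sub_le_one _ (v_add_le_one _ m4 m1) m3
  have hy3 := yc_le_one _ hW.int hPQ hx3
  refine red_eq_of_coords hW hPQ hx3 hPQ' ?_ ?_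
  · apply mul_right_cancel₀ (pow_ne_zero 2 (sub_ne_zero.mpr hne'))
    rw [g1]
    have f1' := congrArg (rr r) f1
    rw [rr_mul r hx3 (v_pow_le_one _ hdx 2), rr_pow r hdx, rr_sub r hxP hxQ,
      rr_sub r (v_add_le_one _ m4 m1) m3, rr_add r m4 m1, rr_pow r hdy, rr_sub r hyP hyQ,
      rr_mul r (v_mul_le_one _ a1 hdy) hdx, rr_mul r a1 hdy, rr_sub r hyP hyQ, rr_sub r hxP hxQ,
      rr_mul r m2 (v_pow_le_one _ hdx 2), rr_add r (v_add_le_one _ hW.int.a₂ hxP) hxQ,
      rr_add r hW.int.a₂ hxP, rr_pow r hdx, rr_sub r hxP hxQ, hW.a₁, hW.a₂] at f1'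
    rw [f1']
  · have f1' : xc (red r W W' P + red r W W' Q) = rr r (xc (P + Q)) := by
      apply mul_right_cancel₀ (pow_ne_zero 2 (sub_ne_zero.mpr hne'))
      rw [g1]
      have f1' := congrArg (rr r) f1
      rw [rr_mul r hx3 (v_pow_le_one _ hdx 2), rr_pow r hdx, rr_sub r hxP hxQ,
        rr_sub r (v_add_le_one _ m4 m1) m3, rr_add r m4 m1, rr_pow r hdy, rr_sub r hyP hyQ,
        rr_mul r (v_mul_le_one _ a1 hdy) hdx, rr_mul r a1 hdy, rr_sub r hyP hyQ,
        rr_sub r hxP hxQ,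
        rr_mul r m2 (v_pow_le_one _ hdx 2), rr_add r (v_add_le_one _ hW.int.a₂ hxP) hxQ,
        rr_add r hW.int.a₂ hxP, rr_pow r hdx, rr_sub r hxP hxQ, hW.a₁, hW.a₂] at f1'
      rw [f1']
    have f2' := congrArg (rr r) f2
    have n1 := v_mul_le_one _ a1 hx3
    have n2 := v_add_le_one _ (v_add_le_one _ hy3 n1) hW.int.a₃
    have n3 := v_add_le_one _ n2 hyP
    have n4 : A.valuation (-(yc P - yc Q)) ≤ 1 := by rwa [Valuation.map_neg]
    rw [rr_mul r n3 hdx, rr_add r n2 hyP, rr_add r (v_add_le_one _ hy3 n1) hW.int.a₃,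
      rr_add r hy3 n1, rr_mul r a1 hx3, rr_mul r n4 (v_sub_le_one _ hx3 hxP), rr_neg r hdy,
      rr_sub r hyP hyQ, rr_sub r hx3 hxP, rr_sub r hxP hxQ, hW.a₁, hW.a₃] at f2'
    rw [f1'] at g2
    have h3 : (yc (red r W W' P + red r W W' Q) - rr r (yc (P + Q))) *
        (rr r (xc P) - rr r (xc Q)) = 0 := by linear_combination g2 - f2'
    exact sub_eq_zero.mp ((mul_eq_zero.mp h3).resolve_right (sub_ne_zero.mpr hne'))

/-- doubling, when the tangent is not vertical in the reduction. -/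
lemma red_double (hW : IsRed r W W') {P : W.Point} (hP0 : P ≠ 0)
    (hxP : A.valuation (xc P) ≤ 1) (hP : NS A.valuation P) (hpsi : rr r (psi2 P) ≠ 0) :
    (NS A.valuation (P + P) ∧ red r W W' (P + P) = red r W W' P + red r W W' P) ∧
      ¬ E1 A.valuation (P + P) := by
  have hyP := yc_le_one _ hW.int hP0 hxP
  have hle : A.valuation (psi2 P) ≤ 1 := v_psi_le hW hxP hyP
  have hv : A.valuation (psi2 P) = 1 := (rr_ne_zero_iff r hle).mp hpsi
  have hpsi0 : psi2 P ≠ 0 := by intro h; rw [h, _root_.map_zero] at hv; exact zero_ne_one hv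
  have h2 : P + P ≠ 0 := fun h => hpsi0 (psi2_eq_zero hP0 h)
  have hP' := red_ne_zero hW hP0 hxP hP
  have hpsi' : psi2 (red r W W' P) ≠ 0 := by rwa [rr_psi2 hW hP0 hxP hP]
  have h2' : red r W W' P + red r W W' P ≠ 0 := fun h => hpsi' (psi2_eq_zero hP' h)
  obtain ⟨l, l1, l2, l3⟩ := exists_slope_two hP0 h2
  obtain ⟨l', m1, m2, m3⟩ := exists_slope_two hP' h2'
  rw [rr_psi2 hW hP0 hxP hP, xc_red hW hP0 hxP hP, yc_red hW hP0 hxP hP] at m1
  rw [xc_red hW hP0 hxP hP] at m2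
  rw [xc_red hW hP0 hxP hP, yc_red hW hP0 hxP hP] at m3
  have hl : A.valuation l ≤ 1 := by
    have : A.valuation l = A.valuation (l * psi2 P) := by rw [_root_.map_mul, hv, mul_one]
    rw [this, l1]
    exact v_der_le hW hxP hyP
  have hll : rr r l = l' := by
    apply mul_right_cancel₀ hpsi
    rw [m1, ← rr_mul r hl hle, l1, rr_der hW hxP hyP]
  have a1 := hW.int.a₁
  have n1 := v_add_le_one _ (v_pow_le_one _ hl 2) (v_mul_le_one _ a1 hl)
  have n2 := v_sub_le_one _ n1 hW.int.a₂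
  have n3 := v_sub_le_one _ n2 hxP
  have hx2 : A.valuation (xc (P + P)) ≤ 1 := by
    rw [l2]; exact v_sub_le_one _ n3 hxP
  have hxx : xc (red r W W' P + red r W W' P) = rr r (xc (P + P)) := by
    rw [m2, l2, rr_sub r n3 hxP, rr_sub r n2 hxP, rr_sub r n1 hW.int.a₂,
      rr_add r (v_pow_le_one _ hl 2) (v_mul_le_one _ a1 hl), rr_pow r hl, rr_mul r a1 hl, hll,
      hW.a₁, hW.a₂]
  refine ⟨red_eq_of_coords hW h2 hx2 h2' hxx ?_, ?_⟩
  · have o1 := v_sub_le_one _ hx2 hxP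
    have o2 := v_add_le_one _ (v_mul_le_one _ hl o1) hyP
    have o3 : A.valuation (-(l * (xc (P + P) - xc P) + yc P)) ≤ 1 := by rwa [Valuation.map_neg]
    rw [m3, hxx, l3, rr_sub r (v_sub_le_one _ o3 (v_mul_le_one _ a1 hx2)) hW.int.a₃,
      rr_sub r o3 (v_mul_le_one _ a1 hx2), rr_neg r o2, rr_add r (v_mul_le_one _ hl o1) hyP,
      rr_mul r hl o1, rr_sub r hx2 hxP, rr_mul r a1 hx2, hll, hW.a₁, hW.a₃]
  · rw [E1_iff_xc h2]; exact not_lt.mpr hx2

/-- doubling, when the tangent is vertical in the reduction. -/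
lemma E1_double (hW : IsRed r W W') {P : W.Point} (hP0 : P ≠ 0)
    (hxP : A.valuation (xc P) ≤ 1) (hP : NS A.valuation P) (hpsi : rr r (psi2 P) = 0) :
    E1 A.valuation (P + P) := by
  have hyP := yc_le_one _ hW.int hP0 hxP
  have hle : A.valuation (psi2 P) ≤ 1 := v_psi_le hW hxP hyP
  have hv : A.valuation (psi2 P) < 1 := (rr_eq_zero_iff r hle).mp hpsi
  rcases eq_or_ne (P + P) 0 with h2 | h2
  · rw [h2]; exact E1_zero _
  obtain ⟨l, l1, l2, -⟩ := exists_slope_two hP0 h2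
  have hd : 1 ≤ A.valuation (3 * xc P ^ 2 + 2 * W.a₂ * xc P + W.a₄ - W.a₁ * yc P) := by
    rcases (hP.resolve_left hP0).resolve_left (not_lt.mpr hxP) with h | h
    · exact absurd hv (not_lt.mpr h)
    · exact h
  have hl : 1 < A.valuation l := by
    by_contra hl
    rw [not_lt] at hl
    rw [← l1] at hd
    exact absurd (v_mul_lt_one _ hl hv) (not_lt.mpr hd)
  rw [E1_iff_xc h2, l2]
  have : l ^ 2 + W.a₁ * l - W.a₂ - xc P - xc P = l ^ 2 + W.a₁ * l - (W.a₂ + xc P + xc P) := by ring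
  rw [this]
  exact v_quad_gt_one _ hl hW.int.a₁ (v_add_le_one _ (v_add_le_one _ hW.int.a₂ hxP) hxP)

/-- translation by a point of `E₁` does not change the reduction. -/
lemma red_add_E1 (hW : IsRed r W W') {P D : W.Point} (hP : NS A.valuation P)
    (hD : E1 A.valuation D) :
    NS A.valuation (P + D) ∧ red r W W' (P + D) = red r W W' P := by
  by_cases h1 : E1 A.valuation P
  · have := h1.add hW.int hD
    exact ⟨ns_of_E1 this, by rw [red_of_E1 this, red_of_E1 h1]⟩
  rcases eq_or_ne D 0 with rfl | hD0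
  · rw [add_zero]; exact ⟨hP, rfl⟩
  obtain ⟨hP0, hxP⟩ := finite_of_not_E1 h1
  have hyP := yc_le_one _ hW.int hP0 hxP
  have hxD : 1 < A.valuation (xc D) := (E1_iff_xc hD0).mp hD
  have hxD0 : xc D ≠ 0 := by
    intro h; rw [h, _root_.map_zero] at hxD; exact absurd hxD (not_lt.mpr zero_le_one)
  have hne : xc P ≠ xc D := by
    intro h; rw [h] at hxP; exact absurd hxP (not_le.mpr hxD)
  have hPD : P + D ≠ 0 := by
    intro h
    apply hne
    rw [eq_neg_of_add_eq_zero_left h, xc_neg]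
  set t := (xc D)⁻¹ with ht
  have ht1 : A.valuation t < 1 := by
    rw [ht, map_inv₀]; exact inv_lt_one_of_one_lt₀ hxD
  have htx : t * xc D = 1 := inv_mul_cancel₀ hxD0
  have e1 := xc_add_add_xc_sub hP0 hD0 hne
  have e2 := xc_add_mul_xc_sub hP0 hD0 hne
  have b2 := hW.int.b₂
  have b4 := hW.int.b₄
  have b6 := hW.int.b₆
  have b8 := hW.int.b₈
  set s := xc (P + D)
  set s' := xc (P - D)
  set x := xc P
  set z := xc D
  have hxt : A.valuation (x * t) < 1 := v_mul_lt_one _ hxP ht1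
  -- the unit `u = x t - 1`
  have hu : A.valuation (x * t - 1) = 1 := by
    have : A.valuation (1 : K) = 1 := Valuation.map_one _
    apply v_eq_one_of_sub _ (a := (-1 : K)) (by rw [Valuation.map_neg, this])
    have h3 : (-1 : K) - (x * t - 1) = - (x * t) := by ring
    rw [h3, Valuation.map_neg]; exact hxt
  have hu2 : A.valuation ((x * t - 1) ^ 2) = 1 := by rw [map_pow, hu, one_pow]
  have e1' : (s + s') * (x * t - 1) ^ 2 =
      2 * x * (x * t + 1) + W.b₂ * x * t + W.b₄ * (x * t + 1) * t + W.b₆ * t ^ 2 := by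
    have : (s + s') * (x * t - 1) ^ 2 = (s + s') * (x - z) ^ 2 * t ^ 2 := by
      have : x * t - 1 = (x - z) * t := by rw [sub_mul, mul_comm z t, htx]
      rw [this]; ring
    rw [this, e1]
    linear_combination (2 * x ^ 2 * t + 2 * x * (t * z + 1) + W.b₂ * x * t + W.b₄ * t) * htx
  have e2' : s * s' * (x * t - 1) ^ 2 =
      x ^ 2 - W.b₄ * x * t - W.b₆ * (x * t + 1) * t - W.b₈ * t ^ 2 := by
    have : s * s' * (x * t - 1) ^ 2 = s * s' * (x - z) ^ 2 * t ^ 2 := by
      have : x * t - 1 = (x - z) * t := by rw [sub_mul, mul_comm z t, htx]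
      rw [this]; ring
    rw [this, e2]
    linear_combination (x ^ 2 * (t * z + 1) - W.b₄ * x * t - W.b₆ * t) * htx
  have hS : A.valuation (s + s' - 2 * x) < 1 := by
    have : A.valuation (s + s' - 2 * x) = A.valuation ((s + s' - 2 * x) * (x * t - 1) ^ 2) := by
      rw [_root_.map_mul, hu2, mul_one]
    rw [this]
    have h3 : (s + s' - 2 * x) * (x * t - 1) ^ 2 =
      2 * x * (3 - x * t) * (x * t) + W.b₂ * (x * t) + W.b₄ * (x * t + 1) * t + W.b₆ * t * t := by
      linear_combination e1'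
    rw [h3]
    have v3 : A.valuation (3 - x * t) ≤ 1 := v_sub_le_one _ (v_ofNat_le_one _ 3) hxt.le
    have v4 : A.valuation (x * t + 1) ≤ 1 := v_add_le_one _ hxt.le (Valuation.map_one _).le
    refine v_add_lt_one _ (v_add_lt_one _ (v_add_lt_one _ ?_ ?_) ?_) ?_
    · exact v_mul_lt_one _ (v_mul_le_one _ (v_mul_le_one _ (v_ofNat_le_one _ 2) hxP) v3) hxt
    · exact v_mul_lt_one _ b2 hxt
    · exact v_mul_lt_one _ (v_mul_le_one _ b4 v4) ht1
    · exact v_mul_lt_one _ (v_mul_le_one _ b6 ht1.le) ht1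
  have hPr : A.valuation (s * s' - x ^ 2) < 1 := by
    have : A.valuation (s * s' - x ^ 2) = A.valuation ((s * s' - x ^ 2) * (x * t - 1) ^ 2) := by
      rw [_root_.map_mul, hu2, mul_one]
    rw [this]
    have h3 : (s * s' - x ^ 2) * (x * t - 1) ^ 2 =
      x ^ 2 * (2 - x * t) * (x * t) - W.b₄ * (x * t) - W.b₆ * (x * t + 1) * t
        - W.b₈ * t * t := by
      linear_combination e2'
    rw [h3]
    have v3 : A.valuation (2 - x * t) ≤ 1 := v_sub_le_one _ (v_ofNat_le_one _ 2) hxt.le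
    have v4 : A.valuation (x * t + 1) ≤ 1 := v_add_le_one _ hxt.le (Valuation.map_one _).le
    refine v_sub_lt_one _ (v_sub_lt_one _ (v_sub_lt_one _ ?_ ?_) ?_) ?_
    · exact v_mul_lt_one _ (v_mul_le_one _ (v_pow_le_one _ hxP 2) v3) hxt
    · exact v_mul_lt_one _ b4 hxt
    · exact v_mul_lt_one _ (v_mul_le_one _ b6 v4) ht1
    · exact v_mul_lt_one _ (v_mul_le_one _ b8 ht1.le) ht1
  have hsx : A.valuation (s - x) < 1 := by
    apply v_root_lt_one _ (t2 := s' - x)
    · have : s - x + (s' - x) = s + s' - 2 * x := by ring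
      rw [this]; exact hS
    · have : (s - x) * (s' - x) = (s * s' - x ^ 2) - x * (s + s' - 2 * x) := by ring
      rw [this]
      exact v_sub_lt_one _ hPr (v_mul_lt_one _ hxP hS)
  have hs : A.valuation s ≤ 1 := by
    have : s = (s - x) + x := by ring
    rw [this]; exact v_add_le_one _ hsx.le hxP
  have hrs : rr r s = rr r x := (rr_eq_iff r hs hxP).mpr hsx
  have hyPD := yc_le_one _ hW.int hPD hs
  obtain ⟨hPD', -⟩ := exists_some hPD
  have hEq := equation_rr hW hs hyPD hPD'.1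
  rw [hrs] at hEq
  have hP' := red_ne_zero hW hP0 hxP hP
  have hnsP := (ns_iff hW hP0 hxP).mp hP
  rcases Y_eq_of_X_eq hEq hnsP.1 rfl with hyy | hyy
  · exact red_eq_of_coords hW hPD hs hP' (by rw [xc_red hW hP0 hxP hP, hrs])
      (by rw [yc_red hW hP0 hxP hP, hyy])
  · have hP'' := (neg_red hW hP)
    have hneg : NS A.valuation (P + D) ∧ red r W W' (P + D) = red r W W' (-P) := by
      rw [hP''.2]
      refine red_eq_of_coords hW hPD hs (neg_ne_zero.mpr hP')
        (by rw [xc_neg, xc_red hW hP0 hxP hP, hrs]) ?_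
      rw [yc_neg hP', xc_red hW hP0 hxP hP, yc_red hW hP0 hxP hP, hyy, negY]
    refine ⟨hneg.1, ?_⟩
    have h5 := E1_sub_of_red_eq hW hneg.1 hP''.1 hneg.2
    have h6 : P + P = (P + D - -P) - D := by abel
    have h7 : E1 A.valuation (P + P) := by rw [h6]; exact h5.sub hW.int hD
    have h8 : rr r (psi2 P) = 0 := by
      by_contra h
      exact (red_double hW hP0 hxP hP h).2 h7
    rw [hneg.2, hP''.2]
    have h9 : psi2 (red r W W' P) = 0 := by rw [rr_psi2 hW hP0 hxP hP, h8]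
    rw [psi2_eq_zero_iff hP'] at h9
    exact h9.symm

/-- The reduction map is additive on points with nonsingular reduction. -/
theorem red_add (hW : IsRed r W W') {P Q : W.Point} (hP : NS A.valuation P)
    (hQ : NS A.valuation Q) :
    NS A.valuation (P + Q) ∧ red r W W' (P + Q) = red r W W' P + red r W W' Q := by
  by_cases hQ1 : E1 A.valuation Q
  · rw [red_of_E1 hQ1, add_zero]; exact red_add_E1 hW hP hQ1
  by_cases hP1 : E1 A.valuation P
  · rw [red_of_E1 hP1, zero_add, add_comm]; exact red_add_E1 hW hQ hP1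
  obtain ⟨hP0, hxP⟩ := finite_of_not_E1 hP1
  obtain ⟨hQ0, hxQ⟩ := finite_of_not_E1 hQ1
  by_cases hne : rr r (xc P) = rr r (xc Q)
  swap
  · exact red_add_of_ne hW hP0 hxP hP hQ0 hxQ hQ hne
  have hP' := red_ne_zero hW hP0 hxP hP
  have hQ' := red_ne_zero hW hQ0 hxQ hQ
  have hnQ := neg_red hW hQ
  rcases eq_or_eq_neg hP' hQ' (by rw [xc_red hW hP0 hxP hP, xc_red hW hQ0 hxQ hQ, hne])
    with h | h
  · have hD := E1_sub_of_red_eq hW hP hQ h
    have hsum : P + Q = (Q + Q) + (P - Q) := by abel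
    by_cases hpsi : rr r (psi2 Q) = 0
    · have h2 := E1_double hW hQ0 hxQ hQ hpsi
      have h3 : E1 A.valuation (P + Q) := by rw [hsum]; exact h2.add hW.int hD
      refine ⟨ns_of_E1 h3, ?_⟩
      rw [red_of_E1 h3, h]
      have h9 : psi2 (red r W W' Q) = 0 := by rw [rr_psi2 hW hQ0 hxQ hQ, hpsi]
      rw [psi2_eq_zero_iff hQ'] at h9
      nth_rw 2 [h9]
      rw [add_neg_cancel]
    · have h2 := (red_double hW hQ0 hxQ hQ hpsi).1
      have h3 := red_add_E1 hW h2.1 hD
      rw [hsum]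
      refine ⟨h3.1, ?_⟩
      rw [h3.2, h2.2, h]
  · have h3 := E1_sub_of_red_eq hW hP hnQ.1 (by rw [h, hnQ.2])
    rw [sub_neg_eq_add] at h3
    exact ⟨ns_of_E1 h3, by rw [red_of_E1 h3, h, neg_add_cancel]⟩

/-- The subgroup of points with nonsingular reduction. -/
def E0 (hW : IsRed r W W') : AddSubgroup W.Point where
  carrier := {P | NS A.valuation P}
  zero_mem' := Or.inl rfl
  add_mem' := fun ha hb => (red_add hW ha hb).1
  neg_mem' := fun ha => (neg_red hW ha).1

lemma mem_E0 (hW : IsRed r W W') {P : W.Point} : P ∈ E0 hW ↔ NS A.valuation P := Iff.rfl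

/-- The reduction homomorphism. -/
noncomputable def redHom (hW : IsRed r W W') : E0 hW →+ W'.Point where
  toFun P := red r W W' P
  map_zero' := red_zero
  map_add' P Q := (red_add hW P.2 Q.2).2

end red

end Fermat.Agent.ECRep
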