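import Fermat.Agent.S13lib.Node
import Fermat.Agent.ECRep.Red

set_option autoImplicit false
set_option linter.unusedSectionVars false

/-!
# The line through two points: all the symmetric relations
-/

namespace Fermat.Agent.ECRep

open WeierstrassCurve WeierstrassCurve.Affine WeierstrassCurve.Affine.Point
open Fermat.Agent.DivPoly

section

variable {F : Type*} [Field F] [DecidableEq F] {W : WeierstrassCurve.Affine F}

/-- The line through `P`, `Q` and `-(P+Q)`. -/
theorem exists_line {P Q : W.Point} (hP : P ≠ 0) (hQ : Q ≠ 0) (h : P + Q ≠ 0) :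
    ∃ L m : F, yc P = L * xc P + m ∧ yc Q = L * xc Q + m ∧
      yc (-(P + Q)) = L * xc (P + Q) + m ∧
      xc P + xc Q + xc (P + Q) = L ^ 2 + W.a₁ * L - W.a₂ ∧
      xc P * xc Q + xc P * xc (P + Q) + xc Q * xc (P + Q) =
        W.a₄ - 2 * L * m - W.a₁ * m - W.a₃ * L ∧
      xc P * xc Q * xc (P + Q) = m ^ 2 + W.a₃ * m - W.a₆ ∧
      L * (yc P + yc Q + W.a₁ * xc Q + W.a₃) =
        xc P ^ 2 + xc P * xc Q + xc Q ^ 2 + W.a₂ * (xc P + xc Q) + W.a₄ - W.a₁ * yc P := by
  have eP := DivPoly.equation hP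
  have eQ := DivPoly.equation hQ
  obtain ⟨hP', hPe⟩ := exists_some hP
  obtain ⟨hQ', hQe⟩ := exists_some hQ
  have hne : ¬ (xc P = xc Q ∧ yc P = W.negY (xc Q) (yc Q)) := by
    rintro ⟨h1, h2⟩
    apply h
    rw [hPe, hQe, add_of_Y_eq h1 h2]
  have key : P + Q = .some _ _ (nonsingular_add hP' hQ' hne) := by
    conv_lhs => rw [hPe, hQe]
    rw [add_some hne]
  have hx : xc (P + Q) = W.addX (xc P) (xc Q)
      (W.slope (xc P) (xc Q) (yc P) (yc Q)) := by rw [key]; rfl
  have hy : yc (-(P + Q)) = W.negAddY (xc P) (xc Q) (yc P)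
      (W.slope (xc P) (xc Q) (yc P) (yc Q)) := by
    rw [key, neg_some, yc_some, addY, negY_negY]
  have hcub := addPolynomial_slope hP'.1 hQ'.1 hne
  rw [← hx, addPolynomial_eq, neg_inj, Cubic.prod_X_sub_C_eq, Cubic.toPoly_injective] at hcub
  have hc := congrArg Cubic.c hcub
  have hd := congrArg Cubic.d hcub
  simp only at hc hd
  set L := W.slope (xc P) (xc Q) (yc P) (yc Q) with hL
  have hR : L * (xc P - xc Q) = yc P - yc Q ∧ L * (yc P + yc Q + W.a₁ * xc Q + W.a₃) =
        xc P ^ 2 + xc P * xc Q + xc Q ^ 2 + W.a₂ * (xc P + xc Q) + W.a₄ - W.a₁ * yc P := by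
    by_cases hx' : xc P = xc Q
    · have hy' : yc P ≠ W.negY (xc Q) (yc Q) := fun h' => hne ⟨hx', h'⟩
      have hy2 : yc P = yc Q := by
        rcases Y_eq_of_X_eq hP'.1 hQ'.1 hx' with h' | h'
        · exact h'
        · exact absurd h' hy'
      rw [hL, slope_of_Y_ne hx' hy']
      have hd : yc P - W.negY (xc P) (yc P) ≠ 0 := by
        rw [hx']
        intro h0
        exact hy' (by rw [hy2] at h0 ⊢; exact sub_eq_zero.mp h0)
      have hd2 : yc P + yc Q + W.a₁ * xc Q + W.a₃ = yc P - W.negY (xc P) (yc P) := by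
        rw [hx', ← hy2, negY]; ring
      constructor
      · rw [hx', sub_self, mul_zero, hy2, sub_self]
      · rw [hd2, div_mul_cancel₀ _ hd, hx']; ring
    · rw [hL, slope_of_X_ne hx']
      have hd := sub_ne_zero.mpr hx'
      have h1 : (yc P - yc Q) / (xc P - xc Q) * (xc P - xc Q) = yc P - yc Q :=
        div_mul_cancel₀ _ hd
      refine ⟨h1, ?_⟩
      apply mul_right_cancel₀ hd
      have : (yc P - yc Q) / (xc P - xc Q) * (yc P + yc Q + W.a₁ * xc Q + W.a₃) *
          (xc P - xc Q) = (yc P - yc Q) * (yc P + yc Q + W.a₁ * xc Q + W.a₃) := by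
        rw [mul_right_comm, h1]
      rw [this]
      linear_combination eP - eQ
  refine ⟨L, yc P - L * xc P, by ring, by linear_combination hR.1, ?_, ?_, ?_, ?_, hR.2⟩
  · rw [hy, negAddY, ← hx]; ring
  · rw [hx, addX]; ring
  · linear_combination -hc
  · linear_combination hd

end

end Fermat.Agent.ECRep
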