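import Fermat.Agent.ECRep.TateMod
import Fermat.Agent.DivPoly.Rank
import Fermat.Agent.RepTwo.FiniteLevel
import Fermat.Prelude.Def_GaloisRep_Adic

set_option autoImplicit false
set_option linter.unusedSectionVars false

/-!
# The `l`-adic Galois representation of an elliptic curve over `ℚ`
-/

namespace Fermat.Agent.ECRep

open WeierstrassCurve WeierstrassCurve.Affine WeierstrassCurve.Affine.Point
open scoped WeierstrassCurve.Affine

local notation "Qbar" => AlgebraicClosure ℚ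
local notation "Γℚ" => (AlgebraicClosure ℚ ≃ₐ[ℚ] AlgebraicClosure ℚ)

section

variable (W : WeierstrassCurve ℚ)

lemma Δ_baseChange_ne_zero (hΔ : W.Δ ≠ 0) : (W⁄Qbar).Δ ≠ 0 := by
  change (W.map (algebraMap ℚ Qbar)).Δ ≠ 0
  rw [map_Δ]
  exact (map_ne_zero _).mpr hΔ

lemma card_tors (hΔ : W.Δ ≠ 0) (n : ℕ) (hn : n ≠ 0) :
    Nat.card {x : (W⁄Qbar).Point // n • x = 0} = n ^ 2 :=
  DivPoly.natCard_torsion (Δ_baseChange_ne_zero W hΔ) n hn

theorem card_torsionBy (hΔ : W.Δ ≠ 0) (n : ℕ) (hn : n ≠ 0) :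
    Nat.card (Submodule.torsionBy ℤ (W⁄Qbar).Point (n : ℤ)) = n ^ 2 :=
  DivPoly.natCard_torsionBy_baseChange W (Δ_baseChange_ne_zero W hΔ) n hn

theorem finiteLevel (hΔ : W.Δ ≠ 0) (n : ℕ) (hn : n ≠ 0) :
    GaloisFactorsThroughFiniteLevel (galoisRepModuleEnd (K := Qbar) ℚ W n) := by
  have := DivPoly.finite_torsionBy_baseChange W (Δ_baseChange_ne_zero W hΔ) n hn
  exact RepTwo.factors_galoisRepModuleEnd W n

variable (l : ℕ) [Fact l.Prime]

/-- The Tate module of `W`. -/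
abbrev TateW : Type := Tate (W⁄Qbar).Point l

/-- The Galois action on the Tate module. -/
noncomputable def tateGal : Γℚ →* Module.End ℤ_[l] (TateW W l) where
  toFun σ := Tate.map (DistribSMul.toAddMonoidHom (W⁄Qbar).Point σ)
  map_one' := LinearMap.ext fun _ => Tate.ext fun _ => one_smul Γℚ _
  map_mul' σ τ := LinearMap.ext fun _ => Tate.ext fun _ => mul_smul σ τ _

@[simp] lemma tateGal_coe (σ : Γℚ) (x : TateW W l) (n : ℕ) :
    (tateGal W l σ x).1 n = σ • x.1 n := rfl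

variable {W l}

lemma hcard_of_Δ (hΔ : W.Δ ≠ 0) (n : ℕ) :
    Nat.card {x : (W⁄Qbar).Point // l ^ n • x = 0} = (l ^ n) ^ 2 :=
  card_tors W hΔ (l ^ n) (pow_ne_zero n (Fact.out : l.Prime).ne_zero)

theorem tate_exists_basis (hΔ : W.Δ ≠ 0) :
    Nonempty (Module.Basis (Fin 2) ℤ_[l] (TateW W l)) := exists_basis (hcard_of_Δ hΔ)

theorem tate_free (hΔ : W.Δ ≠ 0) : Module.Free ℤ_[l] (TateW W l) :=
  Module.Free.of_basis (tate_exists_basis hΔ).some

theorem tate_finite (hΔ : W.Δ ≠ 0) : Module.Finite ℤ_[l] (TateW W l) :=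
  Module.Finite.of_basis (tate_exists_basis hΔ).some

theorem tate_finrank (hΔ : W.Δ ≠ 0) : Module.finrank ℤ_[l] (TateW W l) = 2 := by
  rw [Module.finrank_eq_card_basis (tate_exists_basis hΔ).some, Fintype.card_fin]

/-- `x n = 0` iff `x` is divisible by `l ^ n` -/
lemma coe_eq_zero_iff (hΔ : W.Δ ≠ 0) (x : TateW W l) (n : ℕ) :
    x.1 n = 0 ↔ x ∈ (IsLocalRing.maximalIdeal ℤ_[l] ^ n) • (⊤ : Submodule ℤ_[l] (TateW W l)) := by
  rw [PadicInt.maximalIdeal_eq_span_p, Ideal.span_singleton_pow,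
    Submodule.ideal_span_singleton_smul]
  constructor
  · intro h
    obtain ⟨y, hy⟩ := exists_smul_of_coe_eq_zero (hcard_of_Δ hΔ) h
    rw [← hy]
    refine ⟨y, trivial, Tate.ext fun m => ?_⟩
    change (((l : ℤ_[l]) ^ n) • y).1 m = _
    rw [← Nat.cast_pow, Tate.natCast_smul, Tate.nsmul_coe]
  · rintro ⟨y, -, rfl⟩
    change (((l : ℤ_[l]) ^ n) • y).1 n = 0
    rw [← Nat.cast_pow, Tate.natCast_smul, y.torsion]

theorem tateGal_continuous (hΔ : W.Δ ≠ 0) :
    GaloisActionIsAdicContinuous ℤ_[l] (tateGal W l) := by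
  intro n
  obtain ⟨L, hL, h⟩ := finiteLevel W hΔ (l ^ n) (pow_ne_zero n (Fact.out : l.Prime).ne_zero)
  refine ⟨L, hL, fun σ hσ v => ?_⟩
  rw [← coe_eq_zero_iff hΔ]
  change σ • v.1 n - v.1 n = 0
  have hv : v.1 n ∈ Submodule.torsionBy ℤ (W⁄Qbar).Point ((l ^ n : ℕ) : ℤ) := by
    rw [Submodule.mem_torsionBy_iff, natCast_zsmul]; exact v.torsion n
  have h1 := h σ hσ
  have h2 := LinearMap.congr_fun h1 ⟨v.1 n, hv⟩
  rw [sub_eq_zero]
  exact congrArg Subtype.val h2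

variable (W l) in
/-- The `l`-adic representation of `W`. -/
noncomputable def tateRep (hΔ : W.Δ ≠ 0) : GaloisRepAdic ℤ_[l] :=
  { V := TateW W l
    instFree := tate_free hΔ
    instFinite := tate_finite hΔ
    finrank_eq := tate_finrank hΔ
    ρ := tateGal W l
    isAdicContinuous := tateGal_continuous hΔ }

lemma tateRep_apply (hΔ : W.Δ ≠ 0) (σ : Γℚ) (x : TateW W l) (n : ℕ) :
    ((tateRep W l hΔ).ρ σ x : TateW W l).1 n = σ • x.1 n := rfl

variable (W l) in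
/-- the residual representation over `ZMod l`. -/
noncomputable def resRep (hΔ : W.Δ ≠ 0) : ResidualGaloisRep (ZMod l) :=
  W.residualGaloisRepOf l (card_torsionBy W hΔ l (Fact.out : l.Prime).ne_zero)
    (finiteLevel W hΔ l (Fact.out : l.Prime).ne_zero)

end

end Fermat.Agent.ECRep
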