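import Fermat.Agent.ECRep.Red
import Fermat.Agent.ECRep.CHGen
import Fermat.Agent.ECRep.Rep
import Fermat.Agent.Frob.Basic
import Fermat.Agent.S13lib.Good

set_option autoImplicit false
set_option linter.unusedSectionVars false

/-!
# Reduction of points over `Qbar` and the Galois action
-/

namespace Fermat.Agent.ECRep

open WeierstrassCurve WeierstrassCurve.Affine WeierstrassCurve.Affine.Point
open scoped WeierstrassCurve.Affine
open Fermat.Agent.EC Fermat.Agent.DivPoly Fermat.Agent.S13lib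

local notation "Qbar" => AlgebraicClosure ℚ
local notation "Γℚ" => (AlgebraicClosure ℚ ≃ₐ[ℚ] AlgebraicClosure ℚ)

section general

variable {S K F k : Type*} [Field S] [Field K] [Algebra S K] [DecidableEq K] [CommRing F]
  [Field k] [Algebra F k] [DecidableEq k] {A : ValuationSubring K} {r : A →+* k} [IsLocalHom r]
  {W : WeierstrassCurve S} {W' : WeierstrassCurve F}

lemma v_decomp_le {σ : K ≃ₐ[S] K} (hσ : σ ∈ A.decompositionSubgroup S) {x : K}
    (hx : A.valuation x ≤ 1) : A.valuation (σ x) ≤ 1 := by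
  rw [ValuationSubring.valuation_le_one_iff] at hx ⊢
  exact (decomp_mem_iff hσ x).mpr hx

lemma v_decomp_le_iff {σ : K ≃ₐ[S] K} (hσ : σ ∈ A.decompositionSubgroup S) {x : K} :
    A.valuation (σ x) ≤ 1 ↔ A.valuation x ≤ 1 := by
  rw [ValuationSubring.valuation_le_one_iff, ValuationSubring.valuation_le_one_iff]
  exact decomp_mem_iff hσ x

/-- The reduction map is compatible with the action of the decomposition group. -/
theorem red_smul (hW : IsRed r (W⁄K) (W'⁄k)) {σ : K ≃ₐ[S] K}
    (hσ : σ ∈ A.decompositionSubgroup S) (θ : k →ₐ[F] k)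
    (hθ : ∀ x, A.valuation x ≤ 1 → rr r (σ x) = θ (rr r x)) {P : (W⁄K).Point}
    (hP : NS A.valuation P) :
    NS A.valuation (σ • P) ∧
      red r (W⁄K) (W'⁄k) (σ • P) = Point.map θ (red r (W⁄K) (W'⁄k) P) := by
  rcases eq_or_ne P 0 with rfl | hP0
  · rw [smul_zero, red_zero, _root_.map_zero]
    exact ⟨hP, rfl⟩
  have hσP0 : σ • P ≠ 0 := smul_ne_zero' hP0
  rcases lt_or_ge 1 (A.valuation (xc P)) with hx | hx
  · have hx' : 1 < A.valuation (xc (σ • P)) := by
      rw [xc_smul, ← not_le, v_decomp_le_iff hσ, not_le]; exact hx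
    rw [red_of_gt hx, red_of_gt hx', _root_.map_zero]
    exact ⟨Or.inr (Or.inl hx'), rfl⟩
  have hy := yc_le_one _ hW.int hP0 hx
  have hx' : A.valuation (xc (σ • P)) ≤ 1 := by rw [xc_smul]; exact v_decomp_le hσ hx
  refine red_eq_of_coords hW hσP0 hx' ?_ ?_ ?_
  · intro h
    apply red_ne_zero hW hP0 hx hP
    exact Point.map_injective θ (h.trans (_root_.map_zero _).symm)
  · rw [red_eq hW hP0 hx hP, Point.map_some, xc_some, xc_smul, hθ _ hx]
  · rw [red_eq hW hP0 hx hP, Point.map_some, yc_some, yc_smul, hθ _ hy]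

end general

section rat

variable (W : WeierstrassCurve ℤ) {A : ValuationSubring (AlgebraicClosure ℚ)} {p : ℕ}

/-- the rational curve of an integral model -/
abbrev toRat : WeierstrassCurve ℚ := W.map (Int.castRingHom ℚ)

lemma toRat_Δ_ne_zero {W : WeierstrassCurve ℤ} (hΔ : W.Δ ≠ 0) : (toRat W).Δ ≠ 0 := by
  rw [map_Δ]; simpa using hΔ

/-- the `ZMod p`-algebra structure on the residue field -/
@[instance_reducible] noncomputable def algRes [Fact p.Prime] (hA : A.LiesOverPrime p) :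
    Algebra (ZMod p) (IsLocalRing.ResidueField A) :=
  have : CharP (IsLocalRing.ResidueField A) p :=
    (CharP.charP_iff_prime_eq_zero Fact.out).mpr (residue_natCast_eq_zero hA)
  ZMod.algebra _ p

lemma isRed_int [Fact p.Prime] [Algebra (ZMod p) (IsLocalRing.ResidueField A)] :
    IsRed (IsLocalRing.residue A) ((toRat W)⁄Qbar)
      ((W.reductionMod p)⁄(IsLocalRing.ResidueField A)) := by
  have e : ∀ n : ℤ, algebraMap ℚ Qbar (Int.castRingHom ℚ n) = (n : Qbar) := fun n => by simp
  have f : ∀ n : ℤ, algebraMap (ZMod p) (IsLocalRing.ResidueField A)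
      (Int.castRingHom (ZMod p) n) = (n : IsLocalRing.ResidueField A) := fun n => by simp
  have g : ∀ n : ℤ, rr (IsLocalRing.residue A) (algebraMap ℚ Qbar (Int.castRingHom ℚ n)) =
      algebraMap (ZMod p) (IsLocalRing.ResidueField A) (Int.castRingHom (ZMod p) n) := fun n => by
    rw [e, f, rr_intCast]
  have h : ∀ n : ℤ, A.valuation (algebraMap ℚ Qbar (Int.castRingHom ℚ n)) ≤ 1 := fun n => by
    rw [e]; exact v_intCast_le_one _ n
  exact ⟨⟨h _, h _, h _, h _, h _⟩, g _, g _, g _, g _, g _⟩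

lemma integralFor_int (A : ValuationSubring (AlgebraicClosure ℚ)) :
    IntegralFor A.valuation ((toRat W)⁄Qbar) := by
  have e : ∀ n : ℤ, algebraMap ℚ Qbar (Int.castRingHom ℚ n) = (n : Qbar) := fun n => by simp
  have h : ∀ n : ℤ, A.valuation (algebraMap ℚ Qbar (Int.castRingHom ℚ n)) ≤ 1 := fun n => by
    rw [e]; exact v_intCast_le_one _ n
  exact ⟨h _, h _, h _, h _, h _⟩

lemma v_natCast_lt (hA : A.LiesOverPrime p) : A.valuation (p : Qbar) < 1 :=
  (ValuationSubring.mem_nonunits_iff A).mp hA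

lemma v_intCast_eq_one (hp : p.Prime) (hA : A.LiesOverPrime p) {n : ℤ} (hn : ¬ (p : ℤ) ∣ n) :
    A.valuation (n : Qbar) = 1 := by
  have h := Frob.natCast_notMem_nonunits A hp hA hn
  rw [ValuationSubring.mem_nonunits_iff, not_lt] at h
  exact le_antisymm (v_intCast_le_one _ n) h

lemma v_natCast_eq_one (hp : p.Prime) (hA : A.LiesOverPrime p) {n : ℕ} (hn : ¬ p ∣ n) :
    A.valuation (n : Qbar) = 1 := by
  have := v_intCast_eq_one hp hA (n := n) (by exact_mod_cast hn)
  simpa using this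

lemma ns_of_good (hp : p.Prime) (hA : A.LiesOverPrime p) (hg : W.IsGoodPrimeFor p)
    (P : ((toRat W)⁄Qbar).Point) : NS A.valuation P := by
  refine NS_of_good (integralFor_int W A) ?_ P
  have : ((toRat W)⁄Qbar).Δ = (W.Δ : Qbar) := by
    change ((W.map (Int.castRingHom ℚ)).map (algebraMap ℚ Qbar)).Δ = _
    rw [map_Δ, map_Δ]; simp
  rw [this]
  exact v_intCast_eq_one hp hA hg

lemma isElliptic_reduction [Fact p.Prime] (hg : W.IsGoodPrimeFor p) :
    (W.reductionMod p).IsElliptic := by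
  refine ⟨?_⟩
  rw [isUnit_iff_ne_zero, reductionMod, map_Δ]
  intro h
  exact hg ((ZMod.intCast_zmod_eq_zero_iff_dvd _ p).mp (by simpa using h))

lemma smul_nsmul' {V : WeierstrassCurve ℚ} (σ : Γℚ) (n : ℕ) (P : (V⁄Qbar).Point) :
    σ • (n • P) = n • (σ • P) := (Point.map σ.toAlgHom).map_nsmul n P

lemma smul_zero'' {V : WeierstrassCurve ℚ} (σ : Γℚ) : σ • (0 : (V⁄Qbar).Point) = 0 := rfl

lemma smul_zsmul' {V : WeierstrassCurve ℚ} (σ : Γℚ) (n : ℤ) (P : (V⁄Qbar).Point) :
    σ • (n • P) = n • (σ • P) := (Point.map σ.toAlgHom).map_zsmul n P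

/-- Inertia at a good prime acts trivially on torsion prime to the residue characteristic. -/
theorem inertia_smul_eq (hp : p.Prime) (hA : A.LiesOverPrime p) (hg : W.IsGoodPrimeFor p)
    {σ : Γℚ} (hσ : σ ∈ A.inertiaSubgroupIn ℚ) {n : ℕ} (hn : ¬ p ∣ n)
    {P : ((toRat W)⁄Qbar).Point} (hP : n • P = 0) : σ • P = P := by
  have h1 := E1_smul_sub_of_NS (integralFor_int W A) (ns_of_good W hp hA hg P) hσ
  have h2 : n • (σ • P - P) = 0 := by
    rw [nsmul_sub, ← smul_nsmul', hP, smul_zero'', sub_zero]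
  exact sub_eq_zero.mp (h1.eq_zero_of_nsmul_eq_zero (integralFor_int W A)
    (v_natCast_eq_one hp hA hn) h2)

/-- The Frobenius at `A` reduces to the Frobenius endomorphism. -/
theorem red_frob [Fact p.Prime] [Algebra (ZMod p) (IsLocalRing.ResidueField A)]
    [DecidableEq (IsLocalRing.ResidueField A)]
    {σ : Γℚ} (hσ : A.IsFrobeniusAt σ p)
    {P : ((toRat W)⁄Qbar).Point} (hP : NS A.valuation P) :
    NS A.valuation (σ • P) ∧
      red (IsLocalRing.residue A) ((toRat W)⁄Qbar)
        ((W.reductionMod p)⁄(IsLocalRing.ResidueField A)) (σ • P) =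
      frobW (W.reductionMod p) (IsLocalRing.ResidueField A)
        (red (IsLocalRing.residue A) ((toRat W)⁄Qbar)
        ((W.reductionMod p)⁄(IsLocalRing.ResidueField A)) P) := by
  refine red_smul (isRed_int W) hσ.mem_decompositionSubgroup _ ?_ hP
  intro x hx
  have hσ' := (Frob.isFrobeniusAt_iff A σ p).mp hσ
  have hσx := v_decomp_le hσ'.1 hx
  have h1 := hσ'.2 x ((A.valuation_le_one_iff x).mp hx)
  rw [ValuationSubring.mem_nonunits_iff] at h1
  rw [(rr_eq_iff _ hσx (v_pow_le_one _ hx p)).mpr h1, rr_pow _ hx,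
    FiniteField.coe_frobeniusAlgHom, Fintype.card_eq_nat_card, Nat.card_zmod]

end rat

end Fermat.Agent.ECRep
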