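import Fermat.Agent.ECRep.MultKap
import Fermat.Agent.ECRep.RedGal

set_option autoImplicit false
set_option linter.unusedSectionVars false

/-!
# Existence and rationality of the multiplicative data
-/

namespace Fermat.Agent.ECRep

open WeierstrassCurve WeierstrassCurve.Affine WeierstrassCurve.Affine.Point
open Fermat.Agent.EC Fermat.Agent.DivPoly Fermat.Agent.S13lib

section identities

variable {K : Type*} [Field K] {W : WeierstrassCurve.Affine K} {x₀ y₀ α β D : K}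

theorem MAlg.quad (hM : MAlg W x₀ y₀ α β D) : 6 * x₀ ^ 2 + W.b₂ * x₀ + W.b₄ = 0 := by
  rw [b₂, b₄]
  linear_combination 2 * hM.crit + W.a₁ * hM.two

theorem MAlg.disc (hM : MAlg W x₀ y₀ α β D) : (α - β) ^ 2 = W.b₂ + 12 * x₀ := by
  rw [b₂]
  linear_combination (α + β - W.a₁) * hM.add - 4 * hM.mul

theorem MAlg.four_D (hM : MAlg W x₀ y₀ α β D) :
    4 * D = 4 * x₀ ^ 3 + W.b₂ * x₀ ^ 2 + 2 * W.b₄ * x₀ + W.b₆ := by
  rw [b₂, b₄, b₆]
  linear_combination -4 * hM.eqn - (2 * y₀ + W.a₁ * x₀ + W.a₃) * hM.two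

theorem MAlg.Δ_eq (hM : MAlg W x₀ y₀ α β D) :
    W.Δ = -(D * ((α - β) ^ 6 + 432 * D)) := by
  have h1 := hM.disc
  rw [b₂] at h1
  have h6 : (α - β) ^ 6 = (W.a₁ ^ 2 + 4 * W.a₂ + 12 * x₀) ^ 3 := by
    rw [← h1]; ring
  have h3 : W.a₃ = -(2 * y₀ + W.a₁ * x₀) := by linear_combination hM.two
  have h4 : W.a₄ = W.a₁ * y₀ - 3 * x₀ ^ 2 - 2 * W.a₂ * x₀ := by linear_combination hM.crit
  have h5 : W.a₆ = y₀ ^ 2 + W.a₁ * x₀ * y₀ + W.a₃ * y₀ + D - x₀ ^ 3 - W.a₂ * x₀ ^ 2 -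
      W.a₄ * x₀ := by linear_combination hM.eqn
  rw [h6, Δ, b₂, b₄, b₆, b₈, h5, h4, h3]
  ring

theorem MAlg.c₄_eq (hM : MAlg W x₀ y₀ α β D) : W.c₄ = (α - β) ^ 4 := by
  have h1 := hM.disc
  have h4 : (α - β) ^ 4 = (W.b₂ + 12 * x₀) ^ 2 := by rw [← h1]; ring
  rw [h4, c₄]
  linear_combination -24 * hM.quad

/-- the value at the other critical point -/
theorem MAlg.other (hM : MAlg W x₀ y₀ α β D) {x₁ y₁ α' β' D' : K}
    (hM' : MAlg W x₁ y₁ α' β' D') (hx : 6 * (x₁ + x₀) = -W.b₂) :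
    432 * D' = (α - β) ^ 6 + 432 * D := by
  have h1 := hM.disc
  have h4 : (α - β) ^ 6 = (W.b₂ + 12 * x₀) ^ 3 := by rw [← h1]; ring
  have h5 := hM.four_D
  have h6 := hM'.four_D
  have h7 := hM.quad
  rw [h4]
  have hb : W.b₂ = -6 * (x₁ + x₀) := by linear_combination hx
  rw [hb] at h5 h6 h7 ⊢
  linear_combination 108 * h6 - 108 * h5 + (216 * x₁ - 216 * x₀) * h7

end identities

section exist

variable {K : Type*} [Field K] {Γ₀ : Type*} [LinearOrderedCommGroupWithZero Γ₀]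
  {v : Valuation K Γ₀} {W : WeierstrassCurve.Affine K} {x₀ y₀ α β D : K}

theorem Mult.v_Δ (hM : Mult v W x₀ y₀ α β D) : v W.Δ = v D := by
  have h6 : v ((α - β) ^ 6) = 1 := by rw [map_pow, hM.vδ, one_pow]
  have h1 : v ((α - β) ^ 6 + 432 * D) = 1 := by
    rw [Valuation.map_add_eq_of_lt_left, h6]
    rw [h6]
    exact v_mul_lt_one v (v_ofNat_le_one v 432) hM.vD
  rw [hM.Δ_eq, Valuation.map_neg, _root_.map_mul, h1, mul_one]

/-- uniqueness of the critical point near the node -/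
theorem Mult.unique (hM : Mult v W x₀ y₀ α β D) {x₁ y₁ α' β' D' : K}
    (hM' : Mult v W x₁ y₁ α' β' D') : x₁ = x₀ := by
  have h1 := hM.quad
  have h2 := hM'.quad
  have h3 : (x₁ - x₀) * (6 * (x₁ + x₀) + W.b₂) = 0 := by linear_combination h2 - h1
  rcases mul_eq_zero.mp h3 with h | h
  · exact sub_eq_zero.mp h
  · exfalso
    have h4 := hM.toMAlg.other hM'.toMAlg (by linear_combination h)
    have h6 : v ((α - β) ^ 6) = 1 := by rw [map_pow, hM.vδ, one_pow]
    have h5 : v ((α - β) ^ 6 + 432 * D) = 1 := by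
      rw [Valuation.map_add_eq_of_lt_left, h6]
      rw [h6]
      exact v_mul_lt_one v (v_ofNat_le_one v 432) hM.vD
    rw [← h4] at h5
    have : v (432 * D') < 1 := v_mul_lt_one v (v_ofNat_le_one v 432) hM'.vD
    exact this.ne h5

/-- the algebraic data for a given root of the quadratic -/
theorem exists_malg [IsAlgClosed K] (h2 : (2 : K) ≠ 0) {x₀ : K}
    (hx : 6 * x₀ ^ 2 + W.b₂ * x₀ + W.b₄ = 0) :
    ∃ y₀ α β D : K, MAlg W x₀ y₀ α β D ∧ y₀ = -(W.a₁ * x₀ + W.a₃) / 2 := by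
  obtain ⟨s, hs⟩ := IsAlgClosed.exists_pow_nat_eq (W.b₂ + 12 * x₀) (n := 2) two_pos
  have hy : 2 * (-(W.a₁ * x₀ + W.a₃) / 2) = -(W.a₁ * x₀ + W.a₃) := mul_div_cancel₀ _ h2
  set y₀ := -(W.a₁ * x₀ + W.a₃) / 2 with hy0
  have hα : 2 * ((-W.a₁ + s) / 2) = -W.a₁ + s := mul_div_cancel₀ _ h2
  have hβ : 2 * ((-W.a₁ - s) / 2) = -W.a₁ - s := mul_div_cancel₀ _ h2
  refine ⟨y₀, (-W.a₁ + s) / 2, (-W.a₁ - s) / 2, x₀ ^ 3 + W.a₂ * x₀ ^ 2 + W.a₄ * x₀ + W.a₆ -
    (y₀ ^ 2 + W.a₁ * x₀ * y₀ + W.a₃ * y₀), ⟨?_, ?_, ?_, ?_, ?_⟩, rfl⟩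
  · linear_combination hy
  · apply mul_left_cancel₀ h2
    rw [b₂, b₄] at hx
    linear_combination hx - W.a₁ * hy
  · ring
  · apply mul_left_cancel₀ h2
    linear_combination hα + hβ
  · have h4 : (4 : K) ≠ 0 := by
      have : (4 : K) = 2 * 2 := by norm_num
      rw [this]; exact mul_ne_zero h2 h2
    apply mul_left_cancel₀ h4
    rw [b₂] at hs
    linear_combination (-W.a₁ - s) * hα + 2 * ((-W.a₁ + s) / 2) * hβ - hs

/-- integrality of the second coordinate -/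
theorem v_y₀_le (hW : IntegralFor v W) (hc : v W.c₄ = 1) (hM : MAlg W x₀ y₀ α β D)
    (hx : v x₀ ≤ 1) : v y₀ ≤ 1 := by
  rcases lt_or_ge (v (2 : K)) 1 with h2 | h2
  · have hb2 : v W.b₂ = 1 := by
      have h3 : v (24 * W.b₄) < 1 := by
        have : (24 : K) * W.b₄ = 2 * (12 * W.b₄) := by ring
        rw [this]
        refine v_mul_lt_one' v h2 (v_mul_le_one v (v_ofNat_le_one v 12) ?_)
        rw [b₄]
        exact v_add_le_one v (v_mul_le_one v (v_ofNat_le_one v 2) hW.a₄)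
          (v_mul_le_one v hW.a₁ hW.a₃)
      have h4 : v (W.b₂ ^ 2) = 1 := by
        have : W.b₂ ^ 2 = W.c₄ + 24 * W.b₄ := by rw [c₄]; ring
        rw [this, Valuation.map_add_eq_of_lt_left, hc]
        rwa [hc]
      rw [map_pow] at h4
      exact (pow_eq_one_iff.mp h4).resolve_right two_ne_zero
    have ha1 : v W.a₁ = 1 := by
      have h4 : v (W.a₁ ^ 2) = 1 := by
        have : W.a₁ ^ 2 = W.b₂ - 2 * (2 * W.a₂) := by rw [b₂]; ring
        rw [this, Valuation.map_sub_eq_of_lt_left, hb2]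
        rw [hb2]
        exact v_mul_lt_one' v h2 (v_mul_le_one v (v_ofNat_le_one v 2) hW.a₂)
      rw [map_pow] at h4
      exact (pow_eq_one_iff.mp h4).resolve_right two_ne_zero
    have h5 : v (W.a₁ * y₀) ≤ 1 := by
      rw [← hM.crit]
      refine v_add_le_one v (v_add_le_one v ?_ ?_) hW.a₄
      · exact v_mul_le_one v (v_ofNat_le_one v 3) (v_pow_le_one v hx 2)
      · exact v_mul_le_one v (v_mul_le_one v (v_ofNat_le_one v 2) hW.a₂) hx
    rwa [_root_.map_mul, ha1, one_mul] at h5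
  · have h2' : v (2 : K) = 1 := le_antisymm (v_ofNat_le_one v 2) h2
    have h5 : v (2 * y₀) ≤ 1 := by
      have : 2 * y₀ = -(W.a₁ * x₀ + W.a₃) := by linear_combination hM.two
      rw [this, Valuation.map_neg]
      exact v_add_le_one v (v_mul_le_one v hW.a₁ hx) hW.a₃
    rwa [_root_.map_mul, h2', one_mul] at h5

theorem v_D_le (hW : IntegralFor v W) (hM : MAlg W x₀ y₀ α β D)
    (hx : v x₀ ≤ 1) (hy : v y₀ ≤ 1) : v D ≤ 1 := by
  have : D = (x₀ ^ 3 + W.a₂ * x₀ ^ 2 + W.a₄ * x₀ + W.a₆) -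
      (y₀ ^ 2 + W.a₁ * x₀ * y₀ + W.a₃ * y₀) := by linear_combination -hM.eqn
  rw [this]
  refine v_sub_le_one v ?_ ?_
  · refine v_add_le_one v (v_add_le_one v (v_add_le_one v (v_pow_le_one v hx 3) ?_) ?_) hW.a₆
    · exact v_mul_le_one v hW.a₂ (v_pow_le_one v hx 2)
    · exact v_mul_le_one v hW.a₄ hx
  · refine v_add_le_one v (v_add_le_one v (v_pow_le_one v hy 2) ?_) ?_
    · exact v_mul_le_one v (v_mul_le_one v hW.a₁ hx) hy
    · exact v_mul_le_one v hW.a₃ hy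

/-- **Existence of the multiplicative data.** -/
theorem exists_mult [IsAlgClosed K] [CharZero K] (hW : IntegralFor v W) (hΔ : v W.Δ < 1)
    (hΔ0 : W.Δ ≠ 0) (hc : v W.c₄ = 1) : ∃ x₀ y₀ α β D : K, Mult v W x₀ y₀ α β D := by
  obtain ⟨s, hs⟩ := IsAlgClosed.exists_pow_nat_eq W.c₄ (n := 2) two_pos
  have h12 : (12 : K) ≠ 0 := by norm_num
  have vs : v s = 1 := by
    rw [← hs, map_pow] at hc
    exact (pow_eq_one_iff.mp hc).resolve_right two_ne_zero
  have e1 : 12 * ((-W.b₂ + s) / 12) = -W.b₂ + s := mul_div_cancel₀ _ h12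
  have e2 : 12 * ((-W.b₂ - s) / 12) = -W.b₂ - s := mul_div_cancel₀ _ h12
  generalize (-W.b₂ + s) / 12 = x₁ at e1
  generalize (-W.b₂ - s) / 12 = x₂ at e2
  have h24 : (24 : K) ≠ 0 := by norm_num
  have q1 : 6 * x₁ ^ 2 + W.b₂ * x₁ + W.b₄ = 0 := by
    apply mul_left_cancel₀ h24
    rw [c₄] at hs
    linear_combination (12 * x₁ + W.b₂ + s) * e1 + hs
  have q2 : 6 * x₂ ^ 2 + W.b₂ * x₂ + W.b₄ = 0 := by
    apply mul_left_cancel₀ h24
    rw [c₄] at hs
    linear_combination (12 * x₂ + W.b₂ - s) * e2 + hs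
  -- it suffices to find an integral root with small `D`
  have fin : ∀ x₀ y₀ α β D : K, MAlg W x₀ y₀ α β D → v x₀ ≤ 1 → v D < 1 →
      ((α - β) ^ 2 = s ∨ (α - β) ^ 2 = -s) → Mult v W x₀ y₀ α β D := by
    intro x₀ y₀ α β D hM hx hD hδ
    refine ⟨hM, hW, hx, v_y₀_le hW hc hM hx, ?_, hD, ?_⟩
    · have : v ((α - β) ^ 2) = 1 := by
        rcases hδ with h | h
        · rw [h, vs]
        · rw [h, Valuation.map_neg, vs]
      rw [map_pow] at this
      exact (pow_eq_one_iff.mp this).resolve_right two_ne_zero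
    · rintro rfl
      apply hΔ0
      rw [hM.Δ_eq]; ring
  obtain ⟨y₁, α₁, β₁, D₁, hM₁, -⟩ := exists_malg (W := W) two_ne_zero q1
  obtain ⟨y₂, α₂, β₂, D₂, hM₂, -⟩ := exists_malg (W := W) two_ne_zero q2
  have d1 : (α₁ - β₁) ^ 2 = s := by rw [hM₁.disc]; linear_combination e1
  have d2 : (α₂ - β₂) ^ 2 = -s := by rw [hM₂.disc]; linear_combination e2
  rcases lt_or_ge (v (6 : K)) 1 with h6 | h6
  · -- residue characteristic two or three
    have small : ∀ x₀ y₀ α β D : K, MAlg W x₀ y₀ α β D → v x₀ ≤ 1 →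
        ((α - β) ^ 2 = s ∨ (α - β) ^ 2 = -s) → v D < 1 := by
      intro x₀ y₀ α β D hM hx hδ
      have hD := v_D_le hW hM hx (v_y₀_le hW hc hM hx)
      have hv6 : v ((α - β) ^ 6) = 1 := by
        have : (α - β) ^ 6 = ((α - β) ^ 2) ^ 3 := by ring
        rw [this, map_pow]
        rcases hδ with h | h
        · rw [h, vs, one_pow]
        · rw [h, Valuation.map_neg, vs, one_pow]
      have h7 : v ((α - β) ^ 6 + 432 * D) = 1 := by
        rw [Valuation.map_add_eq_of_lt_left, hv6]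
        rw [hv6]
        have : (432 : K) * D = 6 * (72 * D) := by ring
        rw [this]
        exact v_mul_lt_one' v h6 (v_mul_le_one v (v_ofNat_le_one v 72) hD)
      rw [hM.Δ_eq, Valuation.map_neg, _root_.map_mul, h7, mul_one] at hΔ
      exact hΔ
    have hb4 : v W.b₄ ≤ 1 := by
      rw [b₄]
      exact v_add_le_one v (v_mul_le_one v (v_ofNat_le_one v 2) hW.a₄)
        (v_mul_le_one v hW.a₁ hW.a₃)
    have hb2 : v W.b₂ = 1 := by
      have h3 : v (24 * W.b₄) < 1 := by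
        have : (24 : K) * W.b₄ = 6 * (4 * W.b₄) := by ring
        rw [this]
        exact v_mul_lt_one' v h6 (v_mul_le_one v (v_ofNat_le_one v 4) hb4)
      have h4 : v (W.b₂ ^ 2) = 1 := by
        have : W.b₂ ^ 2 = W.c₄ + 24 * W.b₄ := by rw [c₄]; ring
        rw [this, Valuation.map_add_eq_of_lt_left, hc]
        rwa [hc]
      rw [map_pow] at h4
      exact (pow_eq_one_iff.mp h4).resolve_right two_ne_zero
    by_cases hx1 : v x₁ ≤ 1
    · exact ⟨x₁, y₁, α₁, β₁, D₁, fin _ _ _ _ _ hM₁ hx1 (small _ _ _ _ _ hM₁ hx1 (Or.inl d1))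
        (Or.inl d1)⟩
    by_cases hx2 : v x₂ ≤ 1
    · exact ⟨x₂, y₂, α₂, β₂, D₂, fin _ _ _ _ _ hM₂ hx2 (small _ _ _ _ _ hM₂ hx2 (Or.inr d2))
        (Or.inr d2)⟩
    exfalso
    rw [not_le] at hx1 hx2
    have hsum : 6 * (x₁ + x₂) = -W.b₂ := by
      apply mul_left_cancel₀ (two_ne_zero : (2 : K) ≠ 0)
      linear_combination e1 + e2
    have hprod : 6 * (x₁ * x₂) = W.b₄ := by
      linear_combination x₁ * hsum - q1
    have h7 : v (6 : K) * v (x₁ + x₂) = 1 := by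
      rw [← _root_.map_mul, hsum, Valuation.map_neg, hb2]
    have h8 : v (6 : K) * (v x₁ * v x₂) ≤ 1 := by
      rw [← _root_.map_mul, ← _root_.map_mul, hprod]; exact hb4
    have h6pos : 0 < v (6 : K) := by
      rw [zero_lt_iff]
      intro h0
      rw [h0, zero_mul] at h7
      exact zero_ne_one h7
    have h9 : v (x₁ + x₂) < v x₁ * v x₂ := by
      refine v.map_add_lt ?_ ?_
      · calc v x₁ = v x₁ * 1 := by rw [mul_one]
          _ < v x₁ * v x₂ := by gcongr; exact zero_lt_one.trans hx1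
      · calc v x₂ = 1 * v x₂ := by rw [one_mul]
          _ < v x₁ * v x₂ := by gcongr; exact zero_lt_one.trans hx2
    have h10 : v (6 : K) * v (x₁ + x₂) < v (6 : K) * (v x₁ * v x₂) := by gcongr
    rw [h7] at h10
    exact absurd h8 (not_le.mpr h10)
  · have h6' : v (6 : K) = 1 := le_antisymm (v_ofNat_le_one v 6) h6
    have h2' : v (2 : K) = 1 := by
      have h : v ((2 : K) * 3) = 1 := by
        have : (2 : K) * 3 = 6 := by norm_num
        rw [this, h6']
      rw [_root_.map_mul] at h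
      refine le_antisymm (v_ofNat_le_one v 2) ?_
      by_contra hcon
      rw [not_le] at hcon
      have : v (2 : K) * v 3 < 1 := by
        calc v (2 : K) * v 3 ≤ v 2 * 1 := by gcongr; exact v_ofNat_le_one v 3
          _ < 1 := by rwa [mul_one]
      exact this.ne h
    have h12v : v (12 : K) = 1 := by
      have : (12 : K) = 2 * 6 := by norm_num
      rw [this, _root_.map_mul, h2', h6', one_mul]
    have h432 : v (432 : K) = 1 := by
      have : (432 : K) = 2 * 6 ^ 3 := by norm_num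
      rw [this, _root_.map_mul, map_pow, h2', h6', one_pow, one_mul]
    have hb2 : v W.b₂ ≤ 1 := by
      rw [b₂]
      exact v_add_le_one v (v_pow_le_one v hW.a₁ 2)
        (v_mul_le_one v (v_ofNat_le_one v 4) hW.a₂)
    have hx1 : v x₁ ≤ 1 := by
      have : v (12 * x₁) ≤ 1 := by
        rw [e1]
        exact v_add_le_one v (by rwa [Valuation.map_neg]) vs.le
      rwa [_root_.map_mul, h12v, one_mul] at this
    have hx2 : v x₂ ≤ 1 := by
      have : v (12 * x₂) ≤ 1 := by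
        rw [e2]
        exact v_sub_le_one v (by rwa [Valuation.map_neg]) vs.le
      rwa [_root_.map_mul, h12v, one_mul] at this
    rcases lt_or_ge (v D₁) 1 with hD | hD
    · exact ⟨x₁, y₁, α₁, β₁, D₁, fin _ _ _ _ _ hM₁ hx1 hD (Or.inl d1)⟩
    · refine ⟨x₂, y₂, α₂, β₂, D₂, fin _ _ _ _ _ hM₂ hx2 ?_ (Or.inr d2)⟩
      have hoth := hM₁.other hM₂ (by
        apply mul_left_cancel₀ (two_ne_zero : (2 : K) ≠ 0)
        linear_combination e1 + e2)
      have h7 := hM₁.Δ_eq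
      rw [← hoth] at h7
      rw [h7, Valuation.map_neg, _root_.map_mul, _root_.map_mul, h432, one_mul] at hΔ
      by_contra hcon
      rw [not_lt] at hcon
      exact absurd hΔ (not_lt.mpr (one_le_mul hD hcon))

end exist

end Fermat.Agent.ECRep
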