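import Fermat.Agent.ECRep.MultPt
import Fermat.Agent.ECRep.Char2

set_option autoImplicit false
set_option linter.unusedSectionVars false

/-!
# The group of nonsingular points of a nodal cubic is a subgroup of the multiplicative group
-/

namespace Fermat.Agent.ECRep

open WeierstrassCurve WeierstrassCurve.Affine WeierstrassCurve.Affine.Point
open Fermat.Agent.EC Fermat.Agent.DivPoly

section

variable {k : Type*} [Field k] {W : WeierstrassCurve.Affine k} {x₀ y₀ α β : k}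

/-- the nonsingular points are not above the node -/
theorem node_xc_ne (hN : MAlg W x₀ y₀ α β 0) {P : W.Point} (hP : P ≠ 0) : xc P - x₀ ≠ 0 := by
  intro hx
  have h1 := uc_sub (x₀ := x₀) (y₀ := y₀) (α := α) (β := β) P
  rw [hx, mul_zero] at h1
  have h2 := hN.uc_mul hP
  rw [hx, add_zero, sub_eq_zero.mp h1] at h2
  have h3 : uc x₀ y₀ α P = 0 := by
    have : uc x₀ y₀ α P ^ 2 = 0 := by linear_combination h2
    exact pow_eq_zero_iff two_ne_zero |>.mp this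
  have hx' : xc P = x₀ := sub_eq_zero.mp hx
  have hy' : yc P = y₀ := by
    rw [uc, hx, mul_zero, sub_zero] at h3
    exact sub_eq_zero.mp h3
  obtain ⟨h, -⟩ := exists_some hP
  rw [nonsingular_iff, hx', hy'] at h
  rcases h.2 with h4 | h4
  · exact h4 hN.crit.symm
  · apply h4; linear_combination hN.two

theorem node_uc_ne (hN : MAlg W x₀ y₀ α β 0) {P : W.Point} (hP : P ≠ 0) :
    uc x₀ y₀ α P ≠ 0 ∧ uc x₀ y₀ β P ≠ 0 := by
  have h := hN.uc_mul hP
  rw [add_zero] at h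
  have h1 : uc x₀ y₀ α P * uc x₀ y₀ β P ≠ 0 := by
    rw [h]; exact pow_ne_zero 3 (node_xc_ne hN hP)
  exact ⟨left_ne_zero_of_mul h1, right_ne_zero_of_mul h1⟩

/-- the parameter of a point -/
noncomputable def nodeT (x₀ y₀ α β : k) (P : W.Point) : k :=
  open scoped Classical in if P = 0 then 1 else uc x₀ y₀ α P / uc x₀ y₀ β P

@[simp] lemma nodeT_zero : nodeT x₀ y₀ α β (0 : W.Point) = 1 := if_pos rfl

lemma nodeT_of_ne {P : W.Point} (hP : P ≠ 0) :
    nodeT x₀ y₀ α β P = uc x₀ y₀ α P / uc x₀ y₀ β P := if_neg hP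

theorem nodeT_ne_zero (hN : MAlg W x₀ y₀ α β 0) (P : W.Point) : nodeT x₀ y₀ α β P ≠ 0 := by
  rcases eq_or_ne P 0 with rfl | hP
  · rw [nodeT_zero]; exact one_ne_zero
  · rw [nodeT_of_ne hP]
    exact div_ne_zero (node_uc_ne hN hP).1 (node_uc_ne hN hP).2

theorem nodeT_ne_one (hN : MAlg W x₀ y₀ α β 0) (hαβ : α ≠ β) {P : W.Point} (hP : P ≠ 0) :
    nodeT x₀ y₀ α β P ≠ 1 := by
  rw [nodeT_of_ne hP]
  intro h
  rw [div_eq_one_iff_eq (node_uc_ne hN hP).2] at h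
  have h1 := uc_sub (x₀ := x₀) (y₀ := y₀) (α := α) (β := β) P
  rw [h, sub_self] at h1
  rcases mul_eq_zero.mp h1.symm with h2 | h2
  · exact hαβ (sub_eq_zero.mp h2)
  · exact node_xc_ne hN hP h2

theorem nodeT_inj (hN : MAlg W x₀ y₀ α β 0) (hαβ : α ≠ β) {P Q : W.Point}
    (h : nodeT x₀ y₀ α β P = nodeT x₀ y₀ α β Q) : P = Q := by
  rcases eq_or_ne P 0 with rfl | hP
  · by_contra hQ
    rw [nodeT_zero] at h
    exact nodeT_ne_one hN hαβ (Ne.symm hQ) h.symm
  rcases eq_or_ne Q 0 with rfl | hQ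
  · rw [nodeT_zero] at h
    exact absurd h (nodeT_ne_one hN hαβ hP)
  have hδ := sub_ne_zero.mpr hαβ
  have gen : ∀ P : W.Point, P ≠ 0 →
      uc x₀ y₀ β P = (α - β) ^ 3 * nodeT x₀ y₀ α β P / (1 - nodeT x₀ y₀ α β P) ^ 3 := by
    intro P hP
    have h1 := nodeT_ne_one hN hαβ hP
    have h0 := (node_uc_ne hN hP).2
    have h2 : uc x₀ y₀ α P = nodeT x₀ y₀ α β P * uc x₀ y₀ β P := by
      rw [nodeT_of_ne hP, div_mul_cancel₀ _ h0]
    have h3 := hN.uc_mul hP
    have h4 := uc_sub (x₀ := x₀) (y₀ := y₀) (α := α) (β := β) P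
    rw [h2] at h3 h4
    generalize nodeT x₀ y₀ α β P = t at *
    generalize uc x₀ y₀ β P = w at *
    have h5 : (1 - t) ^ 3 ≠ 0 := pow_ne_zero 3 (sub_ne_zero.mpr h1.symm)
    rw [eq_div_iff h5]
    apply mul_left_cancel₀ (pow_ne_zero 2 h0)
    have h6 : (α - β) ^ 3 * (xc P - x₀) ^ 3 = w ^ 3 * (1 - t) ^ 3 := by
      rw [← mul_pow, ← h4]; ring
    linear_combination -h6 - (α - β) ^ 3 * h3
  have hw : uc x₀ y₀ β P = uc x₀ y₀ β Q := by rw [gen P hP, gen Q hQ, h]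
  have hu : uc x₀ y₀ α P = uc x₀ y₀ α Q := by
    rw [nodeT_of_ne hP, nodeT_of_ne hQ, hw] at h
    exact (div_left_inj' (node_uc_ne hN hQ).2).mp h
  have h1 := uc_sub (x₀ := x₀) (y₀ := y₀) (α := α) (β := β) P
  have h2 := uc_sub (x₀ := x₀) (y₀ := y₀) (α := α) (β := β) Q
  rw [hw, hu, h2] at h1
  have hx : xc Q = xc P := by
    have := mul_left_cancel₀ hδ h1
    linear_combination this
  refine ext_of_coords hP hQ hx.symm ?_
  simp only [uc] at hu
  rw [hx] at hu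
  linear_combination hu

variable [DecidableEq k]

theorem nodeT_neg (hN : MAlg W x₀ y₀ α β 0) (P : W.Point) :
    nodeT x₀ y₀ α β (-P) * nodeT x₀ y₀ α β P = 1 := by
  rcases eq_or_ne P 0 with rfl | hP
  · rw [_root_.neg_zero, nodeT_zero, one_mul]
  · rw [nodeT_of_ne hP, nodeT_of_ne (neg_ne_zero.mpr hP), hN.uc_neg hP, hN.symm.uc_neg hP,
      neg_div_neg_eq]
    obtain ⟨h1, h2⟩ := node_uc_ne hN hP
    field_simp

theorem nodeT_add (hN : MAlg W x₀ y₀ α β 0) (P Q : W.Point) :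
    nodeT x₀ y₀ α β (P + Q) = nodeT x₀ y₀ α β P * nodeT x₀ y₀ α β Q := by
  rcases eq_or_ne P 0 with rfl | hP
  · rw [zero_add, nodeT_zero, one_mul]
  rcases eq_or_ne Q 0 with rfl | hQ
  · rw [add_zero, nodeT_zero, mul_one]
  rcases eq_or_ne (P + Q) 0 with h0 | h0
  · rw [h0, nodeT_zero, eq_neg_of_add_eq_zero_left h0, nodeT_neg hN]
  have hR : -(P + Q) ≠ 0 := neg_ne_zero.mpr h0
  obtain ⟨a, b, μ, hab, ⟨l1, l1'⟩, ⟨l2, l2'⟩, ⟨l3, l3'⟩, e1, e2, e3, -, -⟩ := hN.line hP hQ h0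
  have hu : (a * (xc P - x₀) + μ) * (a * (xc Q - x₀) + μ) * (a * (xc (P + Q) - x₀) + μ) =
      μ ^ 3 := by
    linear_combination a ^ 3 * e3 + a ^ 2 * μ * e2 - a * μ ^ 2 * e1
  have hw : (b * (xc P - x₀) + μ) * (b * (xc Q - x₀) + μ) * (b * (xc (P + Q) - x₀) + μ) =
      μ ^ 3 := by
    linear_combination b ^ 3 * e3 + b ^ 2 * μ * e2 - b * μ ^ 2 * e1
  rw [← l1, ← l2, ← l3] at hu
  rw [← l1', ← l2', ← l3'] at hw
  have key : nodeT x₀ y₀ α β P * nodeT x₀ y₀ α β Q * nodeT x₀ y₀ α β (-(P + Q)) = 1 := by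
    obtain ⟨p1, p2⟩ := node_uc_ne hN hP
    obtain ⟨q1, q2⟩ := node_uc_ne hN hQ
    obtain ⟨r1, r2⟩ := node_uc_ne hN hR
    rw [nodeT_of_ne hP, nodeT_of_ne hQ, nodeT_of_ne hR, div_mul_div_comm, div_mul_div_comm,
      hu, hw, div_self]
    rw [← hw]
    exact mul_ne_zero (mul_ne_zero p2 q2) r2
  have h2 := nodeT_neg hN (P + Q)
  have h3 := nodeT_ne_zero hN (-(P + Q))
  apply mul_right_cancel₀ h3
  rw [key, mul_comm, h2]

/-- **The character of a nodal cubic.** -/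
noncomputable def nodeHom (hN : MAlg W x₀ y₀ α β 0) : W.Point →+ Additive kˣ where
  toFun P := Additive.ofMul (Units.mk0 (nodeT x₀ y₀ α β P) (nodeT_ne_zero hN P))
  map_zero' := by
    apply Additive.toMul.injective
    ext
    simp
  map_add' P Q := by
    apply Additive.toMul.injective
    ext
    simp [nodeT_add hN]

lemma nodeHom_apply (hN : MAlg W x₀ y₀ α β 0) (P : W.Point) :
    ((nodeHom hN P).toMul : k) = nodeT x₀ y₀ α β P := rfl

lemma nodeHom_injective (hN : MAlg W x₀ y₀ α β 0) (hαβ : α ≠ β) :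
    Function.Injective (nodeHom hN) := fun P Q h => by
  apply nodeT_inj hN hαβ
  have := congrArg (fun z => ((Additive.toMul z : kˣ) : k)) h
  exact this

lemma nodeT_nsmul (hN : MAlg W x₀ y₀ α β 0) (n : ℕ) (P : W.Point) :
    nodeT x₀ y₀ α β (n • P) = nodeT x₀ y₀ α β P ^ n := by
  induction n with
  | zero => rw [zero_smul, nodeT_zero, pow_zero]
  | succ n ih => rw [succ_nsmul, nodeT_add hN, ih, pow_succ]

end

section map

variable {F k : Type*} [CommRing F] [Field k] [Algebra F k] [DecidableEq k]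
  {W : WeierstrassCurve F} {x₀ y₀ α β : k}

lemma xc_map (θ : k →ₐ[F] k) (P : (W⁄k).Point) : xc (Point.map θ P) = θ (xc P) := by
  match P with
  | 0 =>
    rw [_root_.map_zero]
    change (0 : k) = θ 0
    rw [_root_.map_zero]
  | .some x y h => rfl

lemma yc_map (θ : k →ₐ[F] k) (P : (W⁄k).Point) : yc (Point.map θ P) = θ (yc P) := by
  match P with
  | 0 =>
    rw [_root_.map_zero]
    change (0 : k) = θ 0
    rw [_root_.map_zero]
  | .some x y h => rfl

lemma map_ne_zero' (θ : k →ₐ[F] k) {P : (W⁄k).Point} (hP : P ≠ 0) : Point.map θ P ≠ 0 :=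
  fun h => hP (Point.map_injective _ (h.trans (_root_.map_zero _).symm))

/-- split case -/
theorem nodeT_map (θ : k →ₐ[F] k) (hx : θ x₀ = x₀) (hy : θ y₀ = y₀) (hα : θ α = α)
    (hβ : θ β = β) (P : (W⁄k).Point) :
    nodeT x₀ y₀ α β (Point.map θ P) = θ (nodeT x₀ y₀ α β P) := by
  rcases eq_or_ne P 0 with rfl | hP
  · rw [_root_.map_zero, nodeT_zero, map_one]
  · rw [nodeT_of_ne hP, nodeT_of_ne (map_ne_zero' θ hP), uc, uc, uc, uc, xc_map, yc_map, map_div₀,
      map_sub, map_sub, map_sub, _root_.map_mul, _root_.map_mul, map_sub, map_sub, hx, hy, hα, hβ]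

/-- non-split case -/
theorem nodeT_map_swap (θ : k →ₐ[F] k) (hx : θ x₀ = x₀) (hy : θ y₀ = y₀) (hα : θ α = β)
    (hβ : θ β = α) (P : (W⁄k).Point) :
    nodeT x₀ y₀ α β (Point.map θ P) = (θ (nodeT x₀ y₀ α β P))⁻¹ := by
  rcases eq_or_ne P 0 with rfl | hP
  · rw [_root_.map_zero, nodeT_zero, map_one, inv_one]
  · rw [nodeT_of_ne hP, nodeT_of_ne (map_ne_zero' θ hP), uc, uc, uc, uc, xc_map, yc_map, map_div₀,
      map_sub, map_sub, map_sub, _root_.map_mul, _root_.map_mul, map_sub, map_sub, hx, hy, hα, hβ,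
      inv_div]

end map

end Fermat.Agent.ECRep
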