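import Fermat.Agent.ECRep.MultExists
import Fermat.Agent.ECRep.NodeChar

set_option autoImplicit false
set_option linter.unusedSectionVars false

/-!
# Galois action at a place of multiplicative reduction
-/

namespace Fermat.Agent.ECRep

open WeierstrassCurve WeierstrassCurve.Affine WeierstrassCurve.Affine.Point
open Fermat.Agent.EC Fermat.Agent.DivPoly Fermat.Agent.S13lib

section gal

variable {k L : Type*} [Field k] [Field L] [CharZero L] [Algebra k L] [Algebra.IsAlgebraic k L]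
  [DecidableEq L] {A : ValuationSubring L} {W : WeierstrassCurve k} {x₀ y₀ α β D : L}

lemma v_smul {σ : L ≃ₐ[k] L} (hσ : σ ∈ A.decompositionSubgroup k) (x : L) :
    A.valuation (σ x) = A.valuation x :=
  decomp_valuation hσ (Algebra.IsAlgebraic.isAlgebraic x)

theorem Mult.map_gal (hM : Mult A.valuation (W⁄L) x₀ y₀ α β D) {σ : L ≃ₐ[k] L}
    (hσ : σ ∈ A.decompositionSubgroup k) :
    Mult A.valuation (W⁄L) (σ x₀) (σ y₀) (σ α) (σ β) (σ D) := by
  have h1 : σ (W⁄L).a₁ = (W⁄L).a₁ := σ.commutes _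
  have h2 : σ (W⁄L).a₂ = (W⁄L).a₂ := σ.commutes _
  have h3 : σ (W⁄L).a₃ = (W⁄L).a₃ := σ.commutes _
  have h4 : σ (W⁄L).a₄ = (W⁄L).a₄ := σ.commutes _
  have h6 : σ (W⁄L).a₆ = (W⁄L).a₆ := σ.commutes _
  refine ⟨⟨?_, ?_, ?_, ?_, ?_⟩, hM.int, ?_, ?_, ?_, ?_, ?_⟩
  · have := congrArg σ hM.two
    simpa only [_root_.map_add, _root_.map_mul, map_ofNat, h1, h3, _root_.map_zero] using this
  · have := congrArg σ hM.crit
    simpa only [_root_.map_add, _root_.map_mul, map_ofNat, h1, h2, h4, map_pow] using this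
  · have := congrArg σ hM.eqn
    simpa only [_root_.map_add, _root_.map_mul, h1, h2, h3, h4, h6, map_pow] using this
  · have := congrArg σ hM.add
    simpa only [_root_.map_add, map_neg, h1] using this
  · have := congrArg σ hM.mul
    simpa only [_root_.map_add, _root_.map_mul, map_neg, map_ofNat, h2] using this
  · rw [v_smul hσ]; exact hM.vx
  · rw [v_smul hσ]; exact hM.vy
  · rw [← map_sub, v_smul hσ]; exact hM.vδ
  · rw [v_smul hσ]; exact hM.vD
  · exact (map_ne_zero σ).mpr hM.D0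

/-- the data are rational up to exchanging the branches -/
theorem Mult.gal (hM : Mult A.valuation (W⁄L) x₀ y₀ α β D) {σ : L ≃ₐ[k] L}
    (hσ : σ ∈ A.decompositionSubgroup k) :
    σ x₀ = x₀ ∧ σ y₀ = y₀ ∧ σ D = D ∧ ((σ α = α ∧ σ β = β) ∨ (σ α = β ∧ σ β = α)) := by
  have hM' := hM.map_gal hσ
  have hx : σ x₀ = x₀ := hM.unique hM'
  have hy : σ y₀ = y₀ := by
    have h1 := hM.two
    have h2 := hM'.two
    rw [hx] at h2
    apply mul_left_cancel₀ (two_ne_zero : (2 : L) ≠ 0)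
    linear_combination h2 - h1
  have hD : σ D = D := by
    have h1 := hM.eqn
    have h2 := hM'.eqn
    rw [hx, hy] at h2
    linear_combination h1 - h2
  refine ⟨hx, hy, hD, ?_⟩
  have h1 := hM.add
  have h2 := hM'.add
  have h3 := hM.mul
  have h4 := hM'.mul
  rw [hx] at h4
  have h5 : (σ α - α) * (σ α - β) = 0 := by
    linear_combination σ α * h2 - σ α * h1 - h4 + h3
  rcases mul_eq_zero.mp h5 with h | h
  · left
    have h6 := sub_eq_zero.mp h
    exact ⟨h6, by linear_combination h2 - h1 - h6⟩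
  · right
    have h6 := sub_eq_zero.mp h
    exact ⟨h6, by linear_combination h2 - h1 - h6⟩

theorem Mult.gal_inertia (hM : Mult A.valuation (W⁄L) x₀ y₀ α β D) {σ : L ≃ₐ[k] L}
    (hσ : σ ∈ A.inertiaSubgroupIn k) : σ α = α ∧ σ β = β := by
  rcases (hM.gal (decomp_of_inertia hσ)).2.2.2 with h | h
  · exact h
  · exfalso
    have h1 := inertia_sub_lt_one hσ ((A.valuation_le_one_iff _).mp hM.vα)
    rw [h.1, Valuation.map_sub_swap, hM.vδ] at h1
    exact lt_irrefl _ h1

theorem uc_smul {σ : L ≃ₐ[k] L} (hx : σ x₀ = x₀) (hy : σ y₀ = y₀) (hα : σ β = α)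
    (P : (W⁄L).Point) : uc x₀ y₀ α (σ • P) = σ (uc x₀ y₀ β P) := by
  rw [uc, uc, xc_smul, yc_smul, map_sub, map_sub, _root_.map_mul, map_sub, hx, hy, hα]

theorem Mult.ns_smul_iff (hM : Mult A.valuation (W⁄L) x₀ y₀ α β D) {σ : L ≃ₐ[k] L}
    (hσ : σ ∈ A.decompositionSubgroup k) (P : (W⁄L).Point) :
    NS A.valuation (σ • P) ↔ NS A.valuation P := by
  rcases eq_or_ne P 0 with rfl | hP
  · rw [smul_zero]
  · have hx := (hM.gal hσ).1
    rw [hM.ns_iff hP, hM.ns_iff (smul_ne_zero' hP), xc_smul]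
    nth_rw 1 [← hx]
    rw [← map_sub, v_smul hσ]

/-- elements of the decomposition group fixing the branches preserve the component -/
theorem Mult.kap_smul (hM : Mult A.valuation (W⁄L) x₀ y₀ α β D) {σ : L ≃ₐ[k] L}
    (hσ : σ ∈ A.decompositionSubgroup k) (hα : σ α = α) (hβ : σ β = β) (P : (W⁄L).Point) :
    kap A.valuation x₀ y₀ α β D (σ • P) = kap A.valuation x₀ y₀ α β D P := by
  obtain ⟨hx, hy, -, -⟩ := hM.gal hσ
  by_cases h : NS A.valuation P
  · rw [kap_of_ns h, kap_of_ns ((hM.ns_smul_iff hσ P).mpr h)]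
  · rw [kap_of_not_ns h, kap_of_not_ns fun h' => h ((hM.ns_smul_iff hσ P).mp h'),
      uc_smul hx hy hα, uc_smul hx hy hβ, kap0, kap0, v_smul hσ, v_smul hσ]

/-- elements of the decomposition group exchanging the branches invert the component -/
theorem Mult.kap_smul_swap (hM : Mult A.valuation (W⁄L) x₀ y₀ α β D) {σ : L ≃ₐ[k] L}
    (hσ : σ ∈ A.decompositionSubgroup k) (hα : σ α = β) (hβ : σ β = α) (P : (W⁄L).Point) :
    kap A.valuation x₀ y₀ α β D (σ • P) = kap A.valuation x₀ y₀ β α D P := by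
  obtain ⟨hx, hy, -, -⟩ := hM.gal hσ
  by_cases h : NS A.valuation P
  · rw [kap_of_ns h, kap_of_ns ((hM.ns_smul_iff hσ P).mpr h)]
  · rw [kap_of_not_ns h, kap_of_not_ns fun h' => h ((hM.ns_smul_iff hσ P).mp h'),
      uc_smul hx hy hβ, uc_smul hx hy hα, kap0, kap0, v_smul hσ, v_smul hσ]

/-- **Inertia acts trivially on the component group.** -/
theorem Mult.inertia_ns (hM : Mult A.valuation (W⁄L) x₀ y₀ α β D) {σ : L ≃ₐ[k] L}
    (hσ : σ ∈ A.inertiaSubgroupIn k) (P : (W⁄L).Point) : NS A.valuation (σ • P - P) := by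
  obtain ⟨hα, hβ⟩ := hM.gal_inertia hσ
  exact hM.ns_sub_of_kap_eq (hM.kap_smul (decomp_of_inertia hσ) hα hβ P)

end gal

end Fermat.Agent.ECRep
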