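import Fermat.Agent.ECRep.MultGal
import Fermat.Agent.ECRep.FrobAll

set_option autoImplicit false
set_option linter.unusedSectionVars false

/-!
# Components of torsion points
-/

namespace Fermat.Agent.ECRep

open WeierstrassCurve WeierstrassCurve.Affine WeierstrassCurve.Affine.Point
open Fermat.Agent.EC Fermat.Agent.DivPoly Fermat.Agent.S13lib

section idx

variable {K : Type*} [Field K] [DecidableEq K] {A : ValuationSubring K}
  {W : WeierstrassCurve.Affine K} {x₀ y₀ α β D : K}

/-- the subgroup of `N`-torsion points -/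
abbrev tN (W : WeierstrassCurve.Affine K) (N : ℕ) : AddSubgroup W.Point :=
  (nsmulAddMonoidHom N : W.Point →+ W.Point).ker

lemma mem_tN {N : ℕ} {P : W.Point} : P ∈ tN W N ↔ N • P = 0 := Iff.rfl

theorem Mult.zpow_inj (hM : Mult A.valuation W x₀ y₀ α β D) {i j : ℤ}
    (h : A.valuation D ^ i = A.valuation D ^ j) : i = j :=
  (zpow_right_strictAnti₀ hM.vD_pos hM.vD).injective h

/-- the exponent of the component of a torsion point -/
noncomputable def Mult.ex (hM : Mult A.valuation W x₀ y₀ α β D) (N : ℕ) (P : tN W N) : ℤ :=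
  (hM.exists_idx P.2).choose

theorem Mult.ex_spec (hM : Mult A.valuation W x₀ y₀ α β D) (N : ℕ) (P : tN W N) :
    kap A.valuation x₀ y₀ α β D (P : W.Point) ^ N = A.valuation D ^ hM.ex N P :=
  (hM.exists_idx P.2).choose_spec

theorem Mult.ex_eq (hM : Mult A.valuation W x₀ y₀ α β D) {N : ℕ} (P : tN W N) {j : ℤ}
    (h : kap A.valuation x₀ y₀ α β D (P : W.Point) ^ N = A.valuation D ^ j) :
    hM.ex N P = j :=
  hM.zpow_inj (by rw [← hM.ex_spec, h])

/-- the index of the component of a torsion point -/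
noncomputable def Mult.idx (hM : Mult A.valuation W x₀ y₀ α β D) (N : ℕ) :
    tN W N →+ ZMod N where
  toFun P := (hM.ex N P : ZMod N)
  map_zero' := by
    rw [hM.ex_eq (j := 0), Int.cast_zero]
    rw [AddSubgroup.coe_zero, kap_of_ns (Or.inl rfl), one_pow, zpow_zero]
  map_add' P Q := by
    obtain ⟨k, hk⟩ := hM.kap_add P.1 Q.1
    have h : hM.ex N (P + Q) = hM.ex N P + hM.ex N Q + k * N := by
      apply hM.ex_eq
      rw [AddSubgroup.coe_add, hk, mul_pow, mul_pow, hM.ex_spec, hM.ex_spec, ← zpow_natCast,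
        ← zpow_mul, ← zpow_add₀ hM.vD_pos.ne', ← zpow_add₀ hM.vD_pos.ne']
    rw [h]
    push_cast
    rw [ZMod.natCast_self, mul_zero, add_zero]

theorem Mult.idx_eq (hM : Mult A.valuation W x₀ y₀ α β D) {N : ℕ} (P : tN W N) {j : ℤ}
    (h : kap A.valuation x₀ y₀ α β D (P : W.Point) ^ N = A.valuation D ^ j) :
    hM.idx N P = (j : ZMod N) := by
  rw [← hM.ex_eq P h]; rfl

theorem Mult.idx_eq_zero_iff (hM : Mult A.valuation W x₀ y₀ α β D) {N : ℕ} (hN : N ≠ 0)
    (P : tN W N) : hM.idx N P = 0 ↔ NS A.valuation (P : W.Point) := by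
  obtain ⟨j, hj⟩ := hM.exists_idx P.2
  rw [hM.idx_eq P hj, ZMod.intCast_zmod_eq_zero_iff_dvd]
  constructor
  · rintro ⟨m, rfl⟩
    apply hM.ns_of_kap_eq_zpow (j := m)
    rw [mul_comm, zpow_mul, zpow_natCast] at hj
    exact (pow_left_inj₀ zero_le zero_le hN).mp hj
  · intro h
    rw [kap_of_ns h, one_pow, ← zpow_zero (A.valuation D)] at hj
    rw [← hM.zpow_inj hj]
    exact dvd_zero _

/-- inertia-like elements: same index -/
theorem Mult.card_idx (hM : Mult A.valuation W x₀ y₀ α β D) {N : ℕ} (hN : N ≠ 0)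
    (hcard : Nat.card (tN W N) = N ^ 2)
    (hle : Nat.card {P : tN W N // NS A.valuation (P : W.Point)} ≤ N) :
    Nat.card {P : tN W N // NS A.valuation (P : W.Point)} = N ∧
      Function.Surjective (hM.idx N) := by
  have : NeZero N := ⟨hN⟩
  have hker : Nat.card (hM.idx N).ker = Nat.card {P : tN W N // NS A.valuation (P : W.Point)} :=
    Nat.card_congr (Equiv.subtypeEquivRight fun P => by
      rw [AddMonoidHom.mem_ker, hM.idx_eq_zero_iff hN])
  have hmul : Nat.card (hM.idx N).ker * Nat.card (hM.idx N).range = N ^ 2 := by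
    rw [← hcard, ← AddSubgroup.card_mul_index (hM.idx N).ker, AddSubgroup.index_ker]
  have hrange : Nat.card (hM.idx N).range ≤ N := by
    calc Nat.card (hM.idx N).range ≤ Nat.card (ZMod N) :=
          Nat.card_le_card_of_injective _ Subtype.coe_injective
      _ = N := Nat.card_zmod N
  rw [hker] at hmul
  have h1 : Nat.card {P : tN W N // NS A.valuation (P : W.Point)} = N := by
    have hpos : 0 < N := Nat.pos_of_ne_zero hN
    by_contra hne
    have hlt : Nat.card {P : tN W N // NS A.valuation (P : W.Point)} < N :=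
      lt_of_le_of_ne hle hne
    have : Nat.card {P : tN W N // NS A.valuation (P : W.Point)} *
        Nat.card (hM.idx N).range < N * N := by
      calc _ ≤ Nat.card {P : tN W N // NS A.valuation (P : W.Point)} * N := by gcongr
        _ < N * N := by gcongr
    rw [hmul, sq] at this
    exact lt_irrefl _ this
  refine ⟨h1, ?_⟩
  rw [h1, sq] at hmul
  have h2 : Nat.card (hM.idx N).range = N := Nat.eq_of_mul_eq_mul_left
    (Nat.pos_of_ne_zero hN) hmul
  rw [← AddMonoidHom.range_eq_top]
  exact AddSubgroup.eq_top_of_card_eq _ (by rw [h2, Nat.card_zmod])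

end idx

end Fermat.Agent.ECRep
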