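import Mathlib

set_option autoImplicit false
set_option linter.unusedSectionVars false

/-!
# Multiplicative reduction: estimates
-/

namespace Fermat.Agent.ECRep

section numbers

variable {F : Type*} [Field F] {Γ₀ : Type*} [LinearOrderedCommGroupWithZero Γ₀]
  {v : Valuation F Γ₀}

lemma pow_two_lt_self {a : Γ₀} (h0 : 0 < a) (h1 : a < 1) : a ^ 2 < a := by
  rw [sq]
  calc a * a < 1 * a := by gcongr
    _ = a := by rw [one_mul]

lemma pow_three_lt_sq {a : Γ₀} (h0 : 0 < a) (h1 : a < 1) : a ^ 3 < a ^ 2 := by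
  have : a ^ 3 = a ^ 2 * a := by rw [pow_succ]
  rw [this]
  have h2 : 0 < a ^ 2 := pow_pos h0 2
  calc a ^ 2 * a < a ^ 2 * 1 := by gcongr
    _ = a ^ 2 := by rw [mul_one]

/-- the three types of points near the node -/
lemma pt_cases {δ D X u w : F} (hδ : v δ = 1) (h1 : w - u = δ * X) (h2 : u * w = X ^ 3 + D)
    (hD : D ≠ 0) (hu : v u < 1) (hw : v w < 1) :
    (v u < v w ∧ v X = v w ∧ v D < v w ^ 2) ∨ (v w < v u ∧ v X = v u ∧ v D < v u ^ 2) ∨
      (v u = v w ∧ v D = v w ^ 2 ∧ v X ≤ v w ∧ 0 < v w) := by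
  have hX : v X = v (w - u) := by rw [h1, map_mul, hδ, one_mul]
  have hDe : D = u * w - X ^ 3 := by linear_combination -h2
  rcases lt_trichotomy (v u) (v w) with h | h | h
  · left
    have hw0 : 0 < v w := lt_of_le_of_lt zero_le h
    have hXw : v X = v w := by rw [hX]; exact Valuation.map_sub_eq_of_lt_left _ h
    refine ⟨h, hXw, ?_⟩
    rw [hDe]
    refine v.map_sub_lt ?_ ?_
    · rw [map_mul, sq]; gcongr
    · rw [map_pow, hXw]; exact pow_three_lt_sq hw0 hw
  · right; right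
    have hXw : v X ≤ v w := by rw [hX]; exact v.map_sub_le le_rfl h.le
    have hw0 : 0 < v w := by
      rw [zero_lt_iff]
      intro h0
      have hX0 : X = 0 := by
        rw [h0] at hXw
        exact (map_eq_zero v).mp (le_antisymm hXw zero_le)
      have hw' : w = 0 := (map_eq_zero v).mp h0
      apply hD
      rw [hDe, hX0, hw']; ring
    refine ⟨h, ?_, hXw, hw0⟩
    have h3 : v (X ^ 3) < v (u * w) := by
      rw [map_pow, map_mul, h, ← sq]
      calc v X ^ 3 ≤ v w ^ 3 := by gcongr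
        _ < v w ^ 2 := pow_three_lt_sq hw0 hw
    rw [hDe, Valuation.map_sub_eq_of_lt_left _ h3, map_mul, h, sq]
  · right; left
    have hw0 : 0 < v u := lt_of_le_of_lt zero_le h
    have hXw : v X = v u := by rw [hX]; exact Valuation.map_sub_eq_of_lt_right _ h
    refine ⟨h, hXw, ?_⟩
    rw [hDe]
    refine v.map_sub_lt ?_ ?_
    · rw [map_mul, sq]; gcongr
    · rw [map_pow, hXw]; exact pow_three_lt_sq hw0 hu

lemma v_eq_or {δ a b : F} (hδ : v δ = 1) (h : b - a = δ) :
    (v a < 1 ∧ v b = 1) ∨ (v b < 1 ∧ v a = 1) ∨ (v a = v b ∧ 1 ≤ v a) := by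
  have h' : v (b - a) = 1 := by rw [h, hδ]
  rcases lt_trichotomy (v a) (v b) with h1 | h1 | h1
  · left
    rw [Valuation.map_sub_eq_of_lt_left _ h1] at h'
    exact ⟨h' ▸ h1, h'⟩
  · right; right
    refine ⟨h1, ?_⟩
    rw [← h']
    exact v.map_sub_le h1.ge le_rfl
  · right; left
    rw [Valuation.map_sub_eq_of_lt_right _ h1] at h'
    exact ⟨h' ▸ h1, h'⟩

/-- opposite types give a sum outside the node -/
lemma opp_eq {δ a b C u w M : F} (hδ : v δ = 1) (h : b - a = δ) (hM0 : 0 < v M) (hM : v M < 1)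
    (hw : v w = v M) (hu : v u = v M) (hC : v C ≤ v M ^ 2) (hR : a * w + b * u = C) :
    v a = v b ∧ 1 ≤ v a := by
  have hC' : v C < v M := lt_of_le_of_lt hC (pow_two_lt_self hM0 hM)
  rcases v_eq_or hδ h with ⟨h1, h2⟩ | ⟨h1, h2⟩ | h1
  · exfalso
    have h3 : v (a * w) < v (b * u) := by
      rw [map_mul, map_mul, h2, one_mul, hw, hu]
      calc v a * v M < 1 * v M := by gcongr
        _ = v M := by rw [one_mul]
    have h4 : v C = v M := by
      rw [← hR, Valuation.map_add_eq_of_lt_right _ h3, map_mul, h2, one_mul, hu]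
    exact hC'.ne h4
  · exfalso
    have h3 : v (b * u) < v (a * w) := by
      rw [map_mul, map_mul, h2, one_mul, hw, hu]
      calc v b * v M < 1 * v M := by gcongr
        _ = v M := by rw [one_mul]
    have h4 : v C = v M := by
      rw [← hR, Valuation.map_add_eq_of_lt_left _ h3, map_mul, h2, one_mul, hw]
    exact hC'.ne h4
  · exact h1

/-- converse -/
lemma opp_of_eq {a b C u w M : F} (h1 : v a = v b) (h2 : 1 ≤ v a) (hM0 : 0 < v M)
    (hM : v M < 1) (hw : v w = v M) (hC : v C ≤ v M ^ 2) (hR : a * w + b * u = C) :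
    v u = v M := by
  have ha : 0 < v a := lt_of_lt_of_le one_pos h2
  have h3 : v C < v (a * w) := by
    rw [map_mul, hw]
    calc v C ≤ v M ^ 2 := hC
      _ < v M := pow_two_lt_self hM0 hM
      _ = 1 * v M := (one_mul _).symm
      _ ≤ v a * v M := by gcongr
  have h4 : b * u = C - a * w := by linear_combination hR
  have h5 : v (b * u) = v (a * w) := by
    rw [h4, Valuation.map_sub_eq_of_lt_right _ h3]
  rw [map_mul, map_mul, ← h1, hw] at h5
  exact mul_left_cancel₀ ha.ne' h5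

/-- the function `κ` on the disc of the node -/
noncomputable def kap0 (v : Valuation F Γ₀) (D u w : F) : Γ₀ :=
  open scoped Classical in if v u ≤ v w then v w else v D / v u

lemma kap0_of_le {D u w : F} (h : v u ≤ v w) : kap0 v D u w = v w := if_pos h

lemma kap0_of_lt {D u w : F} (h : v w < v u) : kap0 v D u w = v D / v u := if_neg (not_le.mpr h)

/-- three collinear points near the node, sorted version -/
lemma three_sorted {δ a b μ D X₁ X₂ X₃ : F} (hδ : v δ = 1) (hD : D ≠ 0) (h : b - a = δ)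
    (ha : v a < 1)
    (e2 : X₁ * X₂ + X₁ * X₃ + X₂ * X₃ = -(μ * (a + b))) (e3 : X₁ * X₂ * X₃ = μ ^ 2 - D)
    (hu : (a * X₁ + μ) * (a * X₂ + μ) * (a * X₃ + μ) = μ ^ 3 - D * a ^ 3)
    (hw : (b * X₁ + μ) * (b * X₂ + μ) * (b * X₃ + μ) = μ ^ 3 - D * b ^ 3)
    (h1 : v X₁ < 1) (h2 : v X₂ < 1) (h3 : v X₃ < 1)
    (h12 : v X₂ ≤ v X₁) (h23 : v X₃ ≤ v X₂) :
    kap0 v D (a * X₁ + μ) (b * X₁ + μ) * kap0 v D (a * X₂ + μ) (b * X₂ + μ) *
      kap0 v D (a * X₃ + μ) (b * X₃ + μ) = v D := by
  have hb : v b = 1 := by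
    rcases v_eq_or hδ h with ⟨_, h'⟩ | ⟨_, h'⟩ | ⟨_, h'⟩
    · exact h'
    · exact absurd h' ha.ne
    · exact absurd ha (not_lt.mpr h')
  have hD0 : 0 < v D := zero_lt_iff.mpr ((map_ne_zero v).mpr hD)
  have hab : v (a + b) = 1 := by
    rw [Valuation.map_add_eq_of_lt_right _ (by rw [hb]; exact ha), hb]
  have hμ : v μ = v (X₁ * X₂ + X₁ * X₃ + X₂ * X₃) := by
    rw [e2, Valuation.map_neg, map_mul, hab, mul_one]
  have hμle : v μ ≤ v X₁ * v X₂ := by
    rw [hμ]
    refine v.map_add_le (v.map_add_le (by rw [map_mul]) ?_) ?_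
    · rw [map_mul]; exact mul_le_mul' le_rfl h23
    · rw [map_mul]; exact mul_le_mul' h12 h23
  have hX2 : 0 < v X₂ := by
    rw [zero_lt_iff]
    intro h0
    have hX3 : X₃ = 0 := (map_eq_zero v).mp (le_antisymm (h0 ▸ h23) zero_le)
    have hX2 : X₂ = 0 := (map_eq_zero v).mp h0
    have hμ0 : μ = 0 := by
      rw [h0, mul_zero] at hμle
      exact (map_eq_zero v).mp (le_antisymm hμle zero_le)
    apply hD
    rw [hX2, hμ0] at e3
    linear_combination e3
  have hX1 : 0 < v X₁ := lt_of_lt_of_le hX2 h12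
  have hμ2 : v μ < v X₂ := by
    calc v μ ≤ v X₁ * v X₂ := hμle
      _ < 1 * v X₂ := by gcongr
      _ = v X₂ := by rw [one_mul]
  have hμ1 : v μ < v X₁ := lt_of_lt_of_le hμ2 h12
  have hw1 : v (b * X₁ + μ) = v X₁ := by
    rw [Valuation.map_add_eq_of_lt_left, map_mul, hb, one_mul]
    rwa [map_mul, hb, one_mul]
  have hw2 : v (b * X₂ + μ) = v X₂ := by
    rw [Valuation.map_add_eq_of_lt_left, map_mul, hb, one_mul]
    rwa [map_mul, hb, one_mul]
  have hu1 : v (a * X₁ + μ) < v X₁ := by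
    refine v.map_add_lt ?_ hμ1
    rw [map_mul]
    calc v a * v X₁ < 1 * v X₁ := by gcongr
      _ = v X₁ := by rw [one_mul]
  have hu2 : v (a * X₂ + μ) < v X₂ := by
    refine v.map_add_lt ?_ hμ2
    rw [map_mul]
    calc v a * v X₂ < 1 * v X₂ := by gcongr
      _ = v X₂ := by rw [one_mul]
  rw [kap0_of_le (by rw [hw1]; exact hu1.le), kap0_of_le (by rw [hw2]; exact hu2.le), hw1, hw2]
  rcases le_or_gt (v (a * X₃ + μ)) (v (b * X₃ + μ)) with h | h
  · rw [kap0_of_le h]
    have hprod : v X₁ * v X₂ * v (b * X₃ + μ) = v (μ ^ 3 - D * b ^ 3) := by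
      rw [← hw, map_mul, map_mul, hw1, hw2]
    rw [hprod]
    have hDb : v (D * b ^ 3) = v D := by rw [map_mul, map_pow, hb, one_pow, mul_one]
    rcases lt_or_ge (v (μ ^ 3)) (v D) with hc | hc
    · rw [Valuation.map_sub_eq_of_lt_right _ (by rwa [hDb]), hDb]
    · exfalso
      have hDa : v (D * a ^ 3) < v (μ ^ 3) := by
        refine lt_of_lt_of_le ?_ hc
        rw [map_mul, map_pow]
        calc v D * v a ^ 3 < v D * 1 := by
              gcongr
              exact pow_lt_one₀ zero_le ha three_ne_zero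
          _ = v D := by rw [mul_one]
      have hup : v ((a * X₁ + μ) * (a * X₂ + μ) * (a * X₃ + μ)) = v (μ ^ 3) := by
        rw [hu, Valuation.map_sub_eq_of_lt_left _ hDa]
      have hwp : v (μ ^ 3 - D * b ^ 3) ≤ v (μ ^ 3) := v.map_sub_le le_rfl (by rwa [hDb])
      rw [← hprod, ← hup, map_mul, map_mul] at hwp
      have hpos : 0 < v ((a * X₁ + μ) * (a * X₂ + μ) * (a * X₃ + μ)) := by
        rw [hup]; exact lt_of_lt_of_le hD0 hc
      rw [map_mul, map_mul] at hpos
      have hu3pos : 0 < v (a * X₃ + μ) := pos_of_mul_pos_right hpos zero_le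
      have hlt : v (a * X₁ + μ) * v (a * X₂ + μ) * v (a * X₃ + μ) <
          v X₁ * v X₂ * v (b * X₃ + μ) := by
        have k1 : v (a * X₁ + μ) * v (a * X₂ + μ) < v X₁ * v X₂ :=
          mul_lt_mul'' hu1 hu2 zero_le zero_le
        calc v (a * X₁ + μ) * v (a * X₂ + μ) * v (a * X₃ + μ)
            < v X₁ * v X₂ * v (a * X₃ + μ) := by gcongr
          _ ≤ v X₁ * v X₂ * v (b * X₃ + μ) := by gcongr
      exact absurd hwp (not_le.mpr hlt)
  · rw [kap0_of_lt h]
    have hu0 : 0 < v (a * X₃ + μ) := lt_of_le_of_lt zero_le h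
    have hX3 : v X₃ = v (a * X₃ + μ) := by
      have hre : δ * X₃ = (b * X₃ + μ) - (a * X₃ + μ) := by rw [← ‹b - a = δ›]; ring
      rw [← Valuation.map_sub_eq_of_lt_right _ h, ← hre, map_mul, hδ, one_mul]
    have hX30 : 0 < v X₃ := by rw [hX3]; exact hu0
    have hμ3 : v μ = v X₃ := by
      have h5 : v (a * X₃) < v (a * X₃ + μ) := by
        rw [← hX3, map_mul]
        calc v a * v X₃ < 1 * v X₃ := by gcongr
          _ = v X₃ := by rw [one_mul]
      have h6 : μ = (a * X₃ + μ) - a * X₃ := by ring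
      rw [h6, Valuation.map_sub_eq_of_lt_left _ h5, hX3]
    have h32 : v X₃ < v X₂ := by rw [← hμ3]; exact hμ2
    have hμ4 : v μ = v X₁ * v X₂ := by
      rw [hμ, ← map_mul]
      have : X₁ * X₂ + X₁ * X₃ + X₂ * X₃ = X₁ * X₂ + (X₁ * X₃ + X₂ * X₃) := by ring
      rw [this]
      refine Valuation.map_add_eq_of_lt_left _ (v.map_add_lt ?_ ?_)
      · rw [map_mul, map_mul]; gcongr
      · rw [map_mul, map_mul]
        calc v X₂ * v X₃ < v X₂ * v X₂ := by gcongr
          _ ≤ v X₁ * v X₂ := by gcongr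
    rw [← hX3, ← hμ3, hμ4]
    have hne : v X₁ * v X₂ ≠ 0 := (mul_pos hX1 hX2).ne'
    rw [mul_div_assoc']
    exact mul_div_cancel_left₀ _ hne

/-- three collinear points near the node, when the line is near the direction `a` -/
lemma three_pts {δ a b μ D X₁ X₂ X₃ : F} (hδ : v δ = 1) (hD : D ≠ 0) (h : b - a = δ)
    (ha : v a < 1)
    (e2 : X₁ * X₂ + X₁ * X₃ + X₂ * X₃ = -(μ * (a + b))) (e3 : X₁ * X₂ * X₃ = μ ^ 2 - D)
    (hu : (a * X₁ + μ) * (a * X₂ + μ) * (a * X₃ + μ) = μ ^ 3 - D * a ^ 3)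
    (hw : (b * X₁ + μ) * (b * X₂ + μ) * (b * X₃ + μ) = μ ^ 3 - D * b ^ 3)
    (h1 : v X₁ < 1) (h2 : v X₂ < 1) (h3 : v X₃ < 1) :
    kap0 v D (a * X₁ + μ) (b * X₁ + μ) * kap0 v D (a * X₂ + μ) (b * X₂ + μ) *
      kap0 v D (a * X₃ + μ) (b * X₃ + μ) = v D := by
  rcases le_total (v X₂) (v X₁) with h12 | h12 <;> rcases le_total (v X₃) (v X₂) with h23 | h23 <;>
    rcases le_total (v X₃) (v X₁) with h13 | h13
  · exact three_sorted hδ hD h ha e2 e3 hu hw h1 h2 h3 h12 h23
  · exact three_sorted hδ hD h ha e2 e3 hu hw h1 h2 h3 h12 h23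
  · rw [mul_right_comm]
    exact three_sorted hδ hD h ha (by linear_combination e2) (by linear_combination e3)
      (by linear_combination hu) (by linear_combination hw) h1 h3 h2 h13 h23
  · rw [mul_right_comm, mul_comm (kap0 v D (a * X₁ + μ) (b * X₁ + μ))]
    exact three_sorted hδ hD h ha (by linear_combination e2) (by linear_combination e3)
      (by linear_combination hu) (by linear_combination hw) h3 h1 h2 h13 h12
  · rw [mul_comm (kap0 v D (a * X₁ + μ) (b * X₁ + μ))]
    exact three_sorted hδ hD h ha (by linear_combination e2) (by linear_combination e3)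
      (by linear_combination hu) (by linear_combination hw) h2 h1 h3 h12 h13
  · rw [mul_comm (kap0 v D (a * X₁ + μ) (b * X₁ + μ)), mul_right_comm]
    exact three_sorted hδ hD h ha (by linear_combination e2) (by linear_combination e3)
      (by linear_combination hu) (by linear_combination hw) h2 h3 h1 h23 h13
  · have h13' := h12.trans h23
    rw [mul_assoc, mul_comm, mul_comm (kap0 v D (a * X₂ + μ) (b * X₂ + μ))]
    exact three_sorted hδ hD h ha (by linear_combination e2) (by linear_combination e3)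
      (by linear_combination hu) (by linear_combination hw) h3 h2 h1 h23 h12
  · rw [mul_assoc, mul_comm, mul_comm (kap0 v D (a * X₂ + μ) (b * X₂ + μ))]
    exact three_sorted hδ hD h ha (by linear_combination e2) (by linear_combination e3)
      (by linear_combination hu) (by linear_combination hw) h3 h2 h1 h23 h12

end numbers

end Fermat.Agent.ECRep
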