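import Fermat.Agent.ECRep.MultNum
import Fermat.Agent.ECRep.LineEq

set_option autoImplicit false
set_option linter.unusedSectionVars false

/-!
# Multiplicative reduction: the component map
-/

namespace Fermat.Agent.ECRep

open WeierstrassCurve WeierstrassCurve.Affine WeierstrassCurve.Affine.Point
open Fermat.Agent.EC Fermat.Agent.DivPoly Fermat.Agent.S13lib

/-- The algebraic part of the data: `(x₀, y₀)` is a critical point, in the coordinates centered at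
`(x₀, y₀)` the equation becomes `(y - α x) (y - β x) = x³ + D`. -/
structure MAlg {K : Type*} [Field K] (W : WeierstrassCurve.Affine K) (x₀ y₀ α β D : K) :
    Prop where
  two : 2 * y₀ + W.a₁ * x₀ + W.a₃ = 0
  crit : 3 * x₀ ^ 2 + 2 * W.a₂ * x₀ + W.a₄ = W.a₁ * y₀
  eqn : x₀ ^ 3 + W.a₂ * x₀ ^ 2 + W.a₄ * x₀ + W.a₆ = y₀ ^ 2 + W.a₁ * x₀ * y₀ + W.a₃ * y₀ + D
  add : α + β = -W.a₁
  mul : α * β = -(W.a₂ + 3 * x₀)

/-- Data describing a curve with multiplicative reduction: `(x₀, y₀)` is the critical point near the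
node, `α`, `β` are the slopes of the branches and `D` measures the distance from the node. -/
structure Mult {K : Type*} [Field K] {Γ₀ : Type*} [LinearOrderedCommGroupWithZero Γ₀]
    (v : Valuation K Γ₀) (W : WeierstrassCurve.Affine K) (x₀ y₀ α β D : K) : Prop
    extends MAlg W x₀ y₀ α β D where
  int : IntegralFor v W
  vx : v x₀ ≤ 1
  vy : v y₀ ≤ 1
  vδ : v (α - β) = 1
  vD : v D < 1
  D0 : D ≠ 0

/-- the local coordinate along a branch -/
noncomputable def uc {K : Type*} [Field K] {W : WeierstrassCurve.Affine K} (x₀ y₀ α : K)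
    (P : W.Point) : K := (yc P - y₀) - α * (xc P - x₀)

section basic

variable {K : Type*} [Field K] {Γ₀ : Type*} [LinearOrderedCommGroupWithZero Γ₀]
  {v : Valuation K Γ₀} {W : WeierstrassCurve.Affine K} {x₀ y₀ α β D : K}

theorem MAlg.symm (hM : MAlg W x₀ y₀ α β D) : MAlg W x₀ y₀ β α D where
  two := hM.two
  crit := hM.crit
  eqn := hM.eqn
  add := by rw [add_comm]; exact hM.add
  mul := by rw [mul_comm]; exact hM.mul

theorem Mult.symm (hM : Mult v W x₀ y₀ α β D) : Mult v W x₀ y₀ β α D where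
  toMAlg := hM.toMAlg.symm
  int := hM.int
  vx := hM.vx
  vy := hM.vy
  vδ := by rw [Valuation.map_sub_swap]; exact hM.vδ
  vD := hM.vD
  D0 := hM.D0

theorem Mult.vα (hM : Mult v W x₀ y₀ α β D) : v α ≤ 1 := by
  refine v_root_le_one v (b := W.a₁) (c := W.a₂ + 3 * x₀) hM.int.a₁
    (v_add_le_one v hM.int.a₂ (v_mul_le_one v (v_ofNat_le_one v 3) hM.vx)) ?_
  linear_combination α * hM.add - hM.mul

theorem MAlg.uc_mul (hM : MAlg W x₀ y₀ α β D) {P : W.Point} (hP : P ≠ 0) :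
    uc x₀ y₀ α P * uc x₀ y₀ β P = (xc P - x₀) ^ 3 + D := by
  have eP := DivPoly.equation hP
  simp only [uc]
  linear_combination eP + hM.eqn - (yc P - y₀) * hM.two + (xc P - x₀) * hM.crit -
    (xc P - x₀) * (yc P - y₀) * hM.add + (xc P - x₀) ^ 2 * hM.mul

theorem uc_sub (P : W.Point) :
    uc x₀ y₀ β P - uc x₀ y₀ α P = (α - β) * (xc P - x₀) := by
  simp only [uc]; ring

theorem MAlg.uc_neg (hM : MAlg W x₀ y₀ α β D) {P : W.Point} (hP : P ≠ 0) :
    uc x₀ y₀ α (-P) = - uc x₀ y₀ β P := by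
  simp only [uc, xc_neg, yc_neg hP]
  linear_combination -hM.two - (xc P - x₀) * hM.add

theorem Mult.uc_lt (hM : Mult v W x₀ y₀ α β D) {P : W.Point} (hP : P ≠ 0)
    (hx : v (xc P - x₀) < 1) : v (uc x₀ y₀ α P) < 1 := by
  have h1 : v (uc x₀ y₀ α P + -uc x₀ y₀ β P) < 1 := by
    have : uc x₀ y₀ α P + -uc x₀ y₀ β P = -((α - β) * (xc P - x₀)) := by
      rw [← uc_sub (α := α) (β := β)]; ring
    rw [this, Valuation.map_neg, map_mul, hM.vδ, one_mul]
    exact hx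
  have h2 : v (uc x₀ y₀ α P * -uc x₀ y₀ β P) < 1 := by
    rw [mul_neg, Valuation.map_neg, hM.uc_mul hP]
    exact v_add_lt_one v (v_pow_lt_one v hx three_ne_zero) hM.vD
  exact v_root_lt_one v h1 h2

theorem Mult.ns_iff (hM : Mult v W x₀ y₀ α β D) {P : W.Point} (hP : P ≠ 0) :
    NS v P ↔ 1 ≤ v (xc P - x₀) := by
  have e1 : 2 * yc P + W.a₁ * xc P + W.a₃ = 2 * (yc P - y₀) + W.a₁ * (xc P - x₀) := by
    linear_combination hM.two
  have e2 : 3 * xc P ^ 2 + 2 * W.a₂ * xc P + W.a₄ - W.a₁ * yc P =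
      3 * (xc P - x₀) ^ 2 + 2 * (W.a₂ + 3 * x₀) * (xc P - x₀) - W.a₁ * (yc P - y₀) := by
    linear_combination hM.crit
  constructor
  · intro h
    by_contra hx
    rw [not_le] at hx
    have hu := hM.uc_lt hP hx
    have hy : v (yc P - y₀) < 1 := by
      have : yc P - y₀ = uc x₀ y₀ α P + α * (xc P - x₀) := by simp only [uc]; ring
      rw [this]
      exact v_add_lt_one v hu (v_mul_lt_one v hM.vα hx)
    have hb : v (W.a₂ + 3 * x₀) ≤ 1 :=
      v_add_le_one v hM.int.a₂ (v_mul_le_one v (v_ofNat_le_one v 3) hM.vx)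
    rcases h with h | h | h | h
    · exact hP h
    · have : v (xc P) ≤ 1 := by
        have h3 : xc P = (xc P - x₀) + x₀ := by ring
        rw [h3]; exact v_add_le_one v hx.le hM.vx
      exact absurd h (not_lt.mpr this)
    · refine absurd h (not_le.mpr ?_)
      rw [e1]
      exact v_add_lt_one v (v_mul_lt_one v (v_ofNat_le_one v 2) hy) (v_mul_lt_one v hM.int.a₁ hx)
    · refine absurd h (not_le.mpr ?_)
      rw [e2]
      refine v_sub_lt_one v (v_add_lt_one v ?_ ?_) (v_mul_lt_one v hM.int.a₁ hy)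
      · exact v_mul_lt_one v (v_ofNat_le_one v 3) (v_pow_lt_one v hx two_ne_zero)
      · exact v_mul_lt_one v (v_mul_le_one v (v_ofNat_le_one v 2) hb) hx
  · intro h
    rcases lt_or_ge 1 (v (xc P)) with hx | hx
    · exact Or.inr (Or.inl hx)
    refine Or.inr (Or.inr ?_)
    by_contra hcon
    rw [not_or, not_le, not_le] at hcon
    obtain ⟨h1, h2⟩ := hcon
    have hX : v (xc P - x₀) ≤ 1 := v_sub_le_one v hx hM.vx
    have hY : v (yc P - y₀) ≤ 1 := v_sub_le_one v (yc_le_one v hM.int hP hx) hM.vy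
    have hmul := hM.uc_mul hP
    have key : (xc P - x₀) ^ 3 = (xc P - x₀) *
        (3 * xc P ^ 2 + 2 * W.a₂ * xc P + W.a₄ - W.a₁ * yc P) - (yc P - y₀) *
        (2 * yc P + W.a₁ * xc P + W.a₃) + 2 * D := by
      rw [e1, e2]
      simp only [uc] at hmul
      linear_combination (2 : K) * hmul + 2 * (xc P - x₀) * (yc P - y₀) * hM.add -
        2 * (xc P - x₀) ^ 2 * hM.mul
    have h3 : v ((xc P - x₀) ^ 3) < 1 := by
      rw [key]
      exact v_add_lt_one v (v_sub_lt_one v (v_mul_lt_one v hX h2) (v_mul_lt_one v hY h1))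
        (v_mul_lt_one v (v_ofNat_le_one v 2) hM.vD)
    rw [map_pow] at h3
    exact absurd h3 (not_lt.mpr (one_le_pow₀ h))

theorem Mult.not_ns (hM : Mult v W x₀ y₀ α β D) {P : W.Point} (h : ¬ NS v P) :
    P ≠ 0 ∧ v (xc P - x₀) < 1 ∧ v (uc x₀ y₀ α P) < 1 ∧ v (uc x₀ y₀ β P) < 1 := by
  have hP : P ≠ 0 := fun h0 => h (Or.inl h0)
  have hx : v (xc P - x₀) < 1 := not_le.mp fun h' => h ((hM.ns_iff hP).mpr h')
  exact ⟨hP, hx, hM.uc_lt hP hx, hM.symm.uc_lt hP hx⟩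

/-- the types of points near the node -/
theorem Mult.cases (hM : Mult v W x₀ y₀ α β D) {P : W.Point} (h : ¬ NS v P) :
    (v (uc x₀ y₀ α P) < v (uc x₀ y₀ β P) ∧ v (xc P - x₀) = v (uc x₀ y₀ β P) ∧
      v D < v (uc x₀ y₀ β P) ^ 2) ∨
    (v (uc x₀ y₀ β P) < v (uc x₀ y₀ α P) ∧ v (xc P - x₀) = v (uc x₀ y₀ α P) ∧
      v D < v (uc x₀ y₀ α P) ^ 2) ∨
    (v (uc x₀ y₀ α P) = v (uc x₀ y₀ β P) ∧ v D = v (uc x₀ y₀ β P) ^ 2 ∧
      v (xc P - x₀) ≤ v (uc x₀ y₀ β P) ∧ 0 < v (uc x₀ y₀ β P)) := by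
  obtain ⟨hP, hx, hu, hw⟩ := hM.not_ns h
  exact pt_cases hM.vδ (uc_sub P) (hM.uc_mul hP) hM.D0 hu hw

end basic

section line

variable {K : Type*} [Field K] [DecidableEq K] {Γ₀ : Type*} [LinearOrderedCommGroupWithZero Γ₀]
  {v : Valuation K Γ₀} {W : WeierstrassCurve.Affine K} {x₀ y₀ α β D : K}

theorem Mult.not_ns_neg (hM : Mult v W x₀ y₀ α β D) {P : W.Point} (h : ¬ NS v P) :
    ¬ NS v (-P) := by
  obtain ⟨hP, hx, -, -⟩ := hM.not_ns h
  rw [hM.ns_iff (neg_ne_zero.mpr hP), xc_neg, not_le]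
  exact hx

/-- the line through two points, in the coordinates at the node -/
theorem MAlg.line (hM : MAlg W x₀ y₀ α β D) {P Q : W.Point} (hP : P ≠ 0) (hQ : Q ≠ 0)
    (h : P + Q ≠ 0) : ∃ a b μ : K, b - a = α - β ∧
      (uc x₀ y₀ α P = a * (xc P - x₀) + μ ∧ uc x₀ y₀ β P = b * (xc P - x₀) + μ) ∧
      (uc x₀ y₀ α Q = a * (xc Q - x₀) + μ ∧ uc x₀ y₀ β Q = b * (xc Q - x₀) + μ) ∧
      (uc x₀ y₀ α (-(P + Q)) = a * (xc (P + Q) - x₀) + μ ∧
        uc x₀ y₀ β (-(P + Q)) = b * (xc (P + Q) - x₀) + μ) ∧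
      a * b = (xc P - x₀) + (xc Q - x₀) + (xc (P + Q) - x₀) ∧
      (xc P - x₀) * (xc Q - x₀) + (xc P - x₀) * (xc (P + Q) - x₀) +
        (xc Q - x₀) * (xc (P + Q) - x₀) = -(μ * (a + b)) ∧
      (xc P - x₀) * (xc Q - x₀) * (xc (P + Q) - x₀) = μ ^ 2 - D ∧
      a * uc x₀ y₀ β P + b * uc x₀ y₀ α Q =
        (xc P - x₀) ^ 2 + (xc P - x₀) * (xc Q - x₀) + (xc Q - x₀) ^ 2 ∧
      a * uc x₀ y₀ β Q + b * uc x₀ y₀ α P =
        (xc P - x₀) ^ 2 + (xc P - x₀) * (xc Q - x₀) + (xc Q - x₀) ^ 2 := by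
  obtain ⟨L, m, l1, l2, l3, e1, e2, e3, R⟩ := exists_line hP hQ h
  have hadd := hM.add
  have hmul := hM.mul
  have htwo := hM.two
  have hcrit := hM.crit
  have heqn := hM.eqn
  refine ⟨L - α, L - β, m + L * x₀ - y₀, by ring, ⟨?_, ?_⟩, ⟨?_, ?_⟩, ⟨?_, ?_⟩, ?_, ?_, ?_,
    ?_, ?_⟩
  · simp only [uc]; linear_combination l1
  · simp only [uc]; linear_combination l1
  · simp only [uc]; linear_combination l2
  · simp only [uc]; linear_combination l2
  · simp only [uc, xc_neg]; linear_combination l3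
  · simp only [uc, xc_neg]; linear_combination l3
  · linear_combination -e1 - L * hadd + hmul
  · linear_combination e2 - 2 * x₀ * e1 + hcrit - L * htwo - (m + L * x₀ - y₀) * hadd
  · linear_combination e3 - x₀ * e2 + x₀ ^ 2 * e1 - heqn + (m + L * x₀ - y₀) * htwo
  · simp only [uc]
    linear_combination R + hmul * (xc P + xc Q - 2 * x₀) + hcrit + β * l1 + (α + W.a₁) * l2 +
      hadd * (-yc P - yc Q + m + y₀ + L * x₀) - L * htwo
  · simp only [uc]
    linear_combination R + hmul * (xc P + xc Q - 2 * x₀) + hcrit + α * l1 + (β + W.a₁) * l2 +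
      hadd * (-yc P - yc Q + m + y₀ + L * x₀) - L * htwo

end line

end Fermat.Agent.ECRep
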