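import Fermat.Agent.ECRep.MultLine

set_option autoImplicit false
set_option linter.unusedSectionVars false

/-!
# The sign of a multiplicative prime (split / nonsplit)
-/

namespace Fermat.Agent.ECRep

open WeierstrassCurve WeierstrassCurve.Affine WeierstrassCurve.Affine.Point
open scoped WeierstrassCurve.Affine
open Fermat.Agent.EC Fermat.Agent.DivPoly Fermat.Agent.S13lib

local notation "Qbar" => AlgebraicClosure ℚ
local notation "Γℚ" => (AlgebraicClosure ℚ ≃ₐ[ℚ] AlgebraicClosure ℚ)

section node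

variable {K : Type*} [Field K] {W : WeierstrassCurve.Affine K} {x₀ y₀ α β x₁ y₁ a b : K}

/-- the node and the tangents are unique -/
theorem MAlg.node_unique (h : MAlg W x₀ y₀ α β 0) (hne : α ≠ β) (h' : MAlg W x₁ y₁ a b 0) :
    x₁ = x₀ ∧ y₁ = y₀ ∧ ((a = α ∧ b = β) ∨ (a = β ∧ b = α)) := by
  have hδ : α - β ≠ 0 := sub_ne_zero.mpr hne
  set X := x₁ - x₀ with hX
  set Y := y₁ - y₀ with hY
  set u := Y - α * X with hu
  have e1 : -2 * u = (α - β) * X := by
    rw [hu, hX, hY]
    linear_combination h.two - h'.two + (x₁ - x₀) * h.add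
  have e2 : (α - β) * u = 3 * X ^ 2 := by
    have h1 : -(α + β) * Y + 2 * α * β * X = 3 * X ^ 2 := by
      rw [hX, hY]
      linear_combination -h'.crit + h.crit - (y₁ - y₀) * h.add + 2 * (x₁ - x₀) * h.mul
    rw [hu] at e1 ⊢
    linear_combination h1 - α * e1
  have e3 : -u ^ 2 = X ^ 3 := by
    have h1 : u * (Y - β * X) = X ^ 3 := by
      rw [hu, hX, hY]
      linear_combination -h'.eqn + h.eqn - (y₁ - y₀) * h.two + (x₁ - x₀) * h.crit -
        (x₁ - x₀) * (y₁ - y₀) * h.add + (x₁ - x₀) ^ 2 * h.mul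
    linear_combination h1 + u * e1 + u * hu
  have hX0 : X = 0 := by
    by_contra hX0
    have h1 : X * ((α - β) ^ 2 + 6 * X) = 0 := by linear_combination -(α - β) * e1 - 2 * e2
    have h2 : X ^ 3 * ((α - β) ^ 2 + 9 * X) = 0 := by
      linear_combination -(α - β) ^ 2 * e3 - ((α - β) * u + 3 * X ^ 2) * e2
    have h3 := (mul_eq_zero.mp h1).resolve_left hX0
    have h4 := (mul_eq_zero.mp h2).resolve_left (pow_ne_zero 3 hX0)
    have h5 : (α - β) ^ 2 = 0 := by linear_combination 3 * h3 - 2 * h4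
    exact hδ (pow_eq_zero_iff two_ne_zero |>.mp h5)
  have hu0 : u = 0 := by
    rw [hX0] at e2
    have : (α - β) * u = 0 := by rw [e2]; ring
    exact (mul_eq_zero.mp this).resolve_left hδ
  have hY0 : Y = 0 := by
    rw [hX0, mul_zero, sub_zero] at hu
    rw [← hu, hu0]
  have hx : x₁ = x₀ := sub_eq_zero.mp hX0
  refine ⟨hx, sub_eq_zero.mp hY0, ?_⟩
  have h1 : (a - α) * (a - β) = 0 := by
    have h2 := h.mul
    have h3 := h'.mul
    rw [hx] at h3
    linear_combination a * h'.add - a * h.add - h3 + h2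
  rcases mul_eq_zero.mp h1 with h | h
  · left
    have h6 := sub_eq_zero.mp h
    exact ⟨h6, by linear_combination h'.add - ‹MAlg W x₀ y₀ α β 0›.add - h6⟩
  · right
    have h6 := sub_eq_zero.mp h
    exact ⟨h6, by linear_combination h'.add - ‹MAlg W x₀ y₀ α β 0›.add - h6⟩

end node

section fld

open Polynomial

variable {k : Type*} [Field k]

lemma card_le_of_pow_eq [DecidableEq k] {n : ℕ} (hn : 1 < n) (T : Finset k)
    (h : ∀ z ∈ T, z ^ n = z) : T.card ≤ n := by
  have hd := FiniteField.X_pow_card_sub_X_natDegree_eq k hn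
  have h0 := FiniteField.X_pow_card_sub_X_ne_zero k hn
  have hsub : T ⊆ (X ^ n - X : k[X]).roots.toFinset := by
    intro z hz
    rw [Multiset.mem_toFinset, mem_roots h0, IsRoot.def, eval_sub, eval_pow, eval_X, h z hz,
      sub_self]
  calc T.card ≤ (X ^ n - X : k[X]).roots.toFinset.card := Finset.card_le_card hsub
    _ ≤ Multiset.card (X ^ n - X : k[X]).roots := Multiset.toFinset_card_le _
    _ ≤ (X ^ n - X : k[X]).natDegree := card_roots' _
    _ = n := hd

variable {q : ℕ} [Fact q.Prime] [Algebra (ZMod q) k]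

lemma zmod_pow_card (s : ZMod q) : algebraMap (ZMod q) k s ^ q = algebraMap (ZMod q) k s := by
  rw [← map_pow, ZMod.pow_card]

lemma exists_zmod_of_pow {z : k} (h : z ^ q = z) : ∃ s : ZMod q, algebraMap (ZMod q) k s = z := by
  classical
  have hq := (Fact.out : q.Prime)
  by_contra hcon
  push Not at hcon
  have hinj := (algebraMap (ZMod q) k).injective
  have h1 := card_le_of_pow_eq hq.one_lt
    (insert z (Finset.univ.image (algebraMap (ZMod q) k))) (by
      intro w hw
      rw [Finset.mem_insert, Finset.mem_image] at hw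
      rcases hw with rfl | ⟨s, -, rfl⟩
      · exact h
      · exact zmod_pow_card s)
  rw [Finset.card_insert_of_notMem, Finset.card_image_of_injective _ hinj, Finset.card_univ,
    ZMod.card] at h1
  · omega
  · rw [Finset.mem_image]
    rintro ⟨s, -, hs⟩
    exact hcon s hs

/-- the field with `q²` elements -/
lemma exists_zmod_add {a z : k} (ha : a ^ (q ^ 2) = a) (ha' : a ^ q ≠ a)
    (hz : z ^ (q ^ 2) = z) :
    ∃ s t : ZMod q, z = algebraMap (ZMod q) k s + algebraMap (ZMod q) k t * a := by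
  classical
  have hq := (Fact.out : q.Prime)
  have : CharP k q := by
    have := charP_of_injective_algebraMap (algebraMap (ZMod q) k).injective q
    exact this
  have hinj : Function.Injective fun p : ZMod q × ZMod q =>
      algebraMap (ZMod q) k p.1 + algebraMap (ZMod q) k p.2 * a := by
    rintro ⟨s, t⟩ ⟨s', t'⟩ h
    simp only at h
    have ht : t = t' := by
      by_contra hne
      apply ha'
      have h1 : algebraMap (ZMod q) k (t - t') ≠ 0 := by
        rw [Ne, map_eq_zero]; exact sub_ne_zero.mpr hne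
      have h2 : a = algebraMap (ZMod q) k ((s' - s) / (t - t')) := by
        rw [map_div₀, eq_div_iff h1, map_sub, map_sub]
        linear_combination h
      rw [h2, zmod_pow_card]
    subst ht
    have hs : s = s' := by
      apply (algebraMap (ZMod q) k).injective
      linear_combination h
    rw [hs]
  by_contra hcon
  push Not at hcon
  have h1 := card_le_of_pow_eq (n := q ^ 2) (Nat.one_lt_pow two_ne_zero hq.one_lt)
    (insert z (Finset.univ.image fun p : ZMod q × ZMod q =>
      algebraMap (ZMod q) k p.1 + algebraMap (ZMod q) k p.2 * a)) (by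
      intro w hw
      rw [Finset.mem_insert, Finset.mem_image] at hw
      rcases hw with rfl | ⟨⟨s, t⟩, -, rfl⟩
      · exact hz
      · have e : ∀ s : ZMod q, algebraMap (ZMod q) k s ^ q ^ 2 = algebraMap (ZMod q) k s := by
          intro s
          rw [sq, pow_mul, zmod_pow_card, zmod_pow_card]
        rw [add_pow_char_pow, mul_pow, e, e, ha])
  rw [Finset.card_insert_of_notMem, Finset.card_image_of_injective _ hinj, Finset.card_univ,
    Fintype.card_prod, ZMod.card, sq] at h1
  · omega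
  · rw [Finset.mem_image]
    rintro ⟨⟨s, t⟩, -, hs⟩
    exact hcon s t hs.symm

end fld

section map

variable {K L : Type*} [Field K] [Field L] {W : WeierstrassCurve K} {x₀ y₀ α β D : K}

lemma MAlg.map (h : MAlg W x₀ y₀ α β D) (f : K →+* L) :
    MAlg (W.map f) (f x₀) (f y₀) (f α) (f β) (f D) := by
  refine ⟨?_, ?_, ?_, ?_, ?_⟩
  · have := congrArg f h.two
    simpa only [map_a₁, map_a₂, map_a₃, map_a₄, map_a₆, _root_.map_add, _root_.map_mul, map_ofNat, _root_.map_zero] using this
  · have := congrArg f h.crit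
    simpa only [map_a₁, map_a₂, map_a₃, map_a₄, map_a₆, _root_.map_add, _root_.map_mul, map_ofNat, map_pow] using this
  · have := congrArg f h.eqn
    simpa only [map_a₁, map_a₂, map_a₃, map_a₄, map_a₆, _root_.map_add, _root_.map_mul, map_pow] using this
  · have := congrArg f h.add
    simpa only [map_a₁, map_a₂, map_a₃, map_a₄, map_a₆, _root_.map_add, map_neg] using this
  · have := congrArg f h.mul
    simpa only [map_a₁, map_a₂, map_a₃, map_a₄, map_a₆, _root_.map_add, _root_.map_mul, map_neg, map_ofNat] using this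

lemma MAlg.of_map (f : K →+* L) (h : MAlg (W.map f) (f x₀) (f y₀) (f α) (f β) (f D)) :
    MAlg W x₀ y₀ α β D := by
  refine ⟨?_, ?_, ?_, ?_, ?_⟩ <;> apply f.injective
  · have := h.two
    simpa only [map_a₁, map_a₂, map_a₃, map_a₄, map_a₆, _root_.map_add, _root_.map_mul, map_ofNat, _root_.map_zero] using this
  · have := h.crit
    simpa only [map_a₁, map_a₂, map_a₃, map_a₄, map_a₆, _root_.map_add, _root_.map_mul, map_ofNat, map_pow] using this
  · have := h.eqn
    simpa only [map_a₁, map_a₂, map_a₃, map_a₄, map_a₆, _root_.map_add, _root_.map_mul, map_pow] using this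
  · have := h.add
    simpa only [map_a₁, map_a₂, map_a₃, map_a₄, map_a₆, _root_.map_add, map_neg] using this
  · have := h.mul
    simpa only [map_a₁, map_a₂, map_a₃, map_a₄, map_a₆, _root_.map_add, _root_.map_mul, map_neg, map_ofNat] using this

end map

section split

variable (W : WeierstrassCurve ℤ) (q : ℕ)

/-- the branches at the node of the reduction are rational -/
def SplitAt : Prop := ∃ x y a b : ZMod q,
  2 * y + (W.reductionMod q).a₁ * x + (W.reductionMod q).a₃ = 0 ∧
  3 * x ^ 2 + 2 * (W.reductionMod q).a₂ * x + (W.reductionMod q).a₄ =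
    (W.reductionMod q).a₁ * y ∧
  x ^ 3 + (W.reductionMod q).a₂ * x ^ 2 + (W.reductionMod q).a₄ * x + (W.reductionMod q).a₆ =
    y ^ 2 + (W.reductionMod q).a₁ * x * y + (W.reductionMod q).a₃ * y + 0 ∧
  a + b = -(W.reductionMod q).a₁ ∧ a * b = -((W.reductionMod q).a₂ + 3 * x)

lemma splitAt_def [Fact q.Prime] :
    SplitAt W q ↔ ∃ x y a b : ZMod q, MAlg (W.reductionMod q) x y a b 0 :=
  ⟨fun ⟨x, y, a, b, h1, h2, h3, h4, h5⟩ => ⟨x, y, a, b, h1, h2, h3, h4, h5⟩,
    fun ⟨x, y, a, b, h⟩ => ⟨x, y, a, b, h.two, h.crit, h.eqn, h.add, h.mul⟩⟩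

/-- the sign at a multiplicative prime -/
noncomputable def mSign : ℤ := open scoped Classical in if SplitAt W q then 1 else -1

lemma mSign_eq : mSign W q = 1 ∨ mSign W q = -1 := by
  unfold mSign; split_ifs
  · exact Or.inl rfl
  · exact Or.inr rfl

end split

section rat

variable {W : WeierstrassCurve ℤ} {A : ValuationSubring (AlgebraicClosure ℚ)} {q : ℕ}
  {x₀ y₀ α β D : Qbar}

local notation "rA" => rr (IsLocalRing.residue A)

theorem Mult.res_frob (hq : q.Prime) (hA : A.LiesOverPrime q)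
    (hM : Mult A.valuation ((toRat W)⁄Qbar) x₀ y₀ α β D) :
    rA x₀ ^ q = rA x₀ ∧ rA y₀ ^ q = rA y₀ ∧
      ((rA α ^ q = rA α ∧ rA β ^ q = rA β) ∨ (rA α ^ q = rA β ∧ rA β ^ q = rA α)) := by
  have := Fact.mk hq
  let _ := algRes hA
  have : CharP (IsLocalRing.ResidueField A) q :=
    charP_of_injective_algebraMap (algebraMap (ZMod q) (IsLocalRing.ResidueField A)).injective q
  have hR : IsRed (IsLocalRing.residue A) ((toRat W)⁄Qbar)
    ((W.reductionMod q)⁄(IsLocalRing.ResidueField A)) := isRed_int W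
  have hnode := hM.node hR
  have h1 := hnode.map (frobenius (IsLocalRing.ResidueField A) q)
  have h2 : WeierstrassCurve.map ((W.reductionMod q)⁄(IsLocalRing.ResidueField A))
      (frobenius (IsLocalRing.ResidueField A) q) =
      ((W.reductionMod q)⁄(IsLocalRing.ResidueField A)) := by
    change ((W.reductionMod q).map _).map _ = (W.reductionMod q).map _
    rw [WeierstrassCurve.map_map]
    congr 1
    exact Subsingleton.elim _ _
  rw [h2, _root_.map_zero] at h1
  simp only [frobenius_def] at h1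
  exact hnode.node_unique hM.node_ne h1

theorem Mult.splitAt_iff (hq : q.Prime) (hA : A.LiesOverPrime q)
    (hM : Mult A.valuation ((toRat W)⁄Qbar) x₀ y₀ α β D) :
    SplitAt W q ↔ rA α ^ q = rA α := by
  have := Fact.mk hq
  rw [splitAt_def]
  let _ := algRes hA
  have : CharP (IsLocalRing.ResidueField A) q :=
    charP_of_injective_algebraMap (algebraMap (ZMod q) (IsLocalRing.ResidueField A)).injective q
  have hR : IsRed (IsLocalRing.residue A) ((toRat W)⁄Qbar)
    ((W.reductionMod q)⁄(IsLocalRing.ResidueField A)) := isRed_int W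
  have hnode := hM.node hR
  constructor
  · rintro ⟨x, y, a, b, h⟩
    have h1 := h.map (algebraMap (ZMod q) (IsLocalRing.ResidueField A))
    rw [_root_.map_zero] at h1
    rcases (hnode.node_unique hM.node_ne h1).2.2 with h2 | h2
    · rw [← h2.1, zmod_pow_card]
    · rw [← h2.2, zmod_pow_card]
  · intro hα
    obtain ⟨hx, hy, hαβ⟩ := hM.res_frob hq hA
    have hβ : rA β ^ q = rA β := by
      rcases hαβ with h | h
      · exact h.2
      · rw [h.2, ← h.1, hα]
    obtain ⟨x, hx'⟩ := exists_zmod_of_pow hx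
    obtain ⟨y, hy'⟩ := exists_zmod_of_pow hy
    obtain ⟨a, ha'⟩ := exists_zmod_of_pow hα
    obtain ⟨b, hb'⟩ := exists_zmod_of_pow hβ
    refine ⟨x, y, a, b, ?_⟩
    apply MAlg.of_map (algebraMap (ZMod q) (IsLocalRing.ResidueField A))
    rw [_root_.map_zero, hx', hy', ha', hb']
    exact hnode

theorem Mult.res_pow_sq (hq : q.Prime) (hA : A.LiesOverPrime q)
    (hM : Mult A.valuation ((toRat W)⁄Qbar) x₀ y₀ α β D) : rA α ^ (q ^ 2) = rA α := by
  rcases (hM.res_frob hq hA).2.2 with h | h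
  · rw [sq, pow_mul, h.1, h.1]
  · rw [sq, pow_mul, h.1, h.2]

/-- an element of the decomposition group fixing an element congruent to `α` fixes `α` -/
theorem Mult.fix_of_close (hM : Mult A.valuation ((toRat W)⁄Qbar) x₀ y₀ α β D) {σ : Γℚ}
    (hσ : σ ∈ A.decompositionSubgroup ℚ) {c : Qbar} (hc : A.valuation (α - c) < 1)
    (h : σ c = c) : σ α = α := by
  rcases (hM.gal hσ).2.2.2 with h1 | h1
  · exact h1.1
  · exfalso
    have h2 : A.valuation (σ α - c) < 1 := by
      rw [← h, ← map_sub, v_smul hσ]; exact hc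
    rw [h1.1] at h2
    have h3 := A.valuation.map_sub_lt hc h2
    rw [sub_sub_sub_cancel_right, hM.vδ] at h3
    exact lt_irrefl _ h3

lemma natCast_close (hq : q.Prime) (hA : A.LiesOverPrime q) (s : ZMod q) :
    let _ := Fact.mk hq
    let _ := algRes hA
    algebraMap (ZMod q) (IsLocalRing.ResidueField A) s = rA (s.val : Qbar) := by
  intro _ _
  rw [rr_natCast]
  conv_lhs => rw [← ZMod.natCast_zmod_val s, map_natCast]

theorem Mult.fix_of_split (hq : q.Prime) (hA : A.LiesOverPrime q)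
    (hM : Mult A.valuation ((toRat W)⁄Qbar) x₀ y₀ α β D) (hs : SplitAt W q) {σ : Γℚ}
    (hσ : σ ∈ A.decompositionSubgroup ℚ) : σ α = α := by
  have := Fact.mk hq
  let _ := algRes hA
  obtain ⟨s, hs'⟩ := exists_zmod_of_pow ((hM.splitAt_iff hq hA).mp hs)
  refine hM.fix_of_close hσ (c := (s.val : Qbar)) ?_ (map_natCast σ _)
  rw [← rr_eq_iff (IsLocalRing.residue A) hM.vα (v_natCast_le_one _ _), ← hs']
  exact natCast_close hq hA s

lemma natCast_sq_sub_one (hq : q.Prime) (hA : A.LiesOverPrime q) :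
    ((q ^ 2 - 1 : ℕ) : IsLocalRing.ResidueField A) + 1 = 0 := by
  have h1 : 1 ≤ q ^ 2 := Nat.one_le_pow _ _ hq.pos
  have h2 : ((q ^ 2 - 1 + 1 : ℕ) : IsLocalRing.ResidueField A) = 0 := by
    rw [Nat.sub_add_cancel h1, Nat.cast_pow, residue_natCast_eq_zero hA, zero_pow two_ne_zero]
  rw [Nat.cast_add, Nat.cast_one] at h2
  exact h2

open Polynomial in
theorem Mult.fix_of_even (hq : q.Prime) (hA : A.LiesOverPrime q)
    (hM : Mult A.valuation ((toRat W)⁄Qbar) x₀ y₀ α β D) {σ : Γℚ}
    (hσ : σ ∈ A.decompositionSubgroup ℚ) (he : ∀ ζ : Qbar, ζ ^ (q ^ 2 - 1) = 1 → σ ζ = ζ) :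
    σ α = α := by
  have hN0 : q ^ 2 - 1 ≠ 0 := by
    have : 1 < q ^ 2 := Nat.one_lt_pow two_ne_zero hq.one_lt
    omega
  have h1 : 1 ≤ q ^ 2 := Nat.one_le_pow _ _ hq.pos
  rcases (hM.vα).lt_or_eq with hlt | heq
  · exact hM.fix_of_close hσ (c := 0) (by rwa [sub_zero]) (_root_.map_zero σ)
  · have hne : rA α ≠ 0 := (rr_ne_zero_iff _ hM.vα).mpr heq
    have hpow : rA α ^ (q ^ 2 - 1) = 1 := by
      apply mul_right_cancel₀ hne
      rw [one_mul, ← pow_succ, Nat.sub_add_cancel h1]
      exact hM.res_pow_sq hq hA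
    obtain ⟨ζ, hζ⟩ : ∃ ζ : Qbar, IsPrimitiveRoot ζ (q ^ 2 - 1) := by
      have : NeZero (q ^ 2 - 1) := ⟨hN0⟩
      exact HasEnoughRootsOfUnity.exists_primitiveRoot Qbar (q ^ 2 - 1)
    have hprod : α ^ (q ^ 2 - 1) - 1 = ∏ w ∈ nthRootsFinset (q ^ 2 - 1) (1 : Qbar), (α - w) := by
      have := congrArg (eval α) (X_pow_sub_one_eq_prod (Nat.pos_of_ne_zero hN0) hζ)
      simpa [eval_prod] using this
    have hlt : A.valuation (α ^ (q ^ 2 - 1) - 1) < 1 := by
      rw [← rr_eq_iff (IsLocalRing.residue A) (v_pow_le_one _ hM.vα _) (by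
        rw [_root_.map_one]), rr_pow _ hM.vα, hpow, rr_one]
    have hex : ∃ w ∈ nthRootsFinset (q ^ 2 - 1) (1 : Qbar), A.valuation (α - w) < 1 := by
      by_contra hcon
      push Not at hcon
      rw [hprod, map_prod] at hlt
      have : (1 : A.ValueGroup) ≤ ∏ w ∈ nthRootsFinset (q ^ 2 - 1) (1 : Qbar),
          A.valuation (α - w) := Finset.one_le_prod' hcon
      exact absurd hlt (not_lt.mpr this)
    obtain ⟨w, hw, hwlt⟩ := hex
    rw [mem_nthRootsFinset (Nat.pos_of_ne_zero hN0)] at hw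
    exact hM.fix_of_close hσ hwlt (he w hw)

theorem Mult.even_of_fix (hq : q.Prime) (hA : A.LiesOverPrime q)
    (hM : Mult A.valuation ((toRat W)⁄Qbar) x₀ y₀ α β D) (hs : ¬ SplitAt W q) {σ : Γℚ}
    (hσ : σ ∈ A.decompositionSubgroup ℚ) (hα : σ α = α) (ζ : Qbar)
    (hζ : ζ ^ (q ^ 2 - 1) = 1) : σ ζ = ζ := by
  have := Fact.mk hq
  let _ := algRes hA
  have hN0 : q ^ 2 - 1 ≠ 0 := by
    have : 1 < q ^ 2 := Nat.one_lt_pow two_ne_zero hq.one_lt
    omega
  have h1 : 1 ≤ q ^ 2 := Nat.one_le_pow _ _ hq.pos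
  have hv : A.valuation ζ = 1 := pow_eq_one_valuation hN0 hζ
  have hz0 : ζ ≠ 0 := by rintro rfl; rw [_root_.map_zero] at hv; exact zero_ne_one hv
  have hz : rA ζ ^ (q ^ 2) = rA ζ := by
    rw [← rr_pow _ hv.le]
    congr 1
    calc ζ ^ (q ^ 2) = ζ ^ (q ^ 2 - 1 + 1) := by rw [Nat.sub_add_cancel h1]
      _ = ζ := by rw [pow_succ, hζ, one_mul]
  obtain ⟨s, t, hst⟩ := exists_zmod_add (hM.res_pow_sq hq hA)
    (fun h => hs ((hM.splitAt_iff hq hA).mpr h)) hz
  rw [natCast_close hq hA s, natCast_close hq hA t, ← rr_mul _ (v_natCast_le_one _ _) hM.vα,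
    ← rr_add _ (v_natCast_le_one _ _) (v_mul_le_one _ (v_natCast_le_one _ _) hM.vα),
    rr_eq_iff _ hv.le (v_add_le_one _ (v_natCast_le_one _ _)
      (v_mul_le_one _ (v_natCast_le_one _ _) hM.vα))] at hst
  have h2 : A.valuation (σ ζ - ((s.val : Qbar) + (t.val : Qbar) * α)) < 1 := by
    have : σ ζ - ((s.val : Qbar) + (t.val : Qbar) * α) =
        σ (ζ - ((s.val : Qbar) + (t.val : Qbar) * α)) := by
      rw [map_sub, _root_.map_add, _root_.map_mul, map_natCast, map_natCast, hα]
    rw [this, v_smul hσ]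
    exact hst
  have h3 := A.valuation.map_sub_lt h2 hst
  rw [sub_sub_sub_cancel_right] at h3
  by_contra hne
  refine not_lt_one_of_pow_eq_one (A := A) (ζ := σ ζ / ζ) hN0 (natCast_sq_sub_one hq hA) ?_ ?_ ?_
  · rw [div_pow, ← map_pow, hζ, map_one, div_one]
  · intro h; exact hne ((div_eq_one_iff_eq hz0).mp h)
  · have : σ ζ / ζ - 1 = (σ ζ - ζ) / ζ := by field_simp
    rw [this, map_div₀, hv, div_one]
    exact h3

open Classical in
/-- **The sign character at a multiplicative prime.** -/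
theorem Mult.brSign_eq (hq : q.Prime) (hA : A.LiesOverPrime q)
    (hM : Mult A.valuation ((toRat W)⁄Qbar) x₀ y₀ α β D) {σ : Γℚ}
    (hσ : σ ∈ A.decompositionSubgroup ℚ) :
    brSign α σ = if (∀ ζ : Qbar, ζ ^ (q ^ 2 - 1) = 1 → σ ζ = ζ) then 1 else mSign W q := by
  unfold brSign mSign
  by_cases he : ∀ ζ : Qbar, ζ ^ (q ^ 2 - 1) = 1 → σ ζ = ζ
  · rw [if_pos he, if_pos (hM.fix_of_even hq hA hσ he)]
  · rw [if_neg he]
    by_cases hs : SplitAt W q
    · rw [if_pos hs, if_pos (hM.fix_of_split hq hA hs hσ)]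
    · rw [if_neg hs, if_neg fun h => he fun ζ hζ => hM.even_of_fix hq hA hs hσ h ζ hζ]

end rat

end Fermat.Agent.ECRep
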