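import Fermat.Agent.ECRep.FrobAll

set_option autoImplicit false
set_option linter.unusedSectionVars false

/-!
# Complex conjugations and oddness
-/

namespace Fermat.Agent.ECRep

local notation "Qbar" => AlgebraicClosure ℚ
local notation "Γℚ" => (AlgebraicClosure ℚ ≃ₐ[ℚ] AlgebraicClosure ℚ)

section

variable {c : Γℚ}

lemma invol_apply (hc : c * c = 1) (x : Qbar) : c (c x) = x := by
  have := AlgEquiv.congr_fun hc x
  simpa using this

lemma exists_sq (x : Qbar) : ∃ z : Qbar, z ^ 2 = x :=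
  IsAlgClosed.exists_pow_nat_eq x two_pos

/-- a non-trivial involution moves `√-1`. -/
lemma invol_I (hc : c * c = 1) (h1 : c ≠ 1) {i : Qbar} (hi : i ^ 2 = -1) : c i = -i := by
  by_contra hne
  have hci : c i = i := by
    have h : (c i - i) * (c i + i) = 0 := by
      have : (c i) ^ 2 = -1 := by rw [← map_pow, hi, map_neg, map_one]
      linear_combination this - hi
    rcases mul_eq_zero.mp h with h | h
    · exact sub_eq_zero.mp h
    · exact absurd (eq_neg_of_add_eq_zero_left h) hne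
  obtain ⟨x, hx⟩ : ∃ x, c x ≠ x := by
    by_contra h
    push Not at h
    exact h1 (AlgEquiv.ext h)
  set y := x - c x with hy
  have hy0 : y ≠ 0 := sub_ne_zero.mpr fun h => hx h.symm
  have hcy : c y = -y := by rw [hy, map_sub, invol_apply hc]; ring
  obtain ⟨z, hz⟩ := exists_sq y
  set w := z * c z with hw
  have hcw : c w = w := by rw [hw, map_mul, invol_apply hc]; ring
  have hw2 : w ^ 2 = -y ^ 2 := by
    have : (c z) ^ 2 = -y := by rw [← map_pow, hz, hcy]
    rw [hw, mul_pow, hz, this]; ring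
  have hw0 : w ≠ 0 := by
    intro h
    rw [h] at hw2
    have : y ^ 2 = 0 := by linear_combination hw2
    exact hy0 (pow_eq_zero_iff two_ne_zero |>.mp this)
  have hfac : (w - i * y) * (w + i * y) = 0 := by
    linear_combination hw2 - y ^ 2 * hi
  have hcw' : c w = -w := by
    rcases mul_eq_zero.mp hfac with h | h
    · have hw' : w = i * y := sub_eq_zero.mp h
      rw [hw', map_mul, hci, hcy]; ring
    · have hw' : w = -(i * y) := eq_neg_of_add_eq_zero_left h
      rw [hw', map_neg, map_mul, hci, hcy]; ring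
  rw [hcw] at hcw'
  have : (2 : Qbar) * w = 0 := by linear_combination hcw'
  rcases mul_eq_zero.mp this with h | h
  · exact two_ne_zero h
  · exact hw0 h

/-- a sum of two squares of fixed elements is the square of a fixed element -/
lemma invol_sq_add (hc : c * c = 1) (h1 : c ≠ 1) {a b : Qbar} (ha : c a = a) (hb : c b = b) :
    ∃ d, c d = d ∧ d ^ 2 = a ^ 2 + b ^ 2 := by
  obtain ⟨i, hi⟩ := exists_sq (-1 : Qbar)
  have hci := invol_I hc h1 hi
  obtain ⟨s, hs⟩ := exists_sq (a + i * b)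
  refine ⟨s * c s, by rw [map_mul, invol_apply hc]; ring, ?_⟩
  have : (c s) ^ 2 = a - i * b := by
    rw [← map_pow, hs, map_add, map_mul, ha, hb, hci]; ring
  rw [mul_pow, hs, this]
  linear_combination -b ^ 2 * hi

lemma invol_sum_sq (hc : c * c = 1) (h1 : c ≠ 1) {ι : Type*} (s : Finset ι) (f : ι → Qbar)
    (hf : ∀ j ∈ s, c (f j) = f j) : ∃ d, c d = d ∧ d ^ 2 = ∑ j ∈ s, f j ^ 2 := by
  classical
  induction s using Finset.induction_on with
  | empty => exact ⟨0, map_zero _, by simp⟩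
  | insert a s ha ih =>
    obtain ⟨d, hd, hd2⟩ := ih fun j hj => hf j (Finset.mem_insert_of_mem hj)
    rw [Finset.sum_insert ha, ← hd2]
    exact invol_sq_add hc h1 (hf a (Finset.mem_insert_self a s)) hd

/-- **A non-trivial involution inverts the roots of unity.** -/
theorem invol_root (hc : c * c = 1) (h1 : c ≠ 1) {m : ℕ} (hm : m ≠ 0) {ζ : Qbar}
    (hζ : ζ ^ m = 1) : ζ * c ζ = 1 := by
  obtain ⟨s, hs⟩ := exists_sq ζ
  set t := s * c s with ht
  have hct : c t = t := by rw [ht, map_mul, invol_apply hc]; ring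
  have ht2 : t ^ 2 = ζ * c ζ := by
    rw [ht, mul_pow, hs, ← map_pow, hs]
  rw [← ht2]
  by_contra hne
  have hm1 : (t ^ 2) ^ m = 1 := by
    rw [ht2, mul_pow, ← map_pow, hζ, map_one, one_mul]
  obtain ⟨k, rfl⟩ := Nat.exists_eq_succ_of_ne_zero hm
  have hsum : ∑ j ∈ Finset.range (k + 1), (t ^ j) ^ 2 = 0 := by
    have h2 := geom_sum_mul (t ^ 2) (k + 1)
    rw [hm1, sub_self] at h2
    have h3 := (mul_eq_zero.mp h2).resolve_right (sub_ne_zero.mpr hne)
    rw [← h3]
    exact Finset.sum_congr rfl fun j _ => by ring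
  rw [Finset.sum_range_succ'] at hsum
  obtain ⟨d, hd, hd2⟩ := invol_sum_sq hc h1 (Finset.range k) (fun j => t ^ (j + 1))
    (fun j _ => by rw [map_pow, hct])
  rw [← hd2, pow_zero, one_pow] at hsum
  have hd3 : d ^ 2 = -1 := eq_neg_of_add_eq_zero_left hsum
  have := invol_I hc h1 hd3
  rw [hd] at this
  have h4 : (2 : Qbar) * d = 0 := by linear_combination this
  have h5 : d = 0 := (mul_eq_zero.mp h4).resolve_left two_ne_zero
  rw [h5] at hd3
  norm_num at hd3

/-- **Oddness from the cyclotomic determinant.** -/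
theorem det_invol {B : Type} [CommRing B] [IsLocalRing B] [IsNoetherianRing B] {l : ℕ}
    (hl : l.Prime) (ρ : GaloisRepAdic B) (h : ρ.DetIsCyclotomic l) (hc : c * c = 1)
    (h1 : c ≠ 1) : LinearMap.det (ρ.ρ c) = -1 := by
  refine eq_of_forall_sub_mem h.1 fun n => ?_
  have hpos : 0 < l ^ n := pow_pos hl.pos n
  have key := h.2 n c (l ^ n - 1) fun μ hμ => by
    have h2 := invol_root hc h1 hpos.ne' hμ
    have h3 : μ ^ (l ^ n - 1) * μ = 1 := by
      rw [← pow_succ, Nat.sub_add_cancel hpos, hμ]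
    have h4 : μ ≠ 0 := by
      rintro rfl
      rw [zero_mul] at h2
      exact zero_ne_one h2
    apply mul_right_cancel₀ h4
    rw [h3, mul_comm, h2]
  have h5 : ((l ^ n - 1 : ℕ) : B) = ((l ^ n : ℕ) : B) - 1 := by
    rw [Nat.cast_sub hpos, Nat.cast_one]
  rw [h5] at key
  have h6 : LinearMap.det (ρ.ρ c) - -1 =
    (LinearMap.det (ρ.ρ c) - (((l ^ n : ℕ) : B) - 1)) + ((l ^ n : ℕ) : B) := by ring
  rw [h6]
  exact Ideal.add_mem _ key (Ideal.mem_span_singleton_self _)

end

section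

open WeierstrassCurve WeierstrassCurve.Affine WeierstrassCurve.Affine.Point

variable (W : WeierstrassCurve ℤ) (l : ℕ) [Fact l.Prime]

/-- the determinant of a complex conjugation on the Tate module is `-1` -/
theorem det_invol_tateRep (hΔ : W.Δ ≠ 0) {c : Γℚ} (hc : c * c = 1) (h1 : c ≠ 1) :
    LinearMap.det ((tateRep (toRat W) l (toRat_Δ_ne_zero hΔ)).ρ c) = -1 :=
  det_invol Fact.out _ (detIsCyclotomic W hΔ) hc h1

/-- the determinant on `W[l]` is the reduction of the determinant on the Tate module -/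
theorem det_resRep (hΔ : W.Δ ≠ 0) (σ : Γℚ) :
    LinearMap.det ((resRep (toRat W) l (toRat_Δ_ne_zero hΔ)).ρ σ) =
      PadicInt.toZMod (LinearMap.det ((tateRep (toRat W) l (toRat_Δ_ne_zero hΔ)).ρ σ)) := by
  have h := charpoly_resRep (l := l) (toRat W) (toRat_Δ_ne_zero hΔ) σ
  rw [Cheb.charpoly_eq (resRep (toRat W) l (toRat_Δ_ne_zero hΔ)).finrank_eq,
    Cheb.charpoly_eq (tateRep (toRat W) l (toRat_Δ_ne_zero hΔ)).finrank_eq] at h
  have h0 := congrArg (fun f => Polynomial.coeff f 0) h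
  simpa using h0

/-- the trace on `W[l]` is the reduction of the trace on the Tate module -/
theorem trace_resRep (hΔ : W.Δ ≠ 0) (σ : Γℚ) :
    LinearMap.trace _ _ ((resRep (toRat W) l (toRat_Δ_ne_zero hΔ)).ρ σ) =
      PadicInt.toZMod (LinearMap.trace _ _
        ((tateRep (toRat W) l (toRat_Δ_ne_zero hΔ)).ρ σ)) := by
  have h := charpoly_resRep (l := l) (toRat W) (toRat_Δ_ne_zero hΔ) σ
  rw [Cheb.charpoly_eq (resRep (toRat W) l (toRat_Δ_ne_zero hΔ)).finrank_eq,
    Cheb.charpoly_eq (tateRep (toRat W) l (toRat_Δ_ne_zero hΔ)).finrank_eq] at h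
  have h0 := congrArg (fun f => Polynomial.coeff f 1) h
  simpa [Polynomial.coeff_X, Polynomial.coeff_one, Polynomial.coeff_C] using h0

/-- the determinant of `W[l]` is the cyclotomic character mod `l`. -/
theorem det_resRep_eq (hΔ : W.Δ ≠ 0) (σ : Γℚ) (a : ℕ) (ha : ∀ μ : Qbar, μ ^ l = 1 → σ μ = μ ^ a) :
    LinearMap.det ((resRep (toRat W) l (toRat_Δ_ne_zero hΔ)).ρ σ) = (a : ZMod l) := by
  have h := (detIsCyclotomic (l := l) W hΔ).2 1 σ a (by rwa [pow_one])
  rw [pow_one, Ideal.mem_span_singleton] at h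
  obtain ⟨d, hd⟩ := h
  have h1 := congrArg PadicInt.toZMod hd
  rw [map_sub, map_mul, map_natCast, map_natCast, ZMod.natCast_self, zero_mul,
    ← det_resRep W l hΔ] at h1
  exact sub_eq_zero.mp h1

/-- a residual representation in characteristic `l` has cyclotomic determinant as soon as this is
so on `l`-th roots of unity. -/
theorem detIsCyclotomic_ofResidual {k : Type} [Field k] [CharP k l] (ρ : ResidualGaloisRep k)
    (h : ∀ (σ : Γℚ) (a : ℕ), (∀ μ : Qbar, μ ^ l = 1 → σ μ = μ ^ a) →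
      LinearMap.det (ρ.ρ σ) = (a : k)) :
    (GaloisRepAdic.ofResidualGaloisRep ρ).DetIsCyclotomic l := by
  refine ⟨by rw [CharP.cast_eq_zero]; exact Ideal.zero_mem _, fun n σ a ha => ?_⟩
  rcases Nat.eq_zero_or_pos n with rfl | hn
  · rw [pow_zero, Nat.cast_one, Ideal.span_singleton_one]; trivial
  · have h1 : LinearMap.det (ρ.ρ σ) = (a : k) := h σ a fun μ hμ => ha μ (by
      obtain ⟨k, rfl⟩ := Nat.exists_eq_succ_of_ne_zero hn.ne'
      rw [pow_succ', pow_mul, hμ, one_pow])
    have h2 : LinearMap.det ((GaloisRepAdic.ofResidualGaloisRep ρ).ρ σ) - (a : k) = 0 :=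
      sub_eq_zero.mpr h1
    rw [h2]; exact Ideal.zero_mem _

theorem detIsCyclotomic_resRep (hΔ : W.Δ ≠ 0) : (GaloisRepAdic.ofResidualGaloisRep
    (resRep (toRat W) l (toRat_Δ_ne_zero hΔ))).DetIsCyclotomic l :=
  detIsCyclotomic_ofResidual l _ fun σ a ha => det_resRep_eq W l hΔ σ a ha

/-- **`W[l]` is odd** (in the sense `det ρ(c) = -1`). -/
theorem resRep_isOdd (hΔ : W.Δ ≠ 0) : (resRep (toRat W) l (toRat_Δ_ne_zero hΔ)).IsOdd := by
  intro c hc h1
  rw [det_resRep W l hΔ, det_invol_tateRep W l hΔ hc h1, map_neg, map_one]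

end

end Fermat.Agent.ECRep
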