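import Fermat.Agent.LL.Unip

set_option autoImplicit false

/-!
# Odd irreducible two dimensional representations are absolutely irreducible
-/

open Matrix

namespace Fermat.Agent.ECRep

open Fermat.Agent.LL

variable {F K : Type*} [Field F] [Field K] [Algebra F K] {Γ : Type*} [Group Γ]

/-- An irreducible representation over `F` containing an involution of determinant `-1` has no
stable line over any extension. -/
theorem false_of_eigenvector_odd (h2 : (2 : F) ≠ 0) (R : Γ →* Matrix (Fin 2) (Fin 2) F)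
    (hirr : ∀ v : Fin 2 → F, v ≠ 0 → ∃ γ, ∀ c : F, R γ *ᵥ v ≠ c • v)
    {τ : Γ} (hτ : R τ * R τ = 1) (hdet : (R τ).det = -1)
    {w : Fin 2 → K} (hw : w ≠ 0)
    (hGw : ∀ g, ∃ c : K, ((R g).map (algebraMap F K)) *ᵥ w = c • w) : False := by
  have h2K : (2 : K) ≠ 0 := by
    have h0 := (map_ne_zero (algebraMap F K)).mpr h2
    rwa [map_ofNat] at h0
  -- `R τ` is not scalar
  have hne : ∀ e : F, e * e = 1 → R τ - e • 1 ≠ 0 := by
    intro e he h
    rw [sub_eq_zero] at h
    rw [h, Matrix.det_smul, Matrix.det_one, Fintype.card_fin, mul_one, pow_two, he] at hdet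
    apply h2
    linear_combination hdet
  -- the eigenvalue of `τ` on `w`
  obtain ⟨e, he, hew⟩ : ∃ e : F, e * e = 1 ∧
      (R τ - e • 1).map (algebraMap F K) *ᵥ w = 0 := by
    obtain ⟨c, hc⟩ := hGw τ
    have h1 : (R τ).map (algebraMap F K) * (R τ).map (algebraMap F K) = 1 := by
      rw [← RingHom.mapMatrix_apply, ← map_mul, hτ, map_one]
    have h3 : (c * c) • w = w := by
      rw [mul_smul, ← hc, ← Matrix.mulVec_smul, ← hc, Matrix.mulVec_mulVec, h1,
        Matrix.one_mulVec]
    have h4 : c * c = 1 := by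
      by_contra h
      have h5 : (c * c - 1) • w = 0 := by rw [sub_smul, h3, one_smul, sub_self]
      exact hw ((smul_eq_zero.mp h5).resolve_left (sub_ne_zero.mpr h))
    have hmap : ∀ e : F, (R τ - e • 1).map (algebraMap F K) =
        (R τ).map (algebraMap F K) - algebraMap F K e • 1 := by
      intro e
      ext i j
      rw [Matrix.map_apply, Matrix.sub_apply, Matrix.sub_apply, Matrix.smul_apply,
        Matrix.smul_apply, Matrix.map_apply, map_sub, smul_eq_mul, smul_eq_mul, map_mul]
      congr 2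
      by_cases hij : i = j
      · subst hij
        rw [Matrix.one_apply_eq, Matrix.one_apply_eq, map_one]
      · rw [Matrix.one_apply_ne hij, Matrix.one_apply_ne hij, map_zero]
    rcases mul_self_eq_one_iff.mp h4 with h | h
    · refine ⟨1, one_mul 1, ?_⟩
      rw [hmap, Matrix.sub_mulVec, hc, map_one, h, one_smul, one_smul, Matrix.one_mulVec,
        sub_self]
    · refine ⟨-1, by ring, ?_⟩
      rw [hmap, Matrix.sub_mulVec, hc, map_neg, map_one, h, Matrix.smul_mulVec,
        Matrix.one_mulVec, sub_self]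
  set N := R τ - e • 1 with hNdef
  have hN0 : N ≠ 0 := hne e he
  have hM0 : N.map (algebraMap F K) ≠ 0 := by
    intro h
    apply hN0
    ext i j
    have := congrFun (congrFun h i) j
    rw [Matrix.map_apply] at this
    simpa using this
  have hN' : R τ - (-e) • 1 ≠ 0 := hne (-e) (by rw [neg_mul_neg, he])
  have hprod : N * (R τ - (-e) • 1) = 0 := by
    rw [hNdef, sub_mul, mul_sub, mul_sub, hτ, smul_mul_smul_comm, one_mul, mul_smul_comm, mul_one,
      smul_mul_assoc, one_mul, mul_neg, he, neg_smul, neg_smul, one_smul]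
    abel
  obtain ⟨j, hj⟩ : ∃ j, (R τ - (-e) • 1 : Matrix (Fin 2) (Fin 2) F).col j ≠ 0 := by
    by_contra hcon
    push Not at hcon
    apply hN'
    ext i j
    exact congrFun (hcon j) i
  set v : Fin 2 → F := (R τ - (-e) • 1 : Matrix (Fin 2) (Fin 2) F).col j with hv
  have hNv : N *ᵥ v = 0 := by
    have : N *ᵥ v = (N * (R τ - (-e) • 1)).col j := by
      ext i
      simp [hv, Matrix.mulVec, dotProduct, Matrix.mul_apply, Matrix.col_apply]
    rw [this, hprod]
    rfl
  let vK : Fin 2 → K := fun i => algebraMap F K (v i)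
  have hvK : vK ≠ 0 := by
    intro h
    apply hj
    ext i
    exact (map_eq_zero (algebraMap F K)).mp (congrFun h i)
  have hMv : N.map (algebraMap F K) *ᵥ vK = 0 := by
    ext i
    have := RingHom.map_mulVec (algebraMap F K) N v i
    rw [hNv] at this
    refine this.symm.trans ?_
    simp
  obtain ⟨c, hc⟩ := exists_smul_of_det hvK (det_eq_zero_of_mulVec hM0 hew hMv)
  have hc0 : c ≠ 0 := by
    rintro rfl
    apply hw
    rw [hc, zero_smul]
  obtain ⟨γ, hγ⟩ := hirr v hj
  obtain ⟨d, hd⟩ := hGw γ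
  rw [hc, Matrix.mulVec_smul, smul_comm d c] at hd
  have hd' : (R γ).map (algebraMap F K) *ᵥ vK = d • vK := by
    have h5 : c • ((R γ).map (algebraMap F K) *ᵥ vK - d • vK) = 0 := by
      rw [smul_sub, hd, sub_self]
    exact sub_eq_zero.mp ((smul_eq_zero.mp h5).resolve_left hc0)
  have hRv : ∀ i, ((R γ).map (algebraMap F K) *ᵥ vK) i = algebraMap F K ((R γ *ᵥ v) i) :=
    fun i => (RingHom.map_mulVec (algebraMap F K) (R γ) v i).symm
  have hcross : (R γ *ᵥ v) 0 * v 1 = (R γ *ᵥ v) 1 * v 0 := by
    apply (algebraMap F K).injective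
    rw [map_mul, map_mul, ← hRv, ← hRv, hd']
    simp only [Pi.smul_apply, smul_eq_mul, vK]
    ring
  obtain ⟨d', hd''⟩ := exists_smul_of_det hj hcross
  exact hγ d' hd''

end Fermat.Agent.ECRep
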