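import Fermat.Agent.ECRep.Odd
import Fermat.Agent.ECRep.OddIrr
import Fermat.Agent.ECRep.FrobAll
import Fermat.Agent.DefRing.Rep
import Fermat.Prelude.Def_GaloisRep_ComplexConjugation

set_option autoImplicit false

/-!
# The residual representation of the Tate module
-/

open Matrix IsLocalRing Fermat.Agent.DefRing
open scoped WeierstrassCurve.Affine TensorProduct

namespace Fermat.Agent.ECRep

open WeierstrassCurve WeierstrassCurve.Affine.Point

local notation "Γℚ" => (AlgebraicClosure ℚ ≃ₐ[ℚ] AlgebraicClosure ℚ)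
local notation "Qb" => AlgebraicClosure ℚ

section Hom

variable {l : ℕ} [Fact l.Prime]

/-- ring homomorphisms from `ℤ_l` to a ring killed by `l` factor through `F_l`. -/
theorem padic_hom_eq {k : Type} [CommRing k] [Algebra (ZMod l) k] (f : ℤ_[l] →+* k) (x : ℤ_[l]) :
    f x = algebraMap (ZMod l) k (PadicInt.toZMod x) := by
  have hl : ((l : ℕ) : k) = 0 := by
    rw [← map_natCast (algebraMap (ZMod l) k), ZMod.natCast_self, _root_.map_zero]
  have h := PadicInt.appr_spec 1 x
  rw [Ideal.mem_span_singleton, pow_one] at h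
  obtain ⟨d, hd⟩ := h
  have h1 := congrArg f hd
  have h2 := congrArg (fun z => algebraMap (ZMod l) k (PadicInt.toZMod z)) hd
  simp only [map_sub, map_mul, map_natCast, hl, zero_mul] at h1 h2
  rw [sub_eq_zero.mp h1, sub_eq_zero.mp h2]

end Hom

variable {W : WeierstrassCurve ℚ} {l : ℕ} [Fact l.Prime]

/-- simultaneous matrices for the Tate module and for `W[l]` -/
theorem exists_realizes_pair (hΔ : W.Δ ≠ 0) :
    ∃ r : Γℚ → Matrix (Fin 2) (Fin 2) ℤ_[l], Realizes (tateRep W l hΔ) r ∧
      RealizesRes (resRep W l hΔ) (fun σ => (r σ).map PadicInt.toZMod) := by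
  let b := (tate_exists_basis (l := l) hΔ).some
  obtain ⟨b', hb⟩ := exists_basis_mod hΔ (pow_one l).symm PadicInt.toZMod b
  exact ⟨fun σ => LinearMap.toMatrix b b (tateGal W l σ), ⟨b, fun σ => rfl⟩,
    ⟨b', fun σ => toMatrix_mod (pow_one l).symm PadicInt.toZMod b b' hb σ⟩⟩

/-- **The residual representation of the Tate module**, after base change. -/
theorem residual_isEquiv (hΔ : W.Δ ≠ 0) {B : Type} [CommRing B] [IsLocalRing B]
    (φ : ℤ_[l] →+* B) (hφ : IsLocalHom φ) [Algebra (ZMod l) (ResidueField B)] :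
    ((tateRep W l hΔ).baseChangeAlong φ hφ).residual.IsEquiv
      ((resRep W l hΔ).baseChange (ResidueField B)) := by
  obtain ⟨r, h1, h2⟩ := exists_realizes_pair (l := l) hΔ
  have h3 := (h1.baseChange φ hφ).residual
  have h4 := h2.baseChange (ResidueField B)
  refine h3.isEquiv ?_
  convert h4 using 2 with σ
  ext i j
  rw [Matrix.map_apply, Matrix.map_apply, Matrix.map_apply, Matrix.map_apply]
  exact padic_hom_eq ((residue B).comp φ) _

theorem residual_isEquiv' (hΔ : W.Δ ≠ 0) [Algebra (ZMod l) (ResidueField ℤ_[l])] :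
    (tateRep W l hΔ).residual.IsEquiv ((resRep W l hΔ).baseChange (ResidueField ℤ_[l])) := by
  obtain ⟨r, h1, h2⟩ := exists_realizes_pair (l := l) hΔ
  have h3 := h1.residual
  have h4 := h2.baseChange (ResidueField ℤ_[l])
  refine h3.isEquiv ?_
  convert h4 using 2 with σ
  ext i j
  rw [Matrix.map_apply, Matrix.map_apply, Matrix.map_apply]
  exact padic_hom_eq (residue ℤ_[l]) _

/-- transport of irreducibility along an equivalence -/
theorem isIrreducible_of_isEquiv {k : Type} [Field k] {ρ ρ' : ResidualGaloisRep k}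
    (e : ρ.IsEquiv ρ') (h : ρ.IsIrreducible) : ρ'.IsIrreducible := by
  obtain ⟨e⟩ := e
  intro V hV
  rcases h (V.comap e.toLinearEquiv.toLinearMap) (fun σ x hx => by
    rw [Submodule.mem_comap] at hx ⊢
    have h1 := e.map_apply σ x
    have h2 : e.toLinearEquiv.toLinearMap (ρ.ρ σ x) = ρ'.ρ σ (e.toLinearEquiv x) := h1
    rw [h2]
    exact hV σ _ hx) with h1 | h1
  · left
    rw [eq_bot_iff]
    intro y hy
    have h2 : e.toLinearEquiv.symm y ∈ V.comap e.toLinearEquiv.toLinearMap := by
      rw [Submodule.mem_comap]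
      simpa using hy
    rw [h1, Submodule.mem_bot] at h2
    rw [Submodule.mem_bot]
    simpa using h2
  · right
    rw [eq_top_iff]
    intro y _
    have h2 : e.toLinearEquiv.symm y ∈ V.comap e.toLinearEquiv.toLinearMap := by
      rw [h1]; trivial
    rw [Submodule.mem_comap] at h2
    simpa using h2

section Irr

variable {F : Type} [Field F] {ρ : ResidualGaloisRep F} {r : Γℚ → Matrix (Fin 2) (Fin 2) F}

/-- irreducibility in terms of eigenvectors -/
theorem exists_not_eigen (h : RealizesRes ρ r) (hirr : ρ.IsIrreducible) (v : Fin 2 → F)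
    (hv : v ≠ 0) : ∃ γ, ∀ c : F, r γ *ᵥ v ≠ c • v := by
  obtain ⟨b, hb⟩ := h
  by_contra hcon
  push Not at hcon
  choose c hc using hcon
  set x : ρ.V := b.equivFun.symm v with hx
  have hx0 : x ≠ 0 := by
    rw [hx, Ne, LinearEquiv.map_eq_zero_iff]
    exact hv
  have hrep : ⇑(b.repr x) = v := by
    have : b.equivFun x = v := by rw [hx, LinearEquiv.apply_symm_apply]
    exact this
  have hρ : ∀ σ, ρ.ρ σ x = c σ • x := by
    intro σ
    apply b.repr.injective
    apply DFunLike.coe_injective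
    rw [map_smul]
    have h1 := LinearMap.toMatrix_mulVec_repr b b (ρ.ρ σ) x
    rw [hrep, hb, hc σ] at h1
    rw [← h1, ← hrep]
    rfl
  rcases hirr (Submodule.span F {x}) (by
    intro σ y hy
    obtain ⟨d, rfl⟩ := Submodule.mem_span_singleton.mp hy
    rw [map_smul, hρ]
    exact Submodule.smul_mem _ _ (Submodule.smul_mem _ _ (Submodule.mem_span_singleton_self x)))
    with h | h
  · exact hx0 (Submodule.span_singleton_eq_bot.mp h)
  · have h1 : Module.finrank F (Submodule.span F {x}) ≤ 1 := by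
      refine (finrank_span_le_card _).trans ?_
      simp
    rw [h, finrank_top, ρ.finrank_eq] at h1
    omega

theorem isIrreducible_of_eigen (h : RealizesRes ρ r)
    (hne : ∀ w : Fin 2 → F, w ≠ 0 → (∀ σ, ∃ c : F, r σ *ᵥ w = c • w) → False) :
    ρ.IsIrreducible := by
  obtain ⟨b, hb⟩ := h
  have : Module.Finite F ρ.V := Module.Finite.of_basis b
  intro V hV
  by_contra hcon
  push Not at hcon
  have h1 : Module.finrank F V = 1 := by
    have h2 : Module.finrank F V < 2 := ρ.finrank_eq ▸ Submodule.finrank_lt hcon.2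
    have h3 : Module.finrank F V ≠ 0 := fun h => hcon.1 (Submodule.finrank_eq_zero.mp h)
    omega
  obtain ⟨x, hx0, hx⟩ := finrank_eq_one_iff'.mp h1
  refine hne (b.repr x) ?_ fun σ => ?_
  · intro h
    apply hx0
    apply Subtype.ext
    apply b.repr.injective
    rw [Submodule.coe_zero, _root_.map_zero]
    exact DFunLike.coe_injective h
  · obtain ⟨c, hc⟩ := hx ⟨ρ.ρ σ x, hV σ x x.2⟩
    refine ⟨c, ?_⟩
    rw [← hb, LinearMap.toMatrix_mulVec_repr]
    have h4 : ρ.ρ σ x = c • (x : ρ.V) := congrArg Subtype.val hc.symm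
    rw [h4, map_smul]
    rfl

theorem complexConj_ne_one : complexConjugation ≠ 1 := by
  intro h
  obtain ⟨x, hx⟩ := IsAlgClosed.exists_pow_nat_eq (-1 : AlgebraicClosure ℚ) (n := 2) two_pos
  have h1 := complexEmbedding_complexConjugation x
  rw [h] at h1
  have h2 : (complexEmbedding x) ^ 2 = -1 := by rw [← map_pow, hx, _root_.map_neg, map_one]
  have h3 : complexEmbedding ((1 : Γℚ) x) = complexEmbedding x := rfl
  rw [h3] at h1
  have h4 : (complexEmbedding x).im = 0 := Complex.conj_eq_iff_im.mp h1.symm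
  have h5 := congrArg Complex.re h2
  rw [sq, Complex.mul_re, h4] at h5
  simp at h5
  nlinarith [mul_self_nonneg (complexEmbedding x).re]

/-- **Odd + irreducible implies irreducible over every extension.** -/
theorem irr_baseChange_of_odd (h2 : (2 : F) ≠ 0) (hirr : ρ.IsIrreducible) (hodd : ρ.IsOdd)
    (K : Type) [Field K] [Algebra F K] : (ρ.baseChange K).IsIrreducible := by
  obtain ⟨r, hr⟩ := exists_realizesRes ρ
  let R : Γℚ →* Matrix (Fin 2) (Fin 2) F :=
    { toFun := r, map_one' := hr.map_one, map_mul' := hr.map_mul }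
  refine isIrreducible_of_eigen (hr.baseChange K) fun w hw hw2 => ?_
  refine false_of_eigenvector_odd (K := K) h2 R (fun v hv => exists_not_eigen hr hirr v hv)
    (τ := complexConjugation) ?_ ?_ hw hw2
  · rw [← map_mul, complexConjugation_mul_self, map_one]
  · obtain ⟨b, hb⟩ := hr
    change (r complexConjugation).det = -1
    rw [← hb, LinearMap.det_toMatrix]
    exact hodd _ complexConjugation_mul_self complexConj_ne_one

theorem isOdd_of_isEquiv {ρ' : ResidualGaloisRep F} (e : ρ.IsEquiv ρ') (h : ρ.IsOdd) :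
    ρ'.IsOdd := by
  intro c hc hc1
  obtain ⟨r, hr⟩ := exists_realizesRes ρ
  have hr' := hr.of_isEquiv e
  obtain ⟨b, hb⟩ := hr
  obtain ⟨b', hb'⟩ := hr'
  rw [← LinearMap.det_toMatrix b', hb', ← hb, LinearMap.det_toMatrix]
  exact h c hc hc1

theorem isOdd_baseChange (K : Type) [Field K] [Algebra F K] (h : ρ.IsOdd) :
    (ρ.baseChange K).IsOdd := by
  intro c hc hc1
  have h1 : LinearMap.det ((ρ.baseChange K).ρ c) = algebraMap F K (LinearMap.det (ρ.ρ c)) :=
    LinearMap.det_baseChange (ρ.ρ c)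
  rw [h1, h c hc hc1, _root_.map_neg, map_one]

end Irr

theorem two_ne_zero_of_ne {l : ℕ} [hl : Fact l.Prime] (h2 : l ≠ 2) : (2 : ZMod l) ≠ 0 := by
  intro h
  have h1 : ((2 : ℕ) : ZMod l) = 0 := by exact_mod_cast h
  rw [ZMod.natCast_eq_zero_iff] at h1
  exact h2 ((Nat.prime_dvd_prime_iff_eq hl.out Nat.prime_two).mp h1)

/-- the residual representation of the Tate module is absolutely irreducible and odd -/
theorem tate_residual_absIrr (hΔ : W.Δ ≠ 0) (h2 : l ≠ 2) (hirr : (resRep W l hΔ).IsIrreducible)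
    (hodd : (resRep W l hΔ).IsOdd) :
    (tateRep W l hΔ).residual.IsAbsolutelyIrreducible ∧ (tateRep W l hΔ).residual.IsOdd := by
  have hmax : ((l : ℕ) : ℤ_[l]) ∈ IsLocalRing.maximalIdeal ℤ_[l] := by
    rw [PadicInt.maximalIdeal_eq_span_p]; exact Ideal.mem_span_singleton_self _
  have hchar : ((l : ℕ) : ResidueField ℤ_[l]) = 0 := by
    rw [← map_natCast (residue ℤ_[l]), residue_eq_zero_iff]; exact hmax
  have : CharP (ResidueField ℤ_[l]) l :=
    (CharP.charP_iff_prime_eq_zero (Fact.out : l.Prime)).2 hchar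
  let _ : Algebra (ZMod l) (ResidueField ℤ_[l]) := ZMod.algebra _ l
  have e := residual_isEquiv' (l := l) hΔ
  have hb : ((resRep W l hΔ).baseChange (ResidueField ℤ_[l])).IsIrreducible :=
    irr_baseChange_of_odd (two_ne_zero_of_ne h2) hirr hodd _
  have ho := isOdd_baseChange (ResidueField ℤ_[l]) hodd
  have h2' : (2 : ResidueField ℤ_[l]) ≠ 0 := by
    have h0 := (map_ne_zero (algebraMap (ZMod l) (ResidueField ℤ_[l]))).mpr
      (two_ne_zero_of_ne (l := l) h2)
    rwa [map_ofNat] at h0
  obtain ⟨e⟩ := e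
  have hi := isIrreducible_of_isEquiv ⟨e.symm⟩ hb
  have ho' := isOdd_of_isEquiv ⟨e.symm⟩ ho
  exact ⟨irr_baseChange_of_odd h2' hi ho' _, ho'⟩

end Fermat.Agent.ECRep
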