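import Mathlib

set_option autoImplicit false
set_option linter.unusedSectionVars false

/-!
# Tate modules of abelian groups with `l^(2n)` points of `l^n`-torsion
-/

namespace Fermat.Agent.ECRep

section tate

variable (E : Type*) [AddCommGroup E] (l : ℕ)

/-- The Tate module of an abelian group, as a subgroup of the group of sequences. -/
def tateSub : AddSubgroup (ℕ → E) where
  carrier := {x | x 0 = 0 ∧ ∀ n, l • x (n + 1) = x n}
  zero_mem' := ⟨rfl, fun n => by simp⟩
  add_mem' := by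
    rintro a b ⟨ha, ha'⟩ ⟨hb, hb'⟩
    exact ⟨by simp [ha, hb], fun n => by simp [smul_add, ha', hb']⟩
  neg_mem' := by
    rintro a ⟨ha, ha'⟩
    exact ⟨by simp [ha], fun n => by simp [smul_neg, ha']⟩

/-- The Tate module of an abelian group. -/
abbrev Tate : Type _ := tateSub E l

variable {E l}

lemma mem_tateSub {x : ℕ → E} : x ∈ tateSub E l ↔ x 0 = 0 ∧ ∀ n, l • x (n + 1) = x n := Iff.rfl

lemma Tate.ext {x y : Tate E l} (h : ∀ n, x.1 n = y.1 n) : x = y := Subtype.ext (funext h)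

@[simp] lemma Tate.coe_add (x y : Tate E l) (n : ℕ) : (x + y).1 n = x.1 n + y.1 n := rfl
@[simp] lemma Tate.coe_sub (x y : Tate E l) (n : ℕ) : (x - y).1 n = x.1 n - y.1 n := rfl
@[simp] lemma Tate.coe_neg (x : Tate E l) (n : ℕ) : (-x).1 n = - x.1 n := rfl
@[simp] lemma Tate.coe_zero (n : ℕ) : (0 : Tate E l).1 n = 0 := rfl

lemma Tate.zero (x : Tate E l) : x.1 0 = 0 := x.2.1

lemma Tate.smul_succ (x : Tate E l) (n : ℕ) : l • x.1 (n + 1) = x.1 n := x.2.2 n

lemma Tate.pow_smul (x : Tate E l) (m n : ℕ) : l ^ m • x.1 (n + m) = x.1 n := by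
  induction m with
  | zero => simp
  | succ m ih =>
    rw [pow_succ, mul_smul, ← Nat.add_assoc, x.smul_succ, ih]

lemma Tate.torsion (x : Tate E l) (n : ℕ) : l ^ n • x.1 n = 0 := by
  have := x.pow_smul n 0
  rwa [Nat.zero_add, x.zero] at this

lemma nsmul_congr {n : ℕ} {x : E} (hx : l ^ n • x = 0) {a b : ℕ}
    (h : (a : ZMod (l ^ n)) = (b : ZMod (l ^ n))) : a • x = b • x := by
  have h1 : ((l ^ n : ℕ) : ℤ) ∣ (b : ℤ) - (a : ℤ) := by
    rw [← Int.cast_natCast a, ← Int.cast_natCast b] at h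
    exact (ZMod.intCast_eq_intCast_iff_dvd_sub _ _ _).mp h
  obtain ⟨c, hc⟩ := h1
  have h2 : (b : ℤ) • x - (a : ℤ) • x = 0 := by
    rw [← sub_smul, hc, mul_comm, mul_smul, natCast_zsmul, hx, smul_zero]
  rw [natCast_zsmul, natCast_zsmul] at h2
  exact (sub_eq_zero.mp h2).symm

variable [Fact l.Prime]

lemma appr_cast (c : ℤ_[l]) (n : ℕ) : ((c.appr n : ℕ) : ZMod (l ^ n)) = PadicInt.toZModPow n c :=
  rfl

lemma appr_smul_eq {n : ℕ} {x : E} (hx : l ^ n • x = 0) (c : ℤ_[l]) {m : ℕ}
    (h : (m : ZMod (l ^ n)) = PadicInt.toZModPow n c) : c.appr n • x = m • x :=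
  nsmul_congr hx (by rw [appr_cast, h])

lemma appr_cast' (c : ℤ_[l]) (n : ℕ) :
    ((c.appr (n + 1) : ℕ) : ZMod (l ^ n)) = PadicInt.toZModPow n c := by
  rw [← PadicInt.cast_toZModPow n (n + 1) (Nat.le_succ n) c, ← appr_cast,
    ZMod.cast_natCast (pow_dvd_pow l (Nat.le_succ n))]

noncomputable instance Tate.instSMul : SMul ℤ_[l] (Tate E l) where
  smul c x := ⟨fun n => c.appr n • x.1 n, by
    refine ⟨by change _ • x.1 0 = 0; rw [x.zero, smul_zero], fun n => ?_⟩
    change l • (c.appr (n + 1) • x.1 (n + 1)) = c.appr n • x.1 n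
    rw [smul_comm, x.smul_succ]
    exact nsmul_congr (x.torsion n) (by rw [appr_cast', appr_cast])⟩

lemma Tate.smul_coe (c : ℤ_[l]) (x : Tate E l) (n : ℕ) : (c • x).1 n = c.appr n • x.1 n := rfl

lemma Tate.smul_coe' (c : ℤ_[l]) (x : Tate E l) (n : ℕ) {m : ℕ}
    (h : (m : ZMod (l ^ n)) = PadicInt.toZModPow n c) : (c • x).1 n = m • x.1 n := by
  rw [Tate.smul_coe]; exact appr_smul_eq (x.torsion n) c h

noncomputable instance Tate.instModule : Module ℤ_[l] (Tate E l) where
  one_smul x := Tate.ext fun n => by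
    rw [Tate.smul_coe' 1 x n (m := 1) (by simp), one_smul]
  mul_smul c d x := Tate.ext fun n => by
    rw [Tate.smul_coe' (c * d) x n (m := c.appr n * d.appr n)
      (by rw [Nat.cast_mul, appr_cast, appr_cast, _root_.map_mul]), Tate.smul_coe, Tate.smul_coe,
      mul_smul]
  smul_zero c := Tate.ext fun n => by
    rw [Tate.smul_coe, Tate.coe_zero, smul_zero]
  smul_add c x y := Tate.ext fun n => by
    rw [Tate.smul_coe, Tate.coe_add, smul_add]; rfl
  add_smul c d x := Tate.ext fun n => by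
    rw [Tate.smul_coe' (c + d) x n (m := c.appr n + d.appr n)
      (by rw [Nat.cast_add, appr_cast, appr_cast, map_add]), Tate.coe_add, Tate.smul_coe,
      Tate.smul_coe, add_smul]
  zero_smul x := Tate.ext fun n => by
    rw [Tate.smul_coe' 0 x n (m := 0) (by simp), zero_smul]; rfl

lemma Tate.natCast_smul (m : ℕ) (x : Tate E l) (n : ℕ) : (((m : ℕ) : ℤ_[l]) • x).1 n = m • x.1 n :=
  Tate.smul_coe' _ x n (by simp)

lemma Tate.nsmul_coe (m : ℕ) (x : Tate E l) (n : ℕ) : (m • x).1 n = m • x.1 n := rfl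

lemma Tate.zsmul_coe (m : ℤ) (x : Tate E l) (n : ℕ) : (m • x).1 n = m • x.1 n := rfl

lemma Tate.intCast_smul (m : ℤ) (x : Tate E l) (n : ℕ) :
    (((m : ℤ) : ℤ_[l]) • x).1 n = m • x.1 n := by
  rw [Int.cast_smul_eq_zsmul, Tate.zsmul_coe]

/-- Additive maps induce linear maps on Tate modules. -/
noncomputable def Tate.map {E' : Type*} [AddCommGroup E'] (f : E →+ E') :
    Tate E l →ₗ[ℤ_[l]] Tate E' l where
  toFun x := ⟨fun n => f (x.1 n), by change f (x.1 0) = 0; rw [x.zero, map_zero], fun n => by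
    change l • f (x.1 (n + 1)) = f (x.1 n)
    rw [← map_nsmul, x.smul_succ]⟩
  map_add' x y := Tate.ext fun n => map_add f _ _
  map_smul' c x := Tate.ext fun n => by
    change f ((c • x).1 n) = c.appr n • f (x.1 n)
    rw [Tate.smul_coe, map_nsmul]

@[simp] lemma Tate.map_coe {E' : Type*} [AddCommGroup E'] (f : E →+ E') (x : Tate E l) (n : ℕ) :
    (Tate.map f x).1 n = f (x.1 n) := rfl

/-! ### Structure -/

/-- the torsion-freeness -/
lemma Tate.eq_zero_of_smul {x : Tate E l} {m : ℕ} (h : (l ^ m) • x = 0) : x = 0 := by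
  refine Tate.ext fun n => ?_
  rw [← x.pow_smul m n, ← Tate.nsmul_coe, h]; rfl

variable (hcard : ∀ n : ℕ, Nat.card {x : E // l ^ n • x = 0} = (l ^ n) ^ 2)
include hcard

lemma finite_tors (n : ℕ) : Finite {x : E // l ^ n • x = 0} := by
  refine Nat.finite_of_card_ne_zero ?_
  rw [hcard]
  have := (Fact.out : l.Prime).pos
  positivity

/-- divisibility of torsion points -/
lemma exists_div {n : ℕ} {x : E} (hx : l ^ n • x = 0) : ∃ y : E, l • y = x := by
  have hl := (Fact.out : l.Prime).pos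
  let T : ℕ → AddSubgroup E := fun n => (nsmulAddMonoidHom (α := E) (l ^ n)).ker
  have hT : ∀ n (x : E), x ∈ T n ↔ l ^ n • x = 0 := fun n x => Iff.rfl
  have hTc : ∀ n, Nat.card (T n) = (l ^ n) ^ 2 := fun n => by rw [← hcard n]; rfl
  have hTf : ∀ n, Finite (T n) := fun n =>
    Nat.finite_of_card_ne_zero (by rw [hTc]; positivity)
  let g : T (n + 1) →+ T n :=
    { toFun := fun y => ⟨l • y.1, by
        rw [hT, ← mul_smul, ← pow_succ]; exact y.2⟩
      map_zero' := Subtype.ext (by simp)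
      map_add' := fun a b => Subtype.ext (by simp) }
  have hker : Nat.card g.ker = l ^ 2 := by
    have h1 := hTc 1
    rw [pow_one] at h1
    rw [← h1]
    refine Nat.card_congr ⟨fun z => ⟨z.1.1, ?_⟩, fun z => ⟨⟨z.1, ?_⟩, ?_⟩, ?_, ?_⟩
    · have := z.2
      rw [AddMonoidHom.mem_ker] at this
      have h2 := congrArg Subtype.val this
      rw [hT, pow_one]
      exact h2
    · rw [hT, pow_succ, mul_smul]
      have := (hT 1 z.1).mp z.2
      rw [pow_one] at this
      rw [this, smul_zero]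
    · rw [AddMonoidHom.mem_ker]
      apply Subtype.ext
      have := (hT 1 z.1).mp z.2
      rw [pow_one] at this
      exact this
    · intro z; rfl
    · intro z; rfl
  have hmul : Nat.card g.range * Nat.card g.ker = Nat.card (T (n + 1)) := by
    rw [← Nat.card_congr (QuotientAddGroup.quotientKerEquivRange g).toEquiv]
    exact (AddSubgroup.card_eq_card_quotient_mul_card_addSubgroup g.ker).symm
  have hrange : Nat.card g.range = Nat.card (T n) := by
    rw [hker, hTc] at hmul
    rw [hTc]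
    have h3 : (l ^ (n + 1)) ^ 2 = (l ^ n) ^ 2 * l ^ 2 := by ring
    rw [h3] at hmul
    exact Nat.eq_of_mul_eq_mul_right (by positivity) hmul
  have htop : g.range = ⊤ := AddSubgroup.eq_top_of_card_eq _ hrange
  have hmem : (⟨x, hx⟩ : T n) ∈ g.range := by rw [htop]; trivial
  obtain ⟨y, hy⟩ := hmem
  exact ⟨y.1, congrArg Subtype.val hy⟩

/-- every torsion point lifts to the Tate module -/
lemma exists_lift {n : ℕ} {x : E} (hx : l ^ n • x = 0) : ∃ t : Tate E l, t.1 n = x := by
  classical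
  have step : ∀ (k : ℕ) (y : {y : E // l ^ (n + k) • y = 0}),
      ∃ z : {z : E // l ^ (n + (k + 1)) • z = 0}, l • z.1 = y.1 := by
    intro k y
    obtain ⟨z, hz⟩ := exists_div hcard y.2
    refine ⟨⟨z, ?_⟩, hz⟩
    rw [← Nat.add_assoc, pow_succ, mul_smul, hz, y.2]
  choose f hf using step
  let s : ∀ k : ℕ, {y : E // l ^ (n + k) • y = 0} := fun k =>
    Nat.rec ⟨x, hx⟩ (fun k y => f k y) k
  have hs : ∀ k, l • (s (k + 1)).1 = (s k).1 := fun k => hf k (s k)
  have hs0 : ∀ k, l ^ k • (s k).1 = x := by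
    intro k
    induction k with
    | zero => simp [s]
    | succ k ih => rw [pow_succ, mul_smul, hs, ih]
  refine ⟨⟨fun m => l ^ n • (s m).1, ?_, fun m => ?_⟩, hs0 n⟩
  · have h0 : (s 0).1 = x := by have := hs0 0; simpa using this
    change l ^ n • (s 0).1 = 0
    rw [h0, hx]
  · change l • (l ^ n • (s (m + 1)).1) = l ^ n • (s m).1
    rw [smul_comm, hs]

/-- if all components up to `n` vanish the element is divisible by `l ^ n`. -/
lemma exists_smul_of_coe_eq_zero {n : ℕ} {x : Tate E l} (hx : x.1 n = 0) :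
    ∃ y : Tate E l, l ^ n • y = x := by
  refine ⟨⟨fun m => x.1 (m + n), ?_, fun m => ?_⟩, Tate.ext fun m => ?_⟩
  · change x.1 (0 + n) = 0
    rw [Nat.zero_add]; exact hx
  · have h1 := x.smul_succ (m + n)
    have h2 : m + n + 1 = m + 1 + n := by omega
    rw [h2] at h1
    exact h1
  · rw [Tate.nsmul_coe]
    exact x.pow_smul n m

end tate

section basis

variable {E : Type*} [AddCommGroup E] {l : ℕ} [Fact l.Prime]

/-- independence at finite level -/
lemma dvd_of_comb {p q : Tate E l}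
    (hind : ∀ a b : ℤ, a • p.1 1 + b • q.1 1 = 0 → (l : ℤ) ∣ a ∧ (l : ℤ) ∣ b) (n : ℕ) :
    ∀ a b : ℤ, a • p.1 n + b • q.1 n = 0 → (l : ℤ) ^ n ∣ a ∧ (l : ℤ) ^ n ∣ b := by
  induction n with
  | zero => intro a b _; simp
  | succ n ih =>
    intro a b h
    have h1 : a • p.1 1 + b • q.1 1 = 0 := by
      have hp := p.pow_smul n 1
      have hq := q.pow_smul n 1
      rw [Nat.add_comm 1 n] at hp hq
      rw [← hp, ← hq, smul_comm, smul_comm b, ← smul_add, h, smul_zero]
    obtain ⟨⟨a', rfl⟩, ⟨b', rfl⟩⟩ := hind a b h1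
    have h2 : a' • p.1 n + b' • q.1 n = 0 := by
      rw [← p.smul_succ, ← q.smul_succ]
      rw [mul_comm, mul_smul, mul_comm (l : ℤ) b', mul_smul, natCast_zsmul, natCast_zsmul] at h
      exact h
    obtain ⟨h3, h4⟩ := ih a' b' h2
    exact ⟨by rw [pow_succ, mul_comm]; exact mul_dvd_mul_left _ h3,
      by rw [pow_succ, mul_comm]; exact mul_dvd_mul_left _ h4⟩

/-- The linear map from coordinates. -/
noncomputable def coordMap (p q : Tate E l) : (Fin 2 → ℤ_[l]) →ₗ[ℤ_[l]] Tate E l where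
  toFun c := c 0 • p + c 1 • q
  map_add' c d := by simp only [Pi.add_apply, add_smul]; abel
  map_smul' r c := by simp only [Pi.smul_apply, smul_eq_mul, mul_smul, smul_add, RingHom.id_apply]

lemma coordMap_injective {p q : Tate E l}
    (hind : ∀ a b : ℤ, a • p.1 1 + b • q.1 1 = 0 → (l : ℤ) ∣ a ∧ (l : ℤ) ∣ b) :
    Function.Injective (coordMap p q) := by
  rw [injective_iff_map_eq_zero]
  intro c hc
  have hc' : c 0 • p + c 1 • q = 0 := hc
  have key : ∀ n : ℕ, PadicInt.toZModPow n (c 0) = 0 ∧ PadicInt.toZModPow n (c 1) = 0 := by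
    intro n
    have h1 : (c 0 • p + c 1 • q).1 n = 0 := by rw [hc']; rfl
    rw [Tate.coe_add, Tate.smul_coe, Tate.smul_coe, ← natCast_zsmul, ← natCast_zsmul] at h1
    obtain ⟨h2, h3⟩ := dvd_of_comb hind n _ _ h1
    rw [← appr_cast, ← appr_cast]
    constructor
    · rw [ZMod.natCast_eq_zero_iff]; exact_mod_cast h2
    · rw [ZMod.natCast_eq_zero_iff]; exact_mod_cast h3
  have e0 : c 0 = 0 := PadicInt.ext_of_toZModPow.mp fun n => by rw [(key n).1]; simp
  have e1 : c 1 = 0 := PadicInt.ext_of_toZModPow.mp fun n => by rw [(key n).2]; simp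
  funext i
  fin_cases i
  · exact e0
  · exact e1

lemma coordMap_surjective (hcard : ∀ n : ℕ, Nat.card {x : E // l ^ n • x = 0} = (l ^ n) ^ 2)
    {p q : Tate E l}
    (hind : ∀ a b : ℤ, a • p.1 1 + b • q.1 1 = 0 → (l : ℤ) ∣ a ∧ (l : ℤ) ∣ b) :
    Function.Surjective (coordMap p q) := by
  classical
  have hl := (Fact.out : l.Prime).pos
  -- finite level surjectivity
  have hfin : ∀ (n : ℕ) (x : E), l ^ n • x = 0 → ∃ a b : ℤ, a • p.1 n + b • q.1 n = x := by
    intro n x hx
    have : NeZero (l ^ n) := ⟨by positivity⟩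
    let φ : ZMod (l ^ n) × ZMod (l ^ n) → {x : E // l ^ n • x = 0} := fun c =>
      ⟨c.1.val • p.1 n + c.2.val • q.1 n, by
        rw [smul_add, smul_comm, p.torsion, smul_zero, smul_comm, q.torsion, smul_zero, add_zero]⟩
    have hφ : Function.Injective φ := by
      rintro ⟨a, b⟩ ⟨a', b'⟩ h
      have h1 : a.val • p.1 n + b.val • q.1 n = a'.val • p.1 n + b'.val • q.1 n :=
        congrArg Subtype.val h
      have h2 : ((a.val : ℤ) - a'.val) • p.1 n + ((b.val : ℤ) - b'.val) • q.1 n = 0 := by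
        rw [sub_smul, sub_smul, natCast_zsmul, natCast_zsmul, natCast_zsmul, natCast_zsmul]
        have : a.val • p.1 n - a'.val • p.1 n + (b.val • q.1 n - b'.val • q.1 n) =
          (a.val • p.1 n + b.val • q.1 n) - (a'.val • p.1 n + b'.val • q.1 n) := by abel
        rw [this, h1, sub_self]
      obtain ⟨h3, h4⟩ := dvd_of_comb hind n _ _ h2
      have e1 : a = a' := by
        have h5 := (ZMod.intCast_eq_intCast_iff_dvd_sub (a'.val : ℤ) (a.val : ℤ) (l ^ n)).mpr
          (by exact_mod_cast h3)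
        simpa using h5.symm
      have e2 : b = b' := by
        have h5 := (ZMod.intCast_eq_intCast_iff_dvd_sub (b'.val : ℤ) (b.val : ℤ) (l ^ n)).mpr
          (by exact_mod_cast h4)
        simpa using h5.symm
      rw [e1, e2]
    have := finite_tors hcard n
    have hcardEq : Nat.card (ZMod (l ^ n) × ZMod (l ^ n)) = Nat.card {x : E // l ^ n • x = 0} := by
      rw [Nat.card_prod, Nat.card_zmod, hcard]; ring
    have hbij : Function.Bijective φ := by
      have : Fintype {x : E // l ^ n • x = 0} := Fintype.ofFinite _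
      rw [Fintype.bijective_iff_injective_and_card]
      refine ⟨hφ, ?_⟩
      rwa [← Nat.card_eq_fintype_card, ← Nat.card_eq_fintype_card]
    obtain ⟨⟨a, b⟩, hab⟩ := hbij.2 ⟨x, hx⟩
    refine ⟨a.val, b.val, ?_⟩
    rw [natCast_zsmul, natCast_zsmul]
    exact congrArg Subtype.val hab
  intro t
  choose a b hab using fun n => hfin n (t.1 n) (t.torsion n)
  have hstep : ∀ n, (l : ℤ) ^ n ∣ a (n + 1) - a n ∧ (l : ℤ) ^ n ∣ b (n + 1) - b n := by
    intro n
    apply dvd_of_comb hind n
    have h1 := hab (n + 1)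
    have h2 := congrArg (fun z => l • z) h1
    simp only [smul_add] at h2
    rw [smul_comm, p.smul_succ, smul_comm, q.smul_succ, t.smul_succ, ← hab n] at h2
    rw [sub_smul, sub_smul]
    have : a (n + 1) • p.1 n - a n • p.1 n + (b (n + 1) • q.1 n - b n • q.1 n) =
      (a (n + 1) • p.1 n + b (n + 1) • q.1 n) - (a n • p.1 n + b n • q.1 n) := by abel
    rw [this, h2, sub_self]
  let α : ℤ_[l] := PadicInt.ofIntSeq _ (PadicInt.isCauSeq_padicNorm_of_pow_dvd_sub a l
    fun n => (hstep n).1)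
  let β : ℤ_[l] := PadicInt.ofIntSeq _ (PadicInt.isCauSeq_padicNorm_of_pow_dvd_sub b l
    fun n => (hstep n).2)
  have hα : ∀ n, PadicInt.toZModPow n α = a n :=
    PadicInt.toZModPow_ofIntSeq_of_pow_dvd_sub a l fun n => (hstep n).1
  have hβ : ∀ n, PadicInt.toZModPow n β = b n :=
    PadicInt.toZModPow_ofIntSeq_of_pow_dvd_sub b l fun n => (hstep n).2
  refine ⟨![α, β], Tate.ext fun n => ?_⟩
  change (α • p + β • q).1 n = t.1 n
  rw [Tate.coe_add, Tate.smul_coe, Tate.smul_coe, ← hab n]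
  have hz : ∀ (c : ℤ_[l]) (m : ℤ) (x : E), l ^ n • x = 0 → PadicInt.toZModPow n c = m →
      c.appr n • x = m • x := by
    intro c m x hx hm
    have h1 : (l ^ n : ℤ) ∣ m - c.appr n := by
      have : ((c.appr n : ℤ) : ZMod (l ^ n)) = (m : ZMod (l ^ n)) := by
        rw [← hm, ← appr_cast]; simp
      exact_mod_cast (ZMod.intCast_eq_intCast_iff_dvd_sub _ _ _).mp this
    obtain ⟨d, hd⟩ := h1
    have h2 : m • x - (c.appr n : ℤ) • x = 0 := by
      rw [← sub_smul, hd, mul_comm, mul_smul]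
      have : (l ^ n : ℤ) • x = 0 := by
        rw [← hx, ← natCast_zsmul]; push_cast; rfl
      rw [this, smul_zero]
    rw [natCast_zsmul] at h2
    exact (sub_eq_zero.mp h2).symm
  rw [hz α _ _ (p.torsion n) (hα n), hz β _ _ (q.torsion n) (hβ n)]

/-- The Tate module has a basis with two elements. -/
theorem exists_basis (hcard : ∀ n : ℕ, Nat.card {x : E // l ^ n • x = 0} = (l ^ n) ^ 2) :
    Nonempty (Module.Basis (Fin 2) ℤ_[l] (Tate E l)) := by
  classical
  have hl := (Fact.out : l.Prime)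
  -- two independent points of order `l`
  let T : AddSubgroup E := (nsmulAddMonoidHom (α := E) l).ker
  have hT : ∀ x : E, x ∈ T ↔ l • x = 0 := fun x => Iff.rfl
  have hTc : Nat.card T = l ^ 2 := by
    have := hcard 1
    rw [pow_one] at this
    exact this
  let _ : Module (ZMod l) T := AddCommGroup.zmodModule (n := l) fun x => Subtype.ext x.2
  have : Finite T := Nat.finite_of_card_ne_zero (by rw [hTc]; have := hl.pos; positivity)
  have hfr : Module.finrank (ZMod l) T = 2 := by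
    have h2 := Module.natCard_eq_pow_finrank (K := ZMod l) (V := T)
    rw [hTc, Nat.card_zmod] at h2
    exact (Nat.pow_right_injective hl.two_le h2).symm
  have : Module.Finite (ZMod l) T := Module.Finite.of_finite
  let b := Module.finBasisOfFinrankEq (ZMod l) T hfr
  obtain ⟨p, hp⟩ := exists_lift hcard (n := 1) (x := (b 0).1) (by rw [pow_one]; exact (b 0).2)
  obtain ⟨q, hq⟩ := exists_lift hcard (n := 1) (x := (b 1).1) (by rw [pow_one]; exact (b 1).2)
  have hind : ∀ a b : ℤ, a • p.1 1 + b • q.1 1 = 0 → (l : ℤ) ∣ a ∧ (l : ℤ) ∣ b := by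
    intro a' b' h
    rw [hp, hq] at h
    have h1 : (a' : ZMod l) • b 0 + (b' : ZMod l) • b 1 = 0 := by
      apply Subtype.ext
      rw [Int.cast_smul_eq_zsmul, Int.cast_smul_eq_zsmul]
      exact h
    have h2 := Fintype.linearIndependent_iff.mp b.linearIndependent ![(a' : ZMod l), (b' : ZMod l)]
      (by rw [Fin.sum_univ_two]; exact h1)
    exact ⟨(ZMod.intCast_zmod_eq_zero_iff_dvd _ _).mp (h2 0),
      (ZMod.intCast_zmod_eq_zero_iff_dvd _ _).mp (h2 1)⟩
  exact ⟨Module.Basis.ofEquivFun (LinearEquiv.ofBijective (coordMap p q)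
    ⟨coordMap_injective hind, coordMap_surjective hcard hind⟩).symm⟩

end basis

end Fermat.Agent.ECRep
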