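import Mathlib

set_option autoImplicit false
set_option linter.unusedSectionVars false

/-!
# Changes of variables on points of Weierstrass curves
-/

namespace Fermat.Agent.ECRep

open WeierstrassCurve WeierstrassCurve.Affine WeierstrassCurve.Affine.Point

/-- `W'` is obtained from `W` by the change of variables `x = u² x' + r`,
`y = u³ y' + u² s x' + t`. -/
structure IsVC {F : Type*} [CommRing F] (u r s t : F) (W W' : WeierstrassCurve F) : Prop where
  a₁ : u * W'.a₁ = W.a₁ + 2 * s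
  a₂ : u ^ 2 * W'.a₂ = W.a₂ - s * W.a₁ + 3 * r - s ^ 2
  a₃ : u ^ 3 * W'.a₃ = W.a₃ + r * W.a₁ + 2 * t
  a₄ : u ^ 4 * W'.a₄ = W.a₄ - s * W.a₃ + 2 * r * W.a₂ - (t + r * s) * W.a₁ + 3 * r ^ 2 - 2 * s * t
  a₆ : u ^ 6 * W'.a₆ = W.a₆ + r * W.a₄ + r ^ 2 * W.a₂ + r ^ 3 - t * W.a₃ - t ^ 2 - r * t * W.a₁

lemma isVC_smul {F : Type*} [CommRing F] (C : VariableChange F) (W : WeierstrassCurve F) :
    IsVC (C.u : F) C.r C.s C.t W (C • W) := by
  have h : (C.u : F) * (C.u⁻¹ : Fˣ) = 1 := C.u.mul_inv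
  constructor
  · rw [variableChange_a₁]
    linear_combination (W.a₁ + 2 * C.s) * h
  · rw [variableChange_a₂]
    have h2 : ((C.u : F) * (C.u⁻¹ : Fˣ)) ^ 2 = 1 := by rw [h, one_pow]
    linear_combination (W.a₂ - C.s * W.a₁ + 3 * C.r - C.s ^ 2) * h2
  · rw [variableChange_a₃]
    have h2 : ((C.u : F) * (C.u⁻¹ : Fˣ)) ^ 3 = 1 := by rw [h, one_pow]
    linear_combination (W.a₃ + C.r * W.a₁ + 2 * C.t) * h2
  · rw [variableChange_a₄]
    have h2 : ((C.u : F) * (C.u⁻¹ : Fˣ)) ^ 4 = 1 := by rw [h, one_pow]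
    linear_combination (W.a₄ - C.s * W.a₃ + 2 * C.r * W.a₂ - (C.t + C.r * C.s) * W.a₁ + 3 * C.r ^ 2
      - 2 * C.s * C.t) * h2
  · rw [variableChange_a₆]
    have h2 : ((C.u : F) * (C.u⁻¹ : Fˣ)) ^ 6 = 1 := by rw [h, one_pow]
    linear_combination (W.a₆ + C.r * W.a₄ + C.r ^ 2 * W.a₂ + C.r ^ 3 - C.t * W.a₃ - C.t ^ 2
      - C.r * C.t * W.a₁) * h2

lemma IsVC.map {F G : Type*} [CommRing F] [CommRing G] (f : F →+* G) {u r s t : F}
    {W W' : WeierstrassCurve F} (h : IsVC u r s t W W') :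
    IsVC (f u) (f r) (f s) (f t) (W.map f) (W'.map f) := by
  constructor
  · have := congrArg f h.a₁
    simpa [map_ofNat] using this
  · have := congrArg f h.a₂
    simpa [map_ofNat] using this
  · have := congrArg f h.a₃
    simpa [map_ofNat] using this
  · have := congrArg f h.a₄
    simpa [map_ofNat] using this
  · have := congrArg f h.a₆
    simpa [map_ofNat] using this

section

variable {F : Type*} [Field F] {u r s t : F} {W W' : WeierstrassCurve.Affine F}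

lemma IsVC.equation_iff' (h : IsVC u r s t W W') (hu : u ≠ 0) (x y : F) :
    W'.Equation x y ↔ W.Equation (u ^ 2 * x + r) (u ^ 3 * y + u ^ 2 * s * x + t) := by
  rw [Affine.equation_iff, Affine.equation_iff, ← sub_eq_zero, ← sub_eq_zero (b := (u ^ 2 * x + r) ^ 3 + _ + _ + _)]
  have key : (u ^ 3 * y + u ^ 2 * s * x + t) ^ 2
      + W.a₁ * (u ^ 2 * x + r) * (u ^ 3 * y + u ^ 2 * s * x + t)
      + W.a₃ * (u ^ 3 * y + u ^ 2 * s * x + t) -
      ((u ^ 2 * x + r) ^ 3 + W.a₂ * (u ^ 2 * x + r) ^ 2 + W.a₄ * (u ^ 2 * x + r) + W.a₆) =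
      u ^ 6 * (y ^ 2 + W'.a₁ * x * y + W'.a₃ * y - (x ^ 3 + W'.a₂ * x ^ 2 + W'.a₄ * x + W'.a₆)) := by
    linear_combination -u ^ 5 * x * y * h.a₁ + u ^ 4 * x ^ 2 * h.a₂ - u ^ 3 * y * h.a₃ +
      u ^ 2 * x * h.a₄ + h.a₆
  rw [key, mul_eq_zero]
  exact ⟨fun h => Or.inr h, fun h => h.resolve_left (pow_ne_zero 6 hu)⟩

lemma IsVC.psi (h : IsVC u r s t W W') (x y : F) :
    2 * (u ^ 3 * y + u ^ 2 * s * x + t) + W.a₁ * (u ^ 2 * x + r) + W.a₃ =
      u ^ 3 * (2 * y + W'.a₁ * x + W'.a₃) := by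
  linear_combination -u ^ 2 * x * h.a₁ - h.a₃

lemma IsVC.der (h : IsVC u r s t W W') (x y : F) :
    3 * (u ^ 2 * x + r) ^ 2 + 2 * W.a₂ * (u ^ 2 * x + r) + W.a₄
      - W.a₁ * (u ^ 3 * y + u ^ 2 * s * x + t) =
      u ^ 4 * (3 * x ^ 2 + 2 * W'.a₂ * x + W'.a₄ - W'.a₁ * y) +
        s * (u ^ 3 * (2 * y + W'.a₁ * x + W'.a₃)) := by
  linear_combination (u ^ 3 * y - s * u ^ 2 * x) * h.a₁ - 2 * u ^ 2 * x * h.a₂ - s * h.a₃ - h.a₄

lemma IsVC.nonsingular_iff' (h : IsVC u r s t W W') (hu : u ≠ 0) (x y : F) :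
    W'.Nonsingular x y ↔ W.Nonsingular (u ^ 2 * x + r) (u ^ 3 * y + u ^ 2 * s * x + t) := by
  rw [Affine.nonsingular_iff, Affine.nonsingular_iff, ← h.equation_iff' hu]
  refine and_congr_right fun _ => ?_
  have e1 : (y ≠ -y - W'.a₁ * x - W'.a₃) ↔ (2 * y + W'.a₁ * x + W'.a₃ ≠ 0) :=
    not_congr ⟨fun h => by linear_combination h, fun h => by linear_combination h⟩
  have e2 : ((u ^ 3 * y + u ^ 2 * s * x + t) ≠ -(u ^ 3 * y + u ^ 2 * s * x + t)
      - W.a₁ * (u ^ 2 * x + r) - W.a₃) ↔ (2 * y + W'.a₁ * x + W'.a₃ ≠ 0) := by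
    have := h.psi x y
    refine not_congr ⟨fun h => ?_, fun h => ?_⟩
    · have h' : u ^ 3 * (2 * y + W'.a₁ * x + W'.a₃) = 0 := by linear_combination h - this
      exact (mul_eq_zero.mp h').resolve_left (pow_ne_zero 3 hu)
    · linear_combination this + u ^ 3 * h
  have e3 : (W'.a₁ * y ≠ 3 * x ^ 2 + 2 * W'.a₂ * x + W'.a₄) ↔
      (3 * x ^ 2 + 2 * W'.a₂ * x + W'.a₄ - W'.a₁ * y ≠ 0) :=
    not_congr ⟨fun h => by linear_combination -h, fun h => by linear_combination -h⟩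
  have e4 : (W.a₁ * (u ^ 3 * y + u ^ 2 * s * x + t) ≠
      3 * (u ^ 2 * x + r) ^ 2 + 2 * W.a₂ * (u ^ 2 * x + r) + W.a₄) ↔
      (u ^ 4 * (3 * x ^ 2 + 2 * W'.a₂ * x + W'.a₄ - W'.a₁ * y) +
        s * (u ^ 3 * (2 * y + W'.a₁ * x + W'.a₃)) ≠ 0) := by
    have := h.der x y
    exact not_congr ⟨fun h => by linear_combination -h - this, fun h => by
      linear_combination -h - this⟩
  rw [e1, e2, e3, e4]
  by_cases h0 : 2 * y + W'.a₁ * x + W'.a₃ = 0
  · rw [h0]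
    simp [hu]
  · simp [h0]

/-- the map on points -/
def vcFun (h : IsVC u r s t W W') (hu : u ≠ 0) : W'.Point → W.Point
  | 0 => 0
  | .some x y hxy => .some _ _ ((h.nonsingular_iff' hu x y).mp hxy)

lemma vcFun_zero (h : IsVC u r s t W W') (hu : u ≠ 0) : vcFun h hu 0 = 0 := rfl

lemma vcFun_some (h : IsVC u r s t W W') (hu : u ≠ 0) {x y : F} (hxy : W'.Nonsingular x y) :
    vcFun h hu (.some x y hxy) = .some _ _ ((h.nonsingular_iff' hu x y).mp hxy) := rfl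

lemma vcFun_injective (h : IsVC u r s t W W') (hu : u ≠ 0) : Function.Injective (vcFun h hu) := by
  intro P Q hPQ
  match P, Q, hPQ with
  | 0, 0, _ => rfl
  | 0, .some _ _ _, hPQ => cases hPQ
  | .some _ _ _, 0, hPQ => cases hPQ
  | .some x y hxy, .some x' y' hxy', hPQ =>
    rw [vcFun_some, vcFun_some, Point.some.injEq] at hPQ
    have e1 : x = x' := by
      have : u ^ 2 * (x - x') = 0 := by linear_combination hPQ.1
      exact sub_eq_zero.mp ((mul_eq_zero.mp this).resolve_left (pow_ne_zero 2 hu))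
    subst e1
    have e2 : y = y' := by
      have : u ^ 3 * (y - y') = 0 := by linear_combination hPQ.2
      exact sub_eq_zero.mp ((mul_eq_zero.mp this).resolve_left (pow_ne_zero 3 hu))
    subst e2
    rfl

lemma vcFun_surjective (h : IsVC u r s t W W') (hu : u ≠ 0) :
    Function.Surjective (vcFun h hu) := by
  intro P
  match P with
  | 0 => exact ⟨0, rfl⟩
  | .some X Y hXY =>
    have e1 : u ^ 2 * ((X - r) / u ^ 2) + r = X := by
      rw [mul_div_cancel₀ _ (pow_ne_zero 2 hu)]; ring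
    have e2 : u ^ 3 * ((Y - t - s * (X - r)) / u ^ 3) + u ^ 2 * s * ((X - r) / u ^ 2) + t = Y := by
      have : u ^ 2 * s * ((X - r) / u ^ 2) = s * (u ^ 2 * ((X - r) / u ^ 2)) := by ring
      rw [this, mul_div_cancel₀ _ (pow_ne_zero 2 hu), mul_div_cancel₀ _ (pow_ne_zero 3 hu)]; ring
    refine ⟨.some ((X - r) / u ^ 2) ((Y - t - s * (X - r)) / u ^ 3)
      ((h.nonsingular_iff' hu _ _).mpr (by rw [e1, e2]; exact hXY)), ?_⟩
    rw [vcFun_some, Point.some.injEq]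
    exact ⟨e1, e2⟩

variable [DecidableEq F]

lemma slope_vc (h : IsVC u r s t W W') (hu : u ≠ 0) {x₁ y₁ x₂ y₂ : F}
    (h1 : W'.Nonsingular x₁ y₁) (h2 : W'.Nonsingular x₂ y₂)
    (hxy : ¬ (x₁ = x₂ ∧ y₁ = W'.negY x₂ y₂)) :
    W.slope (u ^ 2 * x₁ + r) (u ^ 2 * x₂ + r) (u ^ 3 * y₁ + u ^ 2 * s * x₁ + t)
      (u ^ 3 * y₂ + u ^ 2 * s * x₂ + t) = u * W'.slope x₁ x₂ y₁ y₂ + s := by
  by_cases hx : x₁ = x₂
  · subst hx
    have hy : y₁ ≠ W'.negY x₁ y₂ := fun h => hxy ⟨rfl, h⟩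
    have hyy : y₁ = y₂ := (Y_eq_of_X_eq h1.1 h2.1 rfl).resolve_right hy
    subst hyy
    have e := h.psi x₁ y₁
    have e' := h.der x₁ y₁
    have hpsi : 2 * y₁ + W'.a₁ * x₁ + W'.a₃ ≠ 0 := by
      intro h0
      apply hy
      rw [negY]
      linear_combination h0
    have hy' : u ^ 3 * y₁ + u ^ 2 * s * x₁ + t ≠
        W.negY (u ^ 2 * x₁ + r) (u ^ 3 * y₁ + u ^ 2 * s * x₁ + t) := by
      intro h0
      rw [negY] at h0
      have : u ^ 3 * (2 * y₁ + W'.a₁ * x₁ + W'.a₃) = 0 := by linear_combination h0 - e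
      exact hpsi ((mul_eq_zero.mp this).resolve_left (pow_ne_zero 3 hu))
    rw [slope_of_Y_ne rfl hy', slope_of_Y_ne rfl hy, e']
    have f1 : u ^ 3 * y₁ + u ^ 2 * s * x₁ + t -
        W.negY (u ^ 2 * x₁ + r) (u ^ 3 * y₁ + u ^ 2 * s * x₁ + t) =
        u ^ 3 * (2 * y₁ + W'.a₁ * x₁ + W'.a₃) := by rw [← e, negY]; ring
    have f2 : y₁ - W'.negY x₁ y₁ = 2 * y₁ + W'.a₁ * x₁ + W'.a₃ := by rw [negY]; ring
    rw [f1, f2]
    generalize 2 * y₁ + W'.a₁ * x₁ + W'.a₃ = D at hpsi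
    generalize 3 * x₁ ^ 2 + 2 * W'.a₂ * x₁ + W'.a₄ - W'.a₁ * y₁ = N
    field_simp
  · have hx' : u ^ 2 * x₁ + r ≠ u ^ 2 * x₂ + r := by
      intro h0
      apply hx
      have : u ^ 2 * (x₁ - x₂) = 0 := by linear_combination h0
      exact sub_eq_zero.mp ((mul_eq_zero.mp this).resolve_left (pow_ne_zero 2 hu))
    rw [slope_of_X_ne hx, slope_of_X_ne hx']
    have hd : x₁ - x₂ ≠ 0 := sub_ne_zero.mpr hx
    have : u ^ 2 * x₁ + r - (u ^ 2 * x₂ + r) = u ^ 2 * (x₁ - x₂) := by ring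
    rw [this]
    field_simp
    ring

/-- The change of variables on points as a group isomorphism. -/
noncomputable def vcHom (h : IsVC u r s t W W') (hu : u ≠ 0) : W'.Point →+ W.Point where
  toFun := vcFun h hu
  map_zero' := rfl
  map_add' P Q := by
    match P, Q with
    | 0, Q =>
      rw [vcFun_zero, zero_add, zero_add]
    | P, 0 =>
      rw [vcFun_zero, add_zero, add_zero]
    | .some x₁ y₁ h₁, .some x₂ y₂ h₂ =>
      by_cases hxy : x₁ = x₂ ∧ y₁ = W'.negY x₂ y₂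
      · rw [add_of_Y_eq hxy.1 hxy.2, vcFun_some, vcFun_some, vcFun_zero, add_of_Y_eq]
        · rw [hxy.1]
        · rw [hxy.2, negY, negY, hxy.1]
          linear_combination h.psi x₂ y₂
      · have hxy' : ¬ (u ^ 2 * x₁ + r = u ^ 2 * x₂ + r ∧ u ^ 3 * y₁ + u ^ 2 * s * x₁ + t =
            W.negY (u ^ 2 * x₂ + r) (u ^ 3 * y₂ + u ^ 2 * s * x₂ + t)) := by
          rintro ⟨e1, e2⟩
          apply hxy
          have e3 : x₁ = x₂ := by
            have : u ^ 2 * (x₁ - x₂) = 0 := by linear_combination e1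
            exact sub_eq_zero.mp ((mul_eq_zero.mp this).resolve_left (pow_ne_zero 2 hu))
          refine ⟨e3, ?_⟩
          rw [negY] at e2 ⊢
          have : u ^ 3 * (y₁ - (-y₂ - W'.a₁ * x₂ - W'.a₃)) = 0 := by
            rw [e3] at e2
            linear_combination e2 - h.psi x₂ y₂
          exact sub_eq_zero.mp ((mul_eq_zero.mp this).resolve_left (pow_ne_zero 3 hu))
        rw [add_some hxy, vcFun_some, vcFun_some, vcFun_some, add_some hxy', Point.some.injEq]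
        rw [slope_vc h hu h₁ h₂ hxy]
        have hX : u ^ 2 * W'.addX x₁ x₂ (W'.slope x₁ x₂ y₁ y₂) + r =
            W.addX (u ^ 2 * x₁ + r) (u ^ 2 * x₂ + r) (u * W'.slope x₁ x₂ y₁ y₂ + s) := by
          simp only [addX]
          linear_combination (u * W'.slope x₁ x₂ y₁ y₂) * h.a₁ - h.a₂
        refine ⟨hX, ?_⟩
        simp only [addY, negAddY, negY]
        rw [← hX]
        generalize W'.addX x₁ x₂ (W'.slope x₁ x₂ y₁ y₂) = x₃
        linear_combination -u ^ 2 * x₃ * h.a₁ - h.a₃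

lemma vcHom_apply (h : IsVC u r s t W W') (hu : u ≠ 0) (P : W'.Point) :
    vcHom h hu P = vcFun h hu P := rfl

/-- The change of variables as an isomorphism. -/
noncomputable def vcEquiv (h : IsVC u r s t W W') (hu : u ≠ 0) : W'.Point ≃+ W.Point :=
  AddEquiv.ofBijective (vcHom h hu) ⟨vcFun_injective h hu, vcFun_surjective h hu⟩

@[simp] lemma vcEquiv_zero (h : IsVC u r s t W W') (hu : u ≠ 0) : vcEquiv h hu 0 = 0 := rfl

@[simp] lemma vcEquiv_some (h : IsVC u r s t W W') (hu : u ≠ 0) {x y : F}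
    (hxy : W'.Nonsingular x y) :
    vcEquiv h hu (.some x y hxy) = .some _ _ ((h.nonsingular_iff' hu x y).mp hxy) := rfl

end

/-- the change of variables commutes with field homomorphisms fixing the parameters. -/
lemma vcEquiv_map {F K L : Type*} [CommRing F] [Field K] [Field L] [Algebra F K] [Algebra F L]
    [DecidableEq K] [DecidableEq L] {u r s t : F} {W W' : WeierstrassCurve F}
    (hK : IsVC (algebraMap F K u) (algebraMap F K r) (algebraMap F K s) (algebraMap F K t)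
      (W⁄K) (W'⁄K))
    (hL : IsVC (algebraMap F L u) (algebraMap F L r) (algebraMap F L s) (algebraMap F L t)
      (W⁄L) (W'⁄L)) (huK : algebraMap F K u ≠ 0) (huL : algebraMap F L u ≠ 0)
    (θ : K →ₐ[F] L) (P : (W'⁄K).Point) :
    Point.map θ (vcEquiv hK huK P) = vcEquiv hL huL (Point.map θ P) := by
  match P with
  | 0 => rfl
  | .some x y h =>
    rw [vcEquiv_some, Point.map_some, Point.map_some, vcEquiv_some, Point.some.injEq]
    constructor <;> simp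

end Fermat.Agent.ECRep
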